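import Mathlib
import Fermat.Prelude.Def_AlgebraicCurve_BaseChangeGalois
import Fermat.Agent.S18.T.Spec
import Fermat.Agent.SS.K.Defs
import Fermat.Agent.SS.NF.Defs

/-!
# Program Q (S36) : shared definitions of the abstract leaves

Setting of S18 package T : `A` a DVR of characteristic `0`, uniformiser `ϖ`, `L = Frac A`,
`F / L(t)` finite, `P = s18tInt A t`, `P_(ϖ) = s18tIntLoc A t (C ϖ)`.  Here `A` is UNRAMIFIED over
`ℤ_q` in the application, and `F` is the function field of `X₀(q² M')`.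

* `SqGermReg t 𝔫` : the local ring `P_𝔫` has a two-generator maximal ideal (regular germ);
* `SqBranch t 𝔫 𝔭` : `𝔭 ⊆ 𝔫` is a prime of `P` through `𝔫` whose local quotient `P_𝔫 / 𝔭 P_𝔫`
  has principal maximal ideal (a smooth branch of the special fibre through `𝔫`);
  (The three-valuation structure `SqvThree` / the family `SqvFam` live in `SQ/Three.lean`.)
-/

set_option autoImplicit false
set_option linter.unusedSectionVars false
set_option linter.unusedVariables false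

noncomputable section

namespace Fermat.Agent.SQ

open Polynomial IntermediateField AlgebraicCurve Fermat.Agent.S18 Fermat.Agent.SS

universe u

variable {A : Type*} [CommRing A] [IsDomain A] [IsDiscreteValuationRing A] [CharZero A]
variable {L : Type*} [Field L] [Algebra A L] [IsFractionRing A L]
variable {F : Type u} [Field F] [Algebra A F] [Algebra L F] [IsScalarTower A L F]
variable {ϖ : A}

/-- regular germ : `𝔫 P_𝔫 = (a, b)` with `a, b ∈ 𝔫 P_𝔫`.
(`SsGermSmooth` is the case `a = ϖ`.) -/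
def SqGermReg (t : F) (𝔫 : Ideal ↥(s18tInt A t)) : Prop :=
  ∃ a b : F, SsnfInMax t 𝔫 a ∧ SsnfInMax t 𝔫 b ∧
    ∀ x ∈ 𝔫, ∃ s : ↥(s18tInt A t), s ∉ 𝔫 ∧ ∃ c d : ↥(s18tInt A t),
      (s : F) * (x : F) = (c : F) * a + (d : F) * b

/-- smooth branch through `𝔫` : a prime `𝔭 ≤ 𝔫` of `P` such that `𝔫 P_𝔫 = (z) + 𝔭 P_𝔫` for
some `z ∈ 𝔫 P_𝔫`. -/
def SqBranch (t : F) (𝔫 𝔭 : Ideal ↥(s18tInt A t)) : Prop :=
  𝔭.IsPrime ∧ 𝔭 ≤ 𝔫 ∧ ∃ z : F, SsnfInMax t 𝔫 z ∧
    ∀ x ∈ 𝔫, ∃ s : ↥(s18tInt A t), s ∉ 𝔫 ∧ ∃ c p : ↥(s18tInt A t), p ∈ 𝔭 ∧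
      (s : F) * (x : F) = (c : F) * z + (p : F)

end Fermat.Agent.SQ
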