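import Mathlib

/-!
# Program Q (S36), abstract leaf (FACT), part 1 : pure commutative algebra

`sq_prime_eq_span` : in a Noetherian local ring whose maximal ideal is generated by TWO elements,
every prime ideal other than the maximal ideal is principal.  (Elementary: Krull intersection +
Nakayama; no regular-local-ring theory.)

`sq_eq_bot_of_lt_span` : in a Noetherian local domain, a prime ideal strictly contained in a
principal prime ideal is zero.

`sq_exists_pow_mul` : in a Noetherian local domain with a principal prime `(h)`, `h ≠ 0`, every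
nonzero element is `h ^ k * u` with `u ∉ (h)`.
-/

set_option autoImplicit false

namespace Fermat.Agent.SQ

open IsLocalRing

section Principal

variable {R : Type*} [CommRing R] [IsLocalRing R] [IsNoetherianRing R]

/-- Krull intersection modulo `a` : `⋂_m ((a) + 𝔪^m) = (a)`. -/
theorem sq_mem_span_of_forall_mem_sup (a x : R)
    (hx : ∀ m : ℕ, x ∈ Ideal.span {a} ⊔ maximalIdeal R ^ m) : x ∈ Ideal.span {a} := by
  have hK := Ideal.iInf_pow_smul_eq_bot_of_isLocalRing (R := R) (M := R ⧸ Ideal.span {a})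
    (maximalIdeal R) (Ideal.IsPrime.ne_top inferInstance)
  have hmem : (Ideal.Quotient.mk (Ideal.span {a}) x : R ⧸ Ideal.span {a}) ∈
      (⨅ i : ℕ, maximalIdeal R ^ i • (⊤ : Submodule R (R ⧸ Ideal.span {a}))) := by
    rw [Submodule.mem_iInf]
    intro m
    obtain ⟨y, hy, z, hz, rfl⟩ := Submodule.mem_sup.mp (hx m)
    rw [map_add, Ideal.Quotient.eq_zero_iff_mem.mpr hy, zero_add]
    have : (Ideal.Quotient.mk (Ideal.span {a}) z : R ⧸ Ideal.span {a}) =
        z • (1 : R ⧸ Ideal.span {a}) := by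
      rw [Algebra.smul_def, mul_one]; rfl
    rw [this]
    exact Submodule.smul_mem_smul hz Submodule.mem_top
  rw [hK, Submodule.mem_bot] at hmem
  exact Ideal.Quotient.eq_zero_iff_mem.mp hmem

/-- `𝔪^m ⊆ (a) + (b^m)` when `𝔪 = (a, b)`. -/
theorem sq_pow_le_sup (a b : R) (hab : maximalIdeal R = Ideal.span {a, b}) (m : ℕ) :
    maximalIdeal R ^ m ≤ Ideal.span {a} ⊔ Ideal.span {b ^ m} := by
  induction m with
  | zero =>
    intro x _
    rw [pow_zero]
    exact Ideal.mem_sup_right (Ideal.mem_span_singleton.mpr (one_dvd x))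
  | succ m ih =>
    rw [pow_succ]
    refine Ideal.mul_le.mpr fun x hx y hy => ?_
    obtain ⟨x₁, hx₁, x₂, hx₂, rfl⟩ := Submodule.mem_sup.mp (ih hx)
    rw [hab, Ideal.mem_span_pair] at hy
    obtain ⟨c, d, rfl⟩ := hy
    obtain ⟨e, rfl⟩ := Ideal.mem_span_singleton.mp hx₁
    obtain ⟨f, rfl⟩ := Ideal.mem_span_singleton.mp hx₂
    have : (a * e + b ^ m * f) * (c * a + d * b) =
        a * (e * (c * a + d * b) + b ^ m * f * c) + b ^ (m + 1) * (f * d) := by ring
    rw [this]
    exact Ideal.add_mem _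
      (Ideal.mem_sup_left (Ideal.mem_span_singleton.mpr (dvd_mul_right _ _)))
      (Ideal.mem_sup_right (Ideal.mem_span_singleton.mpr (dvd_mul_right _ _)))

/-- the case `a ∉ 𝔮` of `sq_prime_eq_span`. -/
theorem sq_prime_eq_span_aux (a b : R) (hab : maximalIdeal R = Ideal.span {a, b})
    (𝔮 : Ideal R) [h𝔮 : 𝔮.IsPrime] (ha : a ∉ 𝔮) : ∃ h : R, 𝔮 = Ideal.span {h} := by
  classical
  have hfg : (𝔮 : Submodule R R).FG := IsNoetherian.noetherian 𝔮
  have hjac : maximalIdeal R ≤ Ideal.jacobson (⊥ : Ideal R) := by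
    rw [IsLocalRing.jacobson_eq_maximalIdeal (⊥ : Ideal R) bot_ne_top]
  have ham : a ∈ maximalIdeal R := by
    rw [hab]; exact Ideal.subset_span (by simp)
  -- `a y ∈ 𝔮 → y ∈ 𝔮`
  have hcancel : ∀ y : R, a * y ∈ 𝔮 → y ∈ 𝔮 := fun y hy =>
    (h𝔮.mem_or_mem hy).resolve_left ha
  by_cases hall : ∀ m : ℕ, 𝔮 ≤ Ideal.span {a} ⊔ maximalIdeal R ^ m
  · -- then `𝔮 ⊆ (a)`, hence `𝔮 = a 𝔮 = 0`
    refine ⟨0, ?_⟩
    have hle : 𝔮 ≤ Ideal.span {a} := fun x hx =>
      sq_mem_span_of_forall_mem_sup a x (fun m => hall m hx)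
    have h1 : 𝔮 ≤ (⊥ : Ideal R) ⊔ maximalIdeal R • 𝔮 := by
      intro x hx
      obtain ⟨y, rfl⟩ := Ideal.mem_span_singleton.mp (hle hx)
      refine Ideal.mem_sup_right ?_
      exact Submodule.smul_mem_smul ham (hcancel y hx)
    have h2 := Submodule.le_of_le_smul_of_le_jacobson_bot hfg hjac h1
    rw [Ideal.span_singleton_eq_bot.mpr rfl]
    exact le_antisymm h2 bot_le
  · push Not at hall
    -- the least `m` with `𝔮 ⊄ (a) + 𝔪^m`
    let m₁ := Nat.find hall
    have hm₁ : ¬ 𝔮 ≤ Ideal.span {a} ⊔ maximalIdeal R ^ m₁ := Nat.find_spec hall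
    have hm₁pos : m₁ ≠ 0 := by
      intro h0
      apply hm₁
      rw [h0, pow_zero, Ideal.one_eq_top, sup_top_eq]
      exact le_top
    obtain ⟨m, hm⟩ := Nat.exists_eq_succ_of_ne_zero hm₁pos
    have hmle : 𝔮 ≤ Ideal.span {a} ⊔ maximalIdeal R ^ m := by
      by_contra hcon
      have := Nat.find_min' hall hcon
      omega
    obtain ⟨h, hh𝔮, hhn⟩ := SetLike.not_le_iff_exists.mp hm₁
    rw [hm] at hhn
    -- `h = r a + s b^m` with `s` a unit
    have hdec : ∀ g ∈ 𝔮, ∃ r s : R, g = a * r + b ^ m * s := by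
      intro g hg
      obtain ⟨y, hy, z, hz, rfl⟩ := Submodule.mem_sup.mp (hmle hg)
      obtain ⟨y', rfl⟩ := Ideal.mem_span_singleton.mp hy
      obtain ⟨z₁, hz₁, z₂, hz₂, rfl⟩ := Submodule.mem_sup.mp (sq_pow_le_sup a b hab m hz)
      obtain ⟨z₁', rfl⟩ := Ideal.mem_span_singleton.mp hz₁
      obtain ⟨z₂', rfl⟩ := Ideal.mem_span_singleton.mp hz₂
      exact ⟨y' + z₁', z₂', by ring⟩
    obtain ⟨r, s, hrs⟩ := hdec h hh𝔮
    have hbm : b ∈ maximalIdeal R := by
      rw [hab]; exact Ideal.subset_span (by simp)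
    have hs : IsUnit s := by
      by_contra hns
      apply hhn
      rw [hrs]
      refine Ideal.add_mem _
        (Ideal.mem_sup_left (Ideal.mem_span_singleton.mpr (dvd_mul_right _ _)))
        (Ideal.mem_sup_right ?_)
      rw [pow_succ]
      exact Ideal.mul_mem_mul (Ideal.pow_mem_pow hbm m) ((mem_maximalIdeal s).mpr hns)
    obtain ⟨u, rfl⟩ := hs
    refine ⟨h, le_antisymm ?_ ((Ideal.span_singleton_le_iff_mem 𝔮).mpr hh𝔮)⟩
    have h1 : 𝔮 ≤ Ideal.span {h} ⊔ maximalIdeal R • 𝔮 := by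
      intro g hg
      obtain ⟨r', s', hrs'⟩ := hdec g hg
      -- `g - (s' u⁻¹) h = a (r' - s' u⁻¹ r)`
      set c : R := s' * ((u⁻¹ : Rˣ) : R) with hc
      have hu : ((u : Rˣ) : R) * ((u⁻¹ : Rˣ) : R) = 1 := by
        rw [← Units.val_mul, mul_inv_cancel, Units.val_one]
      have hkey : g - c * h = a * (r' - c * r) := by
        rw [hrs', hrs, hc]
        linear_combination (-(b ^ m * s')) * hu
      have hmem : a * (r' - c * r) ∈ 𝔮 := by
        rw [← hkey]
        exact 𝔮.sub_mem hg (𝔮.mul_mem_left c hh𝔮)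
      have hy := hcancel _ hmem
      have : g = c * h + a * (r' - c * r) := by rw [← hkey]; ring
      rw [this]
      exact Ideal.add_mem _
        (Ideal.mem_sup_left (Ideal.mem_span_singleton.mpr (dvd_mul_left _ _)))
        (Ideal.mem_sup_right (Submodule.smul_mem_smul ham hy))
    exact Submodule.le_of_le_smul_of_le_jacobson_bot hfg hjac h1

/-- **(FACT-alg)** In a Noetherian local ring with `𝔪 = (a, b)`, every prime ideal `≠ 𝔪` is
principal. -/
theorem sq_prime_eq_span (a b : R) (hab : maximalIdeal R = Ideal.span {a, b})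
    (𝔮 : Ideal R) [h𝔮 : 𝔮.IsPrime] (hne : 𝔮 ≠ maximalIdeal R) : ∃ h : R, 𝔮 = Ideal.span {h} := by
  by_cases ha : a ∈ 𝔮
  · have hb : b ∉ 𝔮 := by
      intro hb
      apply hne
      refine le_antisymm (IsLocalRing.le_maximalIdeal h𝔮.ne_top) ?_
      rw [hab, Ideal.span_le]
      intro x hx
      rcases hx with rfl | hx
      · exact ha
      · rw [Set.mem_singleton_iff] at hx
        rw [hx]; exact hb
    have hab' : maximalIdeal R = Ideal.span {b, a} := by rw [hab, Set.pair_comm]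
    exact sq_prime_eq_span_aux b a hab' 𝔮 hb
  · exact sq_prime_eq_span_aux a b hab 𝔮 ha

end Principal

section Domain

variable {R : Type*} [CommRing R] [IsDomain R] [IsLocalRing R] [IsNoetherianRing R]

/-- In a Noetherian local domain, a prime ideal contained in a principal prime ideal `(h)` and not
containing `h` is zero. -/
theorem sq_eq_bot_of_le_span (h : R) (hh : h ∈ maximalIdeal R)
    (𝔭 : Ideal R) [h𝔭 : 𝔭.IsPrime] (hle : 𝔭 ≤ Ideal.span {h}) (hn : h ∉ 𝔭) : 𝔭 = ⊥ := by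
  have hfg : (𝔭 : Submodule R R).FG := IsNoetherian.noetherian 𝔭
  have hjac : maximalIdeal R ≤ Ideal.jacobson (⊥ : Ideal R) := by
    rw [IsLocalRing.jacobson_eq_maximalIdeal (⊥ : Ideal R) bot_ne_top]
  have h1 : 𝔭 ≤ (⊥ : Ideal R) ⊔ maximalIdeal R • 𝔭 := by
    intro x hx
    obtain ⟨y, rfl⟩ := Ideal.mem_span_singleton.mp (hle hx)
    refine Ideal.mem_sup_right ?_
    exact Submodule.smul_mem_smul hh ((h𝔭.mem_or_mem hx).resolve_left hn)
  exact le_antisymm (Submodule.le_of_le_smul_of_le_jacobson_bot hfg hjac h1) bot_le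

/-- In a Noetherian local domain, every nonzero `x` is `h ^ k * u` with `u ∉ (h)`, for `h` in the
maximal ideal. -/
theorem sq_exists_pow_mul (h : R) (hh : h ∈ maximalIdeal R) (x : R) (hx : x ≠ 0) :
    ∃ (k : ℕ) (u : R), x = h ^ k * u ∧ ¬ h ∣ u := by
  classical
  -- `x ∉ (h)^k` for some `k` by Krull's intersection theorem
  have hK := Ideal.iInf_pow_eq_bot_of_isLocalRing (R := R) (Ideal.span {h})
    (by
      intro htop
      have : (1 : R) ∈ Ideal.span {h} := htop ▸ Submodule.mem_top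
      exact (IsLocalRing.maximalIdeal.isMaximal R).ne_top
        (Ideal.eq_top_of_isUnit_mem _ hh (isUnit_of_dvd_one (Ideal.mem_span_singleton.mp this))))
  have hex : ∃ k : ℕ, ¬ h ^ k ∣ x := by
    by_contra hcon
    push Not at hcon
    apply hx
    have : x ∈ (⨅ i : ℕ, Ideal.span {h} ^ i : Ideal R) := by
      rw [Ideal.mem_iInf]
      intro i
      rw [Ideal.span_singleton_pow, Ideal.mem_span_singleton]
      exact hcon i
    rw [hK] at this
    exact this
  let k₁ := Nat.find hex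
  have hk₁ : ¬ h ^ k₁ ∣ x := Nat.find_spec hex
  have hk₁pos : k₁ ≠ 0 := by
    intro h0
    apply hk₁
    rw [h0, pow_zero]
    exact one_dvd x
  obtain ⟨k, hk⟩ := Nat.exists_eq_succ_of_ne_zero hk₁pos
  have hdiv : h ^ k ∣ x := by
    by_contra hcon
    have := Nat.find_min' hex hcon
    omega
  obtain ⟨u, rfl⟩ := hdiv
  refine ⟨k, u, rfl, ?_⟩
  rintro ⟨v, rfl⟩
  apply hk₁
  rw [hk, pow_succ]
  exact ⟨v, by ring⟩

end Domain

end Fermat.Agent.SQ
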