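import Mathlib
import Fermat.Prelude.Def_AlgebraicCurve_BaseChangeGalois
import Fermat.Agent.S18.T.Spec
import Fermat.Agent.S18.RH.W
import Fermat.Agent.S18.RH.Core
import Fermat.Agent.S24.PlaceOrd
import Fermat.Agent.SS.K.Spec
import Fermat.Agent.SS.NF.Defs
import Fermat.Agent.SS.Loc.Unif
import Fermat.Agent.SQ.Defs
import Fermat.Agent.SQ.FactAlg

/-!
# Program Q (S36), leaf SQ/Fact : local factoriality from a two-generator germ

Setting of S18 package T.  `𝔫 ∋ ϖ` a maximal ideal of the chart ring `P = s18tInt A t` with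
`SqGermReg t 𝔫` (`𝔫 P_𝔫 = (a, b)`).  Then every prime of `P_𝔫` other than the maximal ideal is
principal (`sq_prime_eq_span`), and therefore :

* `sq_oneZero` : for every place `R` of `F / L` centred at `𝔫` there is `z ∈ P_𝔫` with `ord_R z = 1`,
  `ord_{R'} z = 0` at every other place centred at `𝔫`, and `v(z) = 1` for every vertical valuation
  through `𝔫` whose centre is not `𝔫` itself;
* `sq_localRoot` : every divisor supported on the places centred at `𝔫` is locally principal at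
  `𝔫` : `∃ Φ`, `ord_R Φ = D R` for all `R` centred at `𝔫`, `v(Φ) = 1` at the vertical valuations.
-/

set_option autoImplicit false
set_option linter.unusedSectionVars false
set_option linter.unusedVariables false
set_option linter.style.haveILetI false

noncomputable section

namespace Fermat.Agent.SQ

open Polynomial IntermediateField AlgebraicCurve Fermat.Agent.S18 Fermat.Agent.SS Fermat.Agent.S24
open IsLocalRing

universe u

variable {A : Type*} [CommRing A] [IsDomain A] [IsDiscreteValuationRing A] [CharZero A]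
variable {L : Type*} [Field L] [Algebra A L] [IsFractionRing A L]
variable {F : Type u} [Field F] [Algebra A F] [Algebra L F] [IsScalarTower A L F]
variable {ϖ : A}

section Gen

variable (t : F) (𝔫 : Ideal ↥(s18tInt A t)) [h𝔫 : 𝔫.IsPrime]

/-- the two generators of `𝔫 P_𝔫`, as elements of `P_𝔫` -/
theorem sqf_max_eq_span (hreg : SqGermReg t 𝔫) :
    ∃ a b : ↥(ssLocRing t 𝔫), maximalIdeal ↥(ssLocRing t 𝔫) = Ideal.span {a, b} := by
  obtain ⟨a, b, ha, hb, hgen⟩ := hreg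
  have ha' : SsInMax t 𝔫 a := ha
  have hb' : SsInMax t 𝔫 b := hb
  refine ⟨⟨a, ha'.inLoc⟩, ⟨b, hb'.inLoc⟩, le_antisymm ?_ ?_⟩
  · intro x hx
    obtain ⟨s, hs, p, hp, hsp⟩ := (ssl_mem_maximalIdeal t 𝔫 x).mp hx
    obtain ⟨s', hs', c, d, hcd⟩ := hgen p hp
    have hs0 : (s : F) ≠ 0 := fun h => hs (by
      have : s = 0 := Subtype.ext h
      rw [this]; exact 𝔫.zero_mem)
    have hs'0 : (s' : F) ≠ 0 := fun h => hs' (by
      have : s' = 0 := Subtype.ext h
      rw [this]; exact 𝔫.zero_mem)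
    have hinv : ((s : F) * (s' : F))⁻¹ ∈ ssLocRing t 𝔫 := by
      refine ⟨s * s', fun h => (h𝔫.mem_or_mem h).elim hs hs', ?_⟩
      have : ((s * s' : ↥(s18tInt A t)) : F) * ((s : F) * (s' : F))⁻¹ = 1 := by
        push_cast
        exact mul_inv_cancel₀ (mul_ne_zero hs0 hs'0)
      rw [this]; exact Subring.one_mem _
    rw [Ideal.mem_span_pair]
    refine ⟨⟨(c : F) * ((s : F) * (s' : F))⁻¹,
        Subring.mul_mem _ (ssl_int_le_locRing t 𝔫 c.2) hinv⟩,
      ⟨(d : F) * ((s : F) * (s' : F))⁻¹,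
        Subring.mul_mem _ (ssl_int_le_locRing t 𝔫 d.2) hinv⟩, Subtype.ext ?_⟩
    show (c : F) * ((s : F) * (s' : F))⁻¹ * a + (d : F) * ((s : F) * (s' : F))⁻¹ * b = (x : F)
    have h1 : (c : F) * ((s : F) * (s' : F))⁻¹ * a + (d : F) * ((s : F) * (s' : F))⁻¹ * b =
        ((s : F) * (s' : F))⁻¹ * ((c : F) * a + (d : F) * b) := by ring
    rw [h1, ← hcd, ← hsp]
    field_simp
  · rw [Ideal.span_le]
    intro x hx
    rcases hx with rfl | hx
    · exact (ssl_mem_maximalIdeal t 𝔫 _).mpr ha'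
    · rw [Set.mem_singleton_iff] at hx
      rw [hx]
      exact (ssl_mem_maximalIdeal t 𝔫 _).mpr hb'

variable {t 𝔫}

/-- conversion of the two forms of "centred at `𝔫`" -/
theorem sqf_centred {V : ValuationSubring F} (h1 : s18tInt A t ≤ V.toSubring)
    (h2 : sskCentre t V ⊆ (𝔫 : Set ↥(s18tInt A t))) : SsCentred t 𝔫 V :=
  ⟨h1, fun p hp => h2 ((ValuationSubring.mem_nonunits_iff _).mpr hp)⟩

/-- the centre of a valuation ring `V ≠ ⊤` centred in `𝔫` is not zero -/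
theorem sqf_centre_ne_bot (ht : Transcendental L t) [FiniteDimensional L⟮t⟯ F]
    {V : ValuationSubring F} (hV : SsCentred t 𝔫 V) (htop : V ≠ ⊤) :
    ∃ p : ↥(ssLocRing t 𝔫), p ≠ 0 ∧ p ∈ sslCentre t 𝔫 hV := by
  have hex : ∃ x : F, x ∉ V := by
    by_contra hcon
    push Not at hcon
    exact htop (SetLike.ext fun x => ⟨fun _ => ValuationSubring.mem_top x, fun _ => hcon x⟩)
  obtain ⟨x, hx⟩ := hex
  have hx0 : x ≠ 0 := fun h => hx (h ▸ V.zero_mem)
  have hxi : V.valuation x⁻¹ < 1 := by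
    rw [← V.valuation_le_one_iff, not_le] at hx
    rw [map_inv₀]
    exact inv_lt_one_of_one_lt₀ hx
  obtain ⟨s, hs0, hsx⟩ := ssl_exists_denominator (A := A) (L := L) ht x⁻¹
  have hsF : (s : F) ≠ 0 := fun h => hs0 (Subtype.ext h)
  refine ⟨⟨(s : F) * x⁻¹, ssl_int_le_locRing t 𝔫 hsx⟩, ?_, ?_⟩
  · intro h
    have : (s : F) * x⁻¹ = 0 := congrArg Subtype.val h
    exact mul_ne_zero hsF (inv_ne_zero hx0) this
  · rw [mem_sslCentre]
    show V.valuation ((s : F) * x⁻¹) < 1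
    rw [map_mul, mul_comm]
    exact mul_lt_one_of_lt_of_le hxi ((V.valuation_le_one_iff _).mpr (hV.1 s.2))

/-- decomposition of `y ∈ Fˣ` along a principal prime `(h)` of `P_𝔫` -/
theorem sqf_decomp (ht : Transcendental L t) [FiniteDimensional L⟮t⟯ F]
    (h : ↥(ssLocRing t 𝔫)) (hh : h ∈ maximalIdeal ↥(ssLocRing t 𝔫)) (y : F) (hy : y ≠ 0) :
    ∃ (k l : ℕ) (u u' : ↥(ssLocRing t 𝔫)), ¬ h ∣ u ∧ ¬ h ∣ u' ∧
      y * ((h : F) ^ l * (u' : F)) = (h : F) ^ k * (u : F) := by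
  haveI : IsNoetherianRing ↥(ssLocRing t 𝔫) := ssl_locRing_isNoetherianRing (L := L) t ht 𝔫
  obtain ⟨s, hs0, hsy⟩ := ssl_exists_denominator (A := A) (L := L) ht y
  have hsF : (s : F) ≠ 0 := fun h => hs0 (Subtype.ext h)
  set sO : ↥(ssLocRing t 𝔫) := ⟨(s : F), ssl_int_le_locRing t 𝔫 s.2⟩ with hsO
  set pO : ↥(ssLocRing t 𝔫) := ⟨(s : F) * y, ssl_int_le_locRing t 𝔫 hsy⟩ with hpO
  have hsO0 : sO ≠ 0 := fun h => hsF (congrArg Subtype.val h)
  have hpO0 : pO ≠ 0 := fun h => mul_ne_zero hsF hy (congrArg Subtype.val h)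
  obtain ⟨k, u, hku, hu⟩ := sq_exists_pow_mul h hh pO hpO0
  obtain ⟨l, u', hlu, hu'⟩ := sq_exists_pow_mul h hh sO hsO0
  refine ⟨k, l, u, u', hu, hu', ?_⟩
  have h1 : (s : F) * y = (h : F) ^ k * (u : F) :=
    congrArg (fun z : ↥(ssLocRing t 𝔫) => (z : F)) hku
  have h2 : (s : F) = (h : F) ^ l * (u' : F) :=
    congrArg (fun z : ↥(ssLocRing t 𝔫) => (z : F)) hlu
  rw [← h2, mul_comm y, h1]

/-- an element of `P_𝔫` outside the centre of `V` has valuation one -/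
theorem sqf_val_one {V : ValuationSubring F} (hV : SsCentred t 𝔫 V) {u : ↥(ssLocRing t 𝔫)}
    (hu : u ∉ sslCentre t 𝔫 hV) : V.valuation (u : F) = 1 := by
  rw [mem_sslCentre, not_lt] at hu
  exact le_antisymm ((V.valuation_le_one_iff _).mpr (ssl_locRing_le t 𝔫 hV u.2)) hu

/-- membership in `V` read off from the decomposition -/
theorem sqf_mem_iff {V : ValuationSubring F} (hV : SsCentred t 𝔫 V)
    (h : ↥(ssLocRing t 𝔫)) (h𝔮 : sslCentre t 𝔫 hV = Ideal.span {h}) (hh0 : h ≠ 0)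
    {y : F} {k l : ℕ} {u u' : ↥(ssLocRing t 𝔫)} (hu : ¬ h ∣ u) (hu' : ¬ h ∣ u')
    (hy : y * ((h : F) ^ l * (u' : F)) = (h : F) ^ k * (u : F)) : y ∈ V ↔ l ≤ k := by
  have hu1 : V.valuation (u : F) = 1 :=
    sqf_val_one hV (by rw [h𝔮, Ideal.mem_span_singleton]; exact hu)
  have hu'1 : V.valuation (u' : F) = 1 :=
    sqf_val_one hV (by rw [h𝔮, Ideal.mem_span_singleton]; exact hu')
  have hhF : (h : F) ≠ 0 := fun h0 => hh0 (Subtype.ext h0)
  have hv0 : V.valuation (h : F) ≠ 0 := (Valuation.ne_zero_iff _).mpr hhF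
  have hv1 : V.valuation (h : F) < 1 := by
    rw [← mem_sslCentre (hV := hV), h𝔮]
    exact Ideal.mem_span_singleton_self h
  have hval := congrArg V.valuation hy
  rw [map_mul, map_mul, map_mul, map_pow, map_pow, hu1, hu'1, mul_one, mul_one] at hval
  rw [← V.valuation_le_one_iff]
  have hl0 : 0 < V.valuation (h : F) ^ l := pow_pos (zero_lt_iff.mpr hv0) l
  rw [← mul_le_iff_le_one_left hl0, hval]
  exact pow_le_pow_iff_right_of_lt_one₀ (zero_lt_iff.mpr hv0) hv1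

end Gen

/-! ### the function cutting out one place -/

section OneZero

variable (hϖ : Irreducible ϖ) (t : F) (ht : Transcendental L t) [FiniteDimensional L⟮t⟯ F]
variable (𝔫 : Ideal ↥(s18tInt A t)) (h𝔫 : 𝔫.IsMaximal) (hϖ𝔫 : sskPi ϖ t ∈ 𝔫)
variable (hreg : SqGermReg t 𝔫)

include hϖ ht h𝔫 hϖ𝔫 hreg

/-- the centre on `P_𝔫` of a valuation ring centred in `𝔫` whose centre on `P` is not `𝔫` is a
principal prime -/
theorem sqf_centre_principal {V : ValuationSubring F}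
    (hVc : letI := h𝔫.isPrime; SsCentred t 𝔫 V)
    (hne : ∃ p ∈ 𝔫, (p : F) ∉ V.nonunits) :
    letI := h𝔫.isPrime
    ∃ h : ↥(ssLocRing t 𝔫), sslCentre t 𝔫 hVc = Ideal.span {h} := by
  haveI := h𝔫.isPrime
  haveI : IsNoetherianRing ↥(ssLocRing t 𝔫) := ssl_locRing_isNoetherianRing (L := L) t ht 𝔫
  obtain ⟨a, b, hab⟩ := sqf_max_eq_span t 𝔫 hreg
  refine sq_prime_eq_span a b hab (sslCentre t 𝔫 hVc) ?_
  intro heq
  obtain ⟨p, hp, hpV⟩ := hne
  have h1 : (⟨(p : F), ssl_int_le_locRing t 𝔫 p.2⟩ : ↥(ssLocRing t 𝔫)) ∈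
      maximalIdeal ↥(ssLocRing t 𝔫) := by
    rw [ssl_mem_maximalIdeal]
    exact ⟨1, fun h => h𝔫.ne_top ((Ideal.eq_top_iff_one _).mpr h), p, hp, by
      rw [OneMemClass.coe_one, one_mul]⟩
  rw [← heq, mem_sslCentre] at h1
  exact hpV ((ValuationSubring.mem_nonunits_iff _).mpr h1)

/-- **(FACT)** : the function cutting out the place `R` among the places centred at `𝔫`. -/
theorem sq_oneZero (R : Place L F) (hR : SsCentredAt t 𝔫 R) :
    ∃ z : F, z ≠ 0 ∧ SsnfInLoc t 𝔫 z ∧ R.ord z = 1 ∧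
      (∀ R' : Place L F, SsCentredAt t 𝔫 R' → R' ≠ R → R'.ord z = 0) ∧
      (∀ V : ValuationSubring F, s18tInt A t ≤ V.toSubring →
        sskCentre t V ⊆ (𝔫 : Set ↥(s18tInt A t)) → (∃ p ∈ 𝔫, (p : F) ∉ V.nonunits) →
        algebraMap A F ϖ ∈ V.nonunits → V.valuation z = 1) := by
  haveI := h𝔫.isPrime
  haveI : IsNoetherianRing ↥(ssLocRing t 𝔫) := ssl_locRing_isNoetherianRing (L := L) t ht 𝔫
  have hϖ0 : ϖ ≠ 0 := hϖ.ne_zero
  -- a place is centred at a non-maximal prime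
  have hplace_ne : ∀ R' : Place L F, SsCentredAt t 𝔫 R' →
      ∃ p ∈ 𝔫, (p : F) ∉ R'.toValuationSubring.nonunits := by
    intro R' hR'
    refine ⟨sskPi ϖ t, hϖ𝔫, ?_⟩
    rw [ValuationSubring.mem_nonunits_iff]
    show ¬ R'.toValuationSubring.valuation (algebraMap A F ϖ) < 1
    rw [ssl_val_constA (L := L) ⟨R'.ne_top', R'.algebraMap_mem'⟩ hϖ0]
    exact lt_irrefl _
  have hRc : SsCentred t 𝔫 R.toValuationSubring := sqf_centred hR.1 hR.2
  obtain ⟨h, h𝔮⟩ := sqf_centre_principal hϖ t ht 𝔫 h𝔫 hϖ𝔫 hreg hRc (hplace_ne R hR)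
  -- `h ≠ 0`
  have hh0 : h ≠ 0 := by
    rintro rfl
    obtain ⟨p, hp0, hp⟩ := sqf_centre_ne_bot (L := L) ht hRc R.ne_top'
    rw [h𝔮, Ideal.mem_span_singleton, zero_dvd_iff] at hp
    exact hp0 hp
  have hhF : (h : F) ≠ 0 := fun h0 => hh0 (Subtype.ext h0)
  have hh𝔮 : h ∈ sslCentre t 𝔫 hRc := by rw [h𝔮]; exact Ideal.mem_span_singleton_self h
  have hhmax : h ∈ maximalIdeal ↥(ssLocRing t 𝔫) :=
    ssl_mem_max_of_val_lt hRc ((mem_sslCentre t 𝔫 hRc h).mp hh𝔮)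
  have hordpos : 0 < R.ord (h : F) :=
    (s18r_ord_pos_iff R _ hhF).mpr ((mem_sslCentre t 𝔫 hRc h).mp hh𝔮)
  -- orders of elements of `P_𝔫` outside the centre
  have hord_unit : ∀ (R' : Place L F) (hR'c : SsCentred t 𝔫 R'.toValuationSubring)
      (u : ↥(ssLocRing t 𝔫)), u ∉ sslCentre t 𝔫 hR'c → R'.ord (u : F) = 0 := by
    intro R' hR'c u hu
    exact ssl_ord_of_val_one R' (sqf_val_one hR'c hu)
  refine ⟨(h : F), hhF, h.2, ?_, ?_, ?_⟩
  · -- `ord_R h = 1`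
    obtain ⟨π, hdisc, hordπ, -⟩ := s18r_place_disc R
    have hπ0 : π ≠ 0 := hdisc.1
    obtain ⟨k, l, u, u', hu, hu', hdec⟩ := sqf_decomp (L := L) ht h hhmax π hπ0
    have hu0 : R.ord (u : F) = 0 :=
      hord_unit R hRc u (by rw [h𝔮, Ideal.mem_span_singleton]; exact hu)
    have hu'0 : R.ord (u' : F) = 0 :=
      hord_unit R hRc u' (by rw [h𝔮, Ideal.mem_span_singleton]; exact hu')
    have huF : (u : F) ≠ 0 := by
      intro h0
      apply hu
      have : u = 0 := Subtype.ext h0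
      rw [this]; exact dvd_zero h
    have hu'F : (u' : F) ≠ 0 := by
      intro h0
      apply hu'
      have : u' = 0 := Subtype.ext h0
      rw [this]; exact dvd_zero h
    have h1 := congrArg R.ord hdec
    rw [R.ord_mul hπ0 (mul_ne_zero (pow_ne_zero _ hhF) hu'F),
      R.ord_mul (pow_ne_zero _ hhF) hu'F, R.ord_mul (pow_ne_zero _ hhF) huF,
      ssl_ord_pow, ssl_ord_pow, hordπ, hu0, hu'0] at h1
    have hdvd : R.ord (h : F) ∣ 1 := ⟨(k : ℤ) - l, by rw [mul_sub]; linarith⟩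
    exact Int.eq_one_of_dvd_one hordpos.le hdvd
  · -- other places
    intro R' hR' hne
    have hR'c : SsCentred t 𝔫 R'.toValuationSubring := sqf_centred hR'.1 hR'.2
    by_contra hord
    have hmem : (h : F) ∈ R'.toValuationSubring := ssl_locRing_le t 𝔫 hR'c h.2
    have hpos : 0 < R'.ord (h : F) := by
      have := PlaceOrd.ord_nonneg_of_mem R' hmem
      omega
    have hh𝔮' : h ∈ sslCentre t 𝔫 hR'c :=
      (mem_sslCentre t 𝔫 hR'c h).mpr ((s18r_ord_pos_iff R' _ hhF).mp hpos)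
    obtain ⟨h', h𝔮'⟩ := sqf_centre_principal hϖ t ht 𝔫 h𝔫 hϖ𝔫 hreg hR'c (hplace_ne R' hR')
    have hh'max : h' ∈ maximalIdeal ↥(ssLocRing t 𝔫) := by
      apply ssl_mem_max_of_val_lt hR'c
      rw [← mem_sslCentre (hV := hR'c), h𝔮']
      exact Ideal.mem_span_singleton_self h'
    -- `𝔮 ≤ 𝔮'`
    have hle : sslCentre t 𝔫 hRc ≤ Ideal.span {h'} := by
      rw [h𝔮, Ideal.span_le, ← h𝔮']
      intro x hx
      rw [Set.mem_singleton_iff] at hx
      rw [hx]; exact hh𝔮'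
    have hh'𝔮 : h' ∈ sslCentre t 𝔫 hRc := by
      by_contra hcon
      have hbot := sq_eq_bot_of_le_span h' hh'max (sslCentre t 𝔫 hRc) hle hcon
      rw [hbot, Ideal.mem_bot] at hh𝔮
      exact hh0 hh𝔮
    -- the two centres agree
    have hcentre : sslCentre t 𝔫 hR'c = sslCentre t 𝔫 hRc := by
      apply le_antisymm
      · rw [h𝔮', Ideal.span_le]
        intro x hx
        rw [Set.mem_singleton_iff] at hx
        rw [hx]; exact hh'𝔮
      · rw [h𝔮, Ideal.span_le]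
        intro x hx
        rw [Set.mem_singleton_iff] at hx
        rw [hx]; exact hh𝔮'
    have h𝔮'' : sslCentre t 𝔫 hR'c = Ideal.span {h} := by rw [hcentre, h𝔮]
    apply hne
    apply Place.ext
    ext y
    by_cases hy0 : y = 0
    · rw [hy0]; exact ⟨fun _ => zero_mem _, fun _ => zero_mem _⟩
    obtain ⟨k, l, u, u', hu, hu', hdec⟩ := sqf_decomp (L := L) ht h hhmax y hy0
    show y ∈ R'.toValuationSubring ↔ y ∈ R.toValuationSubring
    rw [sqf_mem_iff hR'c h h𝔮'' hh0 hu hu' hdec, sqf_mem_iff hRc h h𝔮 hh0 hu hu' hdec]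
  · -- vertical valuations
    intro V hPV hcen hne hϖV
    have hVc : SsCentred t 𝔫 V := sqf_centred hPV hcen
    have hmem : (h : F) ∈ V := ssl_locRing_le t 𝔫 hVc h.2
    apply le_antisymm ((V.valuation_le_one_iff _).mpr hmem)
    by_contra hlt
    push Not at hlt
    have hh𝔮' : h ∈ sslCentre t 𝔫 hVc := (mem_sslCentre t 𝔫 hVc h).mpr hlt
    obtain ⟨h', h𝔮'⟩ := sqf_centre_principal hϖ t ht 𝔫 h𝔫 hϖ𝔫 hreg hVc hne
    have hh'max : h' ∈ maximalIdeal ↥(ssLocRing t 𝔫) := by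
      apply ssl_mem_max_of_val_lt hVc
      rw [← mem_sslCentre (hV := hVc), h𝔮']
      exact Ideal.mem_span_singleton_self h'
    have hle : sslCentre t 𝔫 hRc ≤ Ideal.span {h'} := by
      rw [h𝔮, Ideal.span_le, ← h𝔮']
      intro x hx
      rw [Set.mem_singleton_iff] at hx
      rw [hx]; exact hh𝔮'
    have hh'𝔮 : h' ∈ sslCentre t 𝔫 hRc := by
      by_contra hcon
      have hbot := sq_eq_bot_of_le_span h' hh'max (sslCentre t 𝔫 hRc) hle hcon
      rw [hbot, Ideal.mem_bot] at hh𝔮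
      exact hh0 hh𝔮
    -- `ϖ ∈ 𝔮' ≤ 𝔮`, but `ϖ ∉ 𝔮`
    have hϖ𝔮' : sslConst t 𝔫 ϖ ∈ sslCentre t 𝔫 hVc := by
      rw [mem_sslCentre, sslConst_coe]
      exact (ValuationSubring.mem_nonunits_iff _).mp hϖV
    have hϖ𝔮 : sslConst t 𝔫 ϖ ∈ sslCentre t 𝔫 hRc := by
      rw [h𝔮', Ideal.mem_span_singleton] at hϖ𝔮'
      obtain ⟨c, hc⟩ := hϖ𝔮'
      rw [hc]
      exact Ideal.mul_mem_right _ _ hh'𝔮
    exact ssl_const_not_mem_centre (L := L) t 𝔫 ⟨R.ne_top', R.algebraMap_mem'⟩ hRc hϖ0 hϖ𝔮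

/-- **(ROOT)** : every divisor is locally principal at `𝔫` (on the places centred at `𝔫`), by a
function which is a unit at the vertical valuations through `𝔫`. -/
theorem sq_localRoot (D : Place L F →₀ ℤ) :
    ∃ Φ : F, Φ ≠ 0 ∧ (∀ R : Place L F, SsCentredAt t 𝔫 R → R.ord Φ = D R) ∧
      (∀ V : ValuationSubring F, s18tInt A t ≤ V.toSubring →
        sskCentre t V ⊆ (𝔫 : Set ↥(s18tInt A t)) → (∃ p ∈ 𝔫, (p : F) ∉ V.nonunits) →
        algebraMap A F ϖ ∈ V.nonunits → V.valuation Φ = 1) := by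
  classical
  -- choose the functions
  have hz : ∀ R : Place L F, ∃ z : F, z ≠ 0 ∧ (SsCentredAt t 𝔫 R → R.ord z = 1 ∧
      (∀ R' : Place L F, SsCentredAt t 𝔫 R' → R' ≠ R → R'.ord z = 0) ∧
      (∀ V : ValuationSubring F, s18tInt A t ≤ V.toSubring →
        sskCentre t V ⊆ (𝔫 : Set ↥(s18tInt A t)) → (∃ p ∈ 𝔫, (p : F) ∉ V.nonunits) →
        algebraMap A F ϖ ∈ V.nonunits → V.valuation z = 1)) := by
    intro R
    by_cases hR : SsCentredAt t 𝔫 R
    · obtain ⟨z, hz0, -, h1, h2, h3⟩ := sq_oneZero hϖ t ht 𝔫 h𝔫 hϖ𝔫 hreg R hR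
      exact ⟨z, hz0, fun _ => ⟨h1, h2, h3⟩⟩
    · exact ⟨1, one_ne_zero, fun h => absurd h hR⟩
  choose z hz0 hz using hz
  set S : Finset (Place L F) := D.support.filter (fun R => SsCentredAt t 𝔫 R) with hS
  have hS_cen : ∀ R ∈ S, SsCentredAt t 𝔫 R := fun R hR => (Finset.mem_filter.mp hR).2
  -- order of a product over a finset
  have hprod_ne : ∀ T : Finset (Place L F), (∏ R ∈ T, z R ^ D R) ≠ 0 := fun T =>
    Finset.prod_ne_zero_iff.mpr fun R _ => zpow_ne_zero _ (hz0 R)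
  have hord_prod : ∀ (R₀ : Place L F) (T : Finset (Place L F)),
      R₀.ord (∏ R ∈ T, z R ^ D R) = ∑ R ∈ T, D R * R₀.ord (z R) := by
    intro R₀ T
    induction T using Finset.induction_on with
    | empty => simp
    | insert R T hRT ih =>
      rw [Finset.prod_insert hRT, Finset.sum_insert hRT,
        R₀.ord_mul (zpow_ne_zero _ (hz0 R)) (hprod_ne T), ih, R₀.ord_zpow]
  refine ⟨∏ R ∈ S, z R ^ D R, hprod_ne S, ?_, ?_⟩
  · intro R₀ hR₀
    rw [hord_prod]
    by_cases hmem : R₀ ∈ S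
    · rw [Finset.sum_eq_single_of_mem R₀ hmem, (hz R₀ hR₀).1, mul_one]
      intro R hR hne
      rw [(hz R (hS_cen R hR)).2.1 R₀ hR₀ (Ne.symm hne), mul_zero]
    · have hD : D R₀ = 0 := by
        by_contra hD
        exact hmem (Finset.mem_filter.mpr ⟨Finsupp.mem_support_iff.mpr hD, hR₀⟩)
      rw [hD]
      apply Finset.sum_eq_zero
      intro R hR
      have hne : R₀ ≠ R := fun h => hmem (h ▸ hR)
      rw [(hz R (hS_cen R hR)).2.1 R₀ hR₀ hne, mul_zero]
  · intro V hPV hcen hne hϖV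
    rw [map_prod]
    apply Finset.prod_eq_one
    intro R hR
    rw [map_zpow₀, (hz R (hS_cen R hR)).2.2 V hPV hcen hne hϖV, one_zpow]

end OneZero

end Fermat.Agent.SQ
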