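import Mathlib

/-!
# Program Q (S36) : (GLUE)

Gluing of `n`-th roots along two (three) ideals.  Everything is element-level : no quotient rings
appear in the statements.

* `sqg_sub_one_mem` : `x ≡ 1 mod 𝔪`, `𝔪 ^ N ≤ J`, `x ^ n ≡ 1 mod J`, `n` a unit modulo `J`
  ⟹ `x ≡ 1 mod J`  (`1 + nilpotent` has no `n`-torsion).
* `sqg_glue` : two ideals `𝔞, 𝔟`, `𝔪 ^ N ≤ 𝔞 ⊔ 𝔟` : roots `a mod 𝔞`, `b mod 𝔟` of the same `υ`,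
  congruent modulo `𝔪`, glue to an element `ψ`.
* `sqg_glue3` : three ideals (glue twice : `(𝔭₁, 𝔭₂)` then `(𝔭₁ ⊓ 𝔭₂, 𝔭₃)`).
-/

set_option autoImplicit false

namespace Fermat.Agent.SQ

variable {R : Type*} [CommRing R]

/-- `x ≡ 1 mod 𝔪 ⟹ x ^ i ≡ 1 mod 𝔪`. -/
theorem sqg_pow_sub_one_mem (𝔪 : Ideal R) {x : R} (hx : x - 1 ∈ 𝔪) (i : ℕ) : x ^ i - 1 ∈ 𝔪 := by
  obtain ⟨c, hc⟩ := sub_dvd_pow_sub_pow x 1 i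
  rw [one_pow] at hc
  rw [hc]
  exact 𝔪.mul_mem_right _ hx

/-- `x ≡ y mod 𝔪 ⟹ x ^ i ≡ y ^ i mod 𝔪`. -/
theorem sqg_pow_sub_pow_mem (𝔪 : Ideal R) {x y : R} (hx : x - y ∈ 𝔪) (i : ℕ) :
    x ^ i - y ^ i ∈ 𝔪 := by
  obtain ⟨c, hc⟩ := sub_dvd_pow_sub_pow x y i
  rw [hc]
  exact 𝔪.mul_mem_right _ hx

/-- the geometric sum is `≡ n` modulo `𝔪` when `x ≡ 1 mod 𝔪`. -/
theorem sqg_geom_sub_mem (𝔪 : Ideal R) {x : R} (hx : x - 1 ∈ 𝔪) (n : ℕ) :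
    (∑ i ∈ Finset.range n, x ^ i) - (n : R) ∈ 𝔪 := by
  have h : (∑ i ∈ Finset.range n, x ^ i) - (n : R) = ∑ i ∈ Finset.range n, (x ^ i - 1) := by
    rw [Finset.sum_sub_distrib]
    simp
  rw [h]
  exact Ideal.sum_mem _ (fun i _ => sqg_pow_sub_one_mem 𝔪 hx i)

/-- **`1 + nilpotent` has no `n`-torsion** (element-level) : `x ≡ 1 mod 𝔪`, `𝔪 ^ N ≤ J`,
`x ^ n ≡ 1 mod J`, `n` invertible modulo `J` ⟹ `x ≡ 1 mod J`. -/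
theorem sqg_sub_one_mem (J 𝔪 : Ideal R) (N : ℕ) (hN : 𝔪 ^ N ≤ J)
    (n : ℕ) (n' : R) (hn : (n : R) * n' - 1 ∈ J) (x : R) (hx : x - 1 ∈ 𝔪)
    (hxn : x ^ n - 1 ∈ J) : x - 1 ∈ J := by
  set g : R := ∑ i ∈ Finset.range n, x ^ i with hg
  have hgn : g - (n : R) ∈ 𝔪 := sqg_geom_sub_mem 𝔪 hx n
  have hmul : (x - 1) * g = x ^ n - 1 := by
    rw [hg, mul_comm]; exact geom_sum_mul x n
  have key : ∀ k : ℕ, x - 1 ∈ J ⊔ 𝔪 ^ (k + 1) := by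
    intro k
    induction k with
    | zero =>
      rw [zero_add, pow_one]
      exact Ideal.mem_sup_right hx
    | succ k ih =>
      -- `n (x - 1) = (x - 1) g - (x - 1)(g - n)`
      have h1 : (x - 1) * (g - (n : R)) ∈ J ⊔ 𝔪 ^ (k + 1 + 1) := by
        obtain ⟨j, hj, m, hm, hjm⟩ := Submodule.mem_sup.mp ih
        rw [← hjm, add_mul]
        refine add_mem (Ideal.mem_sup_left (J.mul_mem_right _ hj)) (Ideal.mem_sup_right ?_)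
        rw [pow_succ]
        exact Ideal.mul_mem_mul hm hgn
      have h2 : (n : R) * (x - 1) ∈ J ⊔ 𝔪 ^ (k + 1 + 1) := by
        have : (n : R) * (x - 1) = (x ^ n - 1) - (x - 1) * (g - (n : R)) := by
          rw [← hmul]; ring
        rw [this]
        exact sub_mem (Ideal.mem_sup_left hxn) h1
      have h3 : x - 1 = n' * ((n : R) * (x - 1)) - ((n : R) * n' - 1) * (x - 1) := by ring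
      rw [h3]
      exact sub_mem (Ideal.mul_mem_left _ _ h2) (Ideal.mem_sup_left (J.mul_mem_right _ hn))
  rcases Nat.eq_zero_or_pos N with h0 | h0
  · -- `𝔪 ^ 0 = ⊤ ≤ J`
    subst h0
    rw [pow_zero, Ideal.one_eq_top, top_le_iff] at hN
    rw [hN]; exact Submodule.mem_top
  · have := key (N - 1)
    rw [Nat.sub_add_cancel h0, sup_eq_left.mpr hN] at this
    exact this

/-- **(GLUE)** two ideals : `a mod 𝔞` and `b mod 𝔟` are `n`-th roots of the same `υ`, `b` is a unit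
modulo `𝔟`, `a ≡ b` modulo an ideal `𝔪 ⊇ 𝔟` which is nilpotent modulo `𝔞 ⊔ 𝔟`, and `n` is invertible
modulo `𝔞 ⊔ 𝔟` : then `a` and `b` glue. -/
theorem sqg_glue (𝔞 𝔟 𝔪 : Ideal R) (h𝔟 : 𝔟 ≤ 𝔪) (N : ℕ) (hN : 𝔪 ^ N ≤ 𝔞 ⊔ 𝔟)
    (n : ℕ) (n' : R) (hn : (n : R) * n' - 1 ∈ 𝔞 ⊔ 𝔟)
    (υ a b b' : R) (ha : a ^ n - υ ∈ 𝔞) (hb : b ^ n - υ ∈ 𝔟) (hbu : b * b' - 1 ∈ 𝔟)
    (hab : a - b ∈ 𝔪) : ∃ ψ : R, ψ - a ∈ 𝔞 ∧ ψ - b ∈ 𝔟 := by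
  set J : Ideal R := 𝔞 ⊔ 𝔟 with hJ
  have hbuJ : b * b' - 1 ∈ J := Ideal.mem_sup_right hbu
  -- `x = a b'`
  have hx1 : a * b' - 1 ∈ 𝔪 := by
    have : a * b' - 1 = (a - b) * b' + (b * b' - 1) := by ring
    rw [this]
    exact add_mem (𝔪.mul_mem_right _ hab) (h𝔟 hbu)
  have hxn : (a * b') ^ n - 1 ∈ J := by
    have h1 : a ^ n - b ^ n ∈ J := by
      have : a ^ n - b ^ n = (a ^ n - υ) - (b ^ n - υ) := by ring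
      rw [this]
      exact sub_mem (Ideal.mem_sup_left ha) (Ideal.mem_sup_right hb)
    have h2 : (b * b') ^ n - 1 ∈ J := sqg_pow_sub_one_mem J hbuJ n
    have : (a * b') ^ n - 1 = (a ^ n - b ^ n) * b' ^ n + ((b * b') ^ n - 1) := by
      rw [mul_pow, mul_pow]; ring
    rw [this]
    exact add_mem (J.mul_mem_right _ h1) h2
  have hx : a * b' - 1 ∈ J := sqg_sub_one_mem J 𝔪 N hN n n' hn (a * b') hx1 hxn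
  have habJ : a - b ∈ J := by
    have : a - b = b * (a * b' - 1) - a * (b * b' - 1) := by ring
    rw [this]
    exact sub_mem (J.mul_mem_left _ hx) (J.mul_mem_left _ hbuJ)
  obtain ⟨α, hα, β, hβ, hαβ⟩ := Submodule.mem_sup.mp habJ
  refine ⟨a - α, ?_, ?_⟩
  · have : a - α - a = -α := by ring
    rw [this]; exact neg_mem hα
  · have : a - α - b = β := by linear_combination -hαβ
    rw [this]; exact hβ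

/-- (GLUE) with `n` a unit of the ring. -/
theorem sqg_glue_of_isUnit (𝔞 𝔟 𝔪 : Ideal R) (h𝔟 : 𝔟 ≤ 𝔪) (N : ℕ) (hN : 𝔪 ^ N ≤ 𝔞 ⊔ 𝔟)
    (n : ℕ) (hn : IsUnit (n : R))
    (υ a b b' : R) (ha : a ^ n - υ ∈ 𝔞) (hb : b ^ n - υ ∈ 𝔟) (hbu : b * b' - 1 ∈ 𝔟)
    (hab : a - b ∈ 𝔪) : ∃ ψ : R, ψ - a ∈ 𝔞 ∧ ψ - b ∈ 𝔟 := by
  obtain ⟨n', hn'⟩ := hn.exists_right_inv
  exact sqg_glue 𝔞 𝔟 𝔪 h𝔟 N hN n n' (by rw [hn', sub_self]; exact zero_mem _) υ a b b' ha hb hbu hab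

/-- **(GLUE) at a triple point** : three ideals, glue `(𝔭₁, 𝔭₂)` and then `(𝔭₁ ⊓ 𝔭₂, 𝔭₃)`. -/
theorem sqg_glue3 (𝔭₁ 𝔭₂ 𝔭₃ 𝔪 : Ideal R) (h₁ : 𝔭₁ ≤ 𝔪) (h₂ : 𝔭₂ ≤ 𝔪) (h₃ : 𝔭₃ ≤ 𝔪)
    (N : ℕ) (hN₁₂ : 𝔪 ^ N ≤ 𝔭₁ ⊔ 𝔭₂) (N' : ℕ) (hN₃ : 𝔪 ^ N' ≤ (𝔭₁ ⊓ 𝔭₂) ⊔ 𝔭₃)
    (n : ℕ) (hn : IsUnit (n : R))
    (υ a₁ a₂ a₃ a₂' a₃' : R)
    (ha₁ : a₁ ^ n - υ ∈ 𝔭₁) (ha₂ : a₂ ^ n - υ ∈ 𝔭₂) (ha₃ : a₃ ^ n - υ ∈ 𝔭₃)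
    (hu₂ : a₂ * a₂' - 1 ∈ 𝔭₂) (hu₃ : a₃ * a₃' - 1 ∈ 𝔭₃)
    (h₁₂ : a₁ - a₂ ∈ 𝔪) (h₁₃ : a₁ - a₃ ∈ 𝔪) :
    ∃ ψ : R, ψ - a₁ ∈ 𝔭₁ ∧ ψ - a₂ ∈ 𝔭₂ ∧ ψ - a₃ ∈ 𝔭₃ := by
  obtain ⟨ψ₀, hψ₁, hψ₂⟩ :=
    sqg_glue_of_isUnit 𝔭₁ 𝔭₂ 𝔪 h₂ N hN₁₂ n hn υ a₁ a₂ a₂' ha₁ ha₂ hu₂ h₁₂
  have hψn : ψ₀ ^ n - υ ∈ 𝔭₁ ⊓ 𝔭₂ := by
    refine Ideal.mem_inf.mpr ⟨?_, ?_⟩
    · have : ψ₀ ^ n - υ = (ψ₀ ^ n - a₁ ^ n) + (a₁ ^ n - υ) := by ring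
      rw [this]
      exact add_mem (sqg_pow_sub_pow_mem 𝔭₁ hψ₁ n) ha₁
    · have : ψ₀ ^ n - υ = (ψ₀ ^ n - a₂ ^ n) + (a₂ ^ n - υ) := by ring
      rw [this]
      exact add_mem (sqg_pow_sub_pow_mem 𝔭₂ hψ₂ n) ha₂
  have hψ₃ : ψ₀ - a₃ ∈ 𝔪 := by
    have : ψ₀ - a₃ = (ψ₀ - a₁) + (a₁ - a₃) := by ring
    rw [this]
    exact add_mem (h₁ hψ₁) h₁₃
  obtain ⟨ψ, hψa, hψb⟩ :=
    sqg_glue_of_isUnit (𝔭₁ ⊓ 𝔭₂) 𝔭₃ 𝔪 h₃ N' hN₃ n hn υ ψ₀ a₃ a₃' hψn ha₃ hu₃ hψ₃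
  obtain ⟨hψa₁, hψa₂⟩ := Ideal.mem_inf.mp hψa
  refine ⟨ψ, ?_, ?_, hψb⟩
  · have : ψ - a₁ = (ψ - ψ₀) + (ψ₀ - a₁) := by ring
    rw [this]; exact add_mem hψa₁ hψ₁
  · have : ψ - a₂ = (ψ - ψ₀) + (ψ₀ - a₂) := by ring
    rw [this]; exact add_mem hψa₂ hψ₂

end Fermat.Agent.SQ
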