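import Mathlib
import Fermat.Agent.SQ.FactAlg
import Fermat.Agent.SQ.Glue

/-!
# Program Q (S36), leaf SQ/KumAt, part 1 : pure commutative algebra

* `sqk_pow_le_sup` : `R` Noetherian local, `𝔓` a prime with `𝔪 = (z) + 𝔓` (a smooth branch),
  `w ∉ 𝔓` ⟹ `𝔪 ^ N ≤ 𝔓 + (w)` for some `N`.
* `sqk_glue_finset` : GLUE along a finite family of such branches : roots `a i mod 𝔓 i` of the same
  unit `υ`, pairwise congruent modulo `𝔪`, glue to one element.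
-/

set_option autoImplicit false

namespace Fermat.Agent.SQ

open IsLocalRing

variable {R : Type*} [CommRing R] [IsLocalRing R] [IsNoetherianRing R]

/-- `𝔪 ^ k ≤ (z ^ k) + 𝔓` when `𝔪 ≤ (z) + 𝔓`. -/
theorem sqk_pow_le_span_pow_sup (𝔓 : Ideal R) (z : R)
    (hz : maximalIdeal R ≤ Ideal.span {z} ⊔ 𝔓) (k : ℕ) :
    maximalIdeal R ^ k ≤ Ideal.span {z ^ k} ⊔ 𝔓 := by
  induction k with
  | zero =>
    intro x _
    rw [pow_zero]
    exact Ideal.mem_sup_left (Ideal.mem_span_singleton.mpr (one_dvd x))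
  | succ k ih =>
    rw [pow_succ]
    refine Ideal.mul_le.mpr fun x hx y hy => ?_
    obtain ⟨x₁, hx₁, x₂, hx₂, rfl⟩ := Submodule.mem_sup.mp (ih hx)
    obtain ⟨y₁, hy₁, y₂, hy₂, rfl⟩ := Submodule.mem_sup.mp (hz hy)
    obtain ⟨c, rfl⟩ := Ideal.mem_span_singleton.mp hx₁
    obtain ⟨d, rfl⟩ := Ideal.mem_span_singleton.mp hy₁
    have e : (z ^ k * c + x₂) * (z * d + y₂) =
        z ^ (k + 1) * (c * d) + (x₂ * (z * d + y₂) + z ^ k * c * y₂) := by ring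
    rw [e]
    refine Submodule.add_mem_sup (Ideal.mem_span_singleton.mpr ⟨c * d, rfl⟩)
      (add_mem (𝔓.mul_mem_right _ hx₂) (𝔓.mul_mem_left _ hy₂))

/-- **a smooth branch meets every other curve in a finite scheme** : `𝔪 = (z) + 𝔓`, `𝔓` prime,
`w ∉ 𝔓` ⟹ `𝔪 ^ N ≤ 𝔓 + (w)`. -/
theorem sqk_pow_le_sup (𝔓 : Ideal R) [h𝔓 : 𝔓.IsPrime] (z : R) (hz𝔪 : z ∈ maximalIdeal R)
    (hz : maximalIdeal R ≤ Ideal.span {z} ⊔ 𝔓) (w : R) (hw : w ∉ 𝔓) :
    ∃ N : ℕ, maximalIdeal R ^ N ≤ 𝔓 ⊔ Ideal.span {w} := by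
  have h𝔓𝔪 : 𝔓 ≤ maximalIdeal R := le_maximalIdeal h𝔓.ne_top
  haveI : IsDomain (R ⧸ 𝔓) := Ideal.Quotient.isDomain 𝔓
  haveI : IsLocalRing (R ⧸ 𝔓) := .of_surjective' _ Ideal.Quotient.mk_surjective
  have hzb : Ideal.Quotient.mk 𝔓 z ∈ maximalIdeal (R ⧸ 𝔓) := by
    rw [mem_maximalIdeal, mem_nonunits_iff]
    intro hu
    obtain ⟨y, hy⟩ := hu.exists_right_inv
    obtain ⟨y, rfl⟩ := Ideal.Quotient.mk_surjective y
    have h1 : z * y - 1 ∈ 𝔓 := by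
      rw [← Ideal.Quotient.eq_zero_iff_mem, map_sub, map_mul, hy, map_one, sub_self]
    have h2 : (1 : R) ∈ maximalIdeal R := by
      have : (1 : R) = z * y - (z * y - 1) := by ring
      rw [this]
      exact sub_mem (Ideal.mul_mem_right _ _ hz𝔪) (h𝔓𝔪 h1)
    exact (maximalIdeal.isMaximal R).ne_top ((Ideal.eq_top_iff_one _).mpr h2)
  have hwb : Ideal.Quotient.mk 𝔓 w ≠ 0 := by
    rw [Ne, Ideal.Quotient.eq_zero_iff_mem]; exact hw
  obtain ⟨k, u, hku, hu⟩ := sq_exists_pow_mul _ hzb _ hwb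
  obtain ⟨u, rfl⟩ := Ideal.Quotient.mk_surjective u
  have huu : IsUnit u := by
    by_contra hnu
    have hmem : u ∈ maximalIdeal R := (mem_maximalIdeal u).mpr hnu
    obtain ⟨a, ha, p, hp, rfl⟩ := Submodule.mem_sup.mp (hz hmem)
    obtain ⟨c, rfl⟩ := Ideal.mem_span_singleton.mp ha
    apply hu
    refine ⟨Ideal.Quotient.mk 𝔓 c, ?_⟩
    rw [map_add, map_mul, Ideal.Quotient.eq_zero_iff_mem.mpr hp, add_zero]
  obtain ⟨v, hv⟩ := huu.exists_right_inv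
  have hzk : w * v - z ^ k ∈ 𝔓 := by
    rw [← Ideal.Quotient.eq_zero_iff_mem, map_sub, map_mul, hku, map_pow]
    have h1 : Ideal.Quotient.mk 𝔓 u * Ideal.Quotient.mk 𝔓 v = 1 := by
      rw [← map_mul, hv, map_one]
    linear_combination (Ideal.Quotient.mk 𝔓 z) ^ k * h1
  refine ⟨k, (sqk_pow_le_span_pow_sup 𝔓 z hz k).trans ?_⟩
  refine sup_le ?_ le_sup_left
  rw [Ideal.span_singleton_le_iff_mem]
  have : z ^ k = -(w * v - z ^ k) + w * v := by ring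
  rw [this]
  exact Submodule.add_mem_sup (neg_mem hzk) (Ideal.mem_span_singleton.mpr ⟨v, rfl⟩)

/-- **(GLUE) along a finite family of smooth branches** : `𝔓 i` (`i ∈ S`) primes of `R` with
`𝔪 = (z i) + 𝔓 i`, separated by elements `w i j ∈ 𝔓 i ∖ 𝔓 j`; `a i` an `n`-th root of the unit `υ`
modulo `𝔓 i`, the `a i` pairwise congruent modulo `𝔪`, `n` a unit : there is `ψ ≡ a i mod 𝔓 i` for
all `i ∈ S`. -/
theorem sqk_glue_finset {ι : Type*} [DecidableEq ι] (𝔓 : ι → Ideal R) (S : Finset ι)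
    (hS : S.Nonempty)
    (hprime : ∀ i ∈ S, (𝔓 i).IsPrime)
    (z : ι → R) (hz𝔪 : ∀ i ∈ S, z i ∈ maximalIdeal R)
    (hz : ∀ i ∈ S, maximalIdeal R ≤ Ideal.span {z i} ⊔ 𝔓 i)
    (hsep : ∀ i ∈ S, ∀ j ∈ S, i ≠ j → ∃ w : R, w ∈ 𝔓 i ∧ w ∉ 𝔓 j)
    (n : ℕ) (hn : IsUnit (n : R)) (υ υ' : R) (hυ : υ * υ' = 1)
    (a : ι → R) (ha : ∀ i ∈ S, a i ^ n - υ ∈ 𝔓 i)
    (hcong : ∀ i ∈ S, ∀ j ∈ S, a i - a j ∈ maximalIdeal R) :
    ∃ ψ : R, ∀ i ∈ S, ψ - a i ∈ 𝔓 i := by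
  obtain ⟨i₀, hi₀⟩ := hS
  -- the stronger inductive claim on subsets `S' ⊆ S`
  have key : ∀ S' : Finset ι, S' ⊆ S →
      ∃ ψ : R, (∀ i ∈ S', ψ - a i ∈ 𝔓 i) ∧ ∀ j ∈ S, ψ - a j ∈ maximalIdeal R := by
    intro S'
    induction S' using Finset.induction_on with
    | empty =>
      intro _
      exact ⟨a i₀, fun i hi => absurd hi (Finset.notMem_empty i), fun j hj => hcong i₀ hi₀ j hj⟩
    | insert j S' hj ih =>
      intro hsub
      have hjS : j ∈ S := hsub (Finset.mem_insert_self j S')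
      have hS'S : S' ⊆ S := fun i hi => hsub (Finset.mem_insert_of_mem hi)
      obtain ⟨ψ₀, hψ₀, hψ₀𝔪⟩ := ih hS'S
      haveI := hprime j hjS
      have h𝔓j : 𝔓 j ≤ maximalIdeal R := le_maximalIdeal (hprime j hjS).ne_top
      -- the element `w ∈ ⋂_{i ∈ S'} 𝔓 i ∖ 𝔓 j`
      have hw : ∃ w : R, (∀ i ∈ S', w ∈ 𝔓 i) ∧ w ∉ 𝔓 j := by
        have hch : ∀ i : ι, ∃ w : R, i ∈ S' → (w ∈ 𝔓 i ∧ w ∉ 𝔓 j) := by
          intro i
          by_cases hi : i ∈ S'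
          · obtain ⟨w, hw1, hw2⟩ := hsep i (hS'S hi) j hjS (by rintro rfl; exact hj hi)
            exact ⟨w, fun _ => ⟨hw1, hw2⟩⟩
          · exact ⟨0, fun h => absurd h hi⟩
        choose w hw using hch
        refine ⟨∏ i ∈ S', w i, fun i hi => ?_, ?_⟩
        · rw [← Finset.mul_prod_erase _ _ hi]
          exact (𝔓 i).mul_mem_right _ (hw i hi).1
        · intro hmem
          obtain ⟨i, hi, hwi⟩ := (Ideal.IsPrime.prod_mem_iff).mp hmem
          exact (hw i hi).2 hwi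
      obtain ⟨w, hw1, hw2⟩ := hw
      obtain ⟨N, hN⟩ := sqk_pow_le_sup (𝔓 j) (z j) (hz𝔪 j hjS) (hz j hjS) w hw2
      set 𝔞 : Ideal R := ⨅ i ∈ S', 𝔓 i with h𝔞
      have hw𝔞 : w ∈ 𝔞 := by
        rw [h𝔞, Ideal.mem_iInf]; intro i; rw [Ideal.mem_iInf]; exact hw1 i
      have hN' : maximalIdeal R ^ N ≤ 𝔞 ⊔ 𝔓 j := by
        refine hN.trans (sup_le le_sup_right ?_)
        rw [Ideal.span_singleton_le_iff_mem]
        exact Ideal.mem_sup_left hw𝔞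
      -- `a j` is a unit modulo `𝔓 j`
      have hau : ∃ b' : R, a j * b' - 1 ∈ 𝔓 j := by
        rcases Nat.eq_zero_or_pos n with h0 | hpos
        · -- `n = 0` is a unit only in the zero ring; `R` is local, contradiction
          exfalso
          rw [h0, Nat.cast_zero] at hn
          exact not_isUnit_zero hn
        · refine ⟨a j ^ (n - 1) * υ', ?_⟩
          have e : a j * (a j ^ (n - 1) * υ') - 1 = (a j ^ n - υ) * υ' + (υ * υ' - 1) := by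
            have : a j ^ n = a j * a j ^ (n - 1) := by
              rw [← pow_succ', Nat.sub_add_cancel hpos]
            rw [this]; ring
          rw [e, hυ, sub_self, add_zero]
          exact (𝔓 j).mul_mem_right _ (ha j hjS)
      obtain ⟨b', hb'⟩ := hau
      have hψ₀n : ψ₀ ^ n - υ ∈ 𝔞 := by
        rw [h𝔞, Ideal.mem_iInf]; intro i; rw [Ideal.mem_iInf]; intro hi
        have : ψ₀ ^ n - υ = (ψ₀ ^ n - a i ^ n) + (a i ^ n - υ) := by ring
        rw [this]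
        exact add_mem (sqg_pow_sub_pow_mem (𝔓 i) (hψ₀ i hi) n) (ha i (hS'S hi))
      obtain ⟨ψ, hψ𝔞, hψj⟩ := sqg_glue_of_isUnit 𝔞 (𝔓 j) (maximalIdeal R) h𝔓j N hN' n hn υ
        ψ₀ (a j) b' hψ₀n (ha j hjS) hb' (hψ₀𝔪 j hjS)
      refine ⟨ψ, fun i hi => ?_, fun k hk => ?_⟩
      · rcases Finset.mem_insert.mp hi with rfl | hi'
        · exact hψj
        · have h1 : ψ - ψ₀ ∈ 𝔓 i := by
            rw [h𝔞, Ideal.mem_iInf] at hψ𝔞
            have := hψ𝔞 i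
            rw [Ideal.mem_iInf] at this
            exact this hi'
          have : ψ - a i = (ψ - ψ₀) + (ψ₀ - a i) := by ring
          rw [this]
          exact add_mem h1 (hψ₀ i hi')
      · have : ψ - a k = (ψ - a j) + (a j - a k) := by ring
        rw [this]
        exact add_mem (h𝔓j hψj) (hcong j hjS k hk)
  obtain ⟨ψ, hψ, -⟩ := key S (Finset.Subset.refl S)
  exact ⟨ψ, hψ⟩

end Fermat.Agent.SQ
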