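import Mathlib

/-!
# Program Q (S36) : (NEWTON)

`n`-th roots of `1 + I` modulo powers of an ideal `I`, `n` a unit : the Newton iteration
`ψ ↦ ψ - (ψ ^ n - w) / n` (no inverse of `ψ` is needed since `ψ ≡ 1 mod I`).

* `sqn_root` : `w ≡ 1 mod I` ⟹ `∃ ψ ≡ 1 mod I`, `ψ ^ n ≡ w mod I ^ N`.
* `sqn_inv` : `ψ ≡ 1 mod I` ⟹ `∃ ψ' ≡ 1 mod I`, `ψ ψ' ≡ 1 mod I ^ N`.
* `sqn_root_div` : in a ring where `ψ` is a unit, `w / ψ ^ n ≡ 1 mod I ^ N`.
-/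

set_option autoImplicit false

namespace Fermat.Agent.SQ

variable {R : Type*} [CommRing R]

/-- `x ≡ 1 mod I ⟹ x ^ i ≡ 1 mod I`. -/
theorem sqn_pow_sub_one_mem (I : Ideal R) {x : R} (hx : x - 1 ∈ I) (i : ℕ) : x ^ i - 1 ∈ I := by
  obtain ⟨c, hc⟩ := sub_dvd_pow_sub_pow x 1 i
  rw [one_pow] at hc
  rw [hc]
  exact I.mul_mem_right _ hx

/-- **(NEWTON)** `n` invertible, `w ≡ 1 mod I` : for every `N` there is `ψ ≡ 1 mod I` with
`ψ ^ n ≡ w mod I ^ N`. -/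
theorem sqn_root' (I : Ideal R) (n : ℕ) (n' : R) (hn : (n : R) * n' = 1) (w : R)
    (hw : w - 1 ∈ I) (N : ℕ) : ∃ ψ : R, ψ - 1 ∈ I ∧ ψ ^ n - w ∈ I ^ (N + 1) := by
  induction N with
  | zero =>
    refine ⟨1, by rw [sub_self]; exact zero_mem _, ?_⟩
    rw [zero_add, pow_one, one_pow]
    have : (1 : R) - w = -(w - 1) := by ring
    rw [this]; exact neg_mem hw
  | succ N ih =>
    obtain ⟨ψ, hψ, hδ⟩ := ih
    set δ : R := ψ ^ n - w with hδdef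
    have hδI : δ ∈ I := by
      have := Ideal.pow_le_self (I := I) (Nat.succ_ne_zero N) hδ
      exact this
    obtain ⟨k, hk⟩ := Polynomial.powAddExpansion ψ (-(n' * δ)) n
    refine ⟨ψ + -(n' * δ), ?_, ?_⟩
    · have : ψ + -(n' * δ) - 1 = (ψ - 1) - n' * δ := by ring
      rw [this]
      exact sub_mem hψ (I.mul_mem_left _ hδI)
    · -- `(ψ - n'δ)^n - w = δ (1 - ψ^(n-1)) + k n'^2 δ^2`
      have h1 : (ψ + -(n' * δ)) ^ n - w
          = δ * (1 - ψ ^ (n - 1)) + k * n' ^ 2 * (δ * δ) := by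
        rw [hk]
        have h2 : (n : R) * ψ ^ (n - 1) * -(n' * δ) = -(ψ ^ (n - 1) * δ) := by
          have : (n : R) * ψ ^ (n - 1) * -(n' * δ) = -(((n : R) * n') * (ψ ^ (n - 1) * δ)) := by
            ring
          rw [this, hn, one_mul]
        rw [h2]
        have h3 : ψ ^ n = δ + w := by rw [hδdef]; ring
        rw [h3]; ring
      rw [h1]
      refine add_mem ?_ ?_
      · -- `δ ∈ I^(N+1)`, `1 - ψ^(n-1) ∈ I`
        have h4 : 1 - ψ ^ (n - 1) ∈ I := by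
          have : 1 - ψ ^ (n - 1) = -(ψ ^ (n - 1) - 1) := by ring
          rw [this]; exact neg_mem (sqn_pow_sub_one_mem I hψ _)
        rw [pow_succ I (N + 1)]
        exact Ideal.mul_mem_mul hδ h4
      · have h5 : δ * δ ∈ I ^ (N + 1 + 1) := by
          have : δ * δ ∈ I ^ (N + 1) * I := Ideal.mul_mem_mul hδ hδI
          rwa [← pow_succ] at this
        exact Ideal.mul_mem_left _ _ h5

/-- **(NEWTON)** `n` a unit, `w ≡ 1 mod I` : for every `N` there is `ψ ≡ 1 mod I` with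
`ψ ^ n ≡ w mod I ^ N`. -/
theorem sqn_root (I : Ideal R) (n : ℕ) (hn : IsUnit (n : R)) (w : R) (hw : w - 1 ∈ I) (N : ℕ) :
    ∃ ψ : R, ψ - 1 ∈ I ∧ ψ ^ n - w ∈ I ^ N := by
  obtain ⟨n', hn'⟩ := hn.exists_right_inv
  obtain ⟨ψ, h1, h2⟩ := sqn_root' I n n' hn' w hw N
  exact ⟨ψ, h1, Ideal.pow_le_pow_right (Nat.le_succ N) h2⟩

/-- `ψ ≡ 1 mod I` has an inverse modulo `I ^ N`, itself `≡ 1 mod I`. -/
theorem sqn_inv (I : Ideal R) (ψ : R) (hψ : ψ - 1 ∈ I) (N : ℕ) :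
    ∃ ψ' : R, ψ' - 1 ∈ I ∧ ψ * ψ' - 1 ∈ I ^ N := by
  -- `ψ = 1 - e`, `ψ' = ∑_{k < N} e^k`, `ψ ψ' = 1 - e^N`
  set e : R := 1 - ψ with he
  have heI : e ∈ I := by
    have : e = -(ψ - 1) := by rw [he]; ring
    rw [this]; exact neg_mem hψ
  refine ⟨∑ k ∈ Finset.range (N + 1), e ^ k, ?_, ?_⟩
  · rw [Finset.sum_range_succ', pow_zero, add_sub_cancel_right]
    refine Ideal.sum_mem _ (fun k _ => ?_)
    rw [pow_succ]
    exact I.mul_mem_left _ heI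
  · have h1 : ψ * ∑ k ∈ Finset.range (N + 1), e ^ k - 1 = -(e ^ (N + 1)) := by
      have h2 : (∑ k ∈ Finset.range (N + 1), e ^ k) * (e - 1) = e ^ (N + 1) - 1 :=
        geom_sum_mul e (N + 1)
      have h3 : ψ = -(e - 1) := by rw [he]; ring
      rw [h3, neg_mul, mul_comm, h2]; ring
    rw [h1]
    exact neg_mem (Ideal.pow_le_pow_right (Nat.le_succ N) (Ideal.pow_mem_pow heI (N + 1)))

/-- (NEWTON), quotient form : if moreover `ψ` is invertible (e.g. in a local ring, `I` inside the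
maximal ideal), `w / ψ ^ n ≡ 1 mod I ^ N`. -/
theorem sqn_root_div (I : Ideal R) (n : ℕ) (hn : IsUnit (n : R)) (w : R) (hw : w - 1 ∈ I) (N : ℕ)
    (hI : ∀ x : R, x - 1 ∈ I → IsUnit x) :
    ∃ ψ ψ' : R, ψ - 1 ∈ I ∧ ψ' - 1 ∈ I ∧ ψ * ψ' = 1 ∧ w * ψ' ^ n - 1 ∈ I ^ N := by
  obtain ⟨ψ, h1, h2⟩ := sqn_root I n hn w hw N
  obtain ⟨ψ', hψ'⟩ := (hI ψ h1).exists_right_inv
  have h3 : ψ' - 1 ∈ I := by
    have : ψ' - 1 = -(ψ' * (ψ - 1)) := by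
      have : ψ' * (ψ - 1) = ψ * ψ' - ψ' := by ring
      rw [this, hψ']; ring
    rw [this]
    exact neg_mem (I.mul_mem_left _ h1)
  refine ⟨ψ, ψ', h1, h3, hψ', ?_⟩
  have : w * ψ' ^ n - 1 = -((ψ ^ n - w) * ψ' ^ n) := by
    have h4 : ψ ^ n * ψ' ^ n = 1 := by rw [← mul_pow, hψ', one_pow]
    have : (ψ ^ n - w) * ψ' ^ n = ψ ^ n * ψ' ^ n - w * ψ' ^ n := by ring
    rw [this, h4]; ring
  rw [this]
  exact neg_mem (Ideal.mul_mem_right _ _ h2)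

end Fermat.Agent.SQ
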