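import Mathlib
import Fermat.Agent.S18.T.Spec
import Fermat.Agent.SS.Val.Gauss2
import Fermat.Agent.SQ.Newton

/-!
# Program Q (S36) / Program T (S35) : the semilocal ring `P_(ϖ) = ⋂ V i` of a FINITE FAMILY of
discrete valuations above the Gauss valuation

Setting of S18 package T : `A` a DVR of characteristic `0`, uniformiser `ϖ`, `L = Frac A`,
`F / L(t)` finite, `P = s18tInt A t`, `P_(ϖ) = s18tIntLoc A t (C ϖ)`.

`SqvFam hϖ t V π e` : `V : ι → ValuationSubring F` is the family of ALL extensions of the Gauss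
valuation to `F`, in FIELD form : `P_(ϖ) = ⋂ V i`, `π i` is a uniformiser of `V i`,
`v_i(π i) ^ e i = v_i(ϖ)`, and the `V i` are separated by elements of `P_(ϖ)`.

Part 0 is pure valuation theory (partition of unity of a finite family of valuation rings separated
by elements).  The consequences for `SqvFam` : approximation theorem, weak approximation, CRT onto
`∏ κ(V i)`, prescribed valuations, completeness of the list (`cases`), `x ≡ 1 ⟹ x⁻¹ ≡ 1`,
`V i = P` localised at `𝔭 i`, `rad ^ N ⊆ ϖ P_(ϖ)` and the global NEWTON step.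
-/

set_option autoImplicit false
set_option linter.unusedSectionVars false
set_option linter.unusedVariables false

noncomputable section

namespace Fermat.Agent.SQ

open Polynomial IntermediateField Fermat.Agent.S18 Fermat.Agent.SS

/-! ## Part 0 : partition of unity for a finite family of valuation rings -/

section Partition

variable {F : Type*} [Field F] {ι : Type*} [Fintype ι] [DecidableEq ι]

/-- **partition of unity** : valuation rings `V i` of `F`, pairwise separated by elements of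
`⋂ V k` (`u ∈ 𝔪_i`, `u ∈ (V j)ˣ`), admit `ε i ∈ ⋂ V k` with `ε i ≡ 1 mod 𝔪_i`, `ε i ∈ 𝔪_j` for
`j ≠ i` and `∑ ε i = 1`. -/
theorem sqt_partition [Nonempty ι] (V : ι → ValuationSubring F)
    (sep : ∀ i j, i ≠ j → ∃ u : F, (∀ k, u ∈ V k) ∧ u ∈ (V i).nonunits ∧
      (V j).valuation u = 1) :
    ∃ ε : ι → F, (∀ i k, ε i ∈ V k) ∧ (∀ i, ε i - 1 ∈ (V i).nonunits) ∧
      (∀ i j, i ≠ j → ε i ∈ (V j).nonunits) ∧ ∑ i, ε i = 1 := by
  classical
  -- `u j i ∈ 𝔪_j`, unit at `i`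
  have hu : ∀ i j : ι, ∃ u : F, i ≠ j → (∀ k, u ∈ V k) ∧ u ∈ (V j).nonunits ∧
      (V i).valuation u = 1 := by
    intro i j
    by_cases hij : i = j
    · exact ⟨0, fun h => absurd hij h⟩
    · obtain ⟨u, h1, h2, h3⟩ := sep j i (Ne.symm hij)
      exact ⟨u, fun _ => ⟨h1, h2, h3⟩⟩
  choose u hu using hu
  -- `a i = ∏_{j ≠ i} u i j` : unit at `i`, in `𝔪_j` for `j ≠ i`
  set a : ι → F := fun i => ∏ j ∈ Finset.univ.erase i, u i j with ha
  have ha_mem : ∀ i k, (V k).valuation (a i) ≤ 1 := by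
    intro i k
    rw [ha]
    simp only [map_prod]
    refine Finset.prod_le_one' fun j hj => ?_
    exact ((V k).valuation_le_one_iff _).mpr ((hu i j (Finset.ne_of_mem_erase hj).symm).1 k)
  have ha_unit : ∀ i, (V i).valuation (a i) = 1 := by
    intro i
    rw [ha]
    simp only [map_prod]
    exact Finset.prod_eq_one fun j hj => (hu i j (Finset.ne_of_mem_erase hj).symm).2.2
  have ha_max : ∀ i j, i ≠ j → (V j).valuation (a i) < 1 := by
    intro i j hij
    have hj : j ∈ Finset.univ.erase i := Finset.mem_erase.mpr ⟨Ne.symm hij, Finset.mem_univ _⟩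
    rw [ha]
    simp only [map_prod]
    rw [← Finset.mul_prod_erase _ _ hj]
    have h1 : (V j).valuation (u i j) < 1 :=
      (ValuationSubring.mem_nonunits_iff _).mp (hu i j hij).2.1
    have h2 : ∏ x ∈ (Finset.univ.erase i).erase j, (V j).valuation (u i x) ≤ 1 := by
      refine Finset.prod_le_one' fun x hx => ?_
      have hx' : x ∈ Finset.univ.erase i := Finset.mem_of_mem_erase hx
      exact ((V j).valuation_le_one_iff _).mpr
        ((hu i x (Finset.ne_of_mem_erase hx').symm).1 j)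
    calc (V j).valuation (u i j) * ∏ x ∈ (Finset.univ.erase i).erase j, (V j).valuation (u i x)
        ≤ (V j).valuation (u i j) * 1 := mul_le_mul_right h2 _
      _ = (V j).valuation (u i j) := mul_one _
      _ < 1 := h1
  -- `s = ∑ a i` is a unit everywhere
  set s : F := ∑ i, a i with hs
  have hrest : ∀ i, (V i).valuation (∑ j ∈ Finset.univ.erase i, a j) < 1 := by
    intro i
    refine Valuation.map_sum_lt _ one_ne_zero fun j hj => ?_
    exact ha_max j i (Finset.ne_of_mem_erase hj)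
  have hs_unit : ∀ i, (V i).valuation s = 1 := by
    intro i
    have h1 : s = a i + ∑ j ∈ Finset.univ.erase i, a j := by
      rw [hs, Finset.add_sum_erase _ _ (Finset.mem_univ i)]
    rw [h1, Valuation.map_add_eq_of_lt_left _ (by rw [ha_unit i]; exact hrest i), ha_unit i]
  obtain ⟨i₀⟩ := ‹Nonempty ι›
  have hs0 : s ≠ 0 := by
    intro h0
    have := hs_unit i₀
    rw [h0, map_zero] at this
    exact zero_ne_one this
  refine ⟨fun i => a i / s, ?_, ?_, ?_, ?_⟩
  · intro i k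
    rw [← (V k).valuation_le_one_iff, map_div₀, hs_unit k, div_one]
    exact ha_mem i k
  · intro i
    have h1 : a i / s - 1 = -((∑ j ∈ Finset.univ.erase i, a j) / s) := by
      have : a i = s - ∑ j ∈ Finset.univ.erase i, a j := by
        rw [hs, ← Finset.add_sum_erase _ _ (Finset.mem_univ i)]; ring
      rw [this, sub_div, div_self hs0]; ring
    rw [ValuationSubring.mem_nonunits_iff, h1, Valuation.map_neg, map_div₀, hs_unit i, div_one]
    exact hrest i
  · intro i j hij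
    rw [ValuationSubring.mem_nonunits_iff, map_div₀, hs_unit j, div_one]
    exact ha_max i j hij
  · rw [← Finset.sum_div, ← hs, div_self hs0]

end Partition

/-! ## Part 1 : the family structure -/

section Fam

universe u

variable {A : Type*} [CommRing A] [IsDomain A] [IsDiscreteValuationRing A] [CharZero A]
variable {L : Type*} [Field L] [Algebra A L] [IsFractionRing A L]
variable {F : Type u} [Field F] [Algebra A F] [Algebra L F] [IsScalarTower A L F]
variable {ϖ : A}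

/-- THE FINITE FAMILY `V i` OF ALL EXTENSIONS OF THE GAUSS VALUATION, in field form :
`P_(ϖ) = ⋂ V i`, `π i` a uniformiser of `V i`, `v_i(π i) ^ e i = v_i(ϖ)` (`e i ≠ 0`), and the `V i`
are pairwise separated by elements of `P_(ϖ)`. -/
structure SqvFam (hϖ : Irreducible ϖ) (t : F) {ι : Type*} (V : ι → ValuationSubring F)
    (π : ι → F) (e : ι → ℕ) : Prop where
  /-- `P_(ϖ) = ⋂ V i` -/
  mem_iff : ∀ x : F, x ∈ s18tIntLoc A t (C ϖ) (s18t_prime_C hϖ) ↔ ∀ i, x ∈ V i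
  /-- `π i` is a uniformiser of `V i` -/
  unif : ∀ i, S18IsUnif (V i) (π i)
  /-- the ramification indices are nonzero -/
  e_ne : ∀ i, e i ≠ 0
  /-- `π i ^ e i = ϖ ·` unit, in valuation form -/
  pow : ∀ i, (V i).valuation (π i) ^ e i = (V i).valuation (algebraMap A F ϖ)
  /-- separation : `u ∈ P_(ϖ)`, `u ∈ 𝔪_i`, `u` a unit at `j` -/
  sep : ∀ i j, i ≠ j → ∃ u : F, (∀ k, u ∈ V k) ∧ u ∈ (V i).nonunits ∧ (V j).valuation u = 1

/-- `ϖ ≠ 0` in `F`. -/
theorem sqt_unif_ne_zero (L : Type*) [Field L] [Algebra A L] [IsFractionRing A L] [Algebra L F]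
    [IsScalarTower A L F] (hϖ : Irreducible ϖ) : algebraMap A F ϖ ≠ 0 := by
  have hinj : Function.Injective (algebraMap A F) := by
    rw [IsScalarTower.algebraMap_eq A L F]
    exact (algebraMap L F).injective.comp (IsFractionRing.injective A L)
  exact fun h0 => hϖ.ne_zero (hinj (by rw [h0, map_zero]))

/-- every element of `F` has a `ϖ`-power multiple in `P_(ϖ)` -/
theorem sqt_exists_pow_mul_mem (hϖ : Irreducible ϖ) (t : F) (ht : Transcendental L t)
    [FiniteDimensional L⟮t⟯ F] (x : F) :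
    ∃ k : ℕ, algebraMap A F ϖ ^ k * x ∈ s18tIntLoc A t (C ϖ) (s18t_prime_C hϖ) := by
  obtain ⟨r, hr0, hr⟩ := s18tlg_exists_multiple_mem_int (A := A) ht x
  obtain ⟨k, r', hr', hrr'⟩ := WfDvdMonoid.max_power_factor hr0 (s18t_prime_C hϖ).irreducible
  refine ⟨k, (s18t_intLoc_iff hϖ t _).mpr ⟨r', hr', ?_⟩⟩
  have e : aeval t r' * (algebraMap A F ϖ ^ k * x) = aeval t r * x := by
    rw [hrr', map_mul, map_pow, aeval_C]
    ring
  rw [e]
  exact hr

/-- an antitone power lemma in a value group -/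
theorem sqt_pow_le_pow {Γ : Type*} [LinearOrderedCommGroupWithZero Γ] {a : Γ} (ha : a ≤ 1)
    {n m : ℕ} (h : n ≤ m) : a ^ m ≤ a ^ n := by
  obtain ⟨k, rfl⟩ := Nat.exists_eq_add_of_le h
  rw [pow_add]
  calc a ^ n * a ^ k ≤ a ^ n * 1 := mul_le_mul_right (pow_le_one₀ zero_le ha) _
    _ = a ^ n := mul_one _

namespace SqvFam

variable {hϖ : Irreducible ϖ} {t : F} {ι : Type*} {V : ι → ValuationSubring F} {π : ι → F}
  {e : ι → ℕ}

/-- `ϖ ∈ 𝔪_i` -/
theorem unif_lt (h : SqvFam hϖ t V π e) (i : ι) : (V i).valuation (algebraMap A F ϖ) < 1 := by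
  rw [← h.pow i]
  exact pow_lt_one₀ zero_le (h.unif i).1 (h.e_ne i)

theorem unif_mem (h : SqvFam hϖ t V π e) (i : ι) : algebraMap A F ϖ ∈ (V i).nonunits :=
  (ValuationSubring.mem_nonunits_iff _).mpr (h.unif_lt i)

/-- non-units are divisible by the uniformiser -/
theorem le_pi (h : SqvFam hϖ t V π e) (i : ι) {x : F} (hx : (V i).valuation x < 1) :
    (V i).valuation x ≤ (V i).valuation (π i) := (h.unif i).2 x hx

theorem pi_le_one (h : SqvFam hϖ t V π e) (i : ι) : (V i).valuation (π i) ≤ 1 := (h.unif i).1.le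

/-- `P ⊆ V i` -/
theorem int_mem (h : SqvFam hϖ t V π e) (i : ι) {x : F} (hx : x ∈ s18tInt A t) : x ∈ V i :=
  (h.mem_iff x).mp (s18tInt_le_intLoc hϖ t hx) i

/-- `A ⊆ V i` -/
theorem algebraMap_mem (h : SqvFam hϖ t V π e) (i : ι) (a : A) : algebraMap A F a ∈ V i :=
  h.int_mem i (s18tc_algebraMap_mem_int t a)

/-- `A[t]_(ϖ) ⊆ V i` -/
theorem loc_mem (h : SqvFam hϖ t V π e) (i : ι) {x : F}
    (hx : x ∈ s18tLoc A t (C ϖ) (s18t_prime_C hϖ)) : x ∈ V i :=
  (h.mem_iff x).mp (s18tc_loc_le_intLoc t _ _ hx) i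

/-- `ϖ P_(ϖ) = {x | v_i(x) ≤ v_i(ϖ) ∀ i}` -/
theorem dvd_iff (h : SqvFam hϖ t V π e) (hp0 : algebraMap A F ϖ ≠ 0) (x : F) :
    S18DvdGauss hϖ t x ↔ ∀ i, (V i).valuation x ≤ (V i).valuation (algebraMap A F ϖ) := by
  constructor
  · rintro ⟨y, hy, rfl⟩ i
    rw [map_mul]
    calc (V i).valuation (algebraMap A F ϖ) * (V i).valuation y
        ≤ (V i).valuation (algebraMap A F ϖ) * 1 :=
          mul_le_mul_right (((V i).valuation_le_one_iff _).mpr ((h.mem_iff y).mp hy i)) _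
      _ = _ := mul_one _
  · intro hx
    refine ⟨x / algebraMap A F ϖ, (h.mem_iff _).mpr fun i => ?_, by field_simp⟩
    rw [← (V i).valuation_le_one_iff, map_div₀]
    have h0 : (V i).valuation (algebraMap A F ϖ) ≠ 0 := (Valuation.ne_zero_iff _).mpr hp0
    exact (div_le_one₀ (zero_lt_iff.mpr h0)).mpr (hx i)

/-- if all `e i = 1` : `ϖ P_(ϖ) = ⋂ 𝔪_i` -/
theorem dvd_iff_of_unram (h : SqvFam hϖ t V π e) (hp0 : algebraMap A F ϖ ≠ 0)
    (he : ∀ i, e i = 1) (x : F) :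
    S18DvdGauss hϖ t x ↔ ∀ i, x ∈ (V i).nonunits := by
  rw [h.dvd_iff hp0]
  refine forall_congr' fun i => ?_
  rw [ValuationSubring.mem_nonunits_iff]
  constructor
  · intro hx; exact lt_of_le_of_lt hx (h.unif_lt i)
  · intro hx
    have := h.le_pi i hx
    rwa [← h.pow i, he i, pow_one]

/-- the archimedean property, uniformly in `i` -/
theorem arch (h : SqvFam hϖ t V π e) (ht : Transcendental L t) [FiniteDimensional L⟮t⟯ F]
    (x : F) : ∃ k : ℕ, ∀ i, (V i).valuation (algebraMap A F ϖ ^ k * x) ≤ 1 := by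
  obtain ⟨k, hk⟩ := sqt_exists_pow_mul_mem (L := L) hϖ t ht x
  exact ⟨k, fun i => ((V i).valuation_le_one_iff _).mpr ((h.mem_iff _).mp hk i)⟩

/-- the archimedean property for a finite family of elements -/
theorem arch_fam (h : SqvFam hϖ t V π e) (ht : Transcendental L t) [FiniteDimensional L⟮t⟯ F]
    {κ : Type*} [Fintype κ] (x : κ → F) :
    ∃ K : ℕ, ∀ j i, (V i).valuation (algebraMap A F ϖ ^ K * x j) ≤ 1 := by
  classical
  have hk : ∀ j, ∃ k : ℕ, ∀ i, (V i).valuation (algebraMap A F ϖ ^ k * x j) ≤ 1 :=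
    fun j => h.arch ht (x j)
  choose k hk using hk
  refine ⟨∑ j, k j, fun j i => ?_⟩
  have hle : k j ≤ ∑ j, k j := Finset.single_le_sum (fun _ _ => Nat.zero_le _) (Finset.mem_univ j)
  obtain ⟨d, hd⟩ := Nat.exists_eq_add_of_le hle
  rw [hd, pow_add, mul_comm (algebraMap A F ϖ ^ k j), mul_assoc, map_mul, map_pow]
  calc (V i).valuation (algebraMap A F ϖ) ^ d * (V i).valuation (algebraMap A F ϖ ^ k j * x j)
      ≤ 1 * 1 := mul_le_mul' (pow_le_one₀ zero_le (h.unif_lt i).le) (hk j i)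
    _ = 1 := one_mul _

/-! ### discreteness, `x ≡ 1 ⟹ x⁻¹ ≡ 1` -/

/-- from `y ≡ 1 mod 𝔪` : `v(y) = 1` -/
theorem val_eq_one_of_sub_one {W : ValuationSubring F} {y : F} (hy : W.valuation (y - 1) < 1) :
    W.valuation y = 1 := by
  have : y = 1 + (y - 1) := by ring
  rw [this]
  exact W.valuation.map_one_add_of_lt hy

/-- the uniformisers are nonzero -/
theorem pi_ne_zero (h : SqvFam hϖ t V π e) (hp0 : algebraMap A F ϖ ≠ 0) (i : ι) : π i ≠ 0 := by
  intro h0
  have := h.pow i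
  rw [h0, map_zero, zero_pow (h.e_ne i)] at this
  exact (Valuation.ne_zero_iff _).mpr hp0 this.symm

/-- discreteness on `V i` : every nonzero `y ∈ V i` has `v_i(y) = v_i(π i) ^ n`. -/
theorem exists_pow_of_mem (h : SqvFam hϖ t V π e) (ht : Transcendental L t)
    [FiniteDimensional L⟮t⟯ F] (i : ι) {y : F} (hy0 : y ≠ 0) (hy : y ∈ V i) :
    ∃ n : ℕ, (V i).valuation y = (V i).valuation (π i) ^ n := by
  classical
  have hp0 : algebraMap A F ϖ ≠ 0 := sqt_unif_ne_zero L hϖ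
  have hy1 : (V i).valuation y ≤ 1 := ((V i).valuation_le_one_iff _).mpr hy
  have hyv : (V i).valuation y ≠ 0 := (Valuation.ne_zero_iff _).mpr hy0
  have hπv : (V i).valuation (π i) ≠ 0 := (Valuation.ne_zero_iff _).mpr (h.pi_ne_zero hp0 i)
  -- some power of `π i` is `≤ v(y)`
  have hex : ∃ n : ℕ, (V i).valuation (π i) ^ n ≤ (V i).valuation y := by
    obtain ⟨K, hK⟩ := h.arch ht y⁻¹
    refine ⟨e i * K, ?_⟩
    have := hK i
    rw [map_mul, map_pow, map_inv₀] at this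
    have h2 := (mul_inv_le_iff₀ (zero_lt_iff.mpr hyv)).mp this
    rw [one_mul] at h2
    rwa [pow_mul, h.pow i]
  have hn := Nat.find_spec hex
  set n := Nat.find hex with hndef
  refine ⟨n, le_antisymm ?_ hn⟩
  rcases Nat.eq_zero_or_pos n with h0 | hpos
  · rw [h0, pow_zero]; exact hy1
  · have hlt : ¬ (V i).valuation (π i) ^ (n - 1) ≤ (V i).valuation y :=
      Nat.find_min hex (by omega)
    rw [not_le] at hlt
    -- `y / π^(n-1) ∈ 𝔪_i`
    have h1 : (V i).valuation (y / π i ^ (n - 1)) < 1 := by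
      rw [map_div₀, map_pow]
      exact (div_lt_one₀ (zero_lt_iff.mpr (pow_ne_zero _ hπv))).mpr hlt
    have h2 := h.le_pi i h1
    rw [map_div₀, map_pow, div_le_iff₀ (zero_lt_iff.mpr (pow_ne_zero _ hπv)), ← pow_succ'] at h2
    rwa [Nat.sub_add_cancel hpos] at h2

/-- **discreteness** : every `x ∈ Fˣ` has `v_i(x) = v_i(π i) ^ m`, `m ∈ ℤ`. -/
theorem exists_zpow (h : SqvFam hϖ t V π e) (ht : Transcendental L t)
    [FiniteDimensional L⟮t⟯ F] (i : ι) {x : F} (hx : x ≠ 0) :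
    ∃ m : ℤ, (V i).valuation x = (V i).valuation (π i) ^ m := by
  have hp0 : algebraMap A F ϖ ≠ 0 := sqt_unif_ne_zero L hϖ
  have hπv : (V i).valuation (π i) ≠ 0 := (Valuation.ne_zero_iff _).mpr (h.pi_ne_zero hp0 i)
  obtain ⟨k, hk⟩ := h.arch ht x
  have hy0 : algebraMap A F ϖ ^ k * x ≠ 0 := mul_ne_zero (pow_ne_zero _ hp0) hx
  obtain ⟨n, hn⟩ := h.exists_pow_of_mem ht i hy0 (((V i).valuation_le_one_iff _).mp (hk i))
  refine ⟨(n : ℤ) - ((e i * k : ℕ) : ℤ), ?_⟩
  rw [map_mul, map_pow, ← h.pow i, ← pow_mul] at hn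
  rw [zpow_sub₀ hπv, zpow_natCast, zpow_natCast, eq_div_iff (pow_ne_zero _ hπv), mul_comm]
  exact hn

/-- `x ≡ 1 ⟹ x⁻¹ ≡ 1 mod ϖ P_(ϖ)` -/
theorem inv_sub_one (h : SqvFam hϖ t V π e) (hp0 : algebraMap A F ϖ ≠ 0) {x : F}
    (hx : S18DvdGauss hϖ t (x - 1)) : S18DvdGauss hϖ t (x⁻¹ - 1) := by
  rw [h.dvd_iff hp0] at hx ⊢
  intro i
  have h1 : (V i).valuation x = 1 :=
    val_eq_one_of_sub_one (lt_of_le_of_lt (hx i) (h.unif_lt i))
  have hx0 : x ≠ 0 := by
    intro h0; rw [h0, map_zero] at h1; exact zero_ne_one h1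
  have h2 : x⁻¹ - 1 = -((x - 1) * x⁻¹) := by field_simp; ring
  rw [h2, Valuation.map_neg, map_mul, map_inv₀, h1, inv_one, mul_one]
  exact hx i

/-- `x ≡ 1` is a unit of every `V i` -/
theorem val_eq_one_of_dvd (h : SqvFam hϖ t V π e) (hp0 : algebraMap A F ϖ ≠ 0) {x : F}
    (hx : S18DvdGauss hϖ t (x - 1)) (i : ι) : (V i).valuation x = 1 :=
  val_eq_one_of_sub_one (lt_of_le_of_lt ((h.dvd_iff hp0 _).mp hx i) (h.unif_lt i))

/-- polynomials in `t` not divisible by `ϖ` are units of every `V i` -/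
theorem gauss_unit (h : SqvFam hϖ t V π e) (ht : Transcendental L t) (i : ι) {b : A[X]}
    (hb : ¬ (C ϖ ∣ b)) : (V i).valuation (aeval t b) = 1 := by
  have htA : Transcendental A t := s18tb_transcendental ht
  have hb0 : aeval t b ≠ 0 := s18tlg_aeval_ne_zero htA (s18tlg_ne_zero_of_not_dvd hb)
  have h1 : (V i).valuation (aeval t b) ≤ 1 :=
    ((V i).valuation_le_one_iff _).mpr
      (h.int_mem i (s18ta_chart_le_int t (s18tb_aeval_mem_chart t b)))
  have h2 : (V i).valuation (aeval t b)⁻¹ ≤ 1 := by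
    refine ((V i).valuation_le_one_iff _).mpr (h.loc_mem i ?_)
    have := s18tlg_div_mem_loc htA (C ϖ) (s18t_prime_C hϖ) 1 hb
    simpa using this
  rw [map_inv₀] at h2
  have hv0 : (V i).valuation (aeval t b) ≠ 0 := (Valuation.ne_zero_iff _).mpr hb0
  refine le_antisymm h1 ?_
  have := (inv_le_one₀ (zero_lt_iff.mpr hv0)).mp h2
  exact this

/-! ### approximation -/

section Approx

variable [Fintype ι] [DecidableEq ι] [Nonempty ι]

/-- sharpened partition of unity : `E i ≡ 1 mod ϖ^M V i`, `E i ∈ ϖ^M V j` for `j ≠ i`. -/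
theorem sharp (h : SqvFam hϖ t V π e) (M : ℕ) :
    ∃ E : ι → F, (∀ i, (V i).valuation (E i - 1) ≤ (V i).valuation (algebraMap A F ϖ) ^ M) ∧
      (∀ i j, i ≠ j → (V j).valuation (E i) ≤ (V j).valuation (algebraMap A F ϖ) ^ M) := by
  obtain ⟨ε, hε_mem, hε_one, hε_max, -⟩ := sqt_partition V h.sep
  obtain ⟨m, hm⟩ : ∃ m : ℕ, m = M * ∑ i, e i := ⟨_, rfl⟩
  -- `v_j(π j) ^ m ≤ v_j(ϖ) ^ M`
  have hpow : ∀ j, (V j).valuation (π j) ^ m ≤ (V j).valuation (algebraMap A F ϖ) ^ M := by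
    intro j
    have hle : e j * M ≤ m := by
      rw [hm, mul_comm]
      exact Nat.mul_le_mul_left M
        (Finset.single_le_sum (fun _ _ => Nat.zero_le _) (Finset.mem_univ j))
    calc (V j).valuation (π j) ^ m ≤ (V j).valuation (π j) ^ (e j * M) :=
          sqt_pow_le_pow (h.pi_le_one j) hle
      _ = (V j).valuation (algebraMap A F ϖ) ^ M := by rw [pow_mul, h.pow j]
  refine ⟨fun i => 1 - (1 - ε i ^ m) ^ m, ?_, ?_⟩
  · intro i
    have h1 : (1 : F) - (1 - ε i ^ m) ^ m - 1 = -((1 - ε i ^ m) ^ m) := by ring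
    rw [h1, Valuation.map_neg, map_pow]
    -- `1 - ε i ^ m ∈ 𝔪_i`
    have h2 : (V i).valuation (1 - ε i ^ m) < 1 := by
      have h3 : (V i).valuation (ε i - 1) < 1 := (ValuationSubring.mem_nonunits_iff _).mp (hε_one i)
      have h4 : (V i).valuation (ε i) ≤ 1 := ((V i).valuation_le_one_iff _).mpr (hε_mem i i)
      obtain ⟨c, hc⟩ : ∃ c : F, c = ∑ k ∈ Finset.range m, ε i ^ k := ⟨_, rfl⟩
      have h5 : 1 - ε i ^ m = -((ε i - 1) * c) := by
        have := geom_sum_mul (ε i) m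
        rw [← hc] at this
        linear_combination this
      have hc1 : (V i).valuation c ≤ 1 := by
        rw [hc]
        refine Valuation.map_sum_le _ fun k _ => ?_
        rw [map_pow]
        exact pow_le_one₀ zero_le h4
      rw [h5, Valuation.map_neg, map_mul]
      calc (V i).valuation (ε i - 1) * (V i).valuation c ≤ (V i).valuation (ε i - 1) * 1 :=
            mul_le_mul_right hc1 _
        _ = _ := mul_one _
        _ < 1 := h3
    calc (V i).valuation (1 - ε i ^ m) ^ m ≤ (V i).valuation (π i) ^ m :=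
          pow_le_pow_left₀ zero_le (h.le_pi i h2) m
      _ ≤ _ := hpow i
  · intro i j hij
    -- `1 - (1 - y)^m = y * ∑ (1-y)^k`
    obtain ⟨y, hy⟩ : ∃ y : F, y = ε i ^ m := ⟨_, rfl⟩
    obtain ⟨g, hg⟩ : ∃ g : F, g = ∑ k ∈ Finset.range m, (1 - y) ^ k := ⟨_, rfl⟩
    have h1 : (1 : F) - (1 - y) ^ m = y * g := by
      have := geom_sum_mul (1 - y) m
      rw [← hg] at this
      linear_combination this
    have hyv : (V j).valuation y ≤ (V j).valuation (π j) ^ m := by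
      rw [hy, map_pow]
      exact pow_le_pow_left₀ zero_le
        (h.le_pi j ((ValuationSubring.mem_nonunits_iff _).mp (hε_max i j hij))) m
    have hy1 : (V j).valuation y ≤ 1 := hyv.trans (pow_le_one₀ zero_le (h.pi_le_one j))
    have hsum : (V j).valuation g ≤ 1 := by
      rw [hg]
      refine Valuation.map_sum_le _ fun k _ => ?_
      rw [map_pow]
      refine pow_le_one₀ zero_le ?_
      exact (V j).valuation.map_sub_le (le_of_eq (map_one _)) hy1
    show (V j).valuation (1 - (1 - ε i ^ m) ^ m) ≤ _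
    rw [← hy, h1, map_mul]
    calc (V j).valuation y * (V j).valuation g
        ≤ (V j).valuation y * 1 := mul_le_mul_right hsum _
      _ = (V j).valuation y := mul_one _
      _ ≤ _ := hyv.trans (hpow j)

/-- **APPROXIMATION THEOREM** : for every family `x i ∈ F` and every `N` there is `ω ∈ F` with
`ω ≡ x i mod ϖ^N V i` for all `i`. -/
theorem approx (h : SqvFam hϖ t V π e) (ht : Transcendental L t) [FiniteDimensional L⟮t⟯ F]
    (x : ι → F) (N : ℕ) :
    ∃ ω : F, ∀ i, (V i).valuation (ω - x i) ≤ (V i).valuation (algebraMap A F ϖ) ^ N := by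
  obtain ⟨K, hK⟩ := h.arch_fam ht x
  obtain ⟨E, hE1, hE2⟩ := h.sharp (N + K)
  refine ⟨∑ j, E j * x j, fun i => ?_⟩
  have h1 : ∑ j, E j * x j - x i = (E i - 1) * x i + ∑ j ∈ Finset.univ.erase i, E j * x j := by
    rw [← Finset.add_sum_erase _ _ (Finset.mem_univ i)]; ring
  rw [h1]
  have key : ∀ (c : F) (j : ι),
      (V i).valuation c ≤ (V i).valuation (algebraMap A F ϖ) ^ (N + K) →
      (V i).valuation (c * x j) ≤ (V i).valuation (algebraMap A F ϖ) ^ N := by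
    intro c j hc
    rw [map_mul]
    calc (V i).valuation c * (V i).valuation (x j)
        ≤ (V i).valuation (algebraMap A F ϖ) ^ (N + K) * (V i).valuation (x j) :=
          mul_le_mul_left hc _
      _ = (V i).valuation (algebraMap A F ϖ) ^ N *
            (V i).valuation (algebraMap A F ϖ ^ K * x j) := by
          rw [pow_add, map_mul, map_pow, mul_assoc]
      _ ≤ (V i).valuation (algebraMap A F ϖ) ^ N * 1 := mul_le_mul_right (hK j i) _
      _ = _ := mul_one _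
  exact (V i).valuation.map_add_le (key _ i (hE1 i))
    ((V i).valuation.map_sum_le fun j hj => key _ j (hE2 j i (Finset.ne_of_mem_erase hj)))

/-- **CRT onto `∏ κ(V i)`** : `x i ∈ V i` ⟹ `∃ ω ∈ P_(ϖ)`, `ω ≡ x i mod 𝔪_i`. -/
theorem crt (h : SqvFam hϖ t V π e) (ht : Transcendental L t) [FiniteDimensional L⟮t⟯ F]
    (x : ι → F) (hx : ∀ i, x i ∈ V i) :
    ∃ ω : F, ω ∈ s18tIntLoc A t (C ϖ) (s18t_prime_C hϖ) ∧ ∀ i, ω - x i ∈ (V i).nonunits := by
  obtain ⟨ω, hω⟩ := h.approx ht x 1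
  have h1 : ∀ i, (V i).valuation (ω - x i) < 1 := fun i => by
    have := hω i
    rw [pow_one] at this
    exact lt_of_le_of_lt this (h.unif_lt i)
  refine ⟨ω, (h.mem_iff ω).mpr fun i => ?_, fun i => (ValuationSubring.mem_nonunits_iff _).mpr (h1 i)⟩
  have : ω = (ω - x i) + x i := by ring
  rw [this]
  exact (V i).add_mem _ _ (((V i).valuation_le_one_iff _).mp (h1 i).le) (hx i)

/-- **WEAK APPROXIMATION**, units form : `∀ x i ∈ Fˣ, ∃ ω ∈ Fˣ, ω / x i ∈ 1 + 𝔪_i`. -/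
theorem weak_approx (h : SqvFam hϖ t V π e) (ht : Transcendental L t) [FiniteDimensional L⟮t⟯ F]
    (x : ι → Fˣ) : ∃ ω : Fˣ, ∀ i, ω / x i ∈ (V i).principalUnitGroup := by
  have hp0 : algebraMap A F ϖ ≠ 0 := sqt_unif_ne_zero L hϖ
  obtain ⟨K, hK⟩ := h.arch_fam ht (fun j => ((x j : F))⁻¹)
  obtain ⟨ω, hω⟩ := h.approx ht (fun j => (x j : F)) (K + 1)
  -- `v_i(ϖ)^(K+1) < v_i(x i)`
  have hlt : ∀ i, (V i).valuation (algebraMap A F ϖ) ^ (K + 1) < (V i).valuation (x i : F) := by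
    intro i
    have hx0 : (V i).valuation (x i : F) ≠ 0 := (Valuation.ne_zero_iff _).mpr (x i).ne_zero
    have hpv : (V i).valuation (algebraMap A F ϖ) ≠ 0 := (Valuation.ne_zero_iff _).mpr hp0
    have h1 : (V i).valuation (algebraMap A F ϖ) ^ K ≤ (V i).valuation (x i : F) := by
      have := hK i i
      rw [map_mul, map_pow, map_inv₀] at this
      have h2 := (mul_inv_le_iff₀ (zero_lt_iff.mpr hx0)).mp this
      rwa [one_mul] at h2
    calc (V i).valuation (algebraMap A F ϖ) ^ (K + 1)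
        = (V i).valuation (algebraMap A F ϖ) ^ K * (V i).valuation (algebraMap A F ϖ) := pow_succ _ _
      _ < (V i).valuation (algebraMap A F ϖ) ^ K * 1 :=
          mul_lt_mul_of_pos_left (h.unif_lt i) (zero_lt_iff.mpr (pow_ne_zero _ hpv))
      _ = _ := mul_one _
      _ ≤ _ := h1
  have hω0 : ω ≠ 0 := by
    obtain ⟨i⟩ := ‹Nonempty ι›
    intro h0
    have := hω i
    rw [h0, zero_sub, Valuation.map_neg] at this
    exact absurd (lt_of_le_of_lt this (hlt i)) (lt_irrefl _)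
  refine ⟨Units.mk0 ω hω0, fun i => ?_⟩
  rw [ValuationSubring.mem_principalUnitGroup_iff]
  have hx0 : (x i : F) ≠ 0 := (x i).ne_zero
  have h1 : ((Units.mk0 ω hω0 / x i : Fˣ) : F) - 1 = (ω - (x i : F)) / (x i : F) := by
    rw [Units.val_div_eq_div_val, Units.val_mk0]
    field_simp
  rw [h1, map_div₀]
  have hx0' : (V i).valuation (x i : F) ≠ 0 := (Valuation.ne_zero_iff _).mpr hx0
  exact (div_lt_one₀ (zero_lt_iff.mpr hx0')).mpr (lt_of_le_of_lt (hω i) (hlt i))

/-- **prescribed valuations** : `∃ H ∈ Fˣ`, `v_i(H) = v_i(π i) ^ m i` for all `i`. -/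
theorem exists_val (h : SqvFam hϖ t V π e) (ht : Transcendental L t) [FiniteDimensional L⟮t⟯ F]
    (m : ι → ℤ) :
    ∃ H : F, H ≠ 0 ∧ ∀ i, (V i).valuation H = (V i).valuation (π i) ^ m i := by
  have hp0 : algebraMap A F ϖ ≠ 0 := sqt_unif_ne_zero L hϖ
  obtain ⟨ω, hω⟩ := h.weak_approx ht
    (fun i => Units.mk0 (π i ^ m i) (zpow_ne_zero _ (h.pi_ne_zero hp0 i)))
  refine ⟨(ω : F), ω.ne_zero, fun i => ?_⟩
  have h1 := hω i
  rw [ValuationSubring.mem_principalUnitGroup_iff] at h1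
  have h2 := val_eq_one_of_sub_one h1
  rw [Units.val_div_eq_div_val, Units.val_mk0, map_div₀, map_zpow₀] at h2
  have h3 : (V i).valuation (π i) ^ m i ≠ 0 :=
    zpow_ne_zero _ ((Valuation.ne_zero_iff _).mpr (h.pi_ne_zero hp0 i))
  exact (div_eq_one_iff_eq h3).mp h2

/-- an element of `P_(ϖ)` lying in `𝔪_j` for all `j ≠ i` clears the denominators of `x ∈ V i`. -/
theorem sep_pow_mul_mem (h : SqvFam hϖ t V π e) (ht : Transcendental L t)
    [FiniteDimensional L⟮t⟯ F] (i : ι) {ε : F} (hε_mem : ∀ k, ε ∈ V k)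
    (hε_max : ∀ j, i ≠ j → ε ∈ (V j).nonunits) {x : F} (hx : x ∈ V i) :
    ∃ N : ℕ, ε ^ N * x ∈ s18tIntLoc A t (C ϖ) (s18t_prime_C hϖ) := by
  obtain ⟨k, hk⟩ := h.arch ht x
  refine ⟨k * ∑ j, e j, (h.mem_iff _).mpr fun j => ?_⟩
  rw [← (V j).valuation_le_one_iff, map_mul, map_pow]
  by_cases hij : i = j
  · subst hij
    calc (V i).valuation ε ^ (k * ∑ j, e j) * (V i).valuation x ≤ 1 * 1 :=
          mul_le_mul' (pow_le_one₀ zero_le (((V i).valuation_le_one_iff _).mpr (hε_mem i)))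
            (((V i).valuation_le_one_iff _).mpr hx)
      _ = 1 := one_mul _
  · have h1 : (V j).valuation ε ≤ (V j).valuation (π j) :=
      h.le_pi j ((ValuationSubring.mem_nonunits_iff _).mp (hε_max j hij))
    have hle : e j * k ≤ k * ∑ j, e j := by
      rw [mul_comm]
      exact Nat.mul_le_mul_left k
        (Finset.single_le_sum (fun _ _ => Nat.zero_le _) (Finset.mem_univ j))
    have h2 : (V j).valuation ε ^ (k * ∑ j, e j) ≤ (V j).valuation (algebraMap A F ϖ) ^ k :=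
      calc (V j).valuation ε ^ (k * ∑ j, e j) ≤ (V j).valuation (π j) ^ (k * ∑ j, e j) :=
            pow_le_pow_left₀ zero_le h1 _
        _ ≤ (V j).valuation (π j) ^ (e j * k) := sqt_pow_le_pow (h.pi_le_one j) hle
        _ = _ := by rw [pow_mul, h.pow j]
    calc (V j).valuation ε ^ (k * ∑ j, e j) * (V j).valuation x
        ≤ (V j).valuation (algebraMap A F ϖ) ^ k * (V j).valuation x := mul_le_mul_left h2 _
      _ = (V j).valuation (algebraMap A F ϖ ^ k * x) := by rw [map_mul, map_pow]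
      _ ≤ 1 := hk j

/-- **completeness of the list** : every valuation ring of `F` above the Gauss valuation ring with
`ϖ` a non-unit is one of the `V i`. -/
theorem cases (h : SqvFam hϖ t V π e) (ht : Transcendental L t) [FiniteDimensional L⟮t⟯ F]
    (W : ValuationSubring F) (hW : s18tLoc A t (C ϖ) (s18t_prime_C hϖ) ≤ W.toSubring)
    (hϖW : algebraMap A F ϖ ∈ W.nonunits) : ∃ i, W = V i := by
  have hp0 : algebraMap A F ϖ ≠ 0 := sqt_unif_ne_zero L hϖ
  -- `P_(ϖ) ⊆ W`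
  have hBW : ∀ x : F, x ∈ s18tIntLoc A t (C ϖ) (s18t_prime_C hϖ) → x ∈ W := by
    intro x hx
    obtain ⟨p, hp, hpx⟩ := (mem_s18tIntLoc A).mp hx
    have h2 : IsIntegral ↥W x := by
      refine ⟨p.map (Subring.inclusion hW), hp.map _, ?_⟩
      rw [eval₂_map]
      exact hpx
    obtain ⟨z, hz⟩ := IsIntegrallyClosed.isIntegral_iff.mp h2
    rw [← hz]
    exact z.2
  obtain ⟨ε, hε_mem, hε_one, hε_max, hsum⟩ := sqt_partition V h.sep
  -- some `ε i` is a unit of `W`
  have hex : ∃ i, W.valuation (ε i) = 1 := by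
    by_contra hcon
    push Not at hcon
    have hlt : ∀ i, W.valuation (ε i) < 1 := fun i =>
      lt_of_le_of_ne ((W.valuation_le_one_iff _).mpr (hBW _ ((h.mem_iff _).mpr (hε_mem i))))
        (hcon i)
    have : W.valuation (∑ i, ε i) < 1 :=
      W.valuation.map_sum_lt one_ne_zero fun i _ => hlt i
    rw [hsum, map_one] at this
    exact lt_irrefl _ this
  obtain ⟨i, hi⟩ := hex
  refine ⟨i, le_antisymm ?_ ?_⟩
  · -- `W ≤ V i`
    intro x hx
    by_contra hxi
    have h1 : (V i).valuation x⁻¹ < 1 := by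
      rw [← (V i).valuation_le_one_iff, not_le] at hxi
      rw [map_inv₀]
      exact inv_lt_one_of_one_lt₀ hxi
    have h2 : (V i).valuation (x⁻¹ ^ e i) ≤ (V i).valuation (algebraMap A F ϖ) := by
      rw [map_pow, ← h.pow i]
      exact pow_le_pow_left₀ zero_le (h.le_pi i h1) _
    -- `x⁻¹ ^ e / ϖ ∈ V i`
    obtain ⟨N, hN⟩ := h.sep_pow_mul_mem ht i (hε_mem i) (fun j hij => hε_max i j hij)
      (x := x⁻¹ ^ e i / algebraMap A F ϖ) (by
        rw [← (V i).valuation_le_one_iff, map_div₀]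
        exact (div_le_one₀ (zero_lt_iff.mpr ((Valuation.ne_zero_iff _).mpr hp0))).mpr h2)
    have h3 := (W.valuation_le_one_iff _).mpr (hBW _ hN)
    rw [map_mul, map_pow, hi, one_pow, one_mul, map_div₀, map_pow, map_inv₀] at h3
    have hWp : W.valuation (algebraMap A F ϖ) < 1 := (ValuationSubring.mem_nonunits_iff _).mp hϖW
    have hWp0 : W.valuation (algebraMap A F ϖ) ≠ 0 := (Valuation.ne_zero_iff _).mpr hp0
    have h4 : (W.valuation x)⁻¹ ^ e i ≤ W.valuation (algebraMap A F ϖ) := by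
      have := (div_le_one₀ (zero_lt_iff.mpr hWp0)).mp h3
      exact this
    have h5 : (1 : W.ValueGroup) ≤ (W.valuation x)⁻¹ := by
      have hx1 : W.valuation x ≤ 1 := (W.valuation_le_one_iff _).mpr hx
      by_cases hx0 : W.valuation x = 0
      · -- then `x = 0`, but `0 ∈ V i`
        exfalso
        have : x = 0 := (Valuation.zero_iff _).mp hx0
        exact hxi (this ▸ (V i).zero_mem)
      · exact (one_le_inv₀ (zero_lt_iff.mpr hx0)).mpr hx1
    have h6 : (1 : W.ValueGroup) ≤ (W.valuation x)⁻¹ ^ e i := one_le_pow₀ h5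
    exact absurd (lt_of_le_of_lt (h6.trans h4) hWp) (lt_irrefl _)
  · -- `V i ≤ W`
    intro x hx
    obtain ⟨N, hN⟩ := h.sep_pow_mul_mem ht i (hε_mem i) (fun j hij => hε_max i j hij) hx
    have h3 := (W.valuation_le_one_iff _).mpr (hBW _ hN)
    rw [map_mul, map_pow, hi, one_pow, one_mul] at h3
    exact (W.valuation_le_one_iff _).mp h3

/-- **`V i` is `P` localised at `𝔭_i = P ∩ 𝔪_i`** : every `x ∈ V i` is `a / b` with `a, b ∈ P`,
`b` a unit of `V i`. -/
theorem exists_frac (h : SqvFam hϖ t V π e) (ht : Transcendental L t) [FiniteDimensional L⟮t⟯ F]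
    (i : ι) {x : F} (hx : x ∈ V i) :
    ∃ a b : F, a ∈ s18tInt A t ∧ b ∈ s18tInt A t ∧ (V i).valuation b = 1 ∧ x * b = a := by
  obtain ⟨ε, hε_mem, hε_one, hε_max, -⟩ := sqt_partition V h.sep
  have hεi : (V i).valuation (ε i) = 1 :=
    val_eq_one_of_sub_one ((ValuationSubring.mem_nonunits_iff _).mp (hε_one i))
  obtain ⟨N, hN⟩ := h.sep_pow_mul_mem ht i (hε_mem i) (fun j hij => hε_max i j hij) hx
  have hεN : ε i ^ N ∈ s18tIntLoc A t (C ϖ) (s18t_prime_C hϖ) :=
    (h.mem_iff _).mpr fun k => (V k).pow_mem (hε_mem i k) N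
  obtain ⟨b₀, hb₀, hb₀x⟩ := (s18t_intLoc_iff hϖ t _).mp hN
  obtain ⟨b₁, hb₁, hb₁x⟩ := (s18t_intLoc_iff hϖ t _).mp hεN
  have hc₀ : aeval t b₀ ∈ s18tInt A t := s18ta_chart_le_int t (s18tb_aeval_mem_chart t b₀)
  have hc₁ : aeval t b₁ ∈ s18tInt A t := s18ta_chart_le_int t (s18tb_aeval_mem_chart t b₁)
  refine ⟨aeval t b₁ * (aeval t b₀ * (ε i ^ N * x)), aeval t b₀ * (aeval t b₁ * ε i ^ N),
    Subring.mul_mem _ hc₁ hb₀x, Subring.mul_mem _ hc₀ hb₁x, ?_, by ring⟩
  rw [map_mul, map_mul, map_pow, hεi, one_pow, mul_one, h.gauss_unit ht i hb₀,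
    h.gauss_unit ht i hb₁, one_mul]

end Approx

/-! ### the radical of `P_(ϖ)` and the global NEWTON step -/

section Newton

/-- the ideal `{x ∈ P_(ϖ) | v_i(x) ≤ v_i(π i) ^ k ∀ i}` of `P_(ϖ)` (`k = 1` : the radical). -/
def radPow (h : SqvFam hϖ t V π e) (k : ℕ) :
    Ideal ↥(s18tIntLoc A t (C ϖ) (s18t_prime_C hϖ)) where
  carrier := {x | ∀ i, (V i).valuation (x : F) ≤ (V i).valuation (π i) ^ k}
  add_mem' := by
    intro x y hx hy i
    exact (V i).valuation.map_add_le (hx i) (hy i)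
  zero_mem' := by
    intro i
    simp
  smul_mem' := by
    intro c x hx i
    have hc : (V i).valuation (c : F) ≤ 1 :=
      ((V i).valuation_le_one_iff _).mpr ((h.mem_iff _).mp c.2 i)
    show (V i).valuation ((c : F) * (x : F)) ≤ _
    rw [map_mul]
    calc (V i).valuation (c : F) * (V i).valuation (x : F)
        ≤ 1 * (V i).valuation (π i) ^ k := mul_le_mul' hc (hx i)
      _ = _ := one_mul _

theorem mem_radPow (h : SqvFam hϖ t V π e) (k : ℕ)
    (x : ↥(s18tIntLoc A t (C ϖ) (s18t_prime_C hϖ))) :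
    x ∈ h.radPow k ↔ ∀ i, (V i).valuation (x : F) ≤ (V i).valuation (π i) ^ k := Iff.rfl

/-- `rad ^ k ⊆ radPow k` -/
theorem rad_pow_le (h : SqvFam hϖ t V π e) (k : ℕ) : h.radPow 1 ^ k ≤ h.radPow k := by
  induction k with
  | zero =>
    intro x _ i
    rw [pow_zero]
    exact ((V i).valuation_le_one_iff _).mpr ((h.mem_iff _).mp x.2 i)
  | succ k ih =>
    rw [pow_succ]
    refine (Ideal.mul_mono_left ih).trans ?_
    rw [Ideal.mul_le]
    intro r hr s hs i
    show (V i).valuation ((r : F) * (s : F)) ≤ _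
    rw [map_mul, pow_succ]
    have := hs i
    rw [pow_one] at this
    exact mul_le_mul' (hr i) this

/-- **global NEWTON step** : `g ≡ 1 mod 𝔪_i` for all `i`, `n` a unit of `A` ⟹ there is
`ψ ≡ 1 mod 𝔪_i` (all `i`) with `g / ψ ^ n ≡ 1 mod ϖ P_(ϖ)`. -/
theorem newton [Fintype ι] (h : SqvFam hϖ t V π e) (hp0 : algebraMap A F ϖ ≠ 0) (n : ℕ)
    (hn : IsUnit (n : A)) {g : F} (hg : ∀ i, g - 1 ∈ (V i).nonunits) :
    ∃ ψ : F, ψ ≠ 0 ∧ (∀ i, ψ - 1 ∈ (V i).nonunits) ∧ S18DvdGauss hϖ t (g / ψ ^ n - 1) := by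
  classical
  -- `g ∈ P_(ϖ)`
  have hgB : g ∈ s18tIntLoc A t (C ϖ) (s18t_prime_C hϖ) := (h.mem_iff _).mpr fun i => by
    have h1 : (V i).valuation (g - 1) < 1 := (ValuationSubring.mem_nonunits_iff _).mp (hg i)
    exact ((V i).valuation_le_one_iff _).mp (le_of_eq (val_eq_one_of_sub_one h1))
  -- `n` is a unit of `P_(ϖ)`
  have hnB : IsUnit ((n : ℕ) : ↥(s18tIntLoc A t (C ϖ) (s18t_prime_C hϖ))) := by
    let φ : A →+* ↥(s18tIntLoc A t (C ϖ) (s18t_prime_C hϖ)) :=
      (algebraMap A F).codRestrict _ fun a =>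
        s18tInt_le_intLoc hϖ t (s18tc_algebraMap_mem_int t a)
    have := hn.map φ
    rwa [map_natCast] at this
  -- `g - 1 ∈ rad`
  have hw : (⟨g, hgB⟩ : ↥(s18tIntLoc A t (C ϖ) (s18t_prime_C hϖ))) - 1 ∈ h.radPow 1 := by
    intro i
    rw [pow_one]
    exact h.le_pi i ((ValuationSubring.mem_nonunits_iff _).mp (hg i))
  obtain ⟨ψ, hψ1, hψn⟩ := sqn_root (h.radPow 1) n hnB ⟨g, hgB⟩ hw (∑ i, e i)
  have hψn' := h.rad_pow_le _ hψn
  have hψv : ∀ i, (V i).valuation ((ψ : F) - 1) < 1 := fun i => by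
    have := hψ1 i
    rw [pow_one] at this
    exact lt_of_le_of_lt this (h.unif i).1
  have hψu : ∀ i, (V i).valuation (ψ : F) = 1 := fun i => val_eq_one_of_sub_one (hψv i)
  rcases isEmpty_or_nonempty ι with hι | ⟨⟨i₀⟩⟩
  · -- no valuation at all : everything is divisible by `ϖ`
    refine ⟨1, one_ne_zero, fun i => (hι.false i).elim, ?_⟩
    rw [h.dvd_iff hp0]
    exact fun i => (hι.false i).elim
  have hψ0 : (ψ : F) ≠ 0 := by
    intro h0
    have := hψu i₀
    rw [h0, map_zero] at this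
    exact zero_ne_one this
  refine ⟨(ψ : F), hψ0, fun i => (ValuationSubring.mem_nonunits_iff _).mpr (hψv i), ?_⟩
  rw [h.dvd_iff hp0]
  intro i
  have h1 : g / (ψ : F) ^ n - 1 = -(((ψ : F) ^ n - g) / (ψ : F) ^ n) := by
    field_simp; ring
  rw [h1, Valuation.map_neg, map_div₀, map_pow, hψu i, one_pow, div_one]
  have h2 := hψn' i
  have h3 : (((ψ ^ n - ⟨g, hgB⟩ : ↥(s18tIntLoc A t (C ϖ) (s18t_prime_C hϖ))) : F))
      = (ψ : F) ^ n - g := by
    push_cast; rfl
  rw [h3] at h2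
  refine h2.trans ?_
  rw [← h.pow i]
  exact sqt_pow_le_pow (h.pi_le_one i)
    (Finset.single_le_sum (fun _ _ => Nat.zero_le _) (Finset.mem_univ i))

end Newton

end SqvFam

/-! ## Part 2 : the two instances (two valuations : Program T ; three valuations : Program Q) -/

section Instances

variable {hϖ : Irreducible ϖ} {t : F}

/-- **two valuations** (`SsvTwo` of Program S / T) as a family indexed by `Fin 2`. -/
theorem sqt_fam_of_two {u₁ u₂ : F} {V₁ V₂ : ValuationSubring F} (h : SsvTwo hϖ t u₁ u₂ V₁ V₂) :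
    SqvFam hϖ t ![V₁, V₂] ![algebraMap A F ϖ, algebraMap A F ϖ] ![1, 1] where
  mem_iff := fun x => by
    rw [h.mem_iff, Fin.forall_fin_two]
    rfl
  unif := fun i => by
    fin_cases i
    · exact h.unif₁
    · exact h.unif₂
  e_ne := fun i => by fin_cases i <;> simp
  pow := fun i => by fin_cases i <;> exact pow_one _
  sep := fun i j hij => by
    have h1 : u₁ ∈ V₁ := V₁.nonunits_le h.mem₁
    have h2 : u₂ ∈ V₂ := V₂.nonunits_le h.mem₂
    have h3 : u₁ ∈ V₂ := (V₂.valuation_le_one_iff _).mp (le_of_eq h.unit₁)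
    have h4 : u₂ ∈ V₁ := (V₁.valuation_le_one_iff _).mp (le_of_eq h.unit₂)
    fin_cases i <;> fin_cases j
    · exact absurd rfl hij
    · refine ⟨u₁, fun k => ?_, h.mem₁, h.unit₁⟩
      fin_cases k
      · exact h1
      · exact h3
    · refine ⟨u₂, fun k => ?_, h.mem₂, h.unit₂⟩
      fin_cases k
      · exact h4
      · exact h2
    · exact absurd rfl hij

/-- THE CONCLUSION OF (VAL²) : the Gauss valuation of `L(t)` has exactly three extensions
`V₁, V₂, V₃` to `F`; `V₁, V₃` unramified, `V₂` with uniformiser `π₂`, `π₂ ^ e₂ = ϖ ·` unit;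
the three are pairwise separated by elements of `P_(ϖ)`.  (`dvd_iff`, `cases`, `ne` of the
blueprint are THEOREMS : `SqvThree.dvd_iff`, `SqvThree.cases`, `SqvThree.ne₁₂` ….) -/
structure SqvThree (hϖ : Irreducible ϖ) (t : F) (e₂ : ℕ) (π₂ : F)
    (V₁ V₂ V₃ : ValuationSubring F) : Prop where
  /-- `P_(ϖ) = V₁ ∩ V₂ ∩ V₃` -/
  mem_iff : ∀ x : F, x ∈ s18tIntLoc A t (C ϖ) (s18t_prime_C hϖ) ↔ x ∈ V₁ ∧ x ∈ V₂ ∧ x ∈ V₃
  /-- `ϖ` is a uniformiser of `V₁` -/
  unif₁ : S18IsUnif V₁ (algebraMap A F ϖ)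
  /-- `π₂` is a uniformiser of `V₂` -/
  unif₂ : S18IsUnif V₂ π₂
  /-- `ϖ` is a uniformiser of `V₃` -/
  unif₃ : S18IsUnif V₃ (algebraMap A F ϖ)
  /-- `e₂ ≠ 0` -/
  e₂_ne : e₂ ≠ 0
  /-- `π₂ ^ e₂ = ϖ ·` unit of `V₂` -/
  pow₂ : ∃ u : F, V₂.valuation u = 1 ∧ π₂ ^ e₂ = algebraMap A F ϖ * u
  /-- separating elements of `P_(ϖ)` : `u ∈ 𝔪_i`, `u` a unit at `j`, `u` integral at the third -/
  sep₁₂ : ∃ u : F, u ∈ V₁.nonunits ∧ V₂.valuation u = 1 ∧ u ∈ V₃
  sep₂₁ : ∃ u : F, u ∈ V₂.nonunits ∧ V₁.valuation u = 1 ∧ u ∈ V₃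
  sep₁₃ : ∃ u : F, u ∈ V₁.nonunits ∧ V₃.valuation u = 1 ∧ u ∈ V₂
  sep₃₁ : ∃ u : F, u ∈ V₃.nonunits ∧ V₁.valuation u = 1 ∧ u ∈ V₂
  sep₂₃ : ∃ u : F, u ∈ V₂.nonunits ∧ V₃.valuation u = 1 ∧ u ∈ V₁
  sep₃₂ : ∃ u : F, u ∈ V₃.nonunits ∧ V₂.valuation u = 1 ∧ u ∈ V₁

namespace SqvThree

variable {e₂ : ℕ} {π₂ : F} {V₁ V₂ V₃ : ValuationSubring F}

/-- the family of the three valuations, indexed by `Fin 3`. -/
theorem fam (h : SqvThree hϖ t e₂ π₂ V₁ V₂ V₃) :
    SqvFam hϖ t ![V₁, V₂, V₃] ![algebraMap A F ϖ, π₂, algebraMap A F ϖ] ![1, e₂, 1] where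
  mem_iff := fun x => by
    rw [h.mem_iff, Fin.forall_fin_succ, Fin.forall_fin_two]
    rfl
  unif := fun i => by
    fin_cases i
    · exact h.unif₁
    · exact h.unif₂
    · exact h.unif₃
  e_ne := fun i => by
    fin_cases i
    · exact one_ne_zero
    · exact h.e₂_ne
    · exact one_ne_zero
  pow := fun i => by
    fin_cases i
    · exact pow_one _
    · obtain ⟨u, hu, hpu⟩ := h.pow₂
      show V₂.valuation π₂ ^ e₂ = V₂.valuation (algebraMap A F ϖ)
      rw [← map_pow, hpu, map_mul, hu, mul_one]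
    · exact pow_one _
  sep := fun i j hij => by
    have hmem : ∀ {W W' : ValuationSubring F} {u : F}, u ∈ W.nonunits → W'.valuation u = 1 →
        u ∈ W ∧ u ∈ W' := fun h1 h2 =>
      ⟨ValuationSubring.nonunits_le h1, (ValuationSubring.valuation_le_one_iff _ _).mp (le_of_eq h2)⟩
    fin_cases i <;> fin_cases j
    · exact absurd rfl hij
    · obtain ⟨u, h1, h2, h3⟩ := h.sep₁₂
      refine ⟨u, fun k => ?_, h1, h2⟩
      fin_cases k
      · exact (hmem h1 h2).1
      · exact (hmem h1 h2).2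
      · exact h3
    · obtain ⟨u, h1, h2, h3⟩ := h.sep₁₃
      refine ⟨u, fun k => ?_, h1, h2⟩
      fin_cases k
      · exact (hmem h1 h2).1
      · exact h3
      · exact (hmem h1 h2).2
    · obtain ⟨u, h1, h2, h3⟩ := h.sep₂₁
      refine ⟨u, fun k => ?_, h1, h2⟩
      fin_cases k
      · exact (hmem h1 h2).2
      · exact (hmem h1 h2).1
      · exact h3
    · exact absurd rfl hij
    · obtain ⟨u, h1, h2, h3⟩ := h.sep₂₃
      refine ⟨u, fun k => ?_, h1, h2⟩
      fin_cases k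
      · exact h3
      · exact (hmem h1 h2).1
      · exact (hmem h1 h2).2
    · obtain ⟨u, h1, h2, h3⟩ := h.sep₃₁
      refine ⟨u, fun k => ?_, h1, h2⟩
      fin_cases k
      · exact (hmem h1 h2).2
      · exact h3
      · exact (hmem h1 h2).1
    · obtain ⟨u, h1, h2, h3⟩ := h.sep₃₂
      refine ⟨u, fun k => ?_, h1, h2⟩
      fin_cases k
      · exact h3
      · exact (hmem h1 h2).2
      · exact (hmem h1 h2).1
    · exact absurd rfl hij

/-- `V₁ ≠ V₂` -/
theorem ne₁₂ (h : SqvThree hϖ t e₂ π₂ V₁ V₂ V₃) : V₁ ≠ V₂ := by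
  obtain ⟨u, h1, h2, -⟩ := h.sep₁₂
  intro heq
  rw [heq, ValuationSubring.mem_nonunits_iff, h2] at h1
  exact lt_irrefl _ h1

/-- `V₁ ≠ V₃` -/
theorem ne₁₃ (h : SqvThree hϖ t e₂ π₂ V₁ V₂ V₃) : V₁ ≠ V₃ := by
  obtain ⟨u, h1, h2, -⟩ := h.sep₁₃
  intro heq
  rw [heq, ValuationSubring.mem_nonunits_iff, h2] at h1
  exact lt_irrefl _ h1

/-- `V₂ ≠ V₃` -/
theorem ne₂₃ (h : SqvThree hϖ t e₂ π₂ V₁ V₂ V₃) : V₂ ≠ V₃ := by
  obtain ⟨u, h1, h2, -⟩ := h.sep₂₃
  intro heq
  rw [heq, ValuationSubring.mem_nonunits_iff, h2] at h1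
  exact lt_irrefl _ h1

/-- `ϖ P_(ϖ) = 𝔪₁ ∩ π₂ ^ e₂ V₂ ∩ 𝔪₃` (blueprint form) -/
theorem dvd_iff (h : SqvThree hϖ t e₂ π₂ V₁ V₂ V₃) (hp0 : algebraMap A F ϖ ≠ 0) (x : F) :
    S18DvdGauss hϖ t x ↔
      x ∈ V₁.nonunits ∧ (∃ y ∈ V₂, x = π₂ ^ e₂ * y) ∧ x ∈ V₃.nonunits := by
  have hf := h.fam
  rw [hf.dvd_iff hp0, Fin.forall_fin_succ, Fin.forall_fin_two]
  have hu1 : ∀ (W : ValuationSubring F), S18IsUnif W (algebraMap A F ϖ) → ∀ x : F,
      W.valuation x ≤ W.valuation (algebraMap A F ϖ) ↔ x ∈ W.nonunits := by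
    intro W hW x
    rw [ValuationSubring.mem_nonunits_iff]
    exact ⟨fun hx => lt_of_le_of_lt hx hW.1, fun hx => hW.2 x hx⟩
  have hπ0 : π₂ ^ e₂ ≠ 0 := by
    obtain ⟨u, hu, hpu⟩ := h.pow₂
    rw [hpu]
    refine mul_ne_zero hp0 ?_
    intro h0; rw [h0, map_zero] at hu; exact zero_ne_one hu
  have h2 : V₂.valuation x ≤ V₂.valuation (algebraMap A F ϖ) ↔ ∃ y ∈ V₂, x = π₂ ^ e₂ * y := by
    have hpw : V₂.valuation (π₂ ^ e₂) = V₂.valuation (algebraMap A F ϖ) := by
      obtain ⟨u, hu, hpu⟩ := h.pow₂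
      rw [hpu, map_mul, hu, mul_one]
    rw [← hpw]
    have hv0 : V₂.valuation (π₂ ^ e₂) ≠ 0 := (Valuation.ne_zero_iff _).mpr hπ0
    constructor
    · intro hx
      refine ⟨x / π₂ ^ e₂, ?_, by field_simp⟩
      rw [← V₂.valuation_le_one_iff, map_div₀]
      exact (div_le_one₀ (zero_lt_iff.mpr hv0)).mpr hx
    · rintro ⟨y, hy, rfl⟩
      rw [map_mul]
      calc V₂.valuation (π₂ ^ e₂) * V₂.valuation y ≤ V₂.valuation (π₂ ^ e₂) * 1 :=
            mul_le_mul_right ((V₂.valuation_le_one_iff _).mpr hy) _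
        _ = _ := mul_one _
  constructor
  · rintro ⟨a, b, c⟩
    exact ⟨(hu1 V₁ h.unif₁ x).mp a, h2.mp b, (hu1 V₃ h.unif₃ x).mp c⟩
  · rintro ⟨a, b, c⟩
    exact ⟨(hu1 V₁ h.unif₁ x).mpr a, h2.mpr b, (hu1 V₃ h.unif₃ x).mpr c⟩

/-- every extension of the Gauss valuation is one of the three (blueprint form) -/
theorem cases (h : SqvThree hϖ t e₂ π₂ V₁ V₂ V₃) (ht : Transcendental L t)
    [FiniteDimensional L⟮t⟯ F] (W : ValuationSubring F)
    (hW : s18tLoc A t (C ϖ) (s18t_prime_C hϖ) ≤ W.toSubring)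
    (hϖW : algebraMap A F ϖ ∈ W.nonunits) : W = V₁ ∨ W = V₂ ∨ W = V₃ := by
  obtain ⟨i, hi⟩ := h.fam.cases ht W hW hϖW
  fin_cases i
  · exact Or.inl hi
  · exact Or.inr (Or.inl hi)
  · exact Or.inr (Or.inr hi)

end SqvThree

end Instances

end Fam

end Fermat.Agent.SQ
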