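import Mathlib
import Fermat.Agent.SQ.Three
import Fermat.Agent.SS.NF.Defs
import Fermat.Agent.SS.Loc.Ring

/-!
# Program Q (S36) / Program T (S35) : the finite family `V i` at a closed point `𝔫` of the chart

Local forms of `SQ/Three.lean` at a prime `𝔫 ∋ ϖ` of `P = s18tInt A t`, `P_𝔫 = ssLocRing t 𝔫`
(`SsnfInLoc t 𝔫 x ↔ x ∈ P_𝔫`).

* `SqtOn V t 𝔫` : the component `V` passes through `𝔫` (`P ∩ 𝔪_V ⊆ 𝔫`; same body as `StOn`).
* `SqvFam.on_some` : every prime `𝔫 ∋ ϖ` lies on some `V i`.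
* `SqvFam.loc_dvd` : `x ∈ P_𝔫`, `v_i(x) ≤ v_i(ϖ)` for all `V i` THROUGH `𝔫` ⟹ `x / ϖ ∈ P_𝔫`
  (by saturation `s18t_saturated`) — i.e. `I ^ N ⊆ ϖ P_𝔫` for the radical `I` of `ϖ P_𝔫`.
* `SqvFam.newton_loc` : the local NEWTON step.
-/

set_option autoImplicit false
set_option linter.unusedSectionVars false
set_option linter.unusedVariables false

noncomputable section

namespace Fermat.Agent.SQ

open Polynomial IntermediateField Fermat.Agent.S18 Fermat.Agent.SS IsLocalRing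

universe u

variable {A : Type*} [CommRing A] [IsDomain A] [IsDiscreteValuationRing A] [CharZero A]
variable {L : Type*} [Field L] [Algebra A L] [IsFractionRing A L]
variable {F : Type u} [Field F] [Algebra A F] [Algebra L F] [IsScalarTower A L F]
variable {ϖ : A}

/-- the component `V` of the special fibre passes through the closed point `𝔫` :
`P ∩ 𝔪_V ⊆ 𝔫`. -/
def SqtOn (V : ValuationSubring F) (t : F) (𝔫 : Ideal ↥(s18tInt A t)) : Prop :=
  ∀ p : ↥(s18tInt A t), (p : F) ∈ V.nonunits → p ∈ 𝔫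

namespace SqvFam

variable {hϖ : Irreducible ϖ} {t : F} {ι : Type*} {V : ι → ValuationSubring F} {π : ι → F}
  {e : ι → ℕ}

/-- `P_𝔫 ⊆ V i` for every component through `𝔫` -/
theorem on_loc_mem (h : SqvFam hϖ t V π e) {𝔫 : Ideal ↥(s18tInt A t)} {i : ι}
    (hon : SqtOn (V i) t 𝔫) {x : F} (hx : SsnfInLoc t 𝔫 x) : x ∈ V i := by
  obtain ⟨s, hs, hsx⟩ := hx
  have h1 : (V i).valuation (s : F) ≤ 1 := ((V i).valuation_le_one_iff _).mpr (h.int_mem i s.2)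
  have h2 : (V i).valuation (s : F) = 1 := by
    refine le_antisymm h1 (not_lt.mp fun hlt => hs (hon s ?_))
    exact (ValuationSubring.mem_nonunits_iff _).mpr hlt
  have h3 : (V i).valuation ((s : F) * x) ≤ 1 :=
    ((V i).valuation_le_one_iff _).mpr (h.int_mem i hsx)
  rw [map_mul, h2, one_mul] at h3
  exact ((V i).valuation_le_one_iff _).mp h3

variable [Fintype ι]

/-- an element of `P ∖ 𝔫` divisible by `ϖ` at every component NOT through `𝔫` -/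
theorem exists_clear (h : SqvFam hϖ t V π e) (𝔫 : Ideal ↥(s18tInt A t)) [h𝔫 : 𝔫.IsPrime] :
    ∃ b : ↥(s18tInt A t), b ∉ 𝔫 ∧ ∀ i, ¬ SqtOn (V i) t 𝔫 →
      (V i).valuation (b : F) ≤ (V i).valuation (algebraMap A F ϖ) := by
  classical
  have hb : ∀ i, ∃ c : ↥(s18tInt A t), c ∉ 𝔫 ∧
      (¬ SqtOn (V i) t 𝔫 → (V i).valuation (c : F) ≤ (V i).valuation (π i)) := by
    intro i
    by_cases hon : SqtOn (V i) t 𝔫
    · exact ⟨1, fun h1 => h𝔫.ne_top ((Ideal.eq_top_iff_one _).mpr h1), fun h' => absurd hon h'⟩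
    · unfold SqtOn at hon
      push Not at hon
      obtain ⟨c, hc, hc𝔫⟩ := hon
      exact ⟨c, hc𝔫, fun _ => h.le_pi i ((ValuationSubring.mem_nonunits_iff _).mp hc)⟩
  choose c hc𝔫 hcv using hb
  refine ⟨∏ i, c i ^ e i, ?_, fun i hi => ?_⟩
  · intro hmem
    obtain ⟨i, -, hi⟩ := (Ideal.IsPrime.prod_mem_iff).mp hmem
    exact hc𝔫 i (h𝔫.mem_of_pow_mem _ hi)
  · have hle : ∀ j, (V i).valuation ((c j : F) ^ e j) ≤ 1 := fun j => by
      rw [map_pow]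
      exact pow_le_one₀ zero_le (((V i).valuation_le_one_iff _).mpr (h.int_mem i (c j).2))
    have h1 : ((∏ j, c j ^ e j : ↥(s18tInt A t)) : F) = ∏ j, (c j : F) ^ e j := by
      push_cast; rfl
    rw [h1, map_prod, ← Finset.mul_prod_erase _ _ (Finset.mem_univ i)]
    calc (V i).valuation ((c i : F) ^ e i) *
          ∏ j ∈ Finset.univ.erase i, (V i).valuation ((c j : F) ^ e j)
        ≤ (V i).valuation ((c i : F) ^ e i) * 1 :=
          mul_le_mul_right (Finset.prod_le_one' fun j _ => hle j) _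
      _ = (V i).valuation (c i : F) ^ e i := by rw [mul_one, map_pow]
      _ ≤ (V i).valuation (π i) ^ e i := pow_le_pow_left₀ zero_le (hcv i hi) _
      _ = _ := h.pow i

/-- **`I ^ N ⊆ ϖ P_𝔫`** in element form : `x ∈ P_𝔫` with `v_i(x) ≤ v_i(ϖ)` at every component
through `𝔫` is divisible by `ϖ` in `P_𝔫`. -/
theorem loc_dvd (h : SqvFam hϖ t V π e) (ht : Transcendental L t) [FiniteDimensional L⟮t⟯ F]
    (𝔫 : Ideal ↥(s18tInt A t)) [h𝔫 : 𝔫.IsPrime] {x : F} (hx : SsnfInLoc t 𝔫 x)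
    (hv : ∀ i, SqtOn (V i) t 𝔫 → (V i).valuation x ≤ (V i).valuation (algebraMap A F ϖ)) :
    SsnfInLoc t 𝔫 (x / algebraMap A F ϖ) := by
  have hp0 : algebraMap A F ϖ ≠ 0 := sqt_unif_ne_zero L hϖ
  obtain ⟨s, hs, hsx⟩ := hx
  obtain ⟨b, hb, hbv⟩ := h.exists_clear 𝔫
  refine ⟨b * s, fun hmem => (h𝔫.mem_or_mem hmem).elim hb hs, ?_⟩
  have h1 : ((b * s : ↥(s18tInt A t)) : F) * (x / algebraMap A F ϖ)
      = ((b : F) * ((s : F) * x)) / algebraMap A F ϖ := by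
    push_cast; ring
  rw [h1]
  -- `y = b s x ∈ P`, `y / ϖ ∈ P_(ϖ)`, saturation
  have hy : (b : F) * ((s : F) * x) ∈ s18tInt A t := Subring.mul_mem _ b.2 hsx
  refine s18t_saturated hϖ t ht _ ?_ (by rw [mul_div_cancel₀ _ hp0]; exact hy)
  refine (h.mem_iff _).mpr fun i => ?_
  rw [← (V i).valuation_le_one_iff, map_div₀]
  refine (div_le_one₀ (zero_lt_iff.mpr ((Valuation.ne_zero_iff _).mpr hp0))).mpr ?_
  rw [map_mul]
  by_cases hon : SqtOn (V i) t 𝔫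
  · have hbv1 : (V i).valuation (b : F) ≤ 1 :=
      ((V i).valuation_le_one_iff _).mpr (h.int_mem i b.2)
    have hs1 : (V i).valuation (s : F) ≤ 1 :=
      ((V i).valuation_le_one_iff _).mpr (h.int_mem i s.2)
    rw [map_mul]
    calc (V i).valuation (b : F) * ((V i).valuation (s : F) * (V i).valuation x)
        ≤ 1 * (1 * (V i).valuation (algebraMap A F ϖ)) :=
          mul_le_mul' hbv1 (mul_le_mul' hs1 (hv i hon))
      _ = _ := by rw [one_mul, one_mul]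
  · calc (V i).valuation (b : F) * (V i).valuation ((s : F) * x)
        ≤ (V i).valuation (algebraMap A F ϖ) * 1 :=
          mul_le_mul' (hbv i hon) (((V i).valuation_le_one_iff _).mpr (h.int_mem i hsx))
      _ = _ := mul_one _

/-- every prime `𝔫 ∋ ϖ` of `P` lies on some component -/
theorem on_some (h : SqvFam hϖ t V π e) (ht : Transcendental L t) [FiniteDimensional L⟮t⟯ F]
    (𝔫 : Ideal ↥(s18tInt A t)) [h𝔫 : 𝔫.IsPrime] (hϖ𝔫 : sskPi ϖ t ∈ 𝔫) :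
    ∃ i, SqtOn (V i) t 𝔫 := by
  by_contra hcon
  push Not at hcon
  have hp0 : algebraMap A F ϖ ≠ 0 := sqt_unif_ne_zero L hϖ
  -- `1 / ϖ ∈ P_𝔫`
  have h1 : SsnfInLoc t 𝔫 ((1 : F) / algebraMap A F ϖ) :=
    h.loc_dvd ht 𝔫 ⟨1, fun h1 => h𝔫.ne_top ((Ideal.eq_top_iff_one _).mpr h1), by
      rw [mul_one]; exact SetLike.coe_mem _⟩ (fun i hi => absurd hi (hcon i))
  obtain ⟨s, hs, hsx⟩ := h1
  -- `s = ϖ · (s / ϖ) ∈ 𝔫`
  apply hs
  have h2 : s = sskPi ϖ t * ⟨(s : F) * (1 / algebraMap A F ϖ), hsx⟩ := by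
    apply Subtype.ext
    show (s : F) = algebraMap A F ϖ * ((s : F) * (1 / algebraMap A F ϖ))
    field_simp
  rw [h2]
  exact 𝔫.mul_mem_right _ hϖ𝔫

/-! ### the local NEWTON step -/

/-- the ideal `{x ∈ P_𝔫 | v_i(x) ≤ v_i(π i) ^ k for every component V i through 𝔫}` of `P_𝔫` -/
def locRadPow (h : SqvFam hϖ t V π e) (𝔫 : Ideal ↥(s18tInt A t)) [h𝔫 : 𝔫.IsPrime] (k : ℕ) :
    Ideal ↥(ssLocRing t 𝔫) where
  carrier := {x | ∀ i, SqtOn (V i) t 𝔫 → (V i).valuation (x : F) ≤ (V i).valuation (π i) ^ k}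
  add_mem' := by
    intro x y hx hy i hi
    exact (V i).valuation.map_add_le (hx i hi) (hy i hi)
  zero_mem' := by
    intro i _
    simp
  smul_mem' := by
    intro c x hx i hi
    have hc : (V i).valuation (c : F) ≤ 1 :=
      ((V i).valuation_le_one_iff _).mpr (h.on_loc_mem hi c.2)
    show (V i).valuation ((c : F) * (x : F)) ≤ _
    rw [map_mul]
    calc (V i).valuation (c : F) * (V i).valuation (x : F)
        ≤ 1 * (V i).valuation (π i) ^ k := mul_le_mul' hc (hx i hi)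
      _ = _ := one_mul _

theorem locRad_pow_le (h : SqvFam hϖ t V π e) (𝔫 : Ideal ↥(s18tInt A t)) [h𝔫 : 𝔫.IsPrime]
    (k : ℕ) : h.locRadPow 𝔫 1 ^ k ≤ h.locRadPow 𝔫 k := by
  induction k with
  | zero =>
    intro x _ i hi
    rw [pow_zero]
    exact ((V i).valuation_le_one_iff _).mpr (h.on_loc_mem hi x.2)
  | succ k ih =>
    rw [pow_succ]
    refine (Ideal.mul_mono_left ih).trans ?_
    rw [Ideal.mul_le]
    intro r hr s hs i hi
    show (V i).valuation ((r : F) * (s : F)) ≤ _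
    rw [map_mul, pow_succ]
    have := hs i hi
    rw [pow_one] at this
    exact mul_le_mul' (hr i hi) this

/-- **local NEWTON step** at a prime `𝔫 ∋ ϖ` : `w ∈ P_𝔫`, `w ≡ 1 mod 𝔪_V` for every component `V`
through `𝔫`, `n` a unit of `A` ⟹ there is a unit `ψ` of `P_𝔫`, `ψ ≡ 1 mod 𝔪_V` (same `V`), with
`w / ψ ^ n ∈ 1 + ϖ P_𝔫`. -/
theorem newton_loc (h : SqvFam hϖ t V π e) (ht : Transcendental L t) [FiniteDimensional L⟮t⟯ F]
    (𝔫 : Ideal ↥(s18tInt A t)) [h𝔫 : 𝔫.IsPrime] (hϖ𝔫 : sskPi ϖ t ∈ 𝔫)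
    (n : ℕ) (hn : IsUnit (n : A)) {w : F} (hw : SsnfInLoc t 𝔫 w)
    (hw1 : ∀ i, SqtOn (V i) t 𝔫 → w - 1 ∈ (V i).nonunits) :
    ∃ ψ : F, ψ ≠ 0 ∧ SsnfInLoc t 𝔫 ψ ∧ SsnfInLoc t 𝔫 ψ⁻¹ ∧
      (∀ i, SqtOn (V i) t 𝔫 → ψ - 1 ∈ (V i).nonunits) ∧
      SsnfInLoc t 𝔫 ((w / ψ ^ n - 1) / algebraMap A F ϖ) := by
  classical
  obtain ⟨i₀, hi₀⟩ := h.on_some ht 𝔫 hϖ𝔫
  -- `n` is a unit of `P_𝔫`
  have hnR : IsUnit ((n : ℕ) : ↥(ssLocRing t 𝔫)) := by
    let φ : A →+* ↥(ssLocRing t 𝔫) :=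
      (algebraMap A F).codRestrict _ fun a =>
        ssl_int_le_locRing t 𝔫 (s18tc_algebraMap_mem_int t a)
    have := hn.map φ
    rwa [map_natCast] at this
  -- the radical is contained in the maximal ideal
  have hrad : ∀ x : ↥(ssLocRing t 𝔫), x ∈ h.locRadPow 𝔫 1 → ¬ IsUnit x := by
    intro x hx hu
    obtain ⟨y, hy⟩ := hu.exists_right_inv
    have h1 : (V i₀).valuation (x : F) < 1 := by
      have := hx i₀ hi₀
      rw [pow_one] at this
      exact lt_of_le_of_lt this (h.unif i₀).1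
    have h2 : (V i₀).valuation (y : F) ≤ 1 :=
      ((V i₀).valuation_le_one_iff _).mpr (h.on_loc_mem hi₀ y.2)
    have h3 : (x : F) * (y : F) = 1 := congrArg (fun z : ↥(ssLocRing t 𝔫) => (z : F)) hy
    have h4 : (V i₀).valuation ((x : F) * (y : F)) < 1 := by
      rw [map_mul]
      calc (V i₀).valuation (x : F) * (V i₀).valuation (y : F)
          ≤ (V i₀).valuation (x : F) * 1 := mul_le_mul_right h2 _
        _ = _ := mul_one _
        _ < 1 := h1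
    rw [h3, map_one] at h4
    exact lt_irrefl _ h4
  have hI : ∀ x : ↥(ssLocRing t 𝔫), x - 1 ∈ h.locRadPow 𝔫 1 → IsUnit x := by
    intro x hx
    by_contra hnu
    have h1 : x ∈ maximalIdeal ↥(ssLocRing t 𝔫) := (mem_maximalIdeal x).mpr hnu
    have h2 : x - 1 ∈ maximalIdeal ↥(ssLocRing t 𝔫) :=
      (mem_maximalIdeal _).mpr (hrad _ hx)
    have h3 : (1 : ↥(ssLocRing t 𝔫)) ∈ maximalIdeal ↥(ssLocRing t 𝔫) := by
      have : (1 : ↥(ssLocRing t 𝔫)) = x - (x - 1) := by ring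
      rw [this]
      exact sub_mem h1 h2
    exact (maximalIdeal.isMaximal _).ne_top ((Ideal.eq_top_iff_one _).mpr h3)
  have hwI : (⟨w, hw⟩ : ↥(ssLocRing t 𝔫)) - 1 ∈ h.locRadPow 𝔫 1 := by
    intro i hi
    rw [pow_one]
    exact h.le_pi i ((ValuationSubring.mem_nonunits_iff _).mp (hw1 i hi))
  obtain ⟨ψ, ψ', hψ1, hψ'1, hψψ', hroot⟩ :=
    sqn_root_div (h.locRadPow 𝔫 1) n hnR ⟨w, hw⟩ hwI (∑ i, e i) hI
  have hroot' := h.locRad_pow_le 𝔫 _ hroot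
  have hmul : (ψ : F) * (ψ' : F) = 1 := congrArg (fun z : ↥(ssLocRing t 𝔫) => (z : F)) hψψ'
  have hψ0 : (ψ : F) ≠ 0 := left_ne_zero_of_mul_eq_one hmul
  have hinv : (ψ : F)⁻¹ = (ψ' : F) := inv_eq_of_mul_eq_one_right hmul
  refine ⟨(ψ : F), hψ0, ψ.2, by rw [hinv]; exact ψ'.2, fun i hi => ?_, ?_⟩
  · rw [ValuationSubring.mem_nonunits_iff]
    have := hψ1 i hi
    rw [pow_one] at this
    exact lt_of_le_of_lt this (h.unif i).1
  · have h1 : w / (ψ : F) ^ n - 1 = w * (ψ' : F) ^ n - 1 := by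
      rw [div_eq_mul_inv, ← inv_pow, hinv]
    rw [h1]
    have hmem : SsnfInLoc t 𝔫 (w * (ψ' : F) ^ n - 1) := by
      have h0 : w * (ψ' : F) ^ n - 1 ∈ ssLocRing t 𝔫 :=
        Subring.sub_mem _ (Subring.mul_mem _ hw (Subring.pow_mem _ ψ'.2 n)) (Subring.one_mem _)
      exact h0
    refine h.loc_dvd ht 𝔫 hmem fun i hi => ?_
    have h2 := hroot' i hi
    have h3 : (((⟨w, hw⟩ * ψ' ^ n - 1 : ↥(ssLocRing t 𝔫))) : F) = w * (ψ' : F) ^ n - 1 := by
      push_cast; rfl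
    rw [h3] at h2
    refine h2.trans ?_
    rw [← h.pow i]
    exact sqt_pow_le_pow (h.pi_le_one i)
      (Finset.single_le_sum (fun _ _ => Nat.zero_le _) (Finset.mem_univ i))

/-! ### (DENSE) : `P_𝔫` is dense at the components NOT through `𝔫` -/

/-- `P_𝔫` approximates ONE element of `F` at all components not through the maximal ideal `𝔫`. -/
theorem dense_one (h : SqvFam hϖ t V π e) (ht : Transcendental L t) [FiniteDimensional L⟮t⟯ F]
    (𝔫 : Ideal ↥(s18tInt A t)) (h𝔫 : 𝔫.IsMaximal) (y₀ : F) (N : ℕ) :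
    ∃ y : F, SsnfInLoc t 𝔫 y ∧ ∀ j, ¬ SqtOn (V j) t 𝔫 →
      (V j).valuation (y - y₀) ≤ (V j).valuation (algebraMap A F ϖ) ^ N := by
  classical
  have h𝔫p : 𝔫.IsPrime := h𝔫.isPrime
  have hp0 : algebraMap A F ϖ ≠ 0 := sqt_unif_ne_zero L hϖ
  have htA : Transcendental A t := s18tb_transcendental ht
  -- `y₀ = a / d`, `a, d ∈ P`, `d ≠ 0`
  obtain ⟨r, hr0, hr⟩ := s18tlg_exists_multiple_mem_int (A := A) ht y₀
  set d : F := aeval t r with hd
  have hd0 : d ≠ 0 := s18tlg_aeval_ne_zero htA hr0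
  have hdP : d ∈ s18tInt A t := s18ta_chart_le_int t (s18tb_aeval_mem_chart t r)
  set a : F := d * y₀ with ha
  -- `p₀ ≡ 1 mod 𝔫`, tiny at the components not through `𝔫`
  obtain ⟨b, hb, hbv⟩ := h.exists_clear 𝔫
  obtain ⟨b', hbb'⟩ : ∃ b' : ↥(s18tInt A t), b * b' - 1 ∈ 𝔫 := by
    obtain ⟨b', hb'⟩ := Ideal.Quotient.exists_inv (I := 𝔫)
      (a := Ideal.Quotient.mk 𝔫 b) (by
        rw [Ne, Ideal.Quotient.eq_zero_iff_mem]; exact hb)
    obtain ⟨b'', rfl⟩ := Ideal.Quotient.mk_surjective b'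
    refine ⟨b'', ?_⟩
    rw [← Ideal.Quotient.eq_zero_iff_mem, map_sub, map_mul, hb', map_one, sub_self]
  -- the required smallness : `K` with `v_j(ϖ)^K ≤ v_j(ϖ)^N v_j(d)^2 / v_j(a)` etc.
  obtain ⟨K₁, hK₁⟩ := h.arch ht (d⁻¹ * d⁻¹ * a)
  obtain ⟨K₂, hK₂⟩ := h.arch ht d⁻¹
  set K : ℕ := N + K₁ + K₂ + 1 with hK
  set p₀ : ↥(s18tInt A t) := (b * b') ^ K with hp₀
  have hp₀𝔫 : p₀ - 1 ∈ 𝔫 := by
    obtain ⟨c, hc⟩ := sub_dvd_pow_sub_pow (b * b') 1 K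
    rw [one_pow] at hc
    rw [hp₀, hc]
    exact 𝔫.mul_mem_right _ hbb'
  have hp₀v : ∀ j, ¬ SqtOn (V j) t 𝔫 →
      (V j).valuation (p₀ : F) ≤ (V j).valuation (algebraMap A F ϖ) ^ K := by
    intro j hj
    have h1 : ((p₀ : ↥(s18tInt A t)) : F) = ((b : F) * (b' : F)) ^ K := by
      rw [hp₀]; push_cast; rfl
    rw [h1, map_pow, map_mul]
    refine pow_le_pow_left₀ zero_le ?_ K
    calc (V j).valuation (b : F) * (V j).valuation (b' : F)
        ≤ (V j).valuation (algebraMap A F ϖ) * 1 :=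
          mul_le_mul' (hbv j hj) (((V j).valuation_le_one_iff _).mpr (h.int_mem j b'.2))
      _ = _ := mul_one _
  -- `c ∈ {0, 1}` with `d + c ∉ 𝔫`
  obtain ⟨c, hc01, hcd⟩ : ∃ c : ↥(s18tInt A t), (c = 0 ∨ c = 1) ∧ (⟨d, hdP⟩ + c) ∉ 𝔫 := by
    by_cases hd𝔫 : (⟨d, hdP⟩ : ↥(s18tInt A t)) ∈ 𝔫
    · refine ⟨1, Or.inr rfl, fun hmem => ?_⟩
      have : (1 : ↥(s18tInt A t)) ∈ 𝔫 := by
        have := sub_mem hmem hd𝔫
        rwa [add_sub_cancel_left] at this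
      exact h𝔫.ne_top ((Ideal.eq_top_iff_one _).mpr this)
    · exact ⟨0, Or.inl rfl, by rwa [add_zero]⟩
  set d' : ↥(s18tInt A t) := ⟨d, hdP⟩ + p₀ * c with hd'
  have hd'𝔫 : d' ∉ 𝔫 := by
    intro hmem
    apply hcd
    have : (⟨d, hdP⟩ + c : ↥(s18tInt A t)) = d' - (p₀ - 1) * c := by rw [hd']; ring
    rw [this]
    exact sub_mem hmem (𝔫.mul_mem_right _ hp₀𝔫)
  have hcv : ∀ j, (V j).valuation (c : F) ≤ 1 := fun j =>
    ((V j).valuation_le_one_iff _).mpr (h.int_mem j c.2)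
  have hd'F : (d' : F) = d + (p₀ : F) * (c : F) := by rw [hd']; push_cast; rfl
  by_cases hJ : ∀ j, SqtOn (V j) t 𝔫
  · exact ⟨0, ⟨1, fun h1 => h𝔫.ne_top ((Ideal.eq_top_iff_one _).mpr h1), by
      rw [mul_zero]; exact Subring.zero_mem _⟩, fun j hj => absurd (hJ j) hj⟩
  push Not at hJ
  obtain ⟨j₀, hj₀⟩ := hJ
  -- at `j ∉ T` : `v_j(p₀ c) < v_j(d)`, hence `v_j(d') = v_j(d)`
  have hsmall : ∀ j, ¬ SqtOn (V j) t 𝔫 →
      (V j).valuation ((p₀ : F) * (c : F)) < (V j).valuation d := by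
    intro j hj
    have hdv : (V j).valuation d ≠ 0 := (Valuation.ne_zero_iff _).mpr hd0
    have hpv : (V j).valuation (algebraMap A F ϖ) ≠ 0 := (Valuation.ne_zero_iff _).mpr hp0
    have h1 : (V j).valuation (algebraMap A F ϖ) ^ K₂ ≤ (V j).valuation d := by
      have := hK₂ j
      rw [map_mul, map_pow, map_inv₀] at this
      have h2 := (mul_inv_le_iff₀ (zero_lt_iff.mpr hdv)).mp this
      rwa [one_mul] at h2
    rw [map_mul]
    calc (V j).valuation (p₀ : F) * (V j).valuation (c : F)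
        ≤ (V j).valuation (algebraMap A F ϖ) ^ K * 1 := mul_le_mul' (hp₀v j hj) (hcv j)
      _ = (V j).valuation (algebraMap A F ϖ) ^ K := mul_one _
      _ = (V j).valuation (algebraMap A F ϖ) ^ K₂ *
            (V j).valuation (algebraMap A F ϖ) ^ (N + K₁ + 1) := by
          rw [← pow_add, hK]; congr 1; omega
      _ < (V j).valuation (algebraMap A F ϖ) ^ K₂ * 1 :=
          mul_lt_mul_of_pos_left
            (pow_lt_one₀ zero_le (h.unif_lt j) (by omega))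
            (zero_lt_iff.mpr (pow_ne_zero _ hpv))
      _ = _ := mul_one _
      _ ≤ _ := h1
  have hd'0 : (d' : F) ≠ 0 := by
    intro h0
    have := hsmall j₀ hj₀
    have h1 : (p₀ : F) * (c : F) = -d := by rw [hd'F] at h0; linear_combination h0
    rw [h1, Valuation.map_neg] at this
    exact lt_irrefl _ this
  refine ⟨a / (d' : F), ⟨d', hd'𝔫, ?_⟩, fun j hj => ?_⟩
  · rw [mul_div_cancel₀ _ hd'0, ha]; exact hr
  · have hdv : (V j).valuation d ≠ 0 := (Valuation.ne_zero_iff _).mpr hd0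
    have hd'v : (V j).valuation (d' : F) = (V j).valuation d := by
      rw [hd'F]
      exact Valuation.map_add_eq_of_lt_left _ (hsmall j hj)
    have h1 : a / (d' : F) - y₀ = -((d⁻¹ * d⁻¹ * a) * ((p₀ : F) * (c : F)) * (d * (d' : F)⁻¹)) := by
      rw [ha, hd'F]
      have hd'0' : d + (p₀ : F) * (c : F) ≠ 0 := by rw [← hd'F]; exact hd'0
      field_simp
      ring
    have h3 : (V j).valuation (d * (d' : F)⁻¹) = 1 := by
      rw [map_mul, map_inv₀, hd'v, mul_inv_cancel₀ hdv]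
    rw [h1, Valuation.map_neg, map_mul, h3, mul_one, map_mul,
      map_mul (V j).valuation (p₀ : F)]
    have h2 : (V j).valuation (algebraMap A F ϖ) ^ K =
        (V j).valuation (algebraMap A F ϖ) ^ N * ((V j).valuation (algebraMap A F ϖ) ^ K₁ *
          (V j).valuation (algebraMap A F ϖ) ^ (K₂ + 1)) := by
      rw [← pow_add, ← pow_add, hK]; congr 1; omega
    calc (V j).valuation (d⁻¹ * d⁻¹ * a) * ((V j).valuation (p₀ : F) * (V j).valuation (c : F))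
        ≤ (V j).valuation (d⁻¹ * d⁻¹ * a) * ((V j).valuation (algebraMap A F ϖ) ^ K * 1) :=
          mul_le_mul_right (mul_le_mul' (hp₀v j hj) (hcv j)) _
      _ = (V j).valuation (algebraMap A F ϖ) ^ N *
            ((V j).valuation (algebraMap A F ϖ ^ K₁ * (d⁻¹ * d⁻¹ * a)) *
              (V j).valuation (algebraMap A F ϖ) ^ (K₂ + 1)) := by
          rw [mul_one, h2, map_mul (V j).valuation (algebraMap A F ϖ ^ K₁), map_pow]
          ac_rfl
      _ ≤ (V j).valuation (algebraMap A F ϖ) ^ N * (1 * 1) :=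
          mul_le_mul_right (mul_le_mul' (hK₁ j) (pow_le_one₀ zero_le (h.unif_lt j).le)) _
      _ = _ := by rw [one_mul, mul_one]

variable [DecidableEq ι] [Nonempty ι]

/-- **(DENSE)** `P_𝔫` approximates an arbitrary family `c j ∈ F` at all components NOT through the
maximal ideal `𝔫`. -/
theorem dense (h : SqvFam hϖ t V π e) (ht : Transcendental L t) [FiniteDimensional L⟮t⟯ F]
    (𝔫 : Ideal ↥(s18tInt A t)) (h𝔫 : 𝔫.IsMaximal) (c : ι → F) (N : ℕ) :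
    ∃ y : F, SsnfInLoc t 𝔫 y ∧ ∀ j, ¬ SqtOn (V j) t 𝔫 →
      (V j).valuation (y - c j) ≤ (V j).valuation (algebraMap A F ϖ) ^ N := by
  obtain ⟨y₀, hy₀⟩ := h.approx ht c N
  obtain ⟨y, hy, hyv⟩ := h.dense_one ht 𝔫 h𝔫 y₀ N
  refine ⟨y, hy, fun j hj => ?_⟩
  have : y - c j = (y - y₀) + (y₀ - c j) := by ring
  rw [this]
  exact (V j).valuation.map_add_le (hyv j hj) (hy₀ j)

/-- `1 + ϖ P_𝔫 ⊆ (P_𝔫)ˣ` for a prime `𝔫 ∋ ϖ` -/
theorem one_add_unif_mul_inv_mem (𝔫 : Ideal ↥(s18tInt A t)) [h𝔫 : 𝔫.IsPrime]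
    (hϖ𝔫 : sskPi ϖ t ∈ 𝔫) {y : F} (hy : SsnfInLoc t 𝔫 y) :
    SsnfInLoc t 𝔫 (1 + algebraMap A F ϖ * y)⁻¹ := by
  have hϖR : algebraMap A F ϖ ∈ ssLocRing t 𝔫 :=
    ssl_int_le_locRing t 𝔫 (s18tc_algebraMap_mem_int t ϖ)
  set m : ↥(ssLocRing t 𝔫) := ⟨algebraMap A F ϖ, hϖR⟩ * ⟨y, hy⟩ with hm
  have hmmax : m ∈ maximalIdeal ↥(ssLocRing t 𝔫) := by
    rw [ssl_mem_maximalIdeal]
    obtain ⟨s, hs, hsy⟩ := hy
    refine ⟨s, hs, sskPi ϖ t * ⟨(s : F) * y, hsy⟩, 𝔫.mul_mem_right _ hϖ𝔫, ?_⟩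
    show (s : F) * (algebraMap A F ϖ * y) = algebraMap A F ϖ * ((s : F) * y)
    ring
  have hu : IsUnit (1 + m) := by
    by_contra hnu
    have h1 : 1 + m ∈ maximalIdeal ↥(ssLocRing t 𝔫) := (mem_maximalIdeal _).mpr hnu
    have h3 : (1 : ↥(ssLocRing t 𝔫)) ∈ maximalIdeal ↥(ssLocRing t 𝔫) := by
      have : (1 : ↥(ssLocRing t 𝔫)) = (1 + m) - m := by ring
      rw [this]
      exact sub_mem h1 hmmax
    exact (maximalIdeal.isMaximal _).ne_top ((Ideal.eq_top_iff_one _).mpr h3)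
  obtain ⟨z, hz⟩ := hu.exists_right_inv
  have h4 : (1 + algebraMap A F ϖ * y) * (z : F) = 1 :=
    congrArg (fun w : ↥(ssLocRing t 𝔫) => (w : F)) hz
  rw [inv_eq_of_mul_eq_one_right h4]
  exact z.2

/-- **(DENSE), consumer form** : for `r₀ ∈ Fˣ` there is `ω ∈ 1 + ϖ P_𝔫` (a unit of `P_𝔫`) with
`r₀ ω ≡ 1 mod ϖ V j` at every component `V j` NOT through the maximal ideal `𝔫`. -/
theorem dense_unit (h : SqvFam hϖ t V π e) (ht : Transcendental L t) [FiniteDimensional L⟮t⟯ F]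
    (𝔫 : Ideal ↥(s18tInt A t)) (h𝔫 : 𝔫.IsMaximal) (hϖ𝔫 : sskPi ϖ t ∈ 𝔫) {r₀ : F}
    (hr₀ : r₀ ≠ 0) :
    ∃ ω : F, ω ≠ 0 ∧ SsnfInLoc t 𝔫 ω ∧ SsnfInLoc t 𝔫 ω⁻¹ ∧
      SsnfInLoc t 𝔫 ((ω - 1) / algebraMap A F ϖ) ∧
      ∀ j, ¬ SqtOn (V j) t 𝔫 →
        (V j).valuation (r₀ * ω - 1) ≤ (V j).valuation (algebraMap A F ϖ) := by
  have h𝔫p : 𝔫.IsPrime := h𝔫.isPrime
  have hp0 : algebraMap A F ϖ ≠ 0 := sqt_unif_ne_zero L hϖ
  obtain ⟨K, hK⟩ := h.arch ht r₀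
  obtain ⟨y, hy, hyv⟩ := h.dense ht 𝔫 h𝔫 (fun _ => (r₀⁻¹ - 1) / algebraMap A F ϖ) K
  have hinv := one_add_unif_mul_inv_mem 𝔫 hϖ𝔫 hy
  have hω0 : 1 + algebraMap A F ϖ * y ≠ 0 := by
    intro h0
    -- then `0⁻¹ = 0 ∈ P_𝔫` is no contradiction; use the unit property instead
    have hϖR : algebraMap A F ϖ ∈ ssLocRing t 𝔫 :=
      ssl_int_le_locRing t 𝔫 (s18tc_algebraMap_mem_int t ϖ)
    have hmmax : (⟨algebraMap A F ϖ, hϖR⟩ * ⟨y, hy⟩ : ↥(ssLocRing t 𝔫)) ∈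
        maximalIdeal ↥(ssLocRing t 𝔫) := by
      rw [ssl_mem_maximalIdeal]
      obtain ⟨s, hs, hsy⟩ := hy
      refine ⟨s, hs, sskPi ϖ t * ⟨(s : F) * y, hsy⟩, 𝔫.mul_mem_right _ hϖ𝔫, ?_⟩
      show (s : F) * (algebraMap A F ϖ * y) = algebraMap A F ϖ * ((s : F) * y)
      ring
    have h1 : (⟨algebraMap A F ϖ, hϖR⟩ * ⟨y, hy⟩ : ↥(ssLocRing t 𝔫)) = -1 := by
      apply Subtype.ext
      show algebraMap A F ϖ * y = -1
      linear_combination h0
    rw [h1] at hmmax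
    have : (1 : ↥(ssLocRing t 𝔫)) ∈ maximalIdeal ↥(ssLocRing t 𝔫) := by
      have := neg_mem hmmax
      rwa [neg_neg] at this
    exact (maximalIdeal.isMaximal _).ne_top ((Ideal.eq_top_iff_one _).mpr this)
  have hωR : SsnfInLoc t 𝔫 (1 + algebraMap A F ϖ * y) := by
    have hϖR : algebraMap A F ϖ ∈ ssLocRing t 𝔫 :=
      ssl_int_le_locRing t 𝔫 (s18tc_algebraMap_mem_int t ϖ)
    have h0 : 1 + algebraMap A F ϖ * y ∈ ssLocRing t 𝔫 :=
      Subring.add_mem _ (Subring.one_mem _) (Subring.mul_mem _ hϖR hy)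
    exact h0
  refine ⟨1 + algebraMap A F ϖ * y, hω0, hωR, hinv, ?_, fun j hj => ?_⟩
  · have : (1 + algebraMap A F ϖ * y - 1) / algebraMap A F ϖ = y := by
      rw [add_sub_cancel_left, mul_div_cancel_left₀ _ hp0]
    rw [this]; exact hy
  · have hrv : (V j).valuation r₀ ≠ 0 := (Valuation.ne_zero_iff _).mpr hr₀
    have h1 : r₀ * (1 + algebraMap A F ϖ * y) - 1 =
        r₀ * algebraMap A F ϖ * (y - (r₀⁻¹ - 1) / algebraMap A F ϖ) := by
      field_simp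
      ring
    rw [h1, map_mul, map_mul]
    have h2 := hyv j hj
    have h3 : (V j).valuation r₀ * (V j).valuation (algebraMap A F ϖ) ^ K ≤ 1 := by
      have := hK j
      rwa [map_mul, map_pow, mul_comm] at this
    calc (V j).valuation r₀ * (V j).valuation (algebraMap A F ϖ) *
          (V j).valuation (y - (r₀⁻¹ - 1) / algebraMap A F ϖ)
        ≤ (V j).valuation r₀ * (V j).valuation (algebraMap A F ϖ) *
            (V j).valuation (algebraMap A F ϖ) ^ K := mul_le_mul_right h2 _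
      _ = (V j).valuation (algebraMap A F ϖ) *
            ((V j).valuation r₀ * (V j).valuation (algebraMap A F ϖ) ^ K) := by ac_rfl
      _ ≤ (V j).valuation (algebraMap A F ϖ) * 1 := mul_le_mul_right h3 _
      _ = _ := mul_one _

end SqvFam

end Fermat.Agent.SQ
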