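import Mathlib
import Fermat.Prelude.Def_AlgebraicCurve_BaseChangeGalois
import Fermat.Agent.S18.T.Spec
import Fermat.Agent.S24.PlaceOrd
import Fermat.Agent.SS.NF.Defs
import Fermat.Agent.SS.Loc.Ring
import Fermat.Agent.SS.Loc.Place
import Fermat.Agent.SQ.Defs
import Fermat.Agent.SQ.Three
import Fermat.Agent.SQ.ThreeLoc
import Fermat.Agent.SQ.KumAlg
import Fermat.Agent.ST.Defs

/-!
# Program Q (S36), leaf SQ/KumCore : (Q-KUM) `sq_kumAt`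

Setting of S18 package T, `h : SqvFam hϖ t V π e` the finite family of ALL extensions of the Gauss
valuation, `𝔫 ∋ ϖ` a closed point of the chart `P = s18tInt A t`, every component `V i` through `𝔫`
a smooth branch there (`𝔫 P_𝔫 = (z) + 𝔭_i P_𝔫`).

`sq_kumAt` : a function `g ≡ 1 mod ϖ P_(ϖ)` with a PRESENTATION `g = υ Φ ^ n` (`υ` a unit of `P_𝔫`)
and TRIVIALISERS `ψ i ∈ P_𝔫` (`Φ ψ i ≡ 1 mod 𝔪_{V i}`, pairwise congruent modulo `𝔫 P_𝔫`) has the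
local datum `StDivAt L hϖ t n g 𝔫` consumed by `stk_kumAt` / `st_core`.

Proof : (GLUE, `sqk_glue_finset`) `ψ ≡ ψ i mod 𝔭_i` ; (NEWTON, `newton_loc`) `υ / ψ^n = ψ'^n (1 + ϖ ·)` ;
`r₀ = Φ ψ ψ'`, `g / r₀^n ∈ 1 + ϖ P_𝔫` ; (DENSE, `dense_unit`) `ω ∈ 1 + ϖ P_𝔫`, `r₀ ω ≡ 1` at the
components not through `𝔫` ; `r = r₀ ω`.
-/

set_option autoImplicit false
set_option linter.unusedSectionVars false
set_option linter.unusedVariables false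
set_option linter.style.haveILetI false

noncomputable section

namespace Fermat.Agent.SQ

open Polynomial IntermediateField AlgebraicCurve Fermat.Agent.S18 Fermat.Agent.SS Fermat.Agent.S24
open Fermat.Agent.ST IsLocalRing

universe u

/-! ### valuation lemmas -/

section Val

variable {F : Type*} [Field F] (W : ValuationSubring F)

theorem sqkv_pow_sub_pow_le {x y : F} (hx : W.valuation x ≤ 1) (hy : W.valuation y ≤ 1) (n : ℕ) :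
    W.valuation (x ^ n - y ^ n) ≤ W.valuation (x - y) := by
  rw [← geom_sum₂_mul, map_mul]
  have h1 : W.valuation (∑ i ∈ Finset.range n, x ^ i * y ^ (n - 1 - i)) ≤ 1 := by
    refine W.valuation.map_sum_le fun i _ => ?_
    rw [map_mul, map_pow, map_pow]
    calc W.valuation x ^ i * W.valuation y ^ (n - 1 - i) ≤ 1 * 1 :=
          mul_le_mul' (pow_le_one₀ zero_le hx) (pow_le_one₀ zero_le hy)
      _ = 1 := one_mul _
  calc _ ≤ 1 * W.valuation (x - y) := mul_le_mul' h1 le_rfl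
    _ = _ := one_mul _

theorem sqkv_pow_sub_one_le {x : F} (hx : W.valuation x ≤ 1) (n : ℕ) :
    W.valuation (x ^ n - 1) ≤ W.valuation (x - 1) := by
  have := sqkv_pow_sub_pow_le W hx (y := 1) (by rw [map_one]) n
  rwa [one_pow] at this

theorem sqkv_one_of_sub_one {y : F} (hy : W.valuation (y - 1) < 1) : W.valuation y = 1 := by
  have : y = 1 + (y - 1) := by ring
  rw [this]
  exact W.valuation.map_one_add_of_lt hy

theorem sqkv_mul_sub_one_lt {x y : F} (hx : W.valuation (x - 1) < 1)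
    (hy : W.valuation (y - 1) < 1) : W.valuation (x * y - 1) < 1 := by
  have hy1 : W.valuation y = 1 := sqkv_one_of_sub_one W hy
  have : x * y - 1 = (x - 1) * y + (y - 1) := by ring
  rw [this]
  refine lt_of_le_of_lt (W.valuation.map_add _ _) (max_lt ?_ hy)
  rw [map_mul, hy1, mul_one]; exact hx

/-- `v(x - 1) < 1`, `v(n) = 1` ⟹ `v(x ^ n - 1) = v(x - 1)`. -/
theorem sqkv_pow_sub_one_eq {x : F} (hx : W.valuation (x - 1) < 1) (n : ℕ)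
    (hn : W.valuation ((n : ℕ) : F) = 1) : W.valuation (x ^ n - 1) = W.valuation (x - 1) := by
  have hx1 : W.valuation x = 1 := sqkv_one_of_sub_one W hx
  have hsum : W.valuation (∑ i ∈ Finset.range n, x ^ i) = 1 := by
    have h1 : (∑ i ∈ Finset.range n, x ^ i) = ((n : ℕ) : F) + ∑ i ∈ Finset.range n, (x ^ i - 1) := by
      rw [Finset.sum_sub_distrib]; simp
    have h2 : W.valuation (∑ i ∈ Finset.range n, (x ^ i - 1)) < 1 := by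
      refine W.valuation.map_sum_lt one_ne_zero fun i _ => ?_
      exact lt_of_le_of_lt (sqkv_pow_sub_one_le W hx1.le i) hx
    rw [h1, W.valuation.map_add_eq_of_lt_left (by rw [hn]; exact h2), hn]
  rw [← geom_sum_mul, map_mul, hsum, one_mul]

theorem sqkv_eq_one_of_mul_eq_one {x y : F} (hx : W.valuation x ≤ 1) (hy : W.valuation y ≤ 1)
    (hxy : x * y = 1) : W.valuation x = 1 := by
  have h3 : W.valuation x * W.valuation y = 1 := by rw [← map_mul, hxy, map_one]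
  refine le_antisymm hx ?_
  by_contra hlt
  push Not at hlt
  have := mul_lt_one_of_lt_of_le hlt hy
  rw [h3] at this
  exact lt_irrefl _ this

end Val

variable {A : Type*} [CommRing A] [IsDomain A] [IsDiscreteValuationRing A] [CharZero A]
variable {L : Type*} [Field L] [Algebra A L] [IsFractionRing A L]
variable {F : Type u} [Field F] [Algebra A F] [Algebra L F] [IsScalarTower A L F]
variable {ϖ : A}

/-! ### `1 + ϖ P_𝔫` -/

section One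

variable {t : F} {𝔫 : Ideal ↥(s18tInt A t)} [h𝔫 : 𝔫.IsPrime]

/-- `x ∈ 1 + ϖ P_𝔫` -/
def SqkOne (ϖ : A) (t : F) (𝔫 : Ideal ↥(s18tInt A t)) (x : F) : Prop :=
  SsnfInLoc t 𝔫 ((x - 1) / algebraMap A F ϖ)

theorem sqk_one_mem (hp0 : algebraMap A F ϖ ≠ 0) {x : F} (hx : SqkOne ϖ t 𝔫 x) :
    SsnfInLoc t 𝔫 x := by
  have hϖR : algebraMap A F ϖ ∈ ssLocRing t 𝔫 :=
    ssl_int_le_locRing t 𝔫 (s18tc_algebraMap_mem_int t ϖ)
  have e : x = 1 + algebraMap A F ϖ * ((x - 1) / algebraMap A F ϖ) := by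
    field_simp; ring
  have h0 : 1 + algebraMap A F ϖ * ((x - 1) / algebraMap A F ϖ) ∈ ssLocRing t 𝔫 :=
    Subring.add_mem _ (Subring.one_mem _) (Subring.mul_mem _ hϖR hx)
  rw [e]
  exact h0

theorem sqk_one_mul (hp0 : algebraMap A F ϖ ≠ 0) {x y : F} (hx : SqkOne ϖ t 𝔫 x)
    (hy : SqkOne ϖ t 𝔫 y) : SqkOne ϖ t 𝔫 (x * y) := by
  have hyR : y ∈ ssLocRing t 𝔫 := sqk_one_mem hp0 hy
  have e : (x * y - 1) / algebraMap A F ϖ =
      (x - 1) / algebraMap A F ϖ * y + (y - 1) / algebraMap A F ϖ := by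
    field_simp; ring
  have h0 : (x - 1) / algebraMap A F ϖ * y + (y - 1) / algebraMap A F ϖ ∈ ssLocRing t 𝔫 :=
    Subring.add_mem _ (Subring.mul_mem _ hx hyR) hy
  unfold SqkOne
  rw [e]
  exact h0

theorem sqk_one_pow (hp0 : algebraMap A F ϖ ≠ 0) {x : F} (hx : SqkOne ϖ t 𝔫 x) (n : ℕ) :
    SqkOne ϖ t 𝔫 (x ^ n) := by
  induction n with
  | zero =>
    unfold SqkOne
    rw [pow_zero, sub_self, zero_div]
    exact (ssLocRing t 𝔫).zero_mem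
  | succ n ih =>
    rw [pow_succ]
    exact sqk_one_mul hp0 ih hx

theorem sqk_one_inv (hϖ𝔫 : sskPi ϖ t ∈ 𝔫) (hp0 : algebraMap A F ϖ ≠ 0) {x : F} (hx0 : x ≠ 0)
    (hx : SqkOne ϖ t 𝔫 x) : SqkOne ϖ t 𝔫 x⁻¹ ∧ SsnfInLoc t 𝔫 x⁻¹ := by
  have e : x = 1 + algebraMap A F ϖ * ((x - 1) / algebraMap A F ϖ) := by
    field_simp; ring
  have hinv : SsnfInLoc t 𝔫 x⁻¹ := by
    have := SqvFam.one_add_unif_mul_inv_mem 𝔫 hϖ𝔫 hx
    rwa [← e] at this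
  refine ⟨?_, hinv⟩
  have e2 : (x⁻¹ - 1) / algebraMap A F ϖ = -((x - 1) / algebraMap A F ϖ * x⁻¹) := by
    field_simp; ring
  have h0 : -((x - 1) / algebraMap A F ϖ * x⁻¹) ∈ ssLocRing t 𝔫 :=
    Subring.neg_mem _ (Subring.mul_mem _ hx hinv)
  unfold SqkOne
  rw [e2]
  exact h0

end One

/-! ### the branches through `𝔫` as primes of `P_𝔫` -/

namespace SqvFam

variable {hϖ : Irreducible ϖ} {t : F} {ι : Type*} {V : ι → ValuationSubring F} {π : ι → F}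
  {e : ι → ℕ}

/-- the trace on `P_𝔫` of the maximal ideal of `V i` (`⊤` if `V i` does not pass through `𝔫`) -/
def sqkBr (h : SqvFam hϖ t V π e) (𝔫 : Ideal ↥(s18tInt A t)) [h𝔫 : 𝔫.IsPrime] (i : ι) :
    Ideal ↥(ssLocRing t 𝔫) where
  carrier := {x | SqtOn (V i) t 𝔫 → (V i).valuation (x : F) < 1}
  add_mem' := by
    intro x y hx hy hon
    exact lt_of_le_of_lt ((V i).valuation.map_add _ _) (max_lt (hx hon) (hy hon))
  zero_mem' := by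
    intro _
    show (V i).valuation (0 : F) < 1
    rw [map_zero]; exact zero_lt_one
  smul_mem' := by
    intro c x hx hon
    have hc : (V i).valuation (c : F) ≤ 1 :=
      ((V i).valuation_le_one_iff _).mpr (h.on_loc_mem hon c.2)
    show (V i).valuation ((c : F) * (x : F)) < 1
    rw [map_mul]
    calc (V i).valuation (c : F) * (V i).valuation (x : F)
        ≤ 1 * (V i).valuation (x : F) := mul_le_mul' hc le_rfl
      _ = _ := one_mul _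
      _ < 1 := hx hon

theorem mem_sqkBr (h : SqvFam hϖ t V π e) (𝔫 : Ideal ↥(s18tInt A t)) [h𝔫 : 𝔫.IsPrime] (i : ι)
    (x : ↥(ssLocRing t 𝔫)) :
    x ∈ h.sqkBr 𝔫 i ↔ (SqtOn (V i) t 𝔫 → (V i).valuation (x : F) < 1) := Iff.rfl

theorem sqk_br_isPrime (h : SqvFam hϖ t V π e) (𝔫 : Ideal ↥(s18tInt A t)) [h𝔫 : 𝔫.IsPrime]
    (i : ι) (hon : SqtOn (V i) t 𝔫) : (h.sqkBr 𝔫 i).IsPrime := by
  have hle : ∀ x : ↥(ssLocRing t 𝔫), (V i).valuation (x : F) ≤ 1 := fun x =>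
    ((V i).valuation_le_one_iff _).mpr (h.on_loc_mem hon x.2)
  refine Ideal.isPrime_iff.mpr ⟨?_, ?_⟩
  · intro htop
    have h1 : (1 : ↥(ssLocRing t 𝔫)) ∈ h.sqkBr 𝔫 i := htop ▸ Submodule.mem_top
    have h2 := (h.mem_sqkBr 𝔫 i _).mp h1 hon
    rw [OneMemClass.coe_one, map_one] at h2
    exact lt_irrefl _ h2
  · intro x y hxy
    by_contra hcon
    push Not at hcon
    obtain ⟨hx, hy⟩ := hcon
    have hx1 : (V i).valuation (x : F) = 1 :=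
      le_antisymm (hle x) (not_lt.mp fun hlt => hx ((h.mem_sqkBr 𝔫 i _).mpr fun _ => hlt))
    have hy1 : (V i).valuation (y : F) = 1 :=
      le_antisymm (hle y) (not_lt.mp fun hlt => hy ((h.mem_sqkBr 𝔫 i _).mpr fun _ => hlt))
    have h2 : (V i).valuation ((x : F) * (y : F)) < 1 := (h.mem_sqkBr 𝔫 i _).mp hxy hon
    rw [map_mul, hx1, hy1, one_mul] at h2
    exact lt_irrefl _ h2

/-- `𝔫 P_𝔫 = (z) + 𝔓_i` from the branch datum -/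
theorem sqk_max_le (h : SqvFam hϖ t V π e) (𝔫 : Ideal ↥(s18tInt A t)) [h𝔫 : 𝔫.IsPrime]
    (i : ι) (hon : SqtOn (V i) t 𝔫)
    (hbr : ∃ 𝔭 : Ideal ↥(s18tInt A t),
      (∀ p : ↥(s18tInt A t), p ∈ 𝔭 ↔ (p : F) ∈ (V i).nonunits) ∧ SqBranch t 𝔫 𝔭) :
    ∃ z : ↥(ssLocRing t 𝔫), z ∈ maximalIdeal ↥(ssLocRing t 𝔫) ∧
      maximalIdeal ↥(ssLocRing t 𝔫) ≤ Ideal.span {z} ⊔ h.sqkBr 𝔫 i := by
  obtain ⟨𝔭, h𝔭, -, -, z, hz, hgen⟩ := hbr
  have hz' : SsInMax t 𝔫 z := hz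
  refine ⟨⟨z, hz'.inLoc⟩, (ssl_mem_maximalIdeal t 𝔫 _).mpr hz', ?_⟩
  intro x hx
  obtain ⟨s, hs, p, hp, hsp⟩ := (ssl_mem_maximalIdeal t 𝔫 x).mp hx
  obtain ⟨s', hs', c, p', hp', hcp⟩ := hgen p hp
  have hs0 : (s : F) ≠ 0 := fun h0 => hs (by
    have : s = 0 := Subtype.ext h0
    rw [this]; exact 𝔫.zero_mem)
  have hs'0 : (s' : F) ≠ 0 := fun h0 => hs' (by
    have : s' = 0 := Subtype.ext h0
    rw [this]; exact 𝔫.zero_mem)
  have hinv : ((s : F) * (s' : F))⁻¹ ∈ ssLocRing t 𝔫 := by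
    refine ⟨s * s', fun h' => (h𝔫.mem_or_mem h').elim hs hs', ?_⟩
    have : ((s * s' : ↥(s18tInt A t)) : F) * ((s : F) * (s' : F))⁻¹ = 1 := by
      push_cast
      exact mul_inv_cancel₀ (mul_ne_zero hs0 hs'0)
    rw [this]; exact Subring.one_mem _
  have hxe : (x : F) = z * ((c : F) * ((s : F) * (s' : F))⁻¹) +
      (p' : F) * ((s : F) * (s' : F))⁻¹ := by
    have h1 : z * ((c : F) * ((s : F) * (s' : F))⁻¹) + (p' : F) * ((s : F) * (s' : F))⁻¹ =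
        ((s : F) * (s' : F))⁻¹ * ((c : F) * z + (p' : F)) := by ring
    rw [h1, ← hcp, ← hsp]
    field_simp
  have hx2 : x = (⟨z, hz'.inLoc⟩ : ↥(ssLocRing t 𝔫)) *
      ⟨(c : F) * ((s : F) * (s' : F))⁻¹, Subring.mul_mem _ (ssl_int_le_locRing t 𝔫 c.2) hinv⟩ +
      ⟨(p' : F) * ((s : F) * (s' : F))⁻¹,
        Subring.mul_mem _ (ssl_int_le_locRing t 𝔫 p'.2) hinv⟩ := Subtype.ext hxe
  rw [hx2]
  refine Submodule.add_mem_sup (Ideal.mem_span_singleton.mpr ⟨_, rfl⟩) ?_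
  rw [h.mem_sqkBr]
  intro _
  show (V i).valuation ((p' : F) * ((s : F) * (s' : F))⁻¹) < 1
  have h1 : (V i).valuation (p' : F) < 1 :=
    (ValuationSubring.mem_nonunits_iff _).mp ((h𝔭 p').mp hp')
  have h2 : (V i).valuation (((s : F) * (s' : F))⁻¹) ≤ 1 :=
    ((V i).valuation_le_one_iff _).mpr (h.on_loc_mem hon hinv)
  rw [map_mul]
  exact mul_lt_one_of_lt_of_le h1 h2

/-- two different branches through `𝔫` are separated by an element of `P` -/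
theorem sqk_sep (h : SqvFam hϖ t V π e) (ht : Transcendental L t)
    (𝔫 : Ideal ↥(s18tInt A t)) [h𝔫 : 𝔫.IsPrime] {i j : ι} (hj : SqtOn (V j) t 𝔫)
    (hij : i ≠ j) : ∃ w : ↥(ssLocRing t 𝔫), w ∈ h.sqkBr 𝔫 i ∧ w ∉ h.sqkBr 𝔫 j := by
  obtain ⟨u, hu, hui, huj⟩ := h.sep i j hij
  obtain ⟨b, hb, hbu⟩ := (s18t_intLoc_iff hϖ t u).mp ((h.mem_iff u).mpr hu)
  refine ⟨⟨aeval t b * u, ssl_int_le_locRing t 𝔫 hbu⟩, ?_, ?_⟩
  · rw [h.mem_sqkBr]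
    intro _
    show (V i).valuation (aeval t b * u) < 1
    rw [map_mul, h.gauss_unit ht i hb, one_mul]
    exact (ValuationSubring.mem_nonunits_iff _).mp hui
  · intro hcon
    have h1 : (V j).valuation (aeval t b * u) < 1 := (h.mem_sqkBr 𝔫 j _).mp hcon hj
    rw [map_mul, h.gauss_unit ht j hb, one_mul, huj] at h1
    exact lt_irrefl _ h1

variable [Fintype ι]

/-- **(GLUE)** at the closed point `𝔫` : `n`-th roots `ψ i` of the unit `υ` along the branches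
through `𝔫`, pairwise congruent modulo `𝔫 P_𝔫`, glue to a unit `ψ₀` of `P_𝔫`. -/
theorem sqk_glue (h : SqvFam hϖ t V π e) (ht : Transcendental L t) [FiniteDimensional L⟮t⟯ F]
    (𝔫 : Ideal ↥(s18tInt A t)) (h𝔫 : 𝔫.IsMaximal) (hϖ𝔫 : sskPi ϖ t ∈ 𝔫)
    (n : ℕ) (hn : IsUnit (n : A))
    (hbr : ∀ i, SqtOn (V i) t 𝔫 → ∃ 𝔭 : Ideal ↥(s18tInt A t),
      (∀ p : ↥(s18tInt A t), p ∈ 𝔭 ↔ (p : F) ∈ (V i).nonunits) ∧ SqBranch t 𝔫 𝔭)
    {υ : F} (hυ0 : υ ≠ 0) (hυ : SsnfInLoc t 𝔫 υ) (hυ' : SsnfInLoc t 𝔫 υ⁻¹)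
    (ψ : ι → F) (hψ : ∀ i, SqtOn (V i) t 𝔫 → SsnfInLoc t 𝔫 (ψ i))
    (hψn : ∀ i, SqtOn (V i) t 𝔫 → (V i).valuation (ψ i ^ n - υ) < 1)
    (hψc : ∀ i j, SqtOn (V i) t 𝔫 → SqtOn (V j) t 𝔫 → SsnfInMax t 𝔫 (ψ i - ψ j)) :
    ∃ ψ₀ : F, ψ₀ ≠ 0 ∧ SsnfInLoc t 𝔫 ψ₀ ∧ SsnfInLoc t 𝔫 ψ₀⁻¹ ∧
      ∀ i, SqtOn (V i) t 𝔫 → (V i).valuation (ψ₀ - ψ i) < 1 := by
  classical
  haveI h𝔫p : 𝔫.IsPrime := h𝔫.isPrime
  haveI : IsNoetherianRing ↥(ssLocRing t 𝔫) := ssl_locRing_isNoetherianRing (L := L) t ht 𝔫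
  have hn0 : n ≠ 0 := by
    rintro rfl
    rw [Nat.cast_zero] at hn
    exact not_isUnit_zero hn
  obtain ⟨i₀, hi₀⟩ := h.on_some ht 𝔫 hϖ𝔫
  set T : Finset ι := Finset.univ.filter (fun i => SqtOn (V i) t 𝔫) with hT
  have hmemT : ∀ i, i ∈ T ↔ SqtOn (V i) t 𝔫 := fun i => by
    rw [hT, Finset.mem_filter]; simp
  have hnR : IsUnit ((n : ℕ) : ↥(ssLocRing t 𝔫)) := by
    have := hn.map (sslConst t 𝔫)
    rwa [map_natCast] at this
  have hzch : ∀ i, ∃ z : ↥(ssLocRing t 𝔫), SqtOn (V i) t 𝔫 →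
      (z ∈ maximalIdeal ↥(ssLocRing t 𝔫) ∧
        maximalIdeal ↥(ssLocRing t 𝔫) ≤ Ideal.span {z} ⊔ h.sqkBr 𝔫 i) := by
    intro i
    by_cases hon : SqtOn (V i) t 𝔫
    · obtain ⟨z, hz1, hz2⟩ := h.sqk_max_le 𝔫 i hon (hbr i hon)
      exact ⟨z, fun _ => ⟨hz1, hz2⟩⟩
    · exact ⟨0, fun h' => absurd h' hon⟩
  choose z hz using hzch
  have hach : ∀ i, ∃ a : ↥(ssLocRing t 𝔫), SqtOn (V i) t 𝔫 → (a : F) = ψ i := by
    intro i
    by_cases hon : SqtOn (V i) t 𝔫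
    · exact ⟨⟨ψ i, hψ i hon⟩, fun _ => rfl⟩
    · exact ⟨0, fun h' => absurd h' hon⟩
  choose a ha using hach
  obtain ⟨ψR, hψR⟩ := sqk_glue_finset (fun i => h.sqkBr 𝔫 i) T ⟨i₀, (hmemT i₀).mpr hi₀⟩
    (fun i hi => h.sqk_br_isPrime 𝔫 i ((hmemT i).mp hi))
    z (fun i hi => (hz i ((hmemT i).mp hi)).1) (fun i hi => (hz i ((hmemT i).mp hi)).2)
    (fun i hi j hj hij => h.sqk_sep ht 𝔫 ((hmemT j).mp hj) hij)
    n hnR ⟨υ, hυ⟩ ⟨υ⁻¹, hυ'⟩ (Subtype.ext (mul_inv_cancel₀ hυ0))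
    a (fun i hi => by
      rw [h.mem_sqkBr]
      intro hon
      show (V i).valuation ((a i : F) ^ n - υ) < 1
      rw [ha i hon]
      exact hψn i hon)
    (fun i hi j hj => by
      rw [ssl_mem_maximalIdeal]
      show SsInMax t 𝔫 ((a i : F) - (a j : F))
      rw [ha i ((hmemT i).mp hi), ha j ((hmemT j).mp hj)]
      exact hψc i j ((hmemT i).mp hi) ((hmemT j).mp hj))
  have hψRv : ∀ i, SqtOn (V i) t 𝔫 → (V i).valuation ((ψR : F) - ψ i) < 1 := by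
    intro i hon
    have h1 := (h.mem_sqkBr 𝔫 i _).mp (hψR i ((hmemT i).mpr hon)) hon
    have h2 : ((ψR - a i : ↥(ssLocRing t 𝔫)) : F) = (ψR : F) - ψ i := by
      rw [← ha i hon]; rfl
    rwa [h2] at h1
  -- `ψR` is a unit of `P_𝔫`
  have hunit : IsUnit ψR := by
    have h𝔓𝔪 : h.sqkBr 𝔫 i₀ ≤ maximalIdeal ↥(ssLocRing t 𝔫) :=
      le_maximalIdeal (h.sqk_br_isPrime 𝔫 i₀ hi₀).ne_top
    have h1 : ψR ^ n - ⟨υ, hυ⟩ ∈ maximalIdeal ↥(ssLocRing t 𝔫) := by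
      apply h𝔓𝔪
      rw [h.mem_sqkBr]
      intro _
      show (V i₀).valuation ((ψR : F) ^ n - υ) < 1
      have e : (ψR : F) ^ n - υ = ((ψR : F) ^ n - ψ i₀ ^ n) + (ψ i₀ ^ n - υ) := by ring
      rw [e]
      refine lt_of_le_of_lt ((V i₀).valuation.map_add _ _) (max_lt ?_ (hψn i₀ hi₀))
      refine lt_of_le_of_lt (sqkv_pow_sub_pow_le (V i₀) ?_ ?_ n) (hψRv i₀ hi₀)
      · exact ((V i₀).valuation_le_one_iff _).mpr (h.on_loc_mem hi₀ ψR.2)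
      · exact ((V i₀).valuation_le_one_iff _).mpr (h.on_loc_mem hi₀ (hψ i₀ hi₀))
    have hυu : IsUnit (⟨υ, hυ⟩ : ↥(ssLocRing t 𝔫)) :=
      IsUnit.of_mul_eq_one (⟨υ⁻¹, hυ'⟩ : ↥(ssLocRing t 𝔫)) (Subtype.ext (mul_inv_cancel₀ hυ0))
    have h2 : IsUnit (ψR ^ n) := by
      by_contra hnu
      have h3 : ψR ^ n ∈ maximalIdeal ↥(ssLocRing t 𝔫) := (mem_maximalIdeal _).mpr hnu
      have h4 : (⟨υ, hυ⟩ : ↥(ssLocRing t 𝔫)) ∈ maximalIdeal ↥(ssLocRing t 𝔫) := by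
        have : (⟨υ, hυ⟩ : ↥(ssLocRing t 𝔫)) = ψR ^ n - (ψR ^ n - ⟨υ, hυ⟩) := by ring
        rw [this]
        exact sub_mem h3 h1
      exact (mem_maximalIdeal _).mp h4 hυu
    exact (isUnit_pow_iff hn0).mp h2
  obtain ⟨ψR', hψR'⟩ := hunit.exists_right_inv
  have hmul : (ψR : F) * (ψR' : F) = 1 := congrArg (fun z : ↥(ssLocRing t 𝔫) => (z : F)) hψR'
  refine ⟨(ψR : F), left_ne_zero_of_mul_eq_one hmul, ψR.2, ?_, hψRv⟩
  rw [inv_eq_of_mul_eq_one_right hmul]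
  exact ψR'.2

variable [DecidableEq ι] [Nonempty ι]

/-- **(Q-KUM)** the local datum `StDivAt` at a closed point `𝔫 ∋ ϖ` all of whose branches are
smooth, from a presentation `g = υ Φ ^ n` and trivialisers `ψ i` along the branches. -/
theorem sqk_kumAt (h : SqvFam hϖ t V π e) (ht : Transcendental L t) [FiniteDimensional L⟮t⟯ F]
    (𝔫 : Ideal ↥(s18tInt A t)) (h𝔫 : 𝔫.IsMaximal) (hϖ𝔫 : sskPi ϖ t ∈ 𝔫)
    (n : ℕ) (hn : IsUnit (n : A))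
    (hbr : ∀ i, SqtOn (V i) t 𝔫 → ∃ 𝔭 : Ideal ↥(s18tInt A t),
      (∀ p : ↥(s18tInt A t), p ∈ 𝔭 ↔ (p : F) ∈ (V i).nonunits) ∧ SqBranch t 𝔫 𝔭)
    {g Φ υ : F} (hg : g ≠ 0) (hg1 : S18DvdGauss hϖ t (g - 1)) (hpres : g = υ * Φ ^ n)
    (hυ : SsnfInLoc t 𝔫 υ) (hυ' : SsnfInLoc t 𝔫 υ⁻¹)
    (ψ : ι → F) (hψ : ∀ i, SqtOn (V i) t 𝔫 → SsnfInLoc t 𝔫 (ψ i))
    (hψ1 : ∀ i, SqtOn (V i) t 𝔫 → Φ * ψ i - 1 ∈ (V i).nonunits)
    (hψc : ∀ i j, SqtOn (V i) t 𝔫 → SqtOn (V j) t 𝔫 → SsnfInMax t 𝔫 (ψ i - ψ j)) :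
    StDivAt L hϖ t n g 𝔫 := by
  haveI h𝔫p : 𝔫.IsPrime := h𝔫.isPrime
  have hp0 : algebraMap A F ϖ ≠ 0 := sqt_unif_ne_zero L hϖ
  have hn0 : n ≠ 0 := by
    rintro rfl
    rw [Nat.cast_zero] at hn
    exact not_isUnit_zero hn
  have hυ0 : υ ≠ 0 := by
    rintro rfl
    rw [zero_mul] at hpres
    exact hg hpres
  have hΦ0 : Φ ≠ 0 := by
    rintro rfl
    rw [zero_pow hn0, mul_zero] at hpres
    exact hg hpres
  have hloc1 : ∀ i, SqtOn (V i) t 𝔫 → ∀ x : F, SsnfInLoc t 𝔫 x → (V i).valuation x ≤ 1 :=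
    fun i hon x hx => ((V i).valuation_le_one_iff _).mpr (h.on_loc_mem hon hx)
  have hgv : ∀ i, (V i).valuation g = 1 := fun i => h.val_eq_one_of_dvd hp0 hg1 i
  have hυv : ∀ i, SqtOn (V i) t 𝔫 → (V i).valuation υ = 1 := fun i hon =>
    sqkv_eq_one_of_mul_eq_one (V i) (hloc1 i hon _ hυ) (hloc1 i hon _ hυ') (mul_inv_cancel₀ hυ0)
  have hΦv : ∀ i, SqtOn (V i) t 𝔫 → (V i).valuation Φ = 1 := by
    intro i hon
    have h1 := hgv i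
    rw [hpres, map_mul, hυv i hon, one_mul, map_pow] at h1
    exact (pow_eq_one_iff_of_nonneg zero_le hn0).mp h1
  have hψn : ∀ i, SqtOn (V i) t 𝔫 → (V i).valuation (ψ i ^ n - υ) < 1 := by
    intro i hon
    have hx : (V i).valuation (Φ * ψ i - 1) < 1 :=
      (ValuationSubring.mem_nonunits_iff _).mp (hψ1 i hon)
    have hx1 : (V i).valuation (Φ * ψ i) = 1 := sqkv_one_of_sub_one (V i) hx
    have h1 : (V i).valuation ((Φ * ψ i) ^ n - 1) < 1 :=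
      lt_of_le_of_lt (sqkv_pow_sub_one_le (V i) hx1.le n) hx
    have h2 : (V i).valuation (g - 1) < 1 :=
      lt_of_le_of_lt ((h.dvd_iff hp0 _).mp hg1 i) (h.unif_lt i)
    have e : ψ i ^ n - υ = (Φ ^ n)⁻¹ * (((Φ * ψ i) ^ n - 1) - (g - 1)) := by
      rw [hpres]; field_simp; ring
    rw [e, map_mul, map_inv₀, map_pow, hΦv i hon, one_pow, inv_one, one_mul]
    exact lt_of_le_of_lt (Valuation.map_sub _ _ _) (max_lt h1 h2)
  obtain ⟨ψ₀, hψ₀0, hψ₀, hψ₀', hψ₀v⟩ :=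
    h.sqk_glue ht 𝔫 h𝔫 hϖ𝔫 n hn hbr hυ0 hυ hυ' ψ hψ hψn hψc
  -- (NEWTON)
  set w₀ : F := υ / ψ₀ ^ n with hw₀
  have hw₀R : SsnfInLoc t 𝔫 w₀ := by
    have e : w₀ = υ * ψ₀⁻¹ ^ n := by rw [hw₀, inv_pow, div_eq_mul_inv]
    have h0 : υ * ψ₀⁻¹ ^ n ∈ ssLocRing t 𝔫 :=
      Subring.mul_mem _ hυ (Subring.pow_mem _ hψ₀' n)
    rw [e]; exact h0
  have hw₀1 : ∀ i, SqtOn (V i) t 𝔫 → w₀ - 1 ∈ (V i).nonunits := by
    intro i hon
    rw [ValuationSubring.mem_nonunits_iff]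
    have e : w₀ - 1 = -(((ψ₀ ^ n - ψ i ^ n) + (ψ i ^ n - υ)) * ψ₀⁻¹ ^ n) := by
      rw [hw₀, inv_pow]; field_simp; ring
    rw [e, Valuation.map_neg, map_mul]
    have h1 : (V i).valuation (ψ₀ ^ n - ψ i ^ n) < 1 :=
      lt_of_le_of_lt (sqkv_pow_sub_pow_le (V i) (hloc1 i hon _ hψ₀) (hloc1 i hon _ (hψ i hon)) n)
        (hψ₀v i hon)
    have h2 : (V i).valuation ((ψ₀ ^ n - ψ i ^ n) + (ψ i ^ n - υ)) < 1 :=
      lt_of_le_of_lt ((V i).valuation.map_add _ _) (max_lt h1 (hψn i hon))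
    have h3 : (V i).valuation (ψ₀⁻¹ ^ n) ≤ 1 := by
      rw [map_pow]; exact pow_le_one₀ zero_le (hloc1 i hon _ hψ₀')
    exact mul_lt_one_of_lt_of_le h2 h3
  obtain ⟨ψ₂, hψ₂0, hψ₂, hψ₂', hψ₂1, hroot⟩ := h.newton_loc ht 𝔫 hϖ𝔫 n hn hw₀R hw₀1
  set r₀ : F := Φ * ψ₀ * ψ₂ with hr₀
  have hr₀0 : r₀ ≠ 0 := mul_ne_zero (mul_ne_zero hΦ0 hψ₀0) hψ₂0
  -- (DENSE)
  obtain ⟨ω, hω0, hω, hω', hω1, hωv⟩ := h.dense_unit ht 𝔫 h𝔫 hϖ𝔫 hr₀0
  set r : F := r₀ * ω with hr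
  have hr0 : r ≠ 0 := mul_ne_zero hr₀0 hω0
  -- `x₁ = g / r ^ n ∈ 1 + ϖ P_𝔫`
  have hx₁ : SqkOne ϖ t 𝔫 (g / r ^ n) := by
    have e : g / r ^ n = (w₀ / ψ₂ ^ n) * ω⁻¹ ^ n := by
      rw [hr, hr₀, hw₀, hpres, inv_pow, mul_pow, mul_pow, mul_pow]; field_simp
    rw [e]
    exact sqk_one_mul hp0 hroot (sqk_one_pow hp0 (sqk_one_inv hϖ𝔫 hp0 hω0 hω1).1 n)
  have hx₁R : SsnfInLoc t 𝔫 (g / r ^ n) := sqk_one_mem hp0 hx₁
  have hx₁0 : g / r ^ n ≠ 0 := div_ne_zero hg (pow_ne_zero _ hr0)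
  have hx₁R' : SsnfInLoc t 𝔫 (g / r ^ n)⁻¹ := (sqk_one_inv hϖ𝔫 hp0 hx₁0 hx₁).2
  have hdvd : ∀ i, SqtOn (V i) t 𝔫 → ∀ x : F, SqkOne ϖ t 𝔫 x →
      (V i).valuation (x - 1) ≤ (V i).valuation (algebraMap A F ϖ) := by
    intro i hon x hx
    have e : x - 1 = algebraMap A F ϖ * ((x - 1) / algebraMap A F ϖ) := by field_simp
    rw [e, map_mul]
    calc (V i).valuation (algebraMap A F ϖ) * (V i).valuation ((x - 1) / algebraMap A F ϖ)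
        ≤ (V i).valuation (algebraMap A F ϖ) * 1 := mul_le_mul' le_rfl (hloc1 i hon _ hx)
      _ = _ := mul_one _
  have hr1 : S18DvdGauss hϖ t (r - 1) := by
    rw [h.dvd_iff hp0]
    intro i
    by_cases hon : SqtOn (V i) t 𝔫
    · have hA : (V i).valuation (Φ * ψ₀ - 1) < 1 := by
        have e : Φ * ψ₀ - 1 = (Φ * ψ i - 1) + Φ * (ψ₀ - ψ i) := by ring
        rw [e]
        refine lt_of_le_of_lt ((V i).valuation.map_add _ _)
          (max_lt ((ValuationSubring.mem_nonunits_iff _).mp (hψ1 i hon)) ?_)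
        rw [map_mul, hΦv i hon, one_mul]; exact hψ₀v i hon
      have hB : (V i).valuation (ψ₂ - 1) < 1 :=
        (ValuationSubring.mem_nonunits_iff _).mp (hψ₂1 i hon)
      have hC : (V i).valuation (ω - 1) < 1 :=
        lt_of_le_of_lt (hdvd i hon ω hω1) (h.unif_lt i)
      have hr_1 : (V i).valuation (r - 1) < 1 := by
        rw [hr, hr₀]
        exact sqkv_mul_sub_one_lt (V i) (sqkv_mul_sub_one_lt (V i) hA hB) hC
      have hrv : (V i).valuation r = 1 := sqkv_one_of_sub_one (V i) hr_1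
      have hrn : (V i).valuation (r ^ n - 1) ≤ (V i).valuation (algebraMap A F ϖ) := by
        have e : r ^ n - 1 = (g - 1) - (g / r ^ n - 1) * r ^ n := by field_simp; ring
        rw [e]
        refine le_trans (Valuation.map_sub _ _ _) (max_le ((h.dvd_iff hp0 _).mp hg1 i) ?_)
        rw [map_mul, map_pow, hrv, one_pow, mul_one]
        exact hdvd i hon _ hx₁
      have hnv : (V i).valuation ((n : ℕ) : F) = 1 := by
        obtain ⟨n', hn'⟩ := hn.exists_right_inv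
        have e1 : ((n : ℕ) : F) = algebraMap A F (n : A) := by rw [map_natCast]
        rw [e1]
        refine sqkv_eq_one_of_mul_eq_one (V i) (y := algebraMap A F n') ?_ ?_ ?_
        · exact ((V i).valuation_le_one_iff _).mpr (h.algebraMap_mem i _)
        · exact ((V i).valuation_le_one_iff _).mpr (h.algebraMap_mem i _)
        · rw [← map_mul, hn', map_one]
      rw [← sqkv_pow_sub_one_eq (V i) hr_1 n hnv]
      exact hrn
    · exact hωv i hon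
  refine ⟨r, hr0, hr1, h.inv_sub_one hp0 hr1, fun R' hR' => ?_⟩
  have hc : SsCentred t 𝔫 R'.toValuationSubring :=
    ⟨hR'.1, fun p hp => hR'.2 ((ValuationSubring.mem_nonunits_iff _).mpr hp)⟩
  have hle := ssl_locRing_le t 𝔫 hc
  have h1 : R'.ord (g / r ^ n) = 0 :=
    (PlaceOrd.ord_eq_zero_iff R' hx₁0).mpr ⟨hle hx₁R, hle hx₁R'⟩
  have h2 : R'.ord g = R'.ord ((g / r ^ n) * r ^ n) := by
    rw [div_mul_cancel₀ _ (pow_ne_zero _ hr0)]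
  rw [h2, R'.ord_mul hx₁0 (pow_ne_zero _ hr0), h1, zero_add, ← zpow_natCast, R'.ord_zpow]

end SqvFam

variable {hϖ : Irreducible ϖ} {t : F} {ι : Type*} {V : ι → ValuationSubring F} {π : ι → F}
  {e : ι → ℕ} [Fintype ι] [DecidableEq ι] [Nonempty ι]

/-- **(Q-KUM)**, root-namespace form (the literal of the blueprint §4.3). -/
theorem sq_kumAt (h : SqvFam hϖ t V π e) (ht : Transcendental L t) [FiniteDimensional L⟮t⟯ F]
    (𝔫 : Ideal ↥(s18tInt A t)) (h𝔫 : 𝔫.IsMaximal) (hϖ𝔫 : sskPi ϖ t ∈ 𝔫)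
    (n : ℕ) (hn : IsUnit (n : A))
    (hbr : ∀ i, SqtOn (V i) t 𝔫 → ∃ 𝔭 : Ideal ↥(s18tInt A t),
      (∀ p : ↥(s18tInt A t), p ∈ 𝔭 ↔ (p : F) ∈ (V i).nonunits) ∧ SqBranch t 𝔫 𝔭)
    {g Φ υ : F} (hg : g ≠ 0) (hg1 : S18DvdGauss hϖ t (g - 1)) (hpres : g = υ * Φ ^ n)
    (hυ : SsnfInLoc t 𝔫 υ) (hυ' : SsnfInLoc t 𝔫 υ⁻¹)
    (ψ : ι → F) (hψ : ∀ i, SqtOn (V i) t 𝔫 → SsnfInLoc t 𝔫 (ψ i))
    (hψ1 : ∀ i, SqtOn (V i) t 𝔫 → Φ * ψ i - 1 ∈ (V i).nonunits)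
    (hψc : ∀ i j, SqtOn (V i) t 𝔫 → SqtOn (V j) t 𝔫 → SsnfInMax t 𝔫 (ψ i - ψ j)) :
    StDivAt L hϖ t n g 𝔫 :=
  h.sqk_kumAt ht 𝔫 h𝔫 hϖ𝔫 n hn hbr hg hg1 hpres hυ hυ' ψ hψ hψ1 hψc

end Fermat.Agent.SQ
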