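import Mathlib
import Fermat.Prelude.Def_AlgebraicCurve_BaseChangeGalois
import Fermat.Agent.S18.T.Spec
import Fermat.Agent.S18.RH.W
import Fermat.Agent.S18.RH.Core
import Fermat.Agent.S24.PlaceOrd
import Fermat.Agent.SS.K.Spec
import Fermat.Agent.SS.NF.Defs
import Fermat.Agent.SS.Loc.Place
import Fermat.Agent.SQ.Defs
import Fermat.Agent.SQ.Fact
import Fermat.Agent.SQ.Glue
import Fermat.Agent.SQ.Newton
import Fermat.Agent.SQ.Three
import Fermat.Agent.SQ.ThreeLoc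
import Fermat.Agent.ST.Defs
import Fermat.Agent.SQ.KumAt.Alg
import Fermat.Agent.SQ.KumCore

/-!
# Program Q (S36) : around the local criterion at a closed point (blueprint §4.3)

The criterion `sq_kumAt` itself is in `SQ/KumCore.lean` (helper20).  This file :

* `sqka_centre_ne` : the centre of a vertical valuation is never the closed point `𝔫` itself;
* `sq_gk` (GK) : generalised Krull : membership in `P_𝔫` is tested on the components THROUGH `𝔫` and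
  on the places centred in `𝔫`;
* `sq_exists_pres` (PRES) : at a regular germ every `g` whose divisor is divisible by `n` has a
  presentation `g = υ Φⁿ`, `υ` a unit of `P_𝔫` (`sq_localRoot` + (GK));
* `sq_exists_triv` (B1) : a trivialiser `ψ` of `Φ` on one smooth branch;
* `sq_kumAt_simple` (SIMPLE) : the local datum `StDivAt` at the closed points on ONE component.
-/

set_option autoImplicit false
set_option linter.unusedSectionVars false
set_option linter.unusedVariables false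
set_option linter.style.haveILetI false

noncomputable section

namespace Fermat.Agent.SQ

open Polynomial IntermediateField AlgebraicCurve Fermat.Agent.S18 Fermat.Agent.SS Fermat.Agent.S24
open Fermat.Agent.ST IsLocalRing

universe u

variable {A : Type*} [CommRing A] [IsDomain A] [IsDiscreteValuationRing A] [CharZero A]
variable {L : Type*} [Field L] [Algebra A L] [IsFractionRing A L]
variable {F : Type u} [Field F] [Algebra A F] [Algebra L F] [IsScalarTower A L F]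
variable {ϖ : A}
variable {hϖ : Irreducible ϖ} {t : F} {ι : Type*} {V : ι → ValuationSubring F} {π : ι → F}
  {e : ι → ℕ}

/-- the centre of a vertical valuation is never the closed point itself : `𝔫 ∩ A[t]` is a maximal
ideal of `A[t]` (integrality), hence contains a polynomial not divisible by `ϖ`. -/
theorem sqka_centre_ne (h : SqvFam hϖ t V π e) (ht : Transcendental L t)
    [FiniteDimensional L⟮t⟯ F] (𝔫 : Ideal ↥(s18tInt A t)) (h𝔫 : 𝔫.IsMaximal) (i : ι) :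
    ∃ p ∈ 𝔫, (p : F) ∉ (V i).nonunits := by
  classical
  haveI := h𝔫
  -- a polynomial `b` with `b(t) ∈ 𝔫`, `ϖ ∤ b`
  suffices hb : ∃ b : A[X], ¬ (C ϖ ∣ b) ∧
      (⟨aeval t b, s18ta_chart_le_int t (s18tb_aeval_mem_chart t b)⟩ : ↥(s18tInt A t)) ∈ 𝔫 by
    obtain ⟨b, hb1, hb2⟩ := hb
    refine ⟨_, hb2, ?_⟩
    rw [ValuationSubring.mem_nonunits_iff, h.gauss_unit ht i hb1]
    exact lt_irrefl _
  have hϖu : ¬ IsUnit ϖ := hϖ.not_isUnit
  let e : ↥(integralClosure ↥(s18tChart A t) F) ≃+* ↥(s18tInt A t) :=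
    { toFun := fun x => ⟨x.1, x.2⟩
      invFun := fun x => ⟨x.1, x.2⟩
      left_inv := fun x => rfl
      right_inv := fun x => rfl
      map_mul' := fun x y => rfl
      map_add' := fun x y => rfl }
  haveI h1 : (𝔫.comap (e : ↥(integralClosure ↥(s18tChart A t) F) →+* ↥(s18tInt A t))).IsMaximal :=
    Ideal.comap_isMaximal_of_surjective _ e.surjective
  have h2 : ((𝔫.comap (e : ↥(integralClosure ↥(s18tChart A t) F) →+* ↥(s18tInt A t))).comap
      (algebraMap ↥(s18tChart A t) ↥(integralClosure ↥(s18tChart A t) F))).IsMaximal :=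
    Ideal.isMaximal_comap_of_isIntegral_of_isMaximal _
  set 𝔪₀ := (𝔫.comap (e : ↥(integralClosure ↥(s18tChart A t) F) →+* ↥(s18tInt A t))).comap
      (algebraMap ↥(s18tChart A t) ↥(integralClosure ↥(s18tChart A t) F)) with h𝔪₀
  -- membership in `𝔪₀`
  have hmem : ∀ b : A[X], (⟨aeval t b, s18tb_aeval_mem_chart t b⟩ : ↥(s18tChart A t)) ∈ 𝔪₀ →
      (⟨aeval t b, s18ta_chart_le_int t (s18tb_aeval_mem_chart t b)⟩ : ↥(s18tInt A t)) ∈ 𝔫 := by
    intro b hb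
    exact hb
  let tC : ↥(s18tChart A t) := ⟨aeval t (X : A[X]), s18tb_aeval_mem_chart t X⟩
  by_cases htm : tC ∈ 𝔪₀
  · refine ⟨X, ?_, hmem X htm⟩
    intro hdvd
    have := (C_dvd_iff_dvd_coeff ϖ X).mp hdvd 1
    rw [coeff_X_one] at this
    exact hϖu (isUnit_of_dvd_one this)
  · obtain ⟨y, m, hm, hym⟩ := h2.exists_inv htm
    -- `y = f(t)`
    obtain ⟨f, hf⟩ : ∃ f : A[X], aeval t f = (y : F) := by
      have hy : (y : F) ∈ Algebra.adjoin A {t} := y.2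
      rw [Algebra.adjoin_singleton_eq_range_aeval] at hy
      exact hy
    refine ⟨1 - f * X, ?_, ?_⟩
    · intro hdvd
      have := (C_dvd_iff_dvd_coeff ϖ (1 - f * X)).mp hdvd 0
      rw [coeff_sub, coeff_one_zero, mul_coeff_zero, coeff_X_zero, mul_zero, sub_zero] at this
      exact hϖu (isUnit_of_dvd_one this)
    · refine hmem _ ?_
      have : (⟨aeval t (1 - f * X), s18tb_aeval_mem_chart t (1 - f * X)⟩ : ↥(s18tChart A t)) = m := by
        apply Subtype.ext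
        have h3 : ((y * tC + m : ↥(s18tChart A t)) : F) = 1 := by rw [hym]; rfl
        have h4 : ((y * tC + m : ↥(s18tChart A t)) : F) = (y : F) * aeval t (X : A[X]) + (m : F) :=
          rfl
        show aeval t (1 - f * X) = (m : F)
        rw [map_sub, map_one, map_mul, hf]
        rw [h4] at h3
        linear_combination (-1 : F) * h3
      rw [this]; exact hm

variable [Fintype ι] [DecidableEq ι] [Nonempty ι]

/-- **(GK)** generalised Krull : `x ∈ V i` for the components THROUGH `𝔫` and no pole at the places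
centred in `𝔫` ⟹ `x ∈ P_𝔫`. -/
theorem sq_gk (h : SqvFam hϖ t V π e) (ht : Transcendental L t) [FiniteDimensional L⟮t⟯ F]
    (𝔫 : Ideal ↥(s18tInt A t)) (h𝔫 : 𝔫.IsMaximal) {x : F}
    (hv : ∀ i, SqtOn (V i) t 𝔫 → x ∈ V i)
    (hpl : ∀ R : Place L F, SsCentredAt t 𝔫 R → 0 ≤ R.ord x) : SsnfInLoc t 𝔫 x := by
  classical
  haveI h𝔫p : 𝔫.IsPrime := h𝔫.isPrime
  obtain ⟨b, hb, hbv⟩ := h.exists_clear 𝔫
  obtain ⟨K, hK⟩ := h.arch ht x
  have hy : (b : F) ^ K * x ∈ s18tIntLoc A t (C ϖ) (s18t_prime_C hϖ) := by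
    refine (h.mem_iff _).mpr fun i => ?_
    by_cases hon : SqtOn (V i) t 𝔫
    · exact (V i).mul_mem _ _ ((V i).pow_mem (h.int_mem i b.2) K) (hv i hon)
    · rw [← (V i).valuation_le_one_iff, map_mul, map_pow]
      calc (V i).valuation (b : F) ^ K * (V i).valuation x
          ≤ (V i).valuation (algebraMap A F ϖ) ^ K * (V i).valuation x :=
            mul_le_mul_left (pow_le_pow_left₀ zero_le (hbv i hon) K) _
        _ = (V i).valuation (algebraMap A F ϖ ^ K * x) := by rw [map_mul, map_pow]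
        _ ≤ 1 := hK i
  obtain ⟨s, hs, hsy⟩ := ssk_krull hϖ t ht 𝔫 h𝔫 _ hy (by
    intro W hW hPW hcentre
    obtain ⟨R, hR⟩ := s18r_exists_place t ht W hW
    have hcen : SsCentredAt t 𝔫 R := by
      refine ⟨?_, ?_⟩
      · rw [hR]; exact hPW
      · rw [hR]; exact hcentre
    have h1 : x ∈ R.toValuationSubring := PlaceOrd.mem_of_ord_nonneg R (hpl R hcen)
    rw [hR] at h1
    exact W.mul_mem _ _ (W.pow_mem (hPW b.2) K) h1)
  refine ⟨s * b ^ K, fun hmem => ?_, ?_⟩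
  · rcases h𝔫p.mem_or_mem hmem with h1 | h1
    · exact hs h1
    · exact hb (h𝔫p.mem_of_pow_mem K h1)
  · have : ((s * b ^ K : ↥(s18tInt A t)) : F) * x = (s : F) * ((b : F) ^ K * x) := by
      push_cast; ring
    rw [this]; exact hsy

/-- units of `P_𝔫` have order `0` at the places centred in `𝔫` -/
theorem sqka_ord_unit (𝔫 : Ideal ↥(s18tInt A t)) (h𝔫 : 𝔫.IsMaximal) {x : F} (hx0 : x ≠ 0)
    (hx : SsnfInLoc t 𝔫 x) (hx' : SsnfInLoc t 𝔫 x⁻¹) (R : Place L F)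
    (hR : SsCentredAt t 𝔫 R) : R.ord x = 0 := by
  haveI h𝔫p : 𝔫.IsPrime := h𝔫.isPrime
  have hc : SsCentred t 𝔫 R.toValuationSubring := sqf_centred hR.1 hR.2
  rw [PlaceOrd.ord_eq_zero_iff R hx0]
  exact ⟨ssl_locRing_le t 𝔫 hc hx, ssl_locRing_le t 𝔫 hc hx'⟩

/-- **(PRES)** presentation `g = υ Φⁿ` at a regular germ : `υ` a unit of `P_𝔫`, `Φ` a unit at the
components through `𝔫`, `ord_R Φ = D R` at the places centred in `𝔫`. -/
theorem sq_exists_pres (h : SqvFam hϖ t V π e) (ht : Transcendental L t)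
    [FiniteDimensional L⟮t⟯ F] (𝔫 : Ideal ↥(s18tInt A t)) (h𝔫 : 𝔫.IsMaximal)
    (hϖ𝔫 : sskPi ϖ t ∈ 𝔫) (hreg : SqGermReg t 𝔫) (n : ℕ) (hn0 : n ≠ 0)
    {g : F} (hg : g ≠ 0) (hgv : ∀ i, SqtOn (V i) t 𝔫 → (V i).valuation g = 1)
    (D : Place L F →₀ ℤ) (hD : ∀ R : Place L F, SsCentredAt t 𝔫 R → R.ord g = n * D R) :
    ∃ Φ υ : F, Φ ≠ 0 ∧ g = υ * Φ ^ n ∧ SsnfInLoc t 𝔫 υ ∧ SsnfInLoc t 𝔫 υ⁻¹ ∧
      (∀ i, SqtOn (V i) t 𝔫 → (V i).valuation Φ = 1) ∧
      ∀ R : Place L F, SsCentredAt t 𝔫 R → R.ord Φ = D R := by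
  classical
  obtain ⟨Φ, hΦ0, hΦord, hΦv⟩ := sq_localRoot hϖ t ht 𝔫 h𝔫 hϖ𝔫 hreg D
  have hΦi : ∀ i, SqtOn (V i) t 𝔫 → (V i).valuation Φ = 1 := by
    intro i hon
    refine hΦv (V i) (fun x hx => h.int_mem i hx) (fun p hp => hon p hp)
      (sqka_centre_ne h ht 𝔫 h𝔫 i) (h.unif_mem i)
  have hΦn0 : Φ ^ n ≠ 0 := pow_ne_zero _ hΦ0
  have hυ0 : g / Φ ^ n ≠ 0 := div_ne_zero hg hΦn0
  have hυv : ∀ i, SqtOn (V i) t 𝔫 → (V i).valuation (g / Φ ^ n) = 1 := by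
    intro i hon
    rw [map_div₀, map_pow, hgv i hon, hΦi i hon, one_pow, div_one]
  have hυord : ∀ R : Place L F, SsCentredAt t 𝔫 R → R.ord (g / Φ ^ n) = 0 := by
    intro R hR
    rw [div_eq_mul_inv, R.ord_mul hg (inv_ne_zero hΦn0), R.ord_inv, ← zpow_natCast, R.ord_zpow,
      hD R hR, hΦord R hR]
    ring
  refine ⟨Φ, g / Φ ^ n, hΦ0, by rw [div_mul_cancel₀ _ hΦn0], ?_, ?_, hΦi, hΦord⟩
  · refine sq_gk h ht 𝔫 h𝔫 (fun i hon => ?_) (fun R hR => by rw [hυord R hR])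
    rw [← (V i).valuation_le_one_iff, hυv i hon]
  · refine sq_gk h ht 𝔫 h𝔫 (fun i hon => ?_) (fun R hR => by rw [R.ord_inv, hυord R hR, neg_zero])
    rw [← (V i).valuation_le_one_iff, map_inv₀, hυv i hon, inv_one]

/-! ### valuation calculus -/

section Val

variable {W : ValuationSubring F}

theorem sqka_le_one_of_sub_one {x : F} (hx : W.valuation (x - 1) < 1) : W.valuation x ≤ 1 := by
  have : x = (x - 1) + 1 := by ring
  rw [this]
  exact (W.valuation.map_add_le hx.le (by rw [map_one]))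

theorem sqka_eq_one_of_sub_one {x : F} (hx : W.valuation (x - 1) < 1) : W.valuation x = 1 := by
  have : x = (x - 1) + 1 := by ring
  rw [this, Valuation.map_add_eq_of_lt_right _ (by rw [map_one]; exact hx), map_one]

theorem sqka_mul_lt {x y : F} (hx : W.valuation x ≤ 1) (hy : W.valuation y < 1) :
    W.valuation (x * y) < 1 := by
  rw [map_mul, mul_comm]
  exact mul_lt_one_of_lt_of_le hy hx

theorem sqka_mul_sub_one {x y : F} (hx : W.valuation (x - 1) < 1) (hy : W.valuation (y - 1) < 1) :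
    W.valuation (x * y - 1) < 1 := by
  have : x * y - 1 = x * (y - 1) + (x - 1) := by ring
  rw [this]
  exact W.valuation.map_add_lt (sqka_mul_lt (sqka_le_one_of_sub_one hx) hy) hx

theorem sqka_pow_sub_one {x : F} (hx : W.valuation (x - 1) < 1) (n : ℕ) :
    W.valuation (x ^ n - 1) < 1 := by
  induction n with
  | zero => simp
  | succ n ih =>
    rw [pow_succ]
    exact sqka_mul_sub_one ih hx

theorem sqka_pow_eq_one {Γ : Type*} [LinearOrderedCommGroupWithZero Γ] {a : Γ} {n : ℕ}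
    (hn : n ≠ 0) (h : a ^ n = 1) : a = 1 := by
  rcases lt_trichotomy a 1 with hlt | heq | hgt
  · exact absurd h (ne_of_lt (pow_lt_one₀ zero_le hlt hn))
  · exact heq
  · exact absurd h (ne_of_gt (one_lt_pow₀ hgt hn))

end Val

/-- the components through `𝔫` are centred in `𝔫` -/
theorem sqka_centred (h : SqvFam hϖ t V π e) {𝔫 : Ideal ↥(s18tInt A t)} {i : ι}
    (hon : SqtOn (V i) t 𝔫) : SsCentred t 𝔫 (V i) :=
  ⟨fun x hx => h.int_mem i hx, fun p hp => hon p ((ValuationSubring.mem_nonunits_iff _).mpr hp)⟩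

/-- the branch datum in the local ring : `𝔪 = (z) + 𝔮`, `𝔮` the centre of `V i` on `P_𝔫`. -/
theorem sqka_branch (h : SqvFam hϖ t V π e) (𝔫 : Ideal ↥(s18tInt A t)) [h𝔫 : 𝔫.IsPrime] (i : ι)
    (hon : SqtOn (V i) t 𝔫)
    (hbr : ∃ 𝔭 : Ideal ↥(s18tInt A t),
      (∀ p : ↥(s18tInt A t), p ∈ 𝔭 ↔ (p : F) ∈ (V i).nonunits) ∧ SqBranch t 𝔫 𝔭) :
    ∃ z : ↥(ssLocRing t 𝔫), z ∈ maximalIdeal ↥(ssLocRing t 𝔫) ∧
      maximalIdeal ↥(ssLocRing t 𝔫) ≤ Ideal.span {z} ⊔ sslCentre t 𝔫 (sqka_centred h hon) := by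
  obtain ⟨𝔭, hmem𝔭, -, -, z, hzmax, hgen⟩ := hbr
  have hz' : SsInMax t 𝔫 z := hzmax
  refine ⟨⟨z, hz'.inLoc⟩, (ssl_mem_maximalIdeal t 𝔫 _).mpr hz', fun x hx => ?_⟩
  obtain ⟨s, hs, p, hp, hsp⟩ := (ssl_mem_maximalIdeal t 𝔫 x).mp hx
  obtain ⟨s', hs', c, p', hp', hsp'⟩ := hgen p hp
  have hs0 : (s : F) ≠ 0 := fun h0 => hs (by
    have : s = 0 := Subtype.ext h0
    rw [this]; exact 𝔫.zero_mem)
  have hs'0 : (s' : F) ≠ 0 := fun h0 => hs' (by
    have : s' = 0 := Subtype.ext h0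
    rw [this]; exact 𝔫.zero_mem)
  -- `u = 1 / (s s')`
  have hu : ((s : F) * (s' : F))⁻¹ ∈ ssLocRing t 𝔫 := by
    refine ⟨s * s', fun hmem => (h𝔫.mem_or_mem hmem).elim hs hs', ?_⟩
    have : ((s * s' : ↥(s18tInt A t)) : F) * ((s : F) * (s' : F))⁻¹ = 1 := by
      push_cast
      exact mul_inv_cancel₀ (mul_ne_zero hs0 hs'0)
    rw [this]; exact Subring.one_mem _
  have hcR : (c : F) ∈ ssLocRing t 𝔫 := ssl_int_le_locRing t 𝔫 c.2
  have hp'R : (p' : F) ∈ ssLocRing t 𝔫 := ssl_int_le_locRing t 𝔫 p'.2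
  have hx_eq : (x : F) = ((s : F) * (s' : F))⁻¹ * (c : F) * z + ((s : F) * (s' : F))⁻¹ * (p' : F) := by
    have h1 : (s' : F) * ((s : F) * (x : F)) = (c : F) * z + (p' : F) := by rw [hsp, hsp']
    field_simp
    linear_combination h1
  refine Submodule.mem_sup.mpr ⟨⟨((s : F) * (s' : F))⁻¹ * (c : F), Subring.mul_mem _ hu hcR⟩ *
    ⟨z, hz'.inLoc⟩, Ideal.mem_span_singleton.mpr (dvd_mul_left _ _),
    ⟨((s : F) * (s' : F))⁻¹ * (p' : F), Subring.mul_mem _ hu hp'R⟩, ?_, Subtype.ext hx_eq.symm⟩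
  rw [mem_sslCentre]
  show (V i).valuation (((s : F) * (s' : F))⁻¹ * (p' : F)) < 1
  refine sqka_mul_lt (((V i).valuation_le_one_iff _).mpr (h.on_loc_mem hon hu)) ?_
  exact (ValuationSubring.mem_nonunits_iff _).mp ((hmem𝔭 p').mp hp')

/-- `v_i(Φ) = 1` from the presentation -/
theorem sqka_val_phi (h : SqvFam hϖ t V π e) {𝔫 : Ideal ↥(s18tInt A t)} {n : ℕ} (hn0 : n ≠ 0)
    {i : ι} (hon : SqtOn (V i) t 𝔫) {g Φ υ : F} (hg1 : (V i).valuation (g - 1) < 1)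
    (hpres : g = υ * Φ ^ n) (hυ : SsnfInLoc t 𝔫 υ) (hυ' : SsnfInLoc t 𝔫 υ⁻¹) :
    (V i).valuation υ = 1 ∧ (V i).valuation Φ = 1 := by
  have hg : (V i).valuation g = 1 := sqka_eq_one_of_sub_one hg1
  have h1 : (V i).valuation υ ≤ 1 := ((V i).valuation_le_one_iff _).mpr (h.on_loc_mem hon hυ)
  have h2 : (V i).valuation υ⁻¹ ≤ 1 := ((V i).valuation_le_one_iff _).mpr (h.on_loc_mem hon hυ')
  have hυ0 : υ ≠ 0 := by
    rintro rfl
    rw [zero_mul] at hpres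
    rw [hpres, map_zero] at hg
    exact zero_ne_one hg
  have hυ1 : (V i).valuation υ = 1 := by
    refine le_antisymm h1 ?_
    rw [map_inv₀] at h2
    exact (inv_le_one₀ (zero_lt_iff.mpr ((Valuation.ne_zero_iff _).mpr hυ0))).mp h2
  refine ⟨hυ1, sqka_pow_eq_one hn0 ?_⟩
  rw [← map_pow]
  have : (V i).valuation g = (V i).valuation υ * (V i).valuation (Φ ^ n) := by
    rw [hpres, map_mul]
  rw [hg, hυ1, one_mul] at this
  exact this.symm

/-- **(B1)** trivialiser on one branch : a presentation `g = υ Φⁿ` with `g ≡ 1 mod 𝔪_{V i}` has a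
unit `ψ` of `P_𝔫` with `Φ ψ ≡ 1 mod 𝔪_{V i}` (the branch `P_𝔫 / 𝔭_i` is a DVR : equal valuations). -/
theorem sq_exists_triv (h : SqvFam hϖ t V π e) (ht : Transcendental L t)
    [FiniteDimensional L⟮t⟯ F] (𝔫 : Ideal ↥(s18tInt A t)) (h𝔫 : 𝔫.IsMaximal)
    (n : ℕ) (hn0 : n ≠ 0) (i : ι) (hon : SqtOn (V i) t 𝔫)
    (hbr : ∃ 𝔭 : Ideal ↥(s18tInt A t),
      (∀ p : ↥(s18tInt A t), p ∈ 𝔭 ↔ (p : F) ∈ (V i).nonunits) ∧ SqBranch t 𝔫 𝔭)
    {g Φ υ : F} (hg1 : g - 1 ∈ (V i).nonunits) (hpres : g = υ * Φ ^ n)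
    (hυ : SsnfInLoc t 𝔫 υ) (hυ' : SsnfInLoc t 𝔫 υ⁻¹) :
    ∃ ψ : F, ψ ≠ 0 ∧ SsnfInLoc t 𝔫 ψ ∧ SsnfInLoc t 𝔫 ψ⁻¹ ∧ Φ * ψ - 1 ∈ (V i).nonunits := by
  classical
  haveI h𝔫p : 𝔫.IsPrime := h𝔫.isPrime
  haveI : IsNoetherianRing ↥(ssLocRing t 𝔫) := ssl_locRing_isNoetherianRing (L := L) t ht 𝔫
  have hg1' : (V i).valuation (g - 1) < 1 := (ValuationSubring.mem_nonunits_iff _).mp hg1
  obtain ⟨hυ1, hΦ1⟩ := sqka_val_phi h hn0 hon hg1' hpres hυ hυ'
  have hΦ0 : Φ ≠ 0 := by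
    rintro rfl
    rw [map_zero] at hΦ1
    exact zero_ne_one hΦ1
  have hυ0 : υ ≠ 0 := by
    rintro rfl
    rw [map_zero] at hυ1
    exact zero_ne_one hυ1
  have hΦi : Φ⁻¹ ∈ V i := by
    rw [← (V i).valuation_le_one_iff, map_inv₀, hΦ1, inv_one]
  obtain ⟨a, b, ha, hb, hbv, hab⟩ := h.exists_frac ht i hΦi
  have hav : (V i).valuation a = 1 := by
    rw [← hab, map_mul, map_inv₀, hΦ1, hbv, inv_one, one_mul]
  obtain ⟨z, hzm, hz⟩ := sqka_branch h 𝔫 i hon hbr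
  set 𝔮 := sslCentre t 𝔫 (sqka_centred h hon) with h𝔮
  set aR : ↥(ssLocRing t 𝔫) := ⟨a, ssl_int_le_locRing t 𝔫 ha⟩ with haR
  set bR : ↥(ssLocRing t 𝔫) := ⟨b, ssl_int_le_locRing t 𝔫 hb⟩ with hbR
  set υR : ↥(ssLocRing t 𝔫) := ⟨υ, hυ⟩ with hυR
  have hυu : IsUnit υR := by
    refine IsUnit.of_mul_eq_one (⟨υ⁻¹, hυ'⟩ : ↥(ssLocRing t 𝔫)) (Subtype.ext ?_)
    show υ * υ⁻¹ = 1
    exact mul_inv_cancel₀ hυ0
  have haq : aR ∉ 𝔮 := by
    rw [h𝔮, mem_sslCentre]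
    show ¬ (V i).valuation a < 1
    rw [hav]; exact lt_irrefl _
  have hbq : bR ∉ 𝔮 := by
    rw [h𝔮, mem_sslCentre]
    show ¬ (V i).valuation b < 1
    rw [hbv]; exact lt_irrefl _
  have habq : aR ^ n - υR * bR ^ n ∈ 𝔮 := by
    rw [h𝔮, mem_sslCentre]
    show (V i).valuation (a ^ n - υ * b ^ n) < 1
    have e1 : a ^ n - υ * b ^ n = (b ^ n * (Φ⁻¹) ^ n) * (1 - g) := by
      have e0 : Φ ^ n * (Φ⁻¹) ^ n = 1 := by
        rw [← mul_pow, mul_inv_cancel₀ hΦ0, one_pow]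
      rw [← hab, hpres, mul_pow]
      linear_combination (b ^ n * υ) * e0
    rw [e1]
    refine sqka_mul_lt ?_ ?_
    · rw [map_mul, map_pow, map_pow, map_inv₀, hbv, hΦ1, inv_one, one_pow, one_mul]
    · have : (1 : F) - g = -(g - 1) := by ring
      rw [this, Valuation.map_neg]
      exact hg1'
  obtain ⟨ψ, hψu, hψ⟩ := sqka_ratio 𝔮 z hzm hz n hn0 haq hbq hυu habq
  obtain ⟨ψ', hψ'⟩ := hψu.exists_right_inv
  have hmul : (ψ : F) * (ψ' : F) = 1 := congrArg (fun x : ↥(ssLocRing t 𝔫) => (x : F)) hψ'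
  have hψ0 : (ψ : F) ≠ 0 := left_ne_zero_of_mul_eq_one hmul
  refine ⟨(ψ : F), hψ0, ψ.2, by rw [inv_eq_of_mul_eq_one_right hmul]; exact ψ'.2, ?_⟩
  rw [ValuationSubring.mem_nonunits_iff]
  rw [h𝔮, mem_sslCentre] at hψ
  have hψ2 : (V i).valuation (a - (ψ : F) * b) < 1 := hψ
  have e2 : Φ * (ψ : F) - 1 = -((Φ * b⁻¹) * (a - (ψ : F) * b)) := by
    have hb0 : b ≠ 0 := by
      rintro rfl
      rw [map_zero] at hbv
      exact zero_ne_one hbv
    rw [← hab]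
    field_simp
    ring
  rw [e2, Valuation.map_neg]
  refine sqka_mul_lt ?_ hψ2
  rw [map_mul, map_inv₀, hΦ1, hbv, inv_one, one_mul]

/-- distinct components through `𝔫` have incomparable centres on `P_𝔫` -/
theorem sqka_centre_not_le (h : SqvFam hϖ t V π e) (ht : Transcendental L t)
    [FiniteDimensional L⟮t⟯ F] (𝔫 : Ideal ↥(s18tInt A t)) [h𝔫 : 𝔫.IsPrime] {i j : ι} (hij : i ≠ j)
    (hi : SqtOn (V i) t 𝔫) (hj : SqtOn (V j) t 𝔫) :
    ¬ sslCentre t 𝔫 (sqka_centred h hi) ≤ sslCentre t 𝔫 (sqka_centred h hj) := by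
  obtain ⟨u, hu, hui, huj⟩ := h.sep i j hij
  obtain ⟨a, b, ha, hb, hbv, hab⟩ := h.exists_frac ht j (hu j)
  intro hle
  have h1 : (⟨a, ssl_int_le_locRing t 𝔫 ha⟩ : ↥(ssLocRing t 𝔫)) ∈
      sslCentre t 𝔫 (sqka_centred h hi) := by
    rw [mem_sslCentre]
    show (V i).valuation a < 1
    rw [← hab, mul_comm]
    exact sqka_mul_lt (((V i).valuation_le_one_iff _).mpr (h.int_mem i hb))
      ((ValuationSubring.mem_nonunits_iff _).mp hui)
  have h2 := hle h1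
  rw [mem_sslCentre] at h2
  have h3 : (V j).valuation a < 1 := h2
  rw [← hab, map_mul, huj, hbv, one_mul] at h3
  exact lt_irrefl _ h3

/-- **(SIMPLE)** at a closed point lying on ONE component (a regular germ with a smooth branch) every
normalised `g` whose divisor is divisible by `n` at the places centred in `𝔫` has the local datum. -/
theorem sq_kumAt_simple (h : SqvFam hϖ t V π e) (ht : Transcendental L t)
    [FiniteDimensional L⟮t⟯ F] (𝔫 : Ideal ↥(s18tInt A t)) (h𝔫 : 𝔫.IsMaximal)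
    (hϖ𝔫 : sskPi ϖ t ∈ 𝔫) (n : ℕ) (hn : IsUnit (n : A)) (hreg : SqGermReg t 𝔫)
    (i₀ : ι) (hon : SqtOn (V i₀) t 𝔫) (honly : ∀ i, SqtOn (V i) t 𝔫 → i = i₀)
    (hbr : ∃ 𝔭 : Ideal ↥(s18tInt A t),
      (∀ p : ↥(s18tInt A t), p ∈ 𝔭 ↔ (p : F) ∈ (V i₀).nonunits) ∧ SqBranch t 𝔫 𝔭)
    {g : F} (hg : g ≠ 0) (hg1 : S18DvdGauss hϖ t (g - 1))
    (D : Place L F →₀ ℤ) (hD : ∀ R : Place L F, SsCentredAt t 𝔫 R → R.ord g = n * D R) :
    StDivAt L hϖ t n g 𝔫 := by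
  classical
  haveI h𝔫p : 𝔫.IsPrime := h𝔫.isPrime
  have hp0 : algebraMap A F ϖ ≠ 0 := sqt_unif_ne_zero L hϖ
  have hn0 : n ≠ 0 := by
    rintro rfl
    rw [Nat.cast_zero] at hn
    exact not_isUnit_zero hn
  obtain ⟨Φ, υ, hΦ0, hpres, hυ, hυ', -, -⟩ := sq_exists_pres h ht 𝔫 h𝔫 hϖ𝔫 hreg n hn0 hg
    (fun i _ => h.val_eq_one_of_dvd hp0 hg1 i) D hD
  have hg1i₀ : g - 1 ∈ (V i₀).nonunits := by
    rw [ValuationSubring.mem_nonunits_iff]
    exact lt_of_le_of_lt ((h.dvd_iff hp0 _).mp hg1 i₀) (h.unif_lt i₀)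
  obtain ⟨ψ₀, -, hψR, -, hψ1⟩ :=
    sq_exists_triv h ht 𝔫 h𝔫 n hn0 i₀ hon hbr hg1i₀ hpres hυ hυ'
  refine sq_kumAt h ht 𝔫 h𝔫 hϖ𝔫 n hn (fun i hi => by rw [honly i hi]; exact hbr) hg hg1 hpres
    hυ hυ' (fun _ => ψ₀) (fun _ _ => hψR) (fun i hi => by rw [honly i hi]; exact hψ1)
    (fun i j _ _ => ?_)
  refine ⟨1, fun h1 => h𝔫p.ne_top ((Ideal.eq_top_iff_one _).mpr h1), 0, 𝔫.zero_mem, ?_⟩
  simp

end Fermat.Agent.SQ
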