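import Mathlib

/-!
# Program Q (S36) : base calculus for (Q-NEW)

* `SqwCong V x y` : congruence modulo the maximal ideal of a valuation subring (elements of `V`);
* `SqwOrd V o` : an integer order function of `V` (DATA on the consumer side); constructors
  `sqw_ord_of_zpow`, `sqw_exists_ord`, `sqw_dec_of_unif`;
* reflection of maximal ideals / units along embeddings of valuation rings.

Mathlib only.  Prefix `sqw_` / `Sqw`.
-/

set_option autoImplicit false
set_option linter.unusedSectionVars false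
set_option linter.unusedVariables false

noncomputable section

namespace Fermat.Agent.SQ

/-! ### Congruences modulo the maximal ideal of a valuation subring -/

section Cong

variable {K : Type*} [Field K]

/-- `x ≡ y` modulo the maximal ideal of `V`, for `x, y ∈ V` -/
def SqwCong (V : ValuationSubring K) (x y : K) : Prop :=
  x ∈ V ∧ y ∈ V ∧ x - y ∈ V.nonunits

variable {V : ValuationSubring K}

theorem sqw_mul_mem_nonunits {a b : K} (ha : a ∈ V) (hb : b ∈ V.nonunits) :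
    a * b ∈ V.nonunits := by
  rw [ValuationSubring.mem_nonunits_iff] at hb ⊢
  rw [map_mul]
  exact lt_of_le_of_lt (mul_le_of_le_one_left' ((V.valuation_le_one_iff a).mpr ha)) hb

theorem SqwCong.refl {x : K} (hx : x ∈ V) : SqwCong V x x :=
  ⟨hx, hx, by rw [sub_self]; exact zero_mem _⟩

theorem SqwCong.symm {x y : K} (h : SqwCong V x y) : SqwCong V y x :=
  ⟨h.2.1, h.1, by rw [← neg_sub]; exact neg_mem h.2.2⟩

theorem SqwCong.trans {x y z : K} (h : SqwCong V x y) (h' : SqwCong V y z) :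
    SqwCong V x z :=
  ⟨h.1, h'.2.1, by
    have := add_mem h.2.2 h'.2.2
    rwa [sub_add_sub_cancel] at this⟩

theorem SqwCong.mul {x x' y y' : K} (h : SqwCong V x x') (h' : SqwCong V y y') :
    SqwCong V (x * y) (x' * y') :=
  ⟨V.mul_mem _ _ h.1 h'.1, V.mul_mem _ _ h.2.1 h'.2.1, by
    have h1 : x * y - x' * y' = y * (x - x') + x' * (y - y') := by ring
    rw [h1]
    exact add_mem (sqw_mul_mem_nonunits h'.1 h.2.2) (sqw_mul_mem_nonunits h.2.1 h'.2.2)⟩

theorem SqwCong.pow {x x' : K} (h : SqwCong V x x') (n : ℕ) : SqwCong V (x ^ n) (x' ^ n) := by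
  induction n with
  | zero => simpa using SqwCong.refl (V := V) (x := 1) V.one_mem
  | succ n ih => simpa [pow_succ] using ih.mul h

theorem SqwCong.of_sub {x y : K} (hx : x ∈ V) (hxy : x - y ∈ V.nonunits) : SqwCong V x y :=
  ⟨hx, by
    have h1 : y = x - (x - y) := by ring
    rw [h1]
    exact sub_mem hx (V.nonunits_le hxy), hxy⟩

theorem SqwCong.of_sub' {x y : K} (hy : y ∈ V) (hxy : x - y ∈ V.nonunits) : SqwCong V x y :=
  ⟨by
    have h1 : x = y + (x - y) := by ring
    rw [h1]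
    exact add_mem hy (V.nonunits_le hxy), hy, hxy⟩

/-- transport along a ring homomorphism mapping `V` into `V'` and `𝔪_V` into `𝔪_{V'}` -/
theorem SqwCong.map {K' : Type*} [Field K'] {V' : ValuationSubring K'} (f : K →+* K')
    (hf : ∀ x ∈ V, f x ∈ V') (hf' : ∀ x ∈ V.nonunits, f x ∈ V'.nonunits) {x y : K}
    (h : SqwCong V x y) : SqwCong V' (f x) (f y) :=
  ⟨hf _ h.1, hf _ h.2.1, by rw [← map_sub]; exact hf' _ h.2.2⟩

/-- cancelling a unit of `V` in a congruence -/
theorem SqwCong.mul_right_cancel {x y u : K} (hu : u⁻¹ ∈ V)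
    (hu0 : u ≠ 0) (h : SqwCong V (x * u) (y * u)) : SqwCong V x y := by
  have h1 := h.mul (SqwCong.refl hu)
  rwa [mul_assoc, mul_inv_cancel₀ hu0, mul_one, mul_assoc, mul_inv_cancel₀ hu0, mul_one] at h1

/-- a congruence class of a unit consists of units -/
theorem SqwCong.inv_mem {x y : K} (h : SqwCong V x y) (hy : y⁻¹ ∈ V) (hy0 : y ≠ 0) :
    x⁻¹ ∈ V := by
  by_contra hx
  have hx0 : x ≠ 0 := by
    rintro rfl
    exact hx (by rw [inv_zero]; exact V.zero_mem)
  have h1 : x ∈ V.nonunits := by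
    rw [ValuationSubring.mem_nonunits_iff_or]
    exact Or.inr hx
  have h2 : y ∈ V.nonunits := by
    have h3 : y = x - (x - y) := by ring
    rw [h3]
    exact sub_mem h1 h.2.2
  rw [ValuationSubring.mem_nonunits_iff_or] at h2
  rcases h2 with h2 | h2
  · exact hy0 h2
  · exact h2 hy

theorem SqwCong.ne_zero {x y : K} (h : SqwCong V x y) (hy : y⁻¹ ∈ V) (hy0 : y ≠ 0) : x ≠ 0 := by
  rintro rfl
  have h2 : y ∈ V.nonunits := by
    have := neg_mem h.2.2
    rwa [zero_sub, neg_neg] at this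
  rw [ValuationSubring.mem_nonunits_iff_or] at h2
  rcases h2 with h2 | h2
  · exact hy0 h2
  · exact h2 hy

/-- inverses of congruent units are congruent -/
theorem SqwCong.inv {x y : K} (h : SqwCong V x y) (hy : y⁻¹ ∈ V) (hy0 : y ≠ 0) :
    SqwCong V x⁻¹ y⁻¹ := by
  have hx0 := h.ne_zero hy hy0
  have hxi := h.inv_mem hy hy0
  refine ⟨hxi, hy, ?_⟩
  have h1 : x⁻¹ - y⁻¹ = x⁻¹ * y⁻¹ * (y - x) := by field_simp
  rw [h1]
  exact sqw_mul_mem_nonunits (V.mul_mem _ _ hxi hy) h.symm.2.2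

/-- `x ≡ y`, `y` a unit ⟹ `x y⁻¹ ≡ 1`. -/
theorem SqwCong.mul_inv {x y : K} (h : SqwCong V x y) (hy : y⁻¹ ∈ V) (hy0 : y ≠ 0) :
    SqwCong V (x * y⁻¹) 1 := by
  have := h.mul (SqwCong.refl hy)
  rwa [mul_inv_cancel₀ hy0] at this

/-- `q`-th roots of congruences in residue characteristic `q` (`q` prime). -/
theorem SqwCong.of_pow_prime {q : ℕ} (hq : q.Prime) (hqV : (q : K) ∈ V.nonunits) {x y : K}
    (hx : x ∈ V) (hy : y ∈ V) (h : SqwCong V (x ^ q) (y ^ q)) : SqwCong V x y := by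
  refine ⟨hx, hy, ?_⟩
  -- in the ring `V` : `x ^ q = (y + z) ^ q = y ^ q + z ^ q + q y z r`
  obtain ⟨r, hr⟩ := exists_add_pow_prime_eq hq (⟨y, hy⟩ : V) (⟨x - y, sub_mem hx hy⟩ : V)
  have hr' := congrArg (fun z : V => (z : K)) hr
  push_cast at hr'
  rw [add_sub_cancel] at hr'
  have h1 : (x - y) ^ q = (x ^ q - y ^ q) - (q : K) * (y * (x - y) * (r : K)) := by
    rw [hr']; ring
  have h2 : (x - y) ^ q ∈ V.nonunits := by
    rw [h1]
    refine sub_mem h.2.2 ?_
    rw [mul_comm]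
    exact sqw_mul_mem_nonunits
      (V.mul_mem _ _ (V.mul_mem _ _ hy (sub_mem hx hy)) r.2) hqV
  rw [ValuationSubring.mem_nonunits_iff] at h2 ⊢
  rw [map_pow] at h2
  exact (pow_lt_one_iff hq.ne_zero).mp h2

end Cong

/-! ### Integer order functions -/

section Ord

variable {K : Type*} [Field K]

/-- an integer order function of the valuation subring `V` (normalised or not) -/
structure SqwOrd (V : ValuationSubring K) (o : K → ℤ) : Prop where
  /-- additivity on nonzero elements -/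
  mul : ∀ x y : K, x ≠ 0 → y ≠ 0 → o (x * y) = o x + o y
  /-- `V = {o ≥ 0}` -/
  mem : ∀ x : K, x ≠ 0 → (x ∈ V ↔ 0 ≤ o x)

variable {V : ValuationSubring K} {o : K → ℤ}

theorem SqwOrd.one (h : SqwOrd V o) : o 1 = 0 := by
  have := h.mul 1 1 one_ne_zero one_ne_zero
  rw [mul_one] at this
  linarith

theorem SqwOrd.inv (h : SqwOrd V o) {x : K} (hx : x ≠ 0) : o x⁻¹ = - o x := by
  have := h.mul x x⁻¹ hx (inv_ne_zero hx)
  rw [mul_inv_cancel₀ hx, h.one] at this
  linarith

theorem SqwOrd.pow (h : SqwOrd V o) {x : K} (hx : x ≠ 0) (k : ℕ) : o (x ^ k) = k * o x := by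
  induction k with
  | zero => simp [h.one]
  | succ k ih =>
    rw [pow_succ, h.mul _ _ (pow_ne_zero k hx) hx, ih]
    push_cast; ring

theorem SqwOrd.zpow (h : SqwOrd V o) {x : K} (hx : x ≠ 0) (k : ℤ) : o (x ^ k) = k * o x := by
  obtain ⟨m, rfl | rfl⟩ := k.eq_nat_or_neg
  · rw [zpow_natCast, h.pow hx]
  · rw [zpow_neg, zpow_natCast, h.inv (pow_ne_zero m hx), h.pow hx]; ring

theorem SqwOrd.div (h : SqwOrd V o) {x y : K} (hx : x ≠ 0) (hy : y ≠ 0) :
    o (x / y) = o x - o y := by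
  rw [div_eq_mul_inv, h.mul _ _ hx (inv_ne_zero hy), h.inv hy]; ring

theorem SqwOrd.inv_mem (h : SqwOrd V o) {x : K} (hx : x ≠ 0) : x⁻¹ ∈ V ↔ o x ≤ 0 := by
  rw [h.mem _ (inv_ne_zero hx), h.inv hx]; omega

theorem SqwOrd.mem_nonunits (h : SqwOrd V o) {x : K} (hx : x ≠ 0) :
    x ∈ V.nonunits ↔ 0 < o x := by
  rw [ValuationSubring.mem_nonunits_iff_or, h.inv_mem hx]
  constructor
  · rintro (h1 | h1)
    · exact absurd h1 hx
    · omega
  · intro h1; right; omega

theorem SqwOrd.unit (h : SqwOrd V o) {x : K} (hx : x ≠ 0) (h0 : o x = 0) :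
    x ∈ V ∧ x⁻¹ ∈ V :=
  ⟨(h.mem x hx).mpr h0.ge, (h.inv_mem hx).mpr h0.le⟩

theorem SqwOrd.eq_zero (h : SqwOrd V o) {x : K} (hx : x ≠ 0) (h1 : x ∈ V) (h2 : x⁻¹ ∈ V) :
    o x = 0 :=
  le_antisymm ((h.inv_mem hx).mp h2) ((h.mem x hx).mp h1)

end Ord

/-! ### Lying over -/

section Over

variable {K K' : Type*} [Field K] [Field K'] {W : ValuationSubring K} {V : ValuationSubring K'}

/-- reflection of the maximal ideal along an embedding `W → V` of valuation rings -/
theorem sqw_reflect (f : K →+* K') (hf : ∀ x ∈ W, f x ∈ V) {x : K} (hx : x ∈ W)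
    (hfx : f x ∈ V.nonunits) : x ∈ W.nonunits := by
  rw [ValuationSubring.mem_nonunits_iff_or]
  by_contra hcon
  push Not at hcon
  obtain ⟨h0, h1⟩ := hcon
  have h2 : (f x)⁻¹ ∈ V := by rw [← map_inv₀]; exact hf _ h1
  rw [ValuationSubring.mem_nonunits_iff_or] at hfx
  rcases hfx with h3 | h3
  · exact h0 ((map_eq_zero f).mp h3)
  · exact h3 h2

/-- reflection of congruences -/
theorem SqwCong.reflect (f : K →+* K') (hf : ∀ x ∈ W, f x ∈ V) {x y : K} (hx : x ∈ W)
    (hy : y ∈ W) (h : SqwCong V (f x) (f y)) : SqwCong W x y :=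
  ⟨hx, hy, sqw_reflect f hf (sub_mem hx hy) (by rw [map_sub]; exact h.2.2)⟩

/-- reflection of units -/
theorem sqw_reflect_unit (f : K →+* K') (hf' : ∀ x ∈ W.nonunits, f x ∈ V.nonunits) {x : K}
    (hx0 : x ≠ 0) (hfx : (f x)⁻¹ ∈ V) : x⁻¹ ∈ W := by
  by_contra hcon
  have h1 : x ∈ W.nonunits := by
    rw [ValuationSubring.mem_nonunits_iff_or]; exact Or.inr hcon
  have h2 := hf' _ h1
  rw [ValuationSubring.mem_nonunits_iff_or] at h2
  rcases h2 with h2 | h2
  · exact hx0 ((map_eq_zero f).mp h2)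
  · exact h2 hfx

end Over

/-- a factor (inside `V`) of a unit of `V` is a unit -/
theorem sqw_inv_mem_of_mul {K : Type*} [Field K] {V : ValuationSubring K} {x y : K}
    (hy : y ∈ V) (hxy : (x * y)⁻¹ ∈ V) (hxy0 : x * y ≠ 0) : x⁻¹ ∈ V := by
  have hx0 : x ≠ 0 := left_ne_zero_of_mul hxy0
  have hy0 : y ≠ 0 := right_ne_zero_of_mul hxy0
  have h1 : x⁻¹ = y * (x * y)⁻¹ := by field_simp
  rw [h1]
  exact V.mul_mem _ _ hy hxy

/-! ### Constructors for the concrete side -/

section Ctor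

variable {K : Type*} [Field K]

/-- an order function from a uniformiser and the decomposition `x = π ^ k · u`. -/
theorem sqw_exists_ord (V : ValuationSubring K) (π : K) (hπ : π ∈ V.nonunits) (hπ0 : π ≠ 0)
    (hdec : ∀ x : K, x ≠ 0 → ∃ k : ℤ, ∃ u : K, u ≠ 0 ∧ u ∈ V ∧ u⁻¹ ∈ V ∧ x = π ^ k * u) :
    ∃ o : K → ℤ, SqwOrd V o ∧ o π = 1 := by
  -- positive powers of `π` are nonunits
  have hpos : ∀ m : ℕ, π ^ (m + 1) ∈ V.nonunits := by
    intro m
    rw [pow_succ]
    exact sqw_mul_mem_nonunits (V.pow_mem (V.nonunits_le hπ) m) hπ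
  -- uniqueness of the exponent
  have huniq : ∀ (k l : ℤ) (u v : K), u ≠ 0 → u ∈ V → u⁻¹ ∈ V → v ≠ 0 → v ∈ V → v⁻¹ ∈ V →
      π ^ k * u = π ^ l * v → k ≤ l := by
    intro k l u v hu0 hu hui hv0 hv hvi h
    by_contra hlt
    push Not at hlt
    obtain ⟨m, hm⟩ : ∃ m : ℕ, k - l = m + 1 := ⟨(k - l - 1).toNat, by omega⟩
    have h1 : π ^ (m + 1) * u = v := by
      have h2 : π ^ k = π ^ l * π ^ ((m : ℤ) + 1) := by
        rw [← zpow_add₀ hπ0]; congr 1; omega
      rw [h2, mul_assoc] at h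
      have h3 := mul_left_cancel₀ (zpow_ne_zero l hπ0) h
      rw [← h3]
      norm_cast
    have h4 : v ∈ V.nonunits := by
      rw [← h1, mul_comm]; exact sqw_mul_mem_nonunits hu (hpos m)
    rw [ValuationSubring.mem_nonunits_iff_or] at h4
    rcases h4 with h4 | h4
    · exact hv0 h4
    · exact h4 hvi
  classical
  refine ⟨fun x => if hx : x = 0 then 0 else (hdec x hx).choose, ⟨?_, ?_⟩, ?_⟩
  · intro x y hx hy
    simp only [hx, hy, mul_ne_zero hx hy, dif_neg, not_false_eq_true]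
    obtain ⟨u, hu0, hu, hui, hxu⟩ := (hdec x hx).choose_spec
    obtain ⟨v, hv0, hv, hvi, hyv⟩ := (hdec y hy).choose_spec
    obtain ⟨w, hw0, hw, hwi, hxyw⟩ := (hdec (x * y) (mul_ne_zero hx hy)).choose_spec
    set k := (hdec x hx).choose
    set l := (hdec y hy).choose
    set m := (hdec (x * y) (mul_ne_zero hx hy)).choose
    have h1 : π ^ m * w = π ^ (k + l) * (u * v) := by
      rw [← hxyw, zpow_add₀ hπ0]
      calc x * y = (π ^ k * u) * (π ^ l * v) := by rw [← hxu, ← hyv]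
        _ = π ^ k * π ^ l * (u * v) := by ring
    have huv0 : u * v ≠ 0 := mul_ne_zero hu0 hv0
    have huv : u * v ∈ V := V.mul_mem _ _ hu hv
    have huvi : (u * v)⁻¹ ∈ V := by rw [mul_inv]; exact V.mul_mem _ _ hui hvi
    exact le_antisymm (huniq _ _ _ _ hw0 hw hwi huv0 huv huvi h1)
      (huniq _ _ _ _ huv0 huv huvi hw0 hw hwi h1.symm)
  · intro x hx
    simp only [hx, dif_neg, not_false_eq_true]
    obtain ⟨u, hu0, hu, hui, hxu⟩ := (hdec x hx).choose_spec
    set k := (hdec x hx).choose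
    constructor
    · intro hxV
      by_contra hk
      push Not at hk
      obtain ⟨m, hm⟩ : ∃ m : ℕ, -k = m + 1 := ⟨(-k - 1).toNat, by omega⟩
      -- `u = π ^ (m+1) · x` would be a nonunit
      have h1 : u = π ^ (m + 1) * x := by
        have h2 : π ^ ((m : ℤ) + 1) * π ^ k = 1 := by
          rw [← zpow_add₀ hπ0, ← hm, neg_add_cancel, zpow_zero]
        calc u = (π ^ ((m : ℤ) + 1) * π ^ k) * u := by rw [h2, one_mul]
          _ = π ^ ((m : ℤ) + 1) * (π ^ k * u) := by ring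
          _ = π ^ (m + 1) * x := by rw [← hxu]; norm_cast
      have h3 : u ∈ V.nonunits := by
        rw [h1, mul_comm]; exact sqw_mul_mem_nonunits hxV (hpos m)
      rw [ValuationSubring.mem_nonunits_iff_or] at h3
      rcases h3 with h3 | h3
      · exact hu0 h3
      · exact h3 hui
    · intro hk
      obtain ⟨m, hm⟩ : ∃ m : ℕ, k = m := ⟨k.toNat, by omega⟩
      rw [hxu, hm, zpow_natCast]
      exact V.mul_mem _ _ (V.pow_mem (V.nonunits_le hπ) m) hu
  · simp only [hπ0, dif_neg, not_false_eq_true]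
    obtain ⟨u, hu0, hu, hui, hxu⟩ := (hdec π hπ0).choose_spec
    set k := (hdec π hπ0).choose
    have h1 : π ^ k * u = π ^ (1 : ℤ) * 1 := by rw [← hxu, zpow_one, mul_one]
    exact le_antisymm
      (huniq _ _ _ _ hu0 hu hui one_ne_zero V.one_mem (by rw [inv_one]; exact V.one_mem) h1)
      (huniq _ _ _ _ one_ne_zero V.one_mem (by rw [inv_one]; exact V.one_mem) hu0 hu hui h1.symm)

/-- the decomposition `x = π ^ k · u` from a uniformiser (`S18IsUnif V π` unfolded) and the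
archimedean property. -/
theorem sqw_dec_of_unif (V : ValuationSubring K) (π : K) (h1 : V.valuation π < 1)
    (h2 : ∀ x : K, V.valuation x < 1 → V.valuation x ≤ V.valuation π) (hπ0 : π ≠ 0)
    (harch : ∀ x : K, x ≠ 0 → ∃ m : ℕ, π ^ m / x ∈ V) :
    ∀ x : K, x ≠ 0 → ∃ k : ℤ, ∃ u : K, u ≠ 0 ∧ u ∈ V ∧ u⁻¹ ∈ V ∧ x = π ^ k * u := by
  have hπV : π ∈ V := (V.valuation_le_one_iff π).mp h1.le
  -- the integral case
  have key : ∀ x : K, x ≠ 0 → x ∈ V → ∃ k : ℕ, ∃ u : K, u ≠ 0 ∧ u ∈ V ∧ u⁻¹ ∈ V ∧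
      x = π ^ k * u := by
    intro x hx hxV
    obtain ⟨m, hm⟩ := harch x hx
    -- strong induction on the archimedean bound
    induction m generalizing x with
    | zero =>
      rw [pow_zero, one_div] at hm
      exact ⟨0, x, hx, hxV, hm, by rw [pow_zero, one_mul]⟩
    | succ m ih =>
      by_cases hxu : x⁻¹ ∈ V
      · exact ⟨0, x, hx, hxV, hxu, by rw [pow_zero, one_mul]⟩
      · -- `x` is a nonunit : divide by `π`
        have hxn : V.valuation x < 1 := by
          rw [← ValuationSubring.mem_nonunits_iff, ValuationSubring.mem_nonunits_iff_or]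
          exact Or.inr hxu
        have h3 := h2 x hxn
        have h4 : x / π ∈ V := by
          rw [← ValuationSubring.valuation_le_one_iff, map_div₀]
          have h5 : V.valuation π ≠ 0 := (Valuation.ne_zero_iff _).mpr hπ0
          exact (div_le_one₀ (zero_lt_iff.mpr h5)).mpr h3
        have h6 : π ^ m / (x / π) ∈ V := by
          have : π ^ m / (x / π) = π ^ (m + 1) / x := by
            rw [div_div_eq_mul_div, ← pow_succ]
          rw [this]; exact hm
        obtain ⟨k, u, hu0, hu, hui, hxk⟩ := ih (x / π) (div_ne_zero hx hπ0) h4 h6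
        refine ⟨k + 1, u, hu0, hu, hui, ?_⟩
        have : x = π * (x / π) := by field_simp
        rw [this, hxk, pow_succ]; ring
  intro x hx
  by_cases hxV : x ∈ V
  · obtain ⟨k, u, hu0, hu, hui, hxk⟩ := key x hx hxV
    exact ⟨k, u, hu0, hu, hui, by rw [zpow_natCast]; exact hxk⟩
  · have hxi : x⁻¹ ∈ V := (V.mem_or_inv_mem x).resolve_left hxV
    obtain ⟨k, u, hu0, hu, hui, hxk⟩ := key x⁻¹ (inv_ne_zero hx) hxi
    refine ⟨-k, u⁻¹, inv_ne_zero hu0, hui, by rwa [inv_inv], ?_⟩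
    rw [zpow_neg, zpow_natCast, ← mul_inv, ← hxk, inv_inv]

end Ctor


/-! ### More constructors and congruence lemmas -/

section More

variable {K : Type*} [Field K] {V : ValuationSubring K}

/-- an order function from the discreteness statement `v(x) = v(π) ^ (o x)`
(e.g. helper3's `SqvFam.exists_zpow`). -/
theorem sqw_ord_of_zpow (V : ValuationSubring K) (π : K) (hπ : V.valuation π < 1) (hπ0 : π ≠ 0)
    (o : K → ℤ) (ho : ∀ x : K, x ≠ 0 → V.valuation x = V.valuation π ^ o x) : SqwOrd V o := by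
  have h0 : 0 < V.valuation π := zero_lt_iff.mpr ((Valuation.ne_zero_iff _).mpr hπ0)
  have hanti := zpow_right_strictAnti₀ h0 hπ
  refine ⟨fun x y hx hy => ?_, fun x hx => ?_⟩
  · have h1 : V.valuation π ^ o (x * y) = V.valuation π ^ (o x + o y) := by
      rw [← ho _ (mul_ne_zero hx hy), map_mul, ho x hx, ho y hy, zpow_add₀ h0.ne']
    exact hanti.injective h1
  · rw [← ValuationSubring.valuation_le_one_iff, ho x hx]
    exact zpow_le_one_iff_right_of_lt_one₀ h0 hπ

/-- integer powers of congruent units are congruent -/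
theorem SqwCong.zpow {x y : K} (h : SqwCong V x y) (hy : y⁻¹ ∈ V) (hy0 : y ≠ 0) (k : ℤ) :
    SqwCong V (x ^ k) (y ^ k) := by
  obtain ⟨m, rfl | rfl⟩ := k.eq_nat_or_neg
  · rw [zpow_natCast, zpow_natCast]; exact h.pow m
  · rw [zpow_neg, zpow_neg, zpow_natCast, zpow_natCast, ← inv_pow, ← inv_pow]
    exact (h.inv hy hy0).pow m

/-- integer powers of units are in `V` -/
theorem sqw_zpow_mem {x : K} (hx : x ∈ V) (hxi : x⁻¹ ∈ V) (k : ℤ) : x ^ k ∈ V := by
  obtain ⟨m, rfl | rfl⟩ := k.eq_nat_or_neg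
  · rw [zpow_natCast]; exact V.pow_mem hx m
  · rw [zpow_neg, zpow_natCast, ← inv_pow]; exact V.pow_mem hxi m

/-- `x ≡ 1` ⟹ `x` is a unit -/
theorem SqwCong.one_inv_mem {x : K} (h : SqwCong V x 1) : x⁻¹ ∈ V :=
  h.inv_mem (by rw [inv_one]; exact V.one_mem) one_ne_zero

theorem SqwCong.one_ne_zero {x : K} (h : SqwCong V x 1) : x ≠ 0 :=
  h.ne_zero (by rw [inv_one]; exact V.one_mem) _root_.one_ne_zero

end More

end Fermat.Agent.SQ
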