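import Mathlib
import Fermat.Prelude.Def_AlgebraicCurve_BaseChangeGalois
import Fermat.Agent.S18.T.Spec
import Fermat.Agent.SS.NF.Defs
import Fermat.Agent.SS.Loc.Ring
import Fermat.Agent.SQ.NewBase

/-!
# Program Q (S36), leaf SQ/NewGlue, part A (prefix `sqng_`) : auxiliary lemmas

* `sqng_field_rel` : the computation in the residue field `k_𝔫` of blueprint §4.4;
* `sqng_exists_root` : `gⁿ ≡ 1 mod 𝔪_W` ⟹ `g ≡ ζ^s mod 𝔪_W`;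
* `sqng_inLoc_of_pow` : `P_𝔫` is integrally closed (element form);
* ideal calculus for `SsnfInLoc` / `SsnfInMax`.
-/

set_option autoImplicit false
set_option linter.unusedSectionVars false
set_option linter.unusedVariables false
set_option linter.style.haveILetI false

noncomputable section

namespace Fermat.Agent.SQ

open Polynomial IntermediateField Fermat.Agent.S18 Fermat.Agent.SS IsLocalRing

/-! ### the residue-field computation -/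

/-- **the computation in `k_𝔫`** : from `ζ^s x₁ x₂^(q-1) = x₃^q` and `ζ^s' x₂^(q-1) x₃ = x₁^q` :
`x₃^(q²-1) = ζ^a₁ x₁^(q²-1) = ζ^a₂ x₂^(q²-1)` with `a₁ = (s + (n-1) s')(q-1)`, `a₂ = s q + s'`. -/
theorem sqng_field_rel {k : Type*} [Field k] {q n s s' : ℕ} (hq : 0 < q) (hn0 : n ≠ 0)
    {z x₁ x₂ x₃ : k} (hz : z ^ n = 1) (h₃ : x₃ ≠ 0)
    (hI : z ^ s * x₁ * x₂ ^ (q - 1) = x₃ ^ q) (hII : z ^ s' * x₂ ^ (q - 1) * x₃ = x₁ ^ q) :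
    z ^ ((s + (n - 1) * s') * (q - 1)) * x₁ ^ (q ^ 2 - 1) = x₃ ^ (q ^ 2 - 1) ∧
    z ^ (s * q + s') * x₂ ^ (q ^ 2 - 1) = x₃ ^ (q ^ 2 - 1) := by
  obtain ⟨r, rfl⟩ : ∃ r, q = r + 1 := ⟨q - 1, by omega⟩
  obtain ⟨m, rfl⟩ : ∃ m, n = m + 1 := ⟨n - 1, by omega⟩
  have e1 : r + 1 - 1 = r := by omega
  have e2 : (r + 1) ^ 2 - 1 = r * (r + 2) := by
    have : (r + 1) ^ 2 = r * (r + 2) + 1 := by ring
    omega
  have e3 : m + 1 - 1 = m := by omega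
  rw [e1] at hI hII ⊢
  rw [e2, e3]
  -- `K1 : z^s' x₃^(r+2) = z^s x₁^(r+2)`
  have K1 : z ^ s' * x₃ ^ (r + 2) = z ^ s * x₁ ^ (r + 2) := by
    have a1 : z ^ s' * x₃ ^ (r + 2) = z ^ s' * x₃ * x₃ ^ (r + 1) := by ring
    have a2 : z ^ s * x₁ ^ (r + 2) = z ^ s * x₁ * x₁ ^ (r + 1) := by ring
    rw [a1, a2, ← hI, ← hII]; ring
  have hzs : z ^ (m * s' * r) * z ^ (s' * r) = 1 := by
    rw [← pow_add]
    have : m * s' * r + s' * r = (m + 1) * (s' * r) := by ring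
    rw [this, pow_mul, hz, one_pow]
  constructor
  · have K1r : (z ^ s' * x₃ ^ (r + 2)) ^ r = (z ^ s * x₁ ^ (r + 2)) ^ r := by rw [K1]
    have : z ^ ((s + m * s') * r) * x₁ ^ (r * (r + 2)) =
        z ^ (m * s' * r) * (z ^ s * x₁ ^ (r + 2)) ^ r := by ring
    rw [this, ← K1r]
    have : z ^ (m * s' * r) * (z ^ s' * x₃ ^ (r + 2)) ^ r =
        (z ^ (m * s' * r) * z ^ (s' * r)) * x₃ ^ (r * (r + 2)) := by ring
    rw [this, hzs, one_mul]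
  · have hI' : (z ^ s * x₁ * x₂ ^ r) ^ (r + 2) = (x₃ ^ (r + 1)) ^ (r + 2) := by rw [hI]
    have h32 : x₃ ^ (r + 2) ≠ 0 := pow_ne_zero _ h₃
    apply mul_right_cancel₀ h32
    linear_combination (z ^ (s * (r + 1)) * x₂ ^ (r * (r + 2))) * K1 + hI'

/-! ### roots of unity modulo the maximal ideal of a valuation subring -/

/-- `g ∈ W`, `gⁿ ≡ 1 mod 𝔪_W`, `ζ ∈ W` a primitive `n`-th root of unity ⟹ `g ≡ ζ^s mod 𝔪_W`. -/
theorem sqng_exists_root {K : Type*} [Field K] (W : ValuationSubring K) {n : ℕ} {z : K}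
    (hz : IsPrimitiveRoot z n) (hn0 : n ≠ 0) (hzW : z ∈ W) {g : K} (hg : g ∈ W)
    (hgn : g ^ n - 1 ∈ W.nonunits) : ∃ s : ℕ, g - z ^ s ∈ W.nonunits := by
  classical
  have hpos : 0 < n := Nat.pos_of_ne_zero hn0
  haveI : NeZero n := ⟨hn0⟩
  have hprod := hz.pow_sub_pow_eq_prod_sub_mul g 1 hpos
  rw [one_pow] at hprod
  by_contra hcon
  push Not at hcon
  have hall : ∀ μ ∈ nthRootsFinset n (1 : K), W.valuation (g - μ * 1) = 1 := by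
    intro μ hμ
    obtain ⟨i, -, rfl⟩ := hz.eq_pow_of_pow_eq_one ((mem_nthRootsFinset hpos 1).mp hμ)
    rw [mul_one]
    have h1 : W.valuation (g - z ^ i) ≤ 1 :=
      (W.valuation_le_one_iff _).mpr (sub_mem hg (W.pow_mem hzW i))
    have h2 := hcon i
    rw [ValuationSubring.mem_nonunits_iff, not_lt] at h2
    exact le_antisymm h1 h2
  have : W.valuation (g ^ n - 1) = 1 := by
    rw [hprod, map_prod]
    exact Finset.prod_eq_one hall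
  rw [ValuationSubring.mem_nonunits_iff, this] at hgn
  exact lt_irrefl _ hgn

/-! ### calculus in `P_𝔫` and `𝔫 P_𝔫` (predicate form) -/

section Loc

universe u

variable {A : Type*} [CommRing A] [IsDomain A] [IsDiscreteValuationRing A] [CharZero A]
variable {L : Type*} [Field L] [Algebra A L] [IsFractionRing A L]
variable {F : Type u} [Field F] [Algebra A F] [Algebra L F] [IsScalarTower A L F]
variable {t : F} {𝔫 : Ideal ↥(s18tInt A t)}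

theorem sqng_loc_iff [h𝔫 : 𝔫.IsPrime] {x : F} : SsnfInLoc t 𝔫 x ↔ x ∈ ssLocRing t 𝔫 := Iff.rfl

theorem sqng_loc_int (h𝔫 : 𝔫.IsPrime) {x : F} (hx : x ∈ s18tInt A t) : SsnfInLoc t 𝔫 x :=
  ssl_int_le_locRing t 𝔫 hx

theorem sqng_loc_const (h𝔫 : 𝔫.IsPrime) (a : A) : SsnfInLoc t 𝔫 (algebraMap A F a) :=
  sqng_loc_int h𝔫 (s18tc_algebraMap_mem_int t a)

theorem sqng_loc_one (h𝔫 : 𝔫.IsPrime) : SsnfInLoc t 𝔫 (1 : F) := (ssLocRing t 𝔫).one_mem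

theorem sqng_loc_mul (h𝔫 : 𝔫.IsPrime) {x y : F} (hx : SsnfInLoc t 𝔫 x) (hy : SsnfInLoc t 𝔫 y) :
    SsnfInLoc t 𝔫 (x * y) := (ssLocRing t 𝔫).mul_mem hx hy

theorem sqng_loc_add (h𝔫 : 𝔫.IsPrime) {x y : F} (hx : SsnfInLoc t 𝔫 x) (hy : SsnfInLoc t 𝔫 y) :
    SsnfInLoc t 𝔫 (x + y) := (ssLocRing t 𝔫).add_mem hx hy

theorem sqng_loc_sub (h𝔫 : 𝔫.IsPrime) {x y : F} (hx : SsnfInLoc t 𝔫 x) (hy : SsnfInLoc t 𝔫 y) :
    SsnfInLoc t 𝔫 (x - y) := (ssLocRing t 𝔫).sub_mem hx hy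

theorem sqng_loc_pow (h𝔫 : 𝔫.IsPrime) {x : F} (hx : SsnfInLoc t 𝔫 x) (m : ℕ) :
    SsnfInLoc t 𝔫 (x ^ m) := (ssLocRing t 𝔫).pow_mem hx m

theorem sqng_max_loc {x : F} (hx : SsnfInMax t 𝔫 x) : SsnfInLoc t 𝔫 x := by
  obtain ⟨s, hs, p, -, hp⟩ := hx
  exact ⟨s, hs, by rw [hp]; exact p.2⟩

/-- `SsnfInMax` is membership in the maximal ideal of `P_𝔫` -/
theorem sqng_max_iff [h𝔫 : 𝔫.IsPrime] {x : F} (hx : SsnfInLoc t 𝔫 x) :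
    SsnfInMax t 𝔫 x ↔ (⟨x, hx⟩ : ↥(ssLocRing t 𝔫)) ∈ maximalIdeal ↥(ssLocRing t 𝔫) :=
  (ssl_mem_maximalIdeal t 𝔫 ⟨x, hx⟩).symm

theorem sqng_max_add (h𝔫 : 𝔫.IsPrime) {x y : F} (hx : SsnfInMax t 𝔫 x) (hy : SsnfInMax t 𝔫 y) :
    SsnfInMax t 𝔫 (x + y) := by
  have hx' := sqng_max_loc hx
  have hy' := sqng_max_loc hy
  rw [sqng_max_iff (sqng_loc_add h𝔫 hx' hy')]
  exact add_mem ((sqng_max_iff hx').mp hx) ((sqng_max_iff hy').mp hy)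

theorem sqng_max_neg (h𝔫 : 𝔫.IsPrime) {x : F} (hx : SsnfInMax t 𝔫 x) : SsnfInMax t 𝔫 (-x) := by
  obtain ⟨s, hs, p, hp, hsp⟩ := hx
  exact ⟨s, hs, -p, 𝔫.neg_mem hp, by rw [mul_neg, hsp]; rfl⟩

theorem sqng_max_sub (h𝔫 : 𝔫.IsPrime) {x y : F} (hx : SsnfInMax t 𝔫 x) (hy : SsnfInMax t 𝔫 y) :
    SsnfInMax t 𝔫 (x - y) := by
  rw [sub_eq_add_neg]
  exact sqng_max_add h𝔫 hx (sqng_max_neg h𝔫 hy)

theorem sqng_max_mul (h𝔫 : 𝔫.IsPrime) {a x : F} (ha : SsnfInLoc t 𝔫 a) (hx : SsnfInMax t 𝔫 x) :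
    SsnfInMax t 𝔫 (a * x) := by
  have hx' := sqng_max_loc hx
  rw [sqng_max_iff (sqng_loc_mul h𝔫 ha hx')]
  exact Ideal.mul_mem_left _ (⟨a, ha⟩ : ↥(ssLocRing t 𝔫)) ((sqng_max_iff hx').mp hx)

/-- a unit of `P_𝔫` is not in `𝔫 P_𝔫` -/
theorem sqng_not_max_of_inv (h𝔫 : 𝔫.IsPrime) {x : F} (hx0 : x ≠ 0) (hx : SsnfInLoc t 𝔫 x)
    (hx' : SsnfInLoc t 𝔫 x⁻¹) : ¬ SsnfInMax t 𝔫 x := by
  intro hm
  have h1 := sqng_max_mul h𝔫 hx' hm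
  rw [inv_mul_cancel₀ hx0, sqng_max_iff (sqng_loc_one h𝔫)] at h1
  exact (Ideal.ne_top_iff_one _).mp (IsLocalRing.maximalIdeal.isMaximal _).ne_top h1

/-- **`P_𝔫` is integrally closed** (element form) : `x ^ m ∈ P_𝔫`, `m ≠ 0` ⟹ `x ∈ P_𝔫`. -/
theorem sqng_inLoc_of_pow (h𝔫 : 𝔫.IsPrime) {x : F} {m : ℕ} (hm : m ≠ 0)
    (hx : SsnfInLoc t 𝔫 (x ^ m)) : SsnfInLoc t 𝔫 x := by
  obtain ⟨s, hs, hsx⟩ := hx
  refine ⟨s, hs, ?_⟩
  have h1 : ((s : F) * x) ^ m = (s : F) ^ (m - 1) * ((s : F) * x ^ m) := by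
    obtain ⟨k, rfl⟩ : ∃ k, m = k + 1 := ⟨m - 1, by omega⟩
    rw [Nat.add_sub_cancel, mul_pow]; ring
  have h2 : ((s : F) * x) ^ m ∈ s18tInt A t := by
    rw [h1]
    exact Subring.mul_mem _ (Subring.pow_mem _ s.2 _) hsx
  rw [mem_s18tInt] at h2 ⊢
  exact IsIntegral.of_pow (Nat.pos_of_ne_zero hm) h2

/-- an element of `P_𝔫 ∩ 𝔪_V` lies in `𝔫 P_𝔫` when the component `V` passes through `𝔫` -/
theorem sqng_max_of_nonunits {V : ValuationSubring F} (hPV : ∀ x ∈ s18tInt A t, x ∈ V)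
    (hon : ∀ p : ↥(s18tInt A t), (p : F) ∈ V.nonunits → p ∈ 𝔫) {x : F}
    (hx : SsnfInLoc t 𝔫 x) (hxV : x ∈ V.nonunits) : SsnfInMax t 𝔫 x := by
  obtain ⟨s, hs, hsx⟩ := hx
  exact ⟨s, hs, ⟨(s : F) * x, hsx⟩, hon _ (sqw_mul_mem_nonunits (hPV _ s.2) hxV), rfl⟩

end Loc

end Fermat.Agent.SQ
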