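import Mathlib
import Fermat.Prelude.Def_AlgebraicCurve_BaseChangeGalois
import Fermat.Agent.S18.T.Spec
import Fermat.Agent.SS.NF.Defs
import Fermat.Agent.SS.Loc.Ring
import Fermat.Agent.SQ.NewBase
import Fermat.Agent.SQ.NewGlueA

/-!
# Program Q (S36), leaf SQ/NewGlue, part B (prefix `sqng_`) : one side (`α` or `φ`) of the
branch-value relation at a triple point

`sqng_side` : the relation `ζ^s ψ_a ψ_b^(q-1) ≡ ψ_c^q mod 𝔫 P_𝔫` between the trivialisers at the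
three branches, from ONE degeneracy map `β` (`= α` : `(a,b,c) = (1,2,3)`; `= φ` : `(a,b,c) = (3,2,1)`)
whose norm `N` satisfies `N f = u gⁿ`, `g ≡ ζ^s` at the split place, `g ≡ 1` at the inert place.
-/

set_option autoImplicit false
set_option linter.unusedSectionVars false
set_option linter.unusedVariables false
set_option linter.style.haveILetI false

noncomputable section

namespace Fermat.Agent.SQ

open Polynomial IntermediateField Fermat.Agent.S18 Fermat.Agent.SS IsLocalRing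

/-- the algebra of one side, in any commutative ring modulo any ideal -/
theorem sqng_side_alg {R : Type*} [CommRing R] (I : Ideal R) {c ζ a b ψa ψb ψc : R} {q : ℕ}
    (F1 : c * ζ * a * b ^ (q - 1) - 1 ∈ I) (F2 : ψa - a ∈ I) (F3 : ψb - b ∈ I)
    (F4 : c * ψc ^ q - 1 ∈ I) : ζ * ψa * ψb ^ (q - 1) - ψc ^ q ∈ I := by
  rw [← Ideal.Quotient.eq_zero_iff_mem] at F1 F2 F3 F4 ⊢
  simp only [map_sub, map_mul, map_pow, map_one] at F1 F2 F3 F4 ⊢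
  rw [sub_eq_zero] at F2 F3
  rw [F2, F3]
  linear_combination
    (-(Ideal.Quotient.mk I ζ * Ideal.Quotient.mk I a * Ideal.Quotient.mk I b ^ (q - 1))) * F4 +
      (Ideal.Quotient.mk I ψc ^ q) * F1

section Side

universe u

variable {A : Type*} [CommRing A] [IsDomain A] [IsDiscreteValuationRing A] [CharZero A]
variable {L : Type*} [Field L] [Algebra A L] [IsFractionRing A L]
variable {F : Type u} [Field F] [Algebra A F] [Algebra L F] [IsScalarTower A L F]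
variable {F₁ : Type*} [Field F₁] [Algebra A F₁]
variable {t : F} {𝔫 : Ideal ↥(s18tInt A t)}

/-- the component `V` passes through `𝔫` : `P_𝔫 ⊆ V` and `P_𝔫 ∩ 𝔪_V ⊆ 𝔫 P_𝔫`. -/
def SqngThru (t : F) (𝔫 : Ideal ↥(s18tInt A t)) (V : ValuationSubring F) : Prop :=
  (∀ x : F, SsnfInLoc t 𝔫 x → x ∈ V) ∧
    (∀ x : F, SsnfInLoc t 𝔫 x → x ∈ V.nonunits → SsnfInMax t 𝔫 x)

/-- norms of nonzero elements are nonzero -/
theorem sqng_norm_ne_zero (N : F →* F₁) {x : F} (hx : x ≠ 0) : N x ≠ 0 := by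
  intro h
  have h1 : N x * N x⁻¹ = 1 := by rw [← map_mul, mul_inv_cancel₀ hx, map_one]
  rw [h, zero_mul] at h1
  exact zero_ne_one h1

theorem sqng_norm_inv (N : F →* F₁) {x : F} (hx : x ≠ 0) : N x⁻¹ = (N x)⁻¹ := by
  have h1 : N x * N x⁻¹ = 1 := by rw [← map_mul, mul_inv_cancel₀ hx, map_one]
  exact eq_inv_of_mul_eq_one_right h1

/-- a lift along `β` of a unit of `V` which is `≡` a unit : it is a unit of `W`. -/
theorem sqng_lift_unit {β : F₁ →+* F} {W : ValuationSubring F₁} {V : ValuationSubring F}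
    (hmax : ∀ x ∈ W.nonunits, β x ∈ V.nonunits) {Φ : F} (hΦ : Φ ∈ V) {y : F₁}
    (hy : β y ∈ V) (h1 : Φ * β y - 1 ∈ V.nonunits) : y ≠ 0 ∧ y ∈ W ∧ y⁻¹ ∈ W := by
  have hc : SqwCong V (Φ * β y) 1 := SqwCong.of_sub' V.one_mem h1
  have h0 : Φ * β y ≠ 0 := hc.one_ne_zero
  have hβy0 : β y ≠ 0 := right_ne_zero_of_mul h0
  have hy0 : y ≠ 0 := fun h => hβy0 (by rw [h, map_zero])
  have hinv : (β y)⁻¹ ∈ V := by
    have h2 : (β y)⁻¹ = Φ * (Φ * β y)⁻¹ := by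
      have hΦ0 : Φ ≠ 0 := left_ne_zero_of_mul h0
      field_simp
    rw [h2]
    exact V.mul_mem _ _ hΦ hc.one_inv_mem
  refine ⟨hy0, ?_, sqw_reflect_unit β hmax hy0 hinv⟩
  have h3 := sqw_reflect_unit β hmax (inv_ne_zero hy0) (by rw [map_inv₀, inv_inv]; exact hy)
  rwa [inv_inv] at h3

/-- **ONE SIDE of the branch-value relation at a triple point.** -/
theorem sqng_side (h𝔫 : 𝔫.IsPrime) {β : F₁ →+* F} {N : F →* F₁}
    {Wa Wc : ValuationSubring F₁} {Va Vb Vc : ValuationSubring F} {q n : ℕ} (hn0 : n ≠ 0)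
    (hβA : ∀ a : A, β (algebraMap A F₁ a) = algebraMap A F a)
    (max_a : ∀ x ∈ Wa.nonunits, β x ∈ Va.nonunits)
    (max_b : ∀ x ∈ Wa.nonunits, β x ∈ Vb.nonunits)
    (max_c : ∀ x ∈ Wc.nonunits, β x ∈ Vc.nonunits)
    (nr_split : ∀ g : F, g ≠ 0 → g ∈ Va → g⁻¹ ∈ Va → g ∈ Vb → g⁻¹ ∈ Vb →
      ∀ ψa ψb : F₁, ψa ≠ 0 → ψa ∈ Wa → ψa⁻¹ ∈ Wa → ψb ≠ 0 → ψb ∈ Wa → ψb⁻¹ ∈ Wa →
        g * β ψa - 1 ∈ Va.nonunits → g * β ψb - 1 ∈ Vb.nonunits →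
        N g * ψa * ψb ^ (q - 1) - 1 ∈ Wa.nonunits)
    (nr_insep : ∀ x ∈ Vc, β (N x) - x ^ q ∈ Vc.nonunits)
    (ha : SqngThru t 𝔫 Va) (hb : SqngThru t 𝔫 Vb) (hc : SqngThru t 𝔫 Vc)
    (hunit : ∀ x : F, x ≠ 0 → SsnfInLoc t 𝔫 x → SsnfInLoc t 𝔫 x⁻¹ → SsnfInLoc t 𝔫 (β (N x)))
    (lres_a : ∀ x : F, SsnfInLoc t 𝔫 x → ∃ y : F₁, SsnfInLoc t 𝔫 (β y) ∧ x - β y ∈ Va.nonunits)
    (lres_b : ∀ x : F, SsnfInLoc t 𝔫 x → ∃ y : F₁, SsnfInLoc t 𝔫 (β y) ∧ x - β y ∈ Vb.nonunits)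
    {f Φ υ : F} (hpres : f = υ * Φ ^ n) (hΦ0 : Φ ≠ 0) (hυ0 : υ ≠ 0)
    (hυ : SsnfInLoc t 𝔫 υ) (hυ' : SsnfInLoc t 𝔫 υ⁻¹)
    (hΦa : Φ ∈ Va) (hΦa' : Φ⁻¹ ∈ Va) (hΦb : Φ ∈ Vb) (hΦb' : Φ⁻¹ ∈ Vb) (hΦc : Φ ∈ Vc)
    {u : A} (hu : IsUnit u) {g : F₁} (hg0 : g ≠ 0) (hN : N f = algebraMap A F₁ u * g ^ n)
    {z : A} {s : ℕ} (hga : g - algebraMap A F₁ (z ^ s) ∈ Wa.nonunits) (hgc : g - 1 ∈ Wc.nonunits)
    {ψa ψb ψc : F} (hψa : SsnfInLoc t 𝔫 ψa) (hψb : SsnfInLoc t 𝔫 ψb) (hψc : SsnfInLoc t 𝔫 ψc)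
    (hta : Φ * ψa - 1 ∈ Va.nonunits) (htb : Φ * ψb - 1 ∈ Vb.nonunits)
    (htc : Φ * ψc - 1 ∈ Vc.nonunits) :
    SsnfInMax t 𝔫 (algebraMap A F (z ^ s) * ψa * ψb ^ (q - 1) - ψc ^ q) := by
  haveI := h𝔫
  -- `c = β (N Φ / g)` is in `P_𝔫`
  have hβg0 : β g ≠ 0 := (map_ne_zero β).mpr hg0
  have hNυ0 : N υ ≠ 0 := sqng_norm_ne_zero N hυ0
  set c : F := β (N Φ / g) with hc_def
  have hcn : c ^ n = algebraMap A F u * β (N υ⁻¹) := by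
    have h1 : N υ * N Φ ^ n = algebraMap A F₁ u * g ^ n := by
      rw [← hN, hpres, map_mul, map_pow]
    have h2 : (N Φ / g) ^ n = algebraMap A F₁ u * (N υ)⁻¹ := by
      rw [div_pow, div_eq_iff (pow_ne_zero n hg0)]
      have : algebraMap A F₁ u * (N υ)⁻¹ * g ^ n = (N υ)⁻¹ * (algebraMap A F₁ u * g ^ n) := by ring
      rw [this, ← h1, ← mul_assoc, inv_mul_cancel₀ hNυ0, one_mul]
    rw [hc_def, ← map_pow, h2, map_mul, hβA, sqng_norm_inv N hυ0]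
  have hcLoc : SsnfInLoc t 𝔫 c := by
    apply sqng_inLoc_of_pow h𝔫 hn0
    rw [hcn]
    exact sqng_loc_mul h𝔫 (sqng_loc_const h𝔫 u)
      (hunit _ (inv_ne_zero hυ0) hυ' (by rw [inv_inv]; exact hυ))
  have hβNΦ : β (N Φ) = c * β g := by
    rw [hc_def, map_div₀, div_mul_cancel₀ _ hβg0]
  -- the lifts
  obtain ⟨ya, hyaLoc, hya⟩ := lres_a ψa hψa
  obtain ⟨yb, hybLoc, hyb⟩ := lres_b ψb hψb
  have hta' : Φ * β ya - 1 ∈ Va.nonunits := by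
    have : Φ * β ya - 1 = (Φ * ψa - 1) - Φ * (ψa - β ya) := by ring
    rw [this]
    exact sub_mem hta (sqw_mul_mem_nonunits hΦa hya)
  have htb' : Φ * β yb - 1 ∈ Vb.nonunits := by
    have : Φ * β yb - 1 = (Φ * ψb - 1) - Φ * (ψb - β yb) := by ring
    rw [this]
    exact sub_mem htb (sqw_mul_mem_nonunits hΦb hyb)
  obtain ⟨hya0, hyaW, hyaW'⟩ := sqng_lift_unit max_a hΦa (ha.1 _ hyaLoc) hta'
  obtain ⟨hyb0, hybW, hybW'⟩ := sqng_lift_unit max_b hΦb (hb.1 _ hybLoc) htb'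
  -- (NRr) at the split place
  have hsplit := nr_split Φ hΦ0 hΦa hΦa' hΦb hΦb' ya yb hya0 hyaW hyaW' hyb0 hybW hybW' hta' htb'
  have hsplit' := max_a _ hsplit
  rw [map_sub, map_mul, map_mul, map_pow, map_one, hβNΦ] at hsplit'
  have hβga : β g - algebraMap A F (z ^ s) ∈ Va.nonunits := by
    have := max_a _ hga
    rwa [map_sub, hβA] at this
  have hXLoc : SsnfInLoc t 𝔫 (β ya * β yb ^ (q - 1)) :=
    sqng_loc_mul h𝔫 hyaLoc (sqng_loc_pow h𝔫 hybLoc _)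
  have hζLoc : SsnfInLoc t 𝔫 (algebraMap A F (z ^ s)) := sqng_loc_const h𝔫 _
  have hF1 : SsnfInMax t 𝔫 (c * algebraMap A F (z ^ s) * β ya * β yb ^ (q - 1) - 1) := by
    refine ha.2 _ (sqng_loc_sub h𝔫 (sqng_loc_mul h𝔫 (sqng_loc_mul h𝔫 (sqng_loc_mul h𝔫 hcLoc hζLoc)
      hyaLoc) (sqng_loc_pow h𝔫 hybLoc _)) (sqng_loc_one h𝔫)) ?_
    have : c * algebraMap A F (z ^ s) * β ya * β yb ^ (q - 1) - 1 =
        (c * β g * β ya * β yb ^ (q - 1) - 1) -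
          (c * (β ya * β yb ^ (q - 1))) * (β g - algebraMap A F (z ^ s)) := by ring
    rw [this]
    exact sub_mem hsplit' (sqw_mul_mem_nonunits (ha.1 _ (sqng_loc_mul h𝔫 hcLoc hXLoc)) hβga)
  have hF2 : SsnfInMax t 𝔫 (ψa - β ya) := ha.2 _ (sqng_loc_sub h𝔫 hψa hyaLoc) hya
  have hF3 : SsnfInMax t 𝔫 (ψb - β yb) := hb.2 _ (sqng_loc_sub h𝔫 hψb hybLoc) hyb
  -- (NRr) at the inert place
  have hF4 : SsnfInMax t 𝔫 (c * ψc ^ q - 1) := by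
    refine hc.2 _ (sqng_loc_sub h𝔫 (sqng_loc_mul h𝔫 hcLoc (sqng_loc_pow h𝔫 hψc _))
      (sqng_loc_one h𝔫)) ?_
    have h1 := nr_insep Φ hΦc
    rw [hβNΦ] at h1
    have hβgc : β g - 1 ∈ Vc.nonunits := by
      have := max_c _ hgc
      rwa [map_sub, map_one] at this
    have hcV : c ∈ Vc := hc.1 _ hcLoc
    have h2 : c - Φ ^ q ∈ Vc.nonunits := by
      have : c - Φ ^ q = (c * β g - Φ ^ q) - c * (β g - 1) := by ring
      rw [this]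
      exact sub_mem h1 (sqw_mul_mem_nonunits hcV hβgc)
    have h3 : SqwCong Vc ((Φ * ψc) ^ q) (1 ^ q) :=
      (SqwCong.of_sub' Vc.one_mem htc).pow q
    rw [one_pow] at h3
    have : c * ψc ^ q - 1 = ψc ^ q * (c - Φ ^ q) + ((Φ * ψc) ^ q - 1) := by ring
    rw [this]
    exact add_mem (sqw_mul_mem_nonunits (Vc.pow_mem (hc.1 _ hψc) q) h2) h3.2.2
  -- the algebra, in the local ring
  have hgoalLoc : SsnfInLoc t 𝔫 (algebraMap A F (z ^ s) * ψa * ψb ^ (q - 1) - ψc ^ q) :=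
    sqng_loc_sub h𝔫 (sqng_loc_mul h𝔫 (sqng_loc_mul h𝔫 hζLoc hψa) (sqng_loc_pow h𝔫 hψb _))
      (sqng_loc_pow h𝔫 hψc _)
  rw [sqng_max_iff hgoalLoc]
  have G1 := (sqng_max_iff (sqng_max_loc hF1)).mp hF1
  have G2 := (sqng_max_iff (sqng_max_loc hF2)).mp hF2
  have G3 := (sqng_max_iff (sqng_max_loc hF3)).mp hF3
  have G4 := (sqng_max_iff (sqng_max_loc hF4)).mp hF4
  exact sqng_side_alg (maximalIdeal ↥(ssLocRing t 𝔫))
    (c := ⟨c, hcLoc⟩) (ζ := ⟨_, hζLoc⟩) (a := ⟨_, hyaLoc⟩) (b := ⟨_, hybLoc⟩)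
    (ψa := ⟨ψa, hψa⟩) (ψb := ⟨ψb, hψb⟩) (ψc := ⟨ψc, hψc⟩) G1 G2 G3 G4

end Side

end Fermat.Agent.SQ
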