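import Fermat.Agent.SQ.NewBase

/-!
# Program Q (S36) : `SqNormData` (blueprint `S36.md` v2 §4.1)

The hypothesis package consumed by `SQ/New.lean` (`sq_new_normalise`) and `SQ/NewGlue.lean`, produced by
`SQ/NormInst.lean` from NR² + the VAL² positions.

Setting : `L` the constants with valuation ring `A`, uniformiser `ϖ`; `F₁` (level `q M'`), `F` (level
`q² M'`), `ι₁ : L → F₁`, the two degeneracy embeddings `α φ : F₁ → F` (agreeing on constants), the two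
norms `Nα Nφ : F →* F₁` (abstract monoid homs); `W₁ W₂` the valuations of `F₁` over Gauss, `V₁ V₂ V₃` those
of `F`, in the positions

* via `α` : `V₁ | W₁ (e = f = 1)`, `V₂ | W₁ (e = q - 1, f = 1)`, `V₃ | W₂ (e = 1, f = q insep)`;
* via `φ` : `V₁ | W₁ (e = 1, f = q insep)`, `V₂ | W₂ (e = q - 1, f = 1)`, `V₃ | W₂ (e = f = 1)`.

Integer order functions `vL, w₁, w₂, o₁, o₂, o₃` are DATA (`SqwOrd`; build them with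
`sqw_ord_of_zpow` from `SqvFam.exists_zpow`, or with `sqw_exists_ord`).  `o₂` is normalised
(`o₂ ϖ = q - 1`).

Mathlib only.
-/

set_option autoImplicit false
set_option linter.unusedSectionVars false
set_option linter.unusedVariables false

noncomputable section

namespace Fermat.Agent.SQ

variable {L F₁ F : Type*} [Field L] [Field F₁] [Field F]

/-- **`SqNormData`** (blueprint §4.1) : (pos), (NRv), (NRr), (res) in element form. -/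
structure SqNormData (ι₁ : L →+* F₁) (α φ : F₁ →+* F) (Nα Nφ : F →* F₁)
    (A : ValuationSubring L) (W₁ W₂ : ValuationSubring F₁) (V₁ V₂ V₃ : ValuationSubring F)
    (vL : L → ℤ) (w₁ w₂ : F₁ → ℤ) (o₁ o₂ o₃ : F → ℤ) (ϖ : L) (q : ℕ) : Prop where
  ordL : SqwOrd A vL
  ordW₁ : SqwOrd W₁ w₁
  ordW₂ : SqwOrd W₂ w₂
  ordV₁ : SqwOrd V₁ o₁
  ordV₂ : SqwOrd V₂ o₂
  ordV₃ : SqwOrd V₃ o₃
  /-- `α` and `φ` agree on the constants -/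
  ι_eq : ∀ c : L, α (ι₁ c) = φ (ι₁ c)
  ϖ_ne : ϖ ≠ 0
  vL_ϖ : vL ϖ = 1
  /-- `W₁` is unramified over `A` -/
  w₁_const : ∀ c : L, c ≠ 0 → w₁ (ι₁ c) = vL c
  /-- `W₂` is unramified over `A` -/
  w₂_const : ∀ c : L, c ≠ 0 → w₂ (ι₁ c) = vL c
  o₁_ϖ : o₁ (α (ι₁ ϖ)) = 1
  /-- `e(V₂) = q - 1` -/
  o₂_ϖ : o₂ (α (ι₁ ϖ)) = (q : ℤ) - 1
  o₃_ϖ : o₃ (α (ι₁ ϖ)) = 1
  /-- the degree of `α` is `q` -/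
  Nα_α : ∀ y : F₁, Nα (α y) = y ^ q
  /-- the degree of `φ` is `q` -/
  Nφ_φ : ∀ y : F₁, Nφ (φ y) = y ^ q
  -- (pos)
  α_mem₁ : ∀ x ∈ W₁, α x ∈ V₁
  α_max₁ : ∀ x ∈ W₁.nonunits, α x ∈ V₁.nonunits
  α_mem₂ : ∀ x ∈ W₁, α x ∈ V₂
  α_max₂ : ∀ x ∈ W₁.nonunits, α x ∈ V₂.nonunits
  α_mem₃ : ∀ x ∈ W₂, α x ∈ V₃
  α_max₃ : ∀ x ∈ W₂.nonunits, α x ∈ V₃.nonunits
  φ_mem₁ : ∀ x ∈ W₁, φ x ∈ V₁
  φ_max₁ : ∀ x ∈ W₁.nonunits, φ x ∈ V₁.nonunits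
  φ_mem₂ : ∀ x ∈ W₂, φ x ∈ V₂
  φ_max₂ : ∀ x ∈ W₂.nonunits, φ x ∈ V₂.nonunits
  φ_mem₃ : ∀ x ∈ W₂, φ x ∈ V₃
  φ_max₃ : ∀ x ∈ W₂.nonunits, φ x ∈ V₃.nonunits
  -- (NRv)
  /-- (NRv) for `α` over `W₁` : `V₁ (f = 1)`, `V₂ (f = 1)` -/
  nrvα₁ : ∀ g : F, g ≠ 0 → w₁ (Nα g) = o₁ g + o₂ g
  /-- (NRv) for `α` over `W₂` : `V₃ (f = q)` -/
  nrvα₂ : ∀ g : F, g ≠ 0 → w₂ (Nα g) = q * o₃ g
  /-- (NRv) for `φ` over `W₁` : `V₁ (f = q)` -/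
  nrvφ₁ : ∀ g : F, g ≠ 0 → w₁ (Nφ g) = q * o₁ g
  /-- (NRv) for `φ` over `W₂` : `V₂ (f = 1)`, `V₃ (f = 1)` -/
  nrvφ₂ : ∀ g : F, g ≠ 0 → w₂ (Nφ g) = o₂ g + o₃ g
  -- (NRr)
  /-- (NRr), `V₃ | W₂` via `α` purely inseparable of degree `q` : `α (Nα x) ≡ x ^ q` -/
  nrα₃ : ∀ x ∈ V₃, α (Nα x) - x ^ q ∈ V₃.nonunits
  /-- (NRr), `V₁ | W₁` via `φ` purely inseparable of degree `q` : `φ (Nφ x) ≡ x ^ q` -/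
  nrφ₁ : ∀ x ∈ V₁, φ (Nφ x) - x ^ q ∈ V₁.nonunits
  /-- (NRr) for `α` over `W₁` : `V₁ (e = f = 1)`, `V₂ (e = q - 1, f = 1)` -/
  nrα₁₂ : ∀ g : F, g ≠ 0 → g ∈ V₁ → g⁻¹ ∈ V₁ → g ∈ V₂ → g⁻¹ ∈ V₂ →
    ∀ ψ₁ ψ₂ : F₁, ψ₁ ≠ 0 → ψ₁ ∈ W₁ → ψ₁⁻¹ ∈ W₁ → ψ₂ ≠ 0 → ψ₂ ∈ W₁ → ψ₂⁻¹ ∈ W₁ →
      g * α ψ₁ - 1 ∈ V₁.nonunits → g * α ψ₂ - 1 ∈ V₂.nonunits →
      Nα g * ψ₁ * ψ₂ ^ (q - 1) - 1 ∈ W₁.nonunits
  /-- (NRr) for `φ` over `W₂` : `V₂ (e = q - 1, f = 1)`, `V₃ (e = f = 1)` -/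
  nrφ₂₃ : ∀ g : F, g ≠ 0 → g ∈ V₂ → g⁻¹ ∈ V₂ → g ∈ V₃ → g⁻¹ ∈ V₃ →
    ∀ ψ₂ ψ₃ : F₁, ψ₂ ≠ 0 → ψ₂ ∈ W₂ → ψ₂⁻¹ ∈ W₂ → ψ₃ ≠ 0 → ψ₃ ∈ W₂ → ψ₃⁻¹ ∈ W₂ →
      g * φ ψ₂ - 1 ∈ V₂.nonunits → g * φ ψ₃ - 1 ∈ V₃.nonunits →
      Nφ g * ψ₂ ^ (q - 1) * ψ₃ - 1 ∈ W₂.nonunits
  -- (res)
  /-- `κ(V₁) = ᾱ κ(W₁)` -/
  res₁α : ∀ x ∈ V₁, ∃ r ∈ W₁, x - α r ∈ V₁.nonunits
  /-- `κ(V₂) = ᾱ κ(W₁)` -/
  res₂α : ∀ x ∈ V₂, ∃ r ∈ W₁, x - α r ∈ V₂.nonunits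
  /-- `κ(V₂) = φ̄ κ(W₂)` -/
  res₂φ : ∀ x ∈ V₂, ∃ r ∈ W₂, x - φ r ∈ V₂.nonunits
  /-- `κ(V₃) = φ̄ κ(W₂)` -/
  res₃φ : ∀ x ∈ V₃, ∃ r ∈ W₂, x - φ r ∈ V₃.nonunits

variable {ι₁ : L →+* F₁} {α φ : F₁ →+* F} {Nα Nφ : F →* F₁}
  {A : ValuationSubring L} {W₁ W₂ : ValuationSubring F₁} {V₁ V₂ V₃ : ValuationSubring F}
  {vL : L → ℤ} {w₁ w₂ : F₁ → ℤ} {o₁ o₂ o₃ : F → ℤ} {ϖ : L} {q : ℕ}

namespace SqNormData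

variable (H : SqNormData ι₁ α φ Nα Nφ A W₁ W₂ V₁ V₂ V₃ vL w₁ w₂ o₁ o₂ o₃ ϖ q)
include H

/-- norms of constants, `α` -/
theorem Nα_const (c : L) : Nα (α (ι₁ c)) = ι₁ c ^ q := H.Nα_α _

/-- norms of constants, `φ` -/
theorem Nφ_const (c : L) : Nφ (α (ι₁ c)) = ι₁ c ^ q := by rw [H.ι_eq, H.Nφ_φ]

/-- constants : `A → W₁` -/
theorem const_mem₁ {c : L} (hc : c ∈ A) : ι₁ c ∈ W₁ := by
  by_cases h0 : c = 0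
  · rw [h0, map_zero]; exact W₁.zero_mem
  · rw [H.ordW₁.mem _ ((map_ne_zero ι₁).mpr h0), H.w₁_const c h0]
    exact (H.ordL.mem c h0).mp hc

theorem const_max₁ {c : L} (hc : c ∈ A.nonunits) : ι₁ c ∈ W₁.nonunits := by
  by_cases h0 : c = 0
  · rw [h0, map_zero]; exact zero_mem _
  · rw [H.ordW₁.mem_nonunits ((map_ne_zero ι₁).mpr h0), H.w₁_const c h0]
    exact (H.ordL.mem_nonunits h0).mp hc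

/-- constants : `A → W₂` -/
theorem const_mem₂ {c : L} (hc : c ∈ A) : ι₁ c ∈ W₂ := by
  by_cases h0 : c = 0
  · rw [h0, map_zero]; exact W₂.zero_mem
  · rw [H.ordW₂.mem _ ((map_ne_zero ι₁).mpr h0), H.w₂_const c h0]
    exact (H.ordL.mem c h0).mp hc

theorem const_max₂ {c : L} (hc : c ∈ A.nonunits) : ι₁ c ∈ W₂.nonunits := by
  by_cases h0 : c = 0
  · rw [h0, map_zero]; exact zero_mem _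
  · rw [H.ordW₂.mem_nonunits ((map_ne_zero ι₁).mpr h0), H.w₂_const c h0]
    exact (H.ordL.mem_nonunits h0).mp hc

/-- a one-unit constant is `≡ 1` at `W₁` -/
theorem oneUnit₁ {u : L} (hu : u - 1 ∈ A.nonunits) : SqwCong W₁ (ι₁ u) 1 := by
  refine SqwCong.of_sub' W₁.one_mem ?_
  have := H.const_max₁ hu
  rwa [map_sub, map_one] at this

/-- a one-unit constant is `≡ 1` at `W₂` -/
theorem oneUnit₂ {u : L} (hu : u - 1 ∈ A.nonunits) : SqwCong W₂ (ι₁ u) 1 := by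
  refine SqwCong.of_sub' W₂.one_mem ?_
  have := H.const_max₂ hu
  rwa [map_sub, map_one] at this

end SqNormData

end Fermat.Agent.SQ
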