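import Mathlib
import Fermat.Prelude.Def_AlgebraicCurve_BaseChangeGalois
import Fermat.Agent.S18.T.Spec
import Fermat.Agent.SS.K.Spec
import Fermat.Agent.SS.NF.Defs
import Fermat.Agent.SS.Geo.ChartInv
import Fermat.Agent.ST.Defs
import Fermat.Agent.SS.Loc.Centre
import Fermat.Agent.S24.PlacesPrincipal
import Fermat.Agent.SQ.Defs
import Fermat.Agent.SQ.Fact
import Fermat.Agent.SQ.Three
import Fermat.Agent.SQ.ThreeLoc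
import Fermat.Agent.SQ.NormData
import Fermat.Agent.SQ.KumAt
import Fermat.Agent.SQ.NewGlueA
import Fermat.Agent.SQ.NewGlueB

/-!
# Program Q (S36), leaf SQ/NewGlue (blueprint `S36.md` v2 §4.4) : (Q-NEW) (c) + `sq_core`

Setting of S18 package T for `F` (level `q² M'`), a second field `F₁` (level `q M'`), the two
degeneracy embeddings `α φ : F₁ →+* F`, the two norms `Nα Nφ : F →* F₁` (abstract monoid homs),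
`SqNormData` (helper23) for the positions/norm–residue relations, `SqvThree` (helper3) for the three
valuations of `F` over the Gauss valuation.

* `SqngBranch`, `SqTripleAt`, `SqSimpleAt` : the local hypotheses at the closed points;
* `sq_new_glue` : `f₄ ≡ 1 mod 𝔪_{V_i}`, `n ∣ div f₄`, both norms of `f₄` of the form (one-unit constant)
  `× n`-th power ⟹ `f₄ ^ (q² - 1) = Hⁿ f₇`, `f₇ ≡ 1 mod ϖ P_(ϖ)`, and the local datum `StDivAt` for `f₇`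
  at every TRIPLE point of the chart `t`;
* `sq_core_divAt` : … and at every closed point if all closed points are SIMPLE or TRIPLE;
* `sq_core` : hence `f₄ ^ (q² - 1)` is an `n`-th power (`st_core`).
-/

set_option autoImplicit false
set_option linter.unusedSectionVars false
set_option linter.unusedVariables false
set_option linter.style.haveILetI false

noncomputable section

namespace Fermat.Agent.SQ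

open Polynomial IntermediateField AlgebraicCurve Fermat.Agent.S18 Fermat.Agent.SS Fermat.Agent.S24
  Fermat.Agent.ST IsLocalRing

universe u

/-! ### Step 1 : the roots of unity `g ≡ ζ^s` -/

/-- normalisation of the `n`-th root : `N = u gⁿ`, `N ≡ 1 ≡ u` at `W` and `W'` ⟹ after multiplying
`g` by a root of unity : `g ≡ ζ^s mod 𝔪_W`, `g ≡ 1 mod 𝔪_{W'}`. -/
theorem sqng_normalise_root {K : Type*} [Field K] (W W' : ValuationSubring K) {n : ℕ}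
    (hn0 : n ≠ 0) {z : K} (hz : IsPrimitiveRoot z n) (hzW : z ∈ W) (hzW' : z ∈ W')
    {N u g : K} (hN : N = u * g ^ n) (hNW : N - 1 ∈ W.nonunits) (hNW' : N - 1 ∈ W'.nonunits)
    (huW : u - 1 ∈ W.nonunits) (huW' : u - 1 ∈ W'.nonunits) :
    ∃ (g₀ : K) (s : ℕ), g₀ ≠ 0 ∧ N = u * g₀ ^ n ∧ g₀ - z ^ s ∈ W.nonunits ∧
      g₀ - 1 ∈ W'.nonunits := by
  have key : ∀ U : ValuationSubring K, z ∈ U → N - 1 ∈ U.nonunits → u - 1 ∈ U.nonunits →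
      g ≠ 0 ∧ ∃ s : ℕ, g - z ^ s ∈ U.nonunits := by
    intro U hzU hNU huU
    have cN : SqwCong U N 1 := SqwCong.of_sub' U.one_mem hNU
    have cu : SqwCong U u 1 := SqwCong.of_sub' U.one_mem huU
    have hu0 : u ≠ 0 := cu.one_ne_zero
    have cui : SqwCong U u⁻¹ 1⁻¹ := cu.inv (by rw [inv_one]; exact U.one_mem) one_ne_zero
    have c := cui.mul cN
    have e : u⁻¹ * N = g ^ n := by rw [hN, ← mul_assoc, inv_mul_cancel₀ hu0, one_mul]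
    rw [e, inv_one, one_mul] at c
    have hgn0 : g ^ n ≠ 0 := c.one_ne_zero
    have hg0 : g ≠ 0 := fun h => hgn0 (by rw [h, zero_pow hn0])
    have hgU : g ∈ U := by
      have h1 := (U.valuation_le_one_iff _).mpr c.1
      rw [map_pow] at h1
      exact (U.valuation_le_one_iff _).mp ((pow_le_one_iff hn0).mp h1)
    exact ⟨hg0, sqng_exists_root U hz hn0 hzU hgU c.2.2⟩
  obtain ⟨hg0, s₁, hs₁⟩ := key W hzW hNW huW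
  obtain ⟨-, s₂, hs₂⟩ := key W' hzW' hNW' huW'
  obtain ⟨m, rfl⟩ : ∃ m, n = m + 1 := ⟨n - 1, by omega⟩
  have hz0 : z ≠ 0 := hz.ne_zero (by omega)
  have hzn : z ^ (m + 1) = 1 := hz.pow_eq_one
  refine ⟨g * z ^ (m * s₂), s₁ + m * s₂, mul_ne_zero hg0 (pow_ne_zero _ hz0), ?_, ?_, ?_⟩
  · rw [hN, mul_pow, ← pow_mul, mul_comm (m * s₂) (m + 1), pow_mul, hzn, one_pow, mul_one]
  · have : g * z ^ (m * s₂) - z ^ (s₁ + m * s₂) = z ^ (m * s₂) * (g - z ^ s₁) := by ring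
    rw [this]
    exact sqw_mul_mem_nonunits (W.pow_mem hzW _) hs₁
  · have h1 : z ^ (m * s₂) * z ^ s₂ = 1 := by
      rw [← pow_add]
      have : m * s₂ + s₂ = (m + 1) * s₂ := by ring
      rw [this, pow_mul, hzn, one_pow]
    have : g * z ^ (m * s₂) - 1 = z ^ (m * s₂) * (g - z ^ s₂) := by
      linear_combination h1
    rw [this]
    exact sqw_mul_mem_nonunits (W'.pow_mem hzW' _) hs₂

variable {A : Type*} [CommRing A] [IsDomain A] [IsDiscreteValuationRing A] [CharZero A]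
variable {L : Type*} [Field L] [Algebra A L] [IsFractionRing A L]
variable {F : Type u} [Field F] [Algebra A F] [Algebra L F] [IsScalarTower A L F]
variable {F₁ : Type*} [Field F₁] [Algebra A F₁] [Algebra L F₁] [IsScalarTower A L F₁]
variable {ϖ : A}

/-! ### the local hypotheses -/

/-- the component `V` is a smooth branch through `𝔫` : `SqBranch t 𝔫 𝔭` for `𝔭 = P ∩ 𝔪_V`
(the `hbr`-shape of `SQ/KumAt.lean`, as a definition). -/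
def SqngBranch (t : F) (𝔫 : Ideal ↥(s18tInt A t)) (V : ValuationSubring F) : Prop :=
  ∃ 𝔭 : Ideal ↥(s18tInt A t), (∀ p : ↥(s18tInt A t), p ∈ 𝔭 ↔ (p : F) ∈ V.nonunits) ∧
    SqBranch t 𝔫 𝔭

theorem SqngBranch.on {t : F} {𝔫 : Ideal ↥(s18tInt A t)} {V : ValuationSubring F}
    (h : SqngBranch t 𝔫 V) : SqtOn V t 𝔫 := by
  obtain ⟨𝔭, h𝔭, -, hle, -⟩ := h
  exact fun p hp => hle ((h𝔭 p).mpr hp)

/-- **TRIPLE-POINT DATA** at the closed point `𝔫` of the chart `t` (everything in `F`) :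
a regular germ, the three components are smooth branches through `𝔫`,
(unit) : `α ∘ Nα`, `φ ∘ Nφ` preserve the units of `P_𝔫` ("`𝔫` is the unique point above the node"),
(lres) : local residue surjectivity `P_𝔫 ⊆ β(F₁) ∩ P_𝔫 + 𝔪_{V_i}` for `(V₁, α)`, `(V₂, α)`, `(V₂, φ)`,
`(V₃, φ)`. -/
structure SqTripleAt (α φ : F₁ →+* F) (Nα Nφ : F →* F₁) (t : F)
    (V₁ V₂ V₃ : ValuationSubring F) (𝔫 : Ideal ↥(s18tInt A t)) : Prop where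
  reg : SqGermReg t 𝔫
  br₁ : SqngBranch t 𝔫 V₁
  br₂ : SqngBranch t 𝔫 V₂
  br₃ : SqngBranch t 𝔫 V₃
  unitα : ∀ x : F, x ≠ 0 → SsnfInLoc t 𝔫 x → SsnfInLoc t 𝔫 x⁻¹ → SsnfInLoc t 𝔫 (α (Nα x))
  unitφ : ∀ x : F, x ≠ 0 → SsnfInLoc t 𝔫 x → SsnfInLoc t 𝔫 x⁻¹ → SsnfInLoc t 𝔫 (φ (Nφ x))
  lres₁α : ∀ x : F, SsnfInLoc t 𝔫 x → ∃ y : F₁, SsnfInLoc t 𝔫 (α y) ∧ x - α y ∈ V₁.nonunits
  lres₂α : ∀ x : F, SsnfInLoc t 𝔫 x → ∃ y : F₁, SsnfInLoc t 𝔫 (α y) ∧ x - α y ∈ V₂.nonunits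
  lres₂φ : ∀ x : F, SsnfInLoc t 𝔫 x → ∃ y : F₁, SsnfInLoc t 𝔫 (φ y) ∧ x - φ y ∈ V₂.nonunits
  lres₃φ : ∀ x : F, SsnfInLoc t 𝔫 x → ∃ y : F₁, SsnfInLoc t 𝔫 (φ y) ∧ x - φ y ∈ V₃.nonunits

/-- **SIMPLE POINT** : a regular germ lying on exactly one of the three components, which is a smooth
branch through it. -/
def SqSimpleAt (t : F) (V₁ V₂ V₃ : ValuationSubring F) (𝔫 : Ideal ↥(s18tInt A t)) : Prop :=
  SqGermReg t 𝔫 ∧ ∃ i : Fin 3, SqngBranch t 𝔫 (![V₁, V₂, V₃] i) ∧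
    ∀ j, j ≠ i → ¬ SqtOn (![V₁, V₂, V₃] j) t 𝔫

/-- `P_𝔫 ⊆ V`, `P_𝔫 ∩ 𝔪_V ⊆ 𝔫 P_𝔫` for a component through `𝔫` -/
theorem sqng_thru {hϖ : Irreducible ϖ} {t : F} {ι : Type*} {V : ι → ValuationSubring F}
    {π : ι → F} {e : ι → ℕ} (h : SqvFam hϖ t V π e) {𝔫 : Ideal ↥(s18tInt A t)} {i : ι}
    (hon : SqtOn (V i) t 𝔫) : SqngThru t 𝔫 (V i) :=
  ⟨fun _ hx => h.on_loc_mem hon hx,
    fun _ hx hxV => sqng_max_of_nonunits (fun _ hy => h.int_mem i hy) hon hx hxV⟩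

/-- the chart at infinity : `SqvThree` for `t⁻¹` -/
theorem sqng_three_inv (hϖ : Irreducible ϖ) (t : F) (ht : Transcendental L t) {e₂ : ℕ} {π₂ : F}
    {V₁ V₂ V₃ : ValuationSubring F} (h : SqvThree hϖ t e₂ π₂ V₁ V₂ V₃) :
    SqvThree hϖ t⁻¹ e₂ π₂ V₁ V₂ V₃ where
  mem_iff x := by
    have e : s18tIntLoc A t⁻¹ (C ϖ) (s18t_prime_C hϖ) = s18tIntLoc A t (C ϖ) (s18t_prime_C hϖ) := by
      unfold s18tIntLoc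
      rw [s18t_loc_inv (L := L) hϖ t ht]
    rw [e]
    exact h.mem_iff x
  unif₁ := h.unif₁
  unif₂ := h.unif₂
  unif₃ := h.unif₃
  e₂_ne := h.e₂_ne
  pow₂ := h.pow₂
  sep₁₂ := h.sep₁₂
  sep₂₁ := h.sep₂₁
  sep₁₃ := h.sep₁₃
  sep₃₁ := h.sep₃₁
  sep₂₃ := h.sep₂₃
  sep₃₂ := h.sep₃₂

/-- the divisor `div f / n` -/
theorem sqng_exists_div [CharZero L] (t : F) (ht : Transcendental L t)
    [FiniteDimensional L⟮t⟯ F] {n : ℕ} (hn0 : n ≠ 0) {f : F} (hf : f ≠ 0)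
    (hord : ∀ R : Place L F, (n : ℤ) ∣ R.ord f) :
    ∃ D : Place L F →₀ ℤ, ∀ R : Place L F, R.ord f = n * D R := by
  classical
  have hfin : {R : Place L F | R.ord f ≠ 0}.Finite := (ssl_isSepGen t ht).finite_ord_ne_zero hf
  refine ⟨Finsupp.ofSupportFinite (fun R => R.ord f / n) ?_, fun R => ?_⟩
  · refine hfin.subset fun R hR => ?_
    rw [Function.mem_support] at hR
    intro h0
    apply hR
    show R.ord f / n = 0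
    rw [h0, Int.zero_ediv]
  · show R.ord f = n * (R.ord f / n)
    rw [Int.mul_ediv_cancel' (hord R)]

/-! ### Step 1 in the `SqNormData` setting -/

section Step1

variable {α φ : F₁ →+* F} {Nα Nφ : F →* F₁}
  {AL : ValuationSubring L} {W₁ W₂ : ValuationSubring F₁} {V₁ V₂ V₃ : ValuationSubring F}
  {vL : L → ℤ} {w₁ w₂ : F₁ → ℤ} {o₁ o₂ o₃ : F → ℤ} {q : ℕ}

/-- a one-unit constant of `A` is a one-unit at `W₁` and `W₂` -/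
theorem sqng_oneUnit
    (H : SqNormData (algebraMap L F₁) α φ Nα Nφ AL W₁ W₂ V₁ V₂ V₃ vL w₁ w₂ o₁ o₂ o₃
      (algebraMap A L ϖ) q)
    (hAL : ∀ a : A, algebraMap A L a ∈ AL) {u : A} (hu : ϖ ∣ u - 1) :
    algebraMap A F₁ u - 1 ∈ W₁.nonunits ∧ algebraMap A F₁ u - 1 ∈ W₂.nonunits := by
  obtain ⟨c, hc⟩ := hu
  have hϖL : algebraMap A L ϖ ∈ AL.nonunits := by
    rw [H.ordL.mem_nonunits H.ϖ_ne, H.vL_ϖ]; exact one_pos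
  have h1 : algebraMap A L u - 1 ∈ AL.nonunits := by
    have : algebraMap A L u - 1 = algebraMap A L c * algebraMap A L ϖ := by
      rw [← map_one (algebraMap A L), ← map_sub, hc, map_mul, mul_comm]
    rw [this]
    exact sqw_mul_mem_nonunits (hAL c) hϖL
  rw [IsScalarTower.algebraMap_apply A L F₁]
  exact ⟨(H.oneUnit₁ h1).2.2, (H.oneUnit₂ h1).2.2⟩

/-- constants of `A` lie in `W₁` and `W₂` -/
theorem sqng_const_mem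
    (H : SqNormData (algebraMap L F₁) α φ Nα Nφ AL W₁ W₂ V₁ V₂ V₃ vL w₁ w₂ o₁ o₂ o₃
      (algebraMap A L ϖ) q)
    (hAL : ∀ a : A, algebraMap A L a ∈ AL) (a : A) :
    algebraMap A F₁ a ∈ W₁ ∧ algebraMap A F₁ a ∈ W₂ := by
  rw [IsScalarTower.algebraMap_apply A L F₁]
  exact ⟨H.const_mem₁ (hAL a), H.const_mem₂ (hAL a)⟩

/-- `A → F₁` is injective -/
theorem sqng_algebraMap_injective (L : Type*) [Field L] [Algebra A L] [IsFractionRing A L]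
    (F₁ : Type*) [Field F₁] [Algebra A F₁] [Algebra L F₁] [IsScalarTower A L F₁] :
    Function.Injective (algebraMap A F₁) := by
  rw [IsScalarTower.algebraMap_eq A L F₁]
  exact (algebraMap L F₁).injective.comp (IsFractionRing.injective A L)

/-- **Step 1, `α`** : `Nα f₄ = u gⁿ` with `g ≡ ζ^s mod 𝔪_{W₁}`, `g ≡ 1 mod 𝔪_{W₂}`. -/
theorem sqng_step1α
    (H : SqNormData (algebraMap L F₁) α φ Nα Nφ AL W₁ W₂ V₁ V₂ V₃ vL w₁ w₂ o₁ o₂ o₃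
      (algebraMap A L ϖ) q)
    (hAL : ∀ a : A, algebraMap A L a ∈ AL) {n : ℕ} (hn0 : n ≠ 0) {ζ : A}
    (hζ : IsPrimitiveRoot ζ n) {f₄ : F} (hf₄ : f₄ ≠ 0)
    (hf₄₁ : f₄ - 1 ∈ V₁.nonunits) (hf₄₂ : f₄ - 1 ∈ V₂.nonunits) (hf₄₃ : f₄ - 1 ∈ V₃.nonunits)
    {u : A} (hu : ϖ ∣ u - 1) {g : F₁} (hN : Nα f₄ = algebraMap A F₁ u * g ^ n) :
    ∃ (g₀ : F₁) (s : ℕ), g₀ ≠ 0 ∧ Nα f₄ = algebraMap A F₁ u * g₀ ^ n ∧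
      g₀ - algebraMap A F₁ (ζ ^ s) ∈ W₁.nonunits ∧ g₀ - 1 ∈ W₂.nonunits := by
  have c₁ : SqwCong V₁ f₄ 1 := SqwCong.of_sub' V₁.one_mem hf₄₁
  have c₂ : SqwCong V₂ f₄ 1 := SqwCong.of_sub' V₂.one_mem hf₄₂
  have c₃ : SqwCong V₃ f₄ 1 := SqwCong.of_sub' V₃.one_mem hf₄₃
  have hN0 : Nα f₄ ≠ 0 := sqng_norm_ne_zero Nα hf₄
  -- `Nα f₄ ≡ 1 mod 𝔪_{W₁}`
  have hW₁ : Nα f₄ - 1 ∈ W₁.nonunits := by
    have := H.nrα₁₂ f₄ hf₄ c₁.1 c₁.one_inv_mem c₂.1 c₂.one_inv_mem 1 1 one_ne_zero W₁.one_mem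
      (by rw [inv_one]; exact W₁.one_mem) one_ne_zero W₁.one_mem
      (by rw [inv_one]; exact W₁.one_mem) (by rw [map_one, mul_one]; exact hf₄₁)
      (by rw [map_one, mul_one]; exact hf₄₂)
    rwa [mul_one, one_pow, mul_one] at this
  -- `Nα f₄ ≡ 1 mod 𝔪_{W₂}`
  have hW₂ : Nα f₄ - 1 ∈ W₂.nonunits := by
    have ho : o₃ f₄ = 0 := H.ordV₃.eq_zero hf₄ c₃.1 c₃.one_inv_mem
    have hw : w₂ (Nα f₄) = 0 := by rw [H.nrvα₂ f₄ hf₄, ho, mul_zero]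
    have hmem : Nα f₄ ∈ W₂ := (H.ordW₂.unit hN0 hw).1
    have h1 := H.nrα₃ f₄ c₃.1
    have h2 : SqwCong V₃ (f₄ ^ q) (1 ^ q) := c₃.pow q
    rw [one_pow] at h2
    have h3 : α (Nα f₄ - 1) ∈ V₃.nonunits := by
      have : α (Nα f₄ - 1) = (α (Nα f₄) - f₄ ^ q) + (f₄ ^ q - 1) := by
        rw [map_sub, map_one]; ring
      rw [this]
      exact add_mem h1 h2.2.2
    exact sqw_reflect α H.α_mem₃ (sub_mem hmem W₂.one_mem) h3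
  obtain ⟨hu₁, hu₂⟩ := sqng_oneUnit H hAL hu
  have hz : IsPrimitiveRoot (algebraMap A F₁ ζ) n :=
    hζ.map_of_injective (sqng_algebraMap_injective L F₁)
  obtain ⟨hz₁, hz₂⟩ := sqng_const_mem H hAL ζ
  obtain ⟨g₀, s, hg₀, hN', h1, h2⟩ :=
    sqng_normalise_root W₁ W₂ hn0 hz hz₁ hz₂ hN hW₁ hW₂ hu₁ hu₂
  exact ⟨g₀, s, hg₀, hN', by rw [map_pow]; exact h1, h2⟩

/-- **Step 1, `φ`** : `Nφ f₄ = u gⁿ` with `g ≡ 1 mod 𝔪_{W₁}`, `g ≡ ζ^s mod 𝔪_{W₂}`. -/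
theorem sqng_step1φ
    (H : SqNormData (algebraMap L F₁) α φ Nα Nφ AL W₁ W₂ V₁ V₂ V₃ vL w₁ w₂ o₁ o₂ o₃
      (algebraMap A L ϖ) q)
    (hAL : ∀ a : A, algebraMap A L a ∈ AL) {n : ℕ} (hn0 : n ≠ 0) {ζ : A}
    (hζ : IsPrimitiveRoot ζ n) {f₄ : F} (hf₄ : f₄ ≠ 0)
    (hf₄₁ : f₄ - 1 ∈ V₁.nonunits) (hf₄₂ : f₄ - 1 ∈ V₂.nonunits) (hf₄₃ : f₄ - 1 ∈ V₃.nonunits)
    {u : A} (hu : ϖ ∣ u - 1) {g : F₁} (hN : Nφ f₄ = algebraMap A F₁ u * g ^ n) :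
    ∃ (g₀ : F₁) (s : ℕ), g₀ ≠ 0 ∧ Nφ f₄ = algebraMap A F₁ u * g₀ ^ n ∧
      g₀ - algebraMap A F₁ (ζ ^ s) ∈ W₂.nonunits ∧ g₀ - 1 ∈ W₁.nonunits := by
  have c₁ : SqwCong V₁ f₄ 1 := SqwCong.of_sub' V₁.one_mem hf₄₁
  have c₂ : SqwCong V₂ f₄ 1 := SqwCong.of_sub' V₂.one_mem hf₄₂
  have c₃ : SqwCong V₃ f₄ 1 := SqwCong.of_sub' V₃.one_mem hf₄₃
  have hN0 : Nφ f₄ ≠ 0 := sqng_norm_ne_zero Nφ hf₄
  -- `Nφ f₄ ≡ 1 mod 𝔪_{W₂}`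
  have hW₂ : Nφ f₄ - 1 ∈ W₂.nonunits := by
    have := H.nrφ₂₃ f₄ hf₄ c₂.1 c₂.one_inv_mem c₃.1 c₃.one_inv_mem 1 1 one_ne_zero W₂.one_mem
      (by rw [inv_one]; exact W₂.one_mem) one_ne_zero W₂.one_mem
      (by rw [inv_one]; exact W₂.one_mem) (by rw [map_one, mul_one]; exact hf₄₂)
      (by rw [map_one, mul_one]; exact hf₄₃)
    rwa [one_pow, mul_one, mul_one] at this
  -- `Nφ f₄ ≡ 1 mod 𝔪_{W₁}`
  have hW₁ : Nφ f₄ - 1 ∈ W₁.nonunits := by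
    have ho : o₁ f₄ = 0 := H.ordV₁.eq_zero hf₄ c₁.1 c₁.one_inv_mem
    have hw : w₁ (Nφ f₄) = 0 := by rw [H.nrvφ₁ f₄ hf₄, ho, mul_zero]
    have hmem : Nφ f₄ ∈ W₁ := (H.ordW₁.unit hN0 hw).1
    have h1 := H.nrφ₁ f₄ c₁.1
    have h2 : SqwCong V₁ (f₄ ^ q) (1 ^ q) := c₁.pow q
    rw [one_pow] at h2
    have h3 : φ (Nφ f₄ - 1) ∈ V₁.nonunits := by
      have : φ (Nφ f₄ - 1) = (φ (Nφ f₄) - f₄ ^ q) + (f₄ ^ q - 1) := by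
        rw [map_sub, map_one]; ring
      rw [this]
      exact add_mem h1 h2.2.2
    exact sqw_reflect φ H.φ_mem₁ (sub_mem hmem W₁.one_mem) h3
  obtain ⟨hu₁, hu₂⟩ := sqng_oneUnit H hAL hu
  have hz : IsPrimitiveRoot (algebraMap A F₁ ζ) n :=
    hζ.map_of_injective (sqng_algebraMap_injective L F₁)
  obtain ⟨hz₁, hz₂⟩ := sqng_const_mem H hAL ζ
  obtain ⟨g₀, s, hg₀, hN', h1, h2⟩ :=
    sqng_normalise_root W₂ W₁ hn0 hz hz₂ hz₁ hN hW₂ hW₁ hu₂ hu₁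
  exact ⟨g₀, s, hg₀, hN', by rw [map_pow]; exact h1, h2⟩

/-! ### Step 2 : the branch values at a triple point -/

/-- `SsnfInMax` as vanishing in the residue field of `P_𝔫` -/
theorem sqng_max_iff_res {t : F} {𝔫 : Ideal ↥(s18tInt A t)} [h𝔫 : 𝔫.IsPrime] {x : F}
    (hx : SsnfInLoc t 𝔫 x) :
    SsnfInMax t 𝔫 x ↔ residue ↥(ssLocRing t 𝔫) ⟨x, hx⟩ = 0 := by
  rw [sqng_max_iff hx, residue_eq_zero_iff]

/-- **Step 2** : at a triple point, the trivialisers `ψ_i` of a presentation `f₄ = υ Φⁿ` satisfy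
`ψ₃^(q²-1) ≡ ζ^a₁ ψ₁^(q²-1) ≡ ζ^a₂ ψ₂^(q²-1) mod 𝔫 P_𝔫`, with `a₁ = (s + (n-1) s')(q-1)`,
`a₂ = s q + s'` independent of `𝔫`. -/
theorem sqng_triple_cong (hϖ : Irreducible ϖ) (t : F) (ht : Transcendental L t)
    [FiniteDimensional L⟮t⟯ F] {e₂ : ℕ} {π₂ : F} (h3 : SqvThree hϖ t e₂ π₂ V₁ V₂ V₃)
    (H : SqNormData (algebraMap L F₁) α φ Nα Nφ AL W₁ W₂ V₁ V₂ V₃ vL w₁ w₂ o₁ o₂ o₃
      (algebraMap A L ϖ) q)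
    (hq : 0 < q) (hαL : ∀ c : L, α (algebraMap L F₁ c) = algebraMap L F c)
    {n : ℕ} (hn0 : n ≠ 0) {ζ : A} (hζ : IsPrimitiveRoot ζ n)
    (𝔫 : Ideal ↥(s18tInt A t)) (h𝔫 : 𝔫.IsMaximal)
    (hT : SqTripleAt α φ Nα Nφ t V₁ V₂ V₃ 𝔫)
    {f₄ Φ υ : F} (hpres : f₄ = υ * Φ ^ n) (hΦ0 : Φ ≠ 0) (hυ0 : υ ≠ 0)
    (hυ : SsnfInLoc t 𝔫 υ) (hυ' : SsnfInLoc t 𝔫 υ⁻¹)
    (hΦ₁ : V₁.valuation Φ = 1) (hΦ₂ : V₂.valuation Φ = 1) (hΦ₃ : V₃.valuation Φ = 1)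
    {uα : A} (huα : IsUnit uα) {gα : F₁} (hgα0 : gα ≠ 0)
    (hNα : Nα f₄ = algebraMap A F₁ uα * gα ^ n) {s : ℕ}
    (hgα₁ : gα - algebraMap A F₁ (ζ ^ s) ∈ W₁.nonunits) (hgα₂ : gα - 1 ∈ W₂.nonunits)
    {uφ : A} (huφ : IsUnit uφ) {gφ : F₁} (hgφ0 : gφ ≠ 0)
    (hNφ : Nφ f₄ = algebraMap A F₁ uφ * gφ ^ n) {s' : ℕ}
    (hgφ₂ : gφ - algebraMap A F₁ (ζ ^ s') ∈ W₂.nonunits) (hgφ₁ : gφ - 1 ∈ W₁.nonunits)
    {ψ₁ ψ₂ ψ₃ : F} (hψ₁ : SsnfInLoc t 𝔫 ψ₁) (hψ₂ : SsnfInLoc t 𝔫 ψ₂) (hψ₃ : SsnfInLoc t 𝔫 ψ₃)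
    (hψ₃0 : ψ₃ ≠ 0) (hψ₃' : SsnfInLoc t 𝔫 ψ₃⁻¹)
    (ht₁ : Φ * ψ₁ - 1 ∈ V₁.nonunits) (ht₂ : Φ * ψ₂ - 1 ∈ V₂.nonunits)
    (ht₃ : Φ * ψ₃ - 1 ∈ V₃.nonunits) :
    SsnfInMax t 𝔫 (algebraMap A F ζ ^ ((s + (n - 1) * s') * (q - 1)) * ψ₁ ^ (q ^ 2 - 1) -
        ψ₃ ^ (q ^ 2 - 1)) ∧
      SsnfInMax t 𝔫 (algebraMap A F ζ ^ (s * q + s') * ψ₂ ^ (q ^ 2 - 1) - ψ₃ ^ (q ^ 2 - 1)) := by
  have h𝔫p : 𝔫.IsPrime := h𝔫.isPrime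
  haveI := h𝔫p
  have hfam := h3.fam
  -- the three components pass through `𝔫`
  have thru₁ : SqngThru t 𝔫 V₁ := sqng_thru hfam (i := 0) hT.br₁.on
  have thru₂ : SqngThru t 𝔫 V₂ := sqng_thru hfam (i := 1) hT.br₂.on
  have thru₃ : SqngThru t 𝔫 V₃ := sqng_thru hfam (i := 2) hT.br₃.on
  -- `Φ` is a unit at the three components
  have unitV : ∀ (V : ValuationSubring F), V.valuation Φ = 1 → Φ ∈ V ∧ Φ⁻¹ ∈ V := by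
    intro V hV
    refine ⟨(V.valuation_le_one_iff _).mp hV.le, (V.valuation_le_one_iff _).mp ?_⟩
    rw [map_inv₀, hV, inv_one]
  obtain ⟨hΦV₁, hΦV₁'⟩ := unitV V₁ hΦ₁
  obtain ⟨hΦV₂, hΦV₂'⟩ := unitV V₂ hΦ₂
  obtain ⟨hΦV₃, hΦV₃'⟩ := unitV V₃ hΦ₃
  -- compatibility with the constants
  have hαA : ∀ a : A, α (algebraMap A F₁ a) = algebraMap A F a := by
    intro a
    rw [IsScalarTower.algebraMap_apply A L F₁, hαL, ← IsScalarTower.algebraMap_apply A L F]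
  have hφA : ∀ a : A, φ (algebraMap A F₁ a) = algebraMap A F a := by
    intro a
    rw [IsScalarTower.algebraMap_apply A L F₁, ← H.ι_eq, hαL,
      ← IsScalarTower.algebraMap_apply A L F]
  -- the two sides
  have sideα := sqng_side h𝔫p hn0 hαA H.α_max₁ H.α_max₂ H.α_max₃ H.nrα₁₂ H.nrα₃ thru₁ thru₂ thru₃
    hT.unitα hT.lres₁α hT.lres₂α hpres hΦ0 hυ0 hυ hυ' hΦV₁ hΦV₁' hΦV₂ hΦV₂' hΦV₃ huα hgα0 hNα
    hgα₁ hgα₂ hψ₁ hψ₂ hψ₃ ht₁ ht₂ ht₃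
  have sideφ := sqng_side h𝔫p hn0 hφA H.φ_max₃ H.φ_max₂ H.φ_max₁
    (fun g hg h3 h3' h2 h2' ψa ψb ha0 haW haW' hb0 hbW hbW' hta htb => by
      have := H.nrφ₂₃ g hg h2 h2' h3 h3' ψb ψa hb0 hbW hbW' ha0 haW haW' htb hta
      rwa [mul_right_comm] at this)
    H.nrφ₁ thru₃ thru₂ thru₁
    hT.unitφ hT.lres₃φ hT.lres₂φ hpres hΦ0 hυ0 hυ hυ' hΦV₃ hΦV₃' hΦV₂ hΦV₂' hΦV₁ huφ hgφ0 hNφ
    hgφ₂ hgφ₁ hψ₃ hψ₂ hψ₁ ht₃ ht₂ ht₁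
  rw [map_pow] at sideα sideφ
  -- pass to the residue field
  have hζLoc : SsnfInLoc t 𝔫 (algebraMap A F ζ) := sqng_loc_const h𝔫p ζ
  set res := residue ↥(ssLocRing t 𝔫) with hres
  set z := res ⟨algebraMap A F ζ, hζLoc⟩ with hz_def
  set x₁ := res ⟨ψ₁, hψ₁⟩ with hx₁
  set x₂ := res ⟨ψ₂, hψ₂⟩ with hx₂
  set x₃ := res ⟨ψ₃, hψ₃⟩ with hx₃
  have hzn : z ^ n = 1 := by
    rw [hz_def, ← map_pow]
    have : (⟨algebraMap A F ζ, hζLoc⟩ : ↥(ssLocRing t 𝔫)) ^ n = 1 := by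
      apply Subtype.ext
      show algebraMap A F ζ ^ n = 1
      rw [← map_pow, hζ.pow_eq_one, map_one]
    rw [this, map_one]
  have hx₃0 : x₃ ≠ 0 := by
    intro h0
    have : x₃ * res ⟨ψ₃⁻¹, hψ₃'⟩ = 1 := by
      rw [hx₃, ← map_mul]
      have : (⟨ψ₃, hψ₃⟩ : ↥(ssLocRing t 𝔫)) * ⟨ψ₃⁻¹, hψ₃'⟩ = 1 :=
        Subtype.ext (mul_inv_cancel₀ hψ₃0)
      rw [this, map_one]
    rw [h0, zero_mul] at this
    exact zero_ne_one this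
  have hI : z ^ s * x₁ * x₂ ^ (q - 1) = x₃ ^ q := by
    have h1 := (sqng_max_iff_res (sqng_max_loc sideα)).mp sideα
    have e : (⟨algebraMap A F ζ ^ s * ψ₁ * ψ₂ ^ (q - 1) - ψ₃ ^ q, sqng_max_loc sideα⟩ :
        ↥(ssLocRing t 𝔫)) =
        ⟨algebraMap A F ζ, hζLoc⟩ ^ s * ⟨ψ₁, hψ₁⟩ * ⟨ψ₂, hψ₂⟩ ^ (q - 1) - ⟨ψ₃, hψ₃⟩ ^ q := rfl
    rw [e, map_sub, map_mul, map_mul, map_pow, map_pow, map_pow, sub_eq_zero] at h1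
    exact h1
  have hII : z ^ s' * x₂ ^ (q - 1) * x₃ = x₁ ^ q := by
    have h1 := (sqng_max_iff_res (sqng_max_loc sideφ)).mp sideφ
    have e : (⟨algebraMap A F ζ ^ s' * ψ₃ * ψ₂ ^ (q - 1) - ψ₁ ^ q, sqng_max_loc sideφ⟩ :
        ↥(ssLocRing t 𝔫)) =
        ⟨algebraMap A F ζ, hζLoc⟩ ^ s' * ⟨ψ₃, hψ₃⟩ * ⟨ψ₂, hψ₂⟩ ^ (q - 1) - ⟨ψ₁, hψ₁⟩ ^ q := rfl
    rw [e, map_sub, map_mul, map_mul, map_pow, map_pow, map_pow, sub_eq_zero] at h1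
    rw [← h1]; ring
  obtain ⟨G1, G2⟩ := sqng_field_rel hq hn0 hzn hx₃0 hI hII
  constructor
  · have hloc : SsnfInLoc t 𝔫 (algebraMap A F ζ ^ ((s + (n - 1) * s') * (q - 1)) *
        ψ₁ ^ (q ^ 2 - 1) - ψ₃ ^ (q ^ 2 - 1)) :=
      sqng_loc_sub h𝔫p (sqng_loc_mul h𝔫p (sqng_loc_pow h𝔫p hζLoc _) (sqng_loc_pow h𝔫p hψ₁ _))
        (sqng_loc_pow h𝔫p hψ₃ _)
    rw [sqng_max_iff_res hloc]
    have e : (⟨_, hloc⟩ : ↥(ssLocRing t 𝔫)) =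
        ⟨algebraMap A F ζ, hζLoc⟩ ^ ((s + (n - 1) * s') * (q - 1)) * ⟨ψ₁, hψ₁⟩ ^ (q ^ 2 - 1) -
          ⟨ψ₃, hψ₃⟩ ^ (q ^ 2 - 1) := rfl
    rw [e, map_sub, map_mul, map_pow, map_pow, map_pow, sub_eq_zero]
    exact G1
  · have hloc : SsnfInLoc t 𝔫 (algebraMap A F ζ ^ (s * q + s') *
        ψ₂ ^ (q ^ 2 - 1) - ψ₃ ^ (q ^ 2 - 1)) :=
      sqng_loc_sub h𝔫p (sqng_loc_mul h𝔫p (sqng_loc_pow h𝔫p hζLoc _) (sqng_loc_pow h𝔫p hψ₂ _))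
        (sqng_loc_pow h𝔫p hψ₃ _)
    rw [sqng_max_iff_res hloc]
    have e : (⟨_, hloc⟩ : ↥(ssLocRing t 𝔫)) =
        ⟨algebraMap A F ζ, hζLoc⟩ ^ (s * q + s') * ⟨ψ₂, hψ₂⟩ ^ (q ^ 2 - 1) -
          ⟨ψ₃, hψ₃⟩ ^ (q ^ 2 - 1) := rfl
    rw [e, map_sub, map_mul, map_pow, map_pow, map_pow, sub_eq_zero]
    exact G2

/-! ### Step 3 : the global modification and the main theorems -/

theorem sqng_max_zero {t : F} {𝔫 : Ideal ↥(s18tInt A t)} (h𝔫 : 𝔫.IsPrime) :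
    SsnfInMax t 𝔫 (0 : F) :=
  ⟨1, fun h => h𝔫.ne_top ((Ideal.eq_top_iff_one _).mpr h), 0, 𝔫.zero_mem, by simp⟩

/-- a one-unit of the DVR `A` is a unit -/
theorem sqng_isUnit_of_dvd (hϖ : Irreducible ϖ) {u : A} (hu : ϖ ∣ u - 1) : IsUnit u := by
  rcases IsLocalRing.isUnit_or_isUnit_one_sub_self u with h | h
  · exact h
  · exfalso
    obtain ⟨c, hc⟩ := hu
    have h1 : 1 - u = ϖ * (-c) := by rw [mul_neg, ← hc]; ring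
    rw [h1] at h
    exact hϖ.not_isUnit (isUnit_of_mul_isUnit_left h)

/-- congruence to `1` from a power of a root of unity -/
theorem sqng_cong_root {V : ValuationSubring F} {n : ℕ} {ζF H₀ : F} (hζn : ζF ^ n = 1)
    (hζV : ζF ∈ V) {a : ℕ} (hH : H₀ - ζF ^ ((n - 1) * a) ∈ V.nonunits) (hn0 : n ≠ 0) :
    SqwCong V (H₀ * ζF ^ a) 1 ∧ SqwCong V (H₀ ^ n) 1 := by
  have c : SqwCong V H₀ (ζF ^ ((n - 1) * a)) := SqwCong.of_sub' (V.pow_mem hζV _) hH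
  have e1 : ζF ^ ((n - 1) * a) * ζF ^ a = 1 := by
    rw [← pow_add]
    have : (n - 1) * a + a = n * a := by
      obtain ⟨m, rfl⟩ : ∃ m, n = m + 1 := ⟨n - 1, by omega⟩
      rw [Nat.add_sub_cancel]; ring
    rw [this, pow_mul, hζn, one_pow]
  have e2 : (ζF ^ ((n - 1) * a)) ^ n = 1 := by
    rw [← pow_mul, mul_comm, pow_mul, hζn, one_pow]
  constructor
  · have := c.mul (SqwCong.refl (V.pow_mem hζV a))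
    rwa [e1] at this
  · have := c.pow n
    rwa [e2] at this

section Main

variable {α φ : F₁ →+* F} {Nα Nφ : F →* F₁}
  {AL : ValuationSubring L} {W₁ W₂ : ValuationSubring F₁} {V₁ V₂ V₃ : ValuationSubring F}
  {vL : L → ℤ} {w₁ w₂ : F₁ → ℤ} {o₁ o₂ o₃ : F → ℤ} {q : ℕ}

/-- **(Q-NEW) (c)** : `f₄ ≡ 1 mod 𝔪_{V_i}`, `n ∣ div f₄`, both norms of `f₄` are (one-unit constant) `×`
`n`-th power ⟹ `f₄ ^ (q² - 1) = Hⁿ f₇` with `f₇ ≡ 1 mod ϖ P_(ϖ)` and the local datum `StDivAt` for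
`f₇` at EVERY triple point of the chart `t`. -/
theorem sq_new_glue (hϖ : Irreducible ϖ) (t : F) (ht : Transcendental L t)
    [FiniteDimensional L⟮t⟯ F] {e₂ : ℕ} {π₂ : F} (h3 : SqvThree hϖ t e₂ π₂ V₁ V₂ V₃)
    (H : SqNormData (algebraMap L F₁) α φ Nα Nφ AL W₁ W₂ V₁ V₂ V₃ vL w₁ w₂ o₁ o₂ o₃
      (algebraMap A L ϖ) q)
    (hq : 0 < q) (hAL : ∀ a : A, algebraMap A L a ∈ AL)
    (hαL : ∀ c : L, α (algebraMap L F₁ c) = algebraMap L F c)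
    (n : ℕ) (hn : IsUnit (n : A)) (ζ : A) (hζ : IsPrimitiveRoot ζ n)
    (f₄ : F) (hf₄ : f₄ ≠ 0)
    (hf₄₁ : f₄ - 1 ∈ V₁.nonunits) (hf₄₂ : f₄ - 1 ∈ V₂.nonunits) (hf₄₃ : f₄ - 1 ∈ V₃.nonunits)
    (hord : ∀ R : Place L F, (n : ℤ) ∣ R.ord f₄)
    (uα : A) (huα : ϖ ∣ uα - 1) (gα : F₁) (hNα : Nα f₄ = algebraMap A F₁ uα * gα ^ n)
    (uφ : A) (huφ : ϖ ∣ uφ - 1) (gφ : F₁) (hNφ : Nφ f₄ = algebraMap A F₁ uφ * gφ ^ n) :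
    ∃ f₇ Hh : F, f₇ ≠ 0 ∧ Hh ≠ 0 ∧ f₄ ^ (q ^ 2 - 1) = Hh ^ n * f₇ ∧
      S18DvdGauss hϖ t (f₇ - 1) ∧
      ∀ 𝔫 : Ideal ↥(s18tInt A t), 𝔫.IsMaximal → sskPi ϖ t ∈ 𝔫 →
        SqTripleAt α φ Nα Nφ t V₁ V₂ V₃ 𝔫 → StDivAt L hϖ t n f₇ 𝔫 := by
  classical
  have hn0 : n ≠ 0 := by
    rintro rfl
    rw [Nat.cast_zero] at hn
    exact not_isUnit_zero hn
  have hfam := h3.fam
  have hp0 : algebraMap A F ϖ ≠ 0 := sqt_unif_ne_zero L hϖ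
  -- Step 1
  obtain ⟨g₀, s, hg₀, hNα', hα₁, hα₂⟩ :=
    sqng_step1α H hAL hn0 hζ hf₄ hf₄₁ hf₄₂ hf₄₃ huα hNα
  obtain ⟨g₀', s', hg₀', hNφ', hφ₂, hφ₁⟩ :=
    sqng_step1φ H hAL hn0 hζ hf₄ hf₄₁ hf₄₂ hf₄₃ huφ hNφ
  have huαU := sqng_isUnit_of_dvd hϖ huα
  have huφU := sqng_isUnit_of_dvd hϖ huφ
  set a₁ : ℕ := (s + (n - 1) * s') * (q - 1) with ha₁
  set a₂ : ℕ := s * q + s' with ha₂
  set Q : ℕ := q ^ 2 - 1 with hQ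
  set ζF : F := algebraMap A F ζ with hζF
  have hζn : ζF ^ n = 1 := by rw [hζF, ← map_pow, hζ.pow_eq_one, map_one]
  have hζV : ∀ i, ζF ∈ ![V₁, V₂, V₃] i := fun i => hfam.algebraMap_mem i ζ
  have c₁ : SqwCong V₁ f₄ 1 := SqwCong.of_sub' V₁.one_mem hf₄₁
  have c₂ : SqwCong V₂ f₄ 1 := SqwCong.of_sub' V₂.one_mem hf₄₂
  have c₃ : SqwCong V₃ f₄ 1 := SqwCong.of_sub' V₃.one_mem hf₄₃
  -- the correction `H₀`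
  obtain ⟨H₀, -, hH₀⟩ := hfam.crt ht ![ζF ^ ((n - 1) * a₁), ζF ^ ((n - 1) * a₂), ζF ^ ((n - 1) * 0)]
    (fun i => match i with
      | 0 => (![V₁, V₂, V₃] 0).pow_mem (hζV 0) _
      | 1 => (![V₁, V₂, V₃] 1).pow_mem (hζV 1) _
      | 2 => (![V₁, V₂, V₃] 2).pow_mem (hζV 2) _)
  have hH₁ : H₀ - ζF ^ ((n - 1) * a₁) ∈ V₁.nonunits := hH₀ 0
  have hH₂ : H₀ - ζF ^ ((n - 1) * a₂) ∈ V₂.nonunits := hH₀ 1
  have hH₃ : H₀ - ζF ^ ((n - 1) * 0) ∈ V₃.nonunits := hH₀ 2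
  obtain ⟨cH₁, cHn₁⟩ := sqng_cong_root hζn (hζV 0) hH₁ hn0
  obtain ⟨cH₂, cHn₂⟩ := sqng_cong_root hζn (hζV 1) hH₂ hn0
  obtain ⟨cH₃, cHn₃⟩ := sqng_cong_root hζn (hζV 2) hH₃ hn0
  rw [pow_zero, mul_one] at cH₃
  have hH₀0 : H₀ ≠ 0 := cH₃.one_ne_zero
  -- `f₆ ≡ 1 mod 𝔪_{V_i}`
  set f₆ : F := f₄ ^ Q * H₀ ^ n with hf₆
  have c6 : ∀ {V : ValuationSubring F}, SqwCong V f₄ 1 → SqwCong V (H₀ ^ n) 1 →
      f₆ - 1 ∈ V.nonunits := by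
    intro V c c'
    have := (c.pow Q).mul c'
    rw [one_pow, one_mul] at this
    exact this.2.2
  have hf₆1 : ∀ i, f₆ - 1 ∈ (![V₁, V₂, V₃] i).nonunits := fun i => match i with
    | 0 => c6 c₁ cHn₁
    | 1 => c6 c₂ cHn₂
    | 2 => c6 c₃ cHn₃
  -- NEWTON
  obtain ⟨ψ₀, hψ₀0, hψ₀1, hnewt⟩ := hfam.newton hp0 n hn hf₆1
  have hf₆0 : f₆ ≠ 0 := mul_ne_zero (pow_ne_zero _ hf₄) (pow_ne_zero _ hH₀0)
  refine ⟨f₆ / ψ₀ ^ n, ψ₀ / H₀, div_ne_zero hf₆0 (pow_ne_zero _ hψ₀0), div_ne_zero hψ₀0 hH₀0, ?_,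
    hnewt, ?_⟩
  · rw [hf₆, div_pow, div_mul_div_comm,
      eq_div_iff (mul_ne_zero (pow_ne_zero _ hH₀0) (pow_ne_zero _ hψ₀0))]
    ring
  -- the triple points
  intro 𝔫 h𝔫 hϖ𝔫 hT
  have h𝔫p : 𝔫.IsPrime := h𝔫.isPrime
  have hon₁ : SqtOn (![V₁, V₂, V₃] 0) t 𝔫 := hT.br₁.on
  have hon₂ : SqtOn (![V₁, V₂, V₃] 1) t 𝔫 := hT.br₂.on
  have hon₃ : SqtOn (![V₁, V₂, V₃] 2) t 𝔫 := hT.br₃.on
  haveI : CharZero L := charZero_of_injective_algebraMap (IsFractionRing.injective A L)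
  obtain ⟨D, hD⟩ := sqng_exists_div t ht hn0 hf₄ hord
  have val1 : ∀ {V : ValuationSubring F} {x : F}, SqwCong V x 1 → V.valuation x = 1 := by
    intro V x c
    apply le_antisymm ((V.valuation_le_one_iff _).mpr c.1)
    have h1 := (V.valuation_le_one_iff _).mpr c.one_inv_mem
    rw [map_inv₀] at h1
    have h0 : V.valuation x ≠ 0 := (Valuation.ne_zero_iff _).mpr c.one_ne_zero
    exact (inv_le_one₀ (zero_lt_iff.mpr h0)).mp h1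
  have hgv : ∀ i, SqtOn (![V₁, V₂, V₃] i) t 𝔫 → (![V₁, V₂, V₃] i).valuation f₄ = 1 :=
    fun i _ => match i with
      | 0 => val1 c₁
      | 1 => val1 c₂
      | 2 => val1 c₃
  obtain ⟨Φ, υ, hΦ0, hpres, hυ, hυ', hΦV, -⟩ :=
    sq_exists_pres hfam ht 𝔫 h𝔫 hϖ𝔫 hT.reg n hn0 hf₄ hgv D (fun R _ => hD R)
  have hυ0 : υ ≠ 0 := by
    rintro rfl
    rw [zero_mul] at hpres
    exact hf₄ hpres
  have hΦ₁ : V₁.valuation Φ = 1 := hΦV 0 hon₁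
  have hΦ₂ : V₂.valuation Φ = 1 := hΦV 1 hon₂
  have hΦ₃ : V₃.valuation Φ = 1 := hΦV 2 hon₃
  obtain ⟨ψ₁, hψ₁0, hψ₁, hψ₁', ht₁⟩ :=
    sq_exists_triv hfam ht 𝔫 h𝔫 n hn0 0 hon₁ hT.br₁ (g := f₄) hf₄₁ hpres hυ hυ'
  obtain ⟨ψ₂, hψ₂0, hψ₂, hψ₂', ht₂⟩ :=
    sq_exists_triv hfam ht 𝔫 h𝔫 n hn0 1 hon₂ hT.br₂ (g := f₄) hf₄₂ hpres hυ hυ'
  obtain ⟨ψ₃, hψ₃0, hψ₃, hψ₃', ht₃⟩ :=
    sq_exists_triv hfam ht 𝔫 h𝔫 n hn0 2 hon₃ hT.br₃ (g := f₄) hf₄₃ hpres hυ hυ'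
  have ht₁' : Φ * ψ₁ - 1 ∈ V₁.nonunits := ht₁
  have ht₂' : Φ * ψ₂ - 1 ∈ V₂.nonunits := ht₂
  have ht₃' : Φ * ψ₃ - 1 ∈ V₃.nonunits := ht₃
  obtain ⟨K1, K2⟩ := sqng_triple_cong hϖ t ht h3 H hq hαL hn0 hζ 𝔫 h𝔫 hT hpres hΦ0 hυ0 hυ hυ'
    hΦ₁ hΦ₂ hΦ₃ huαU hg₀ hNα' hα₁ hα₂ huφU hg₀' hNφ' hφ₂ hφ₁ hψ₁ hψ₂ hψ₃ hψ₃0 hψ₃' ht₁' ht₂' ht₃'
  rw [← hζF, ← ha₁, ← hQ] at K1
  rw [← hζF, ← ha₂, ← hQ] at K2
  -- the presentation of `f₇`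
  have hpres₇ : f₆ / ψ₀ ^ n = υ ^ Q * (Φ ^ Q * H₀ / ψ₀) ^ n := by
    rw [hf₆, hpres, div_pow, ← mul_div_assoc]
    congr 1
    ring
  have hυ₇ : SsnfInLoc t 𝔫 (υ ^ Q) := sqng_loc_pow h𝔫p hυ Q
  have hυ₇' : SsnfInLoc t 𝔫 (υ ^ Q)⁻¹ := by
    rw [← inv_pow]; exact sqng_loc_pow h𝔫p hυ' Q
  have hζLoc : SsnfInLoc t 𝔫 ζF := sqng_loc_const h𝔫p ζ
  -- `ψ₀⁻¹ ≡ 1`
  have cψ₀ : ∀ i, SqwCong (![V₁, V₂, V₃] i) ψ₀⁻¹ 1 := by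
    intro i
    have c : SqwCong (![V₁, V₂, V₃] i) ψ₀ 1 :=
      SqwCong.of_sub' (![V₁, V₂, V₃] i).one_mem (hψ₀1 i)
    have := c.inv (by rw [inv_one]; exact (![V₁, V₂, V₃] i).one_mem) one_ne_zero
    rwa [inv_one] at this
  -- the trivialisers of `f₇`
  have triv7 : ∀ {V : ValuationSubring F} {ψ : F} {a : ℕ}, SqwCong V ψ₀⁻¹ 1 →
      Φ * ψ - 1 ∈ V.nonunits → SqwCong V (H₀ * ζF ^ a) 1 →
      Φ ^ Q * H₀ / ψ₀ * (ζF ^ a * ψ ^ Q) - 1 ∈ V.nonunits := by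
    intro V ψ a c0 htr cH
    have c : SqwCong V (Φ * ψ) 1 := SqwCong.of_sub' V.one_mem htr
    have := ((c.pow Q).mul cH).mul c0
    rw [one_pow, one_mul, one_mul] at this
    have e : Φ ^ Q * H₀ / ψ₀ * (ζF ^ a * ψ ^ Q) = (Φ * ψ) ^ Q * (H₀ * ζF ^ a) * ψ₀⁻¹ := by
      rw [mul_pow, div_eq_mul_inv]; ring
    rw [e]
    exact this.2.2
  have cH₃' : SqwCong V₃ (H₀ * ζF ^ 0) 1 := by rw [pow_zero, mul_one]; exact cH₃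
  set Ψ : Fin 3 → F := ![ζF ^ a₁ * ψ₁ ^ Q, ζF ^ a₂ * ψ₂ ^ Q, ζF ^ 0 * ψ₃ ^ Q] with hΨ
  have hΨLoc : ∀ i, SqtOn (![V₁, V₂, V₃] i) t 𝔫 → SsnfInLoc t 𝔫 (Ψ i) := fun i _ => match i with
    | 0 => sqng_loc_mul h𝔫p (sqng_loc_pow h𝔫p hζLoc _) (sqng_loc_pow h𝔫p hψ₁ _)
    | 1 => sqng_loc_mul h𝔫p (sqng_loc_pow h𝔫p hζLoc _) (sqng_loc_pow h𝔫p hψ₂ _)
    | 2 => sqng_loc_mul h𝔫p (sqng_loc_pow h𝔫p hζLoc _) (sqng_loc_pow h𝔫p hψ₃ _)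
  have hΨ1 : ∀ i, SqtOn (![V₁, V₂, V₃] i) t 𝔫 →
      Φ ^ Q * H₀ / ψ₀ * Ψ i - 1 ∈ (![V₁, V₂, V₃] i).nonunits := fun i _ => match i with
    | 0 => triv7 (cψ₀ 0) ht₁' cH₁
    | 1 => triv7 (cψ₀ 1) ht₂' cH₂
    | 2 => triv7 (cψ₀ 2) ht₃' cH₃'
  have K1' : SsnfInMax t 𝔫 (Ψ 0 - Ψ 2) := by
    show SsnfInMax t 𝔫 (ζF ^ a₁ * ψ₁ ^ Q - ζF ^ 0 * ψ₃ ^ Q)
    rw [pow_zero, one_mul]; exact K1
  have K2' : SsnfInMax t 𝔫 (Ψ 1 - Ψ 2) := by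
    show SsnfInMax t 𝔫 (ζF ^ a₂ * ψ₂ ^ Q - ζF ^ 0 * ψ₃ ^ Q)
    rw [pow_zero, one_mul]; exact K2
  have hΨc : ∀ i j, SqtOn (![V₁, V₂, V₃] i) t 𝔫 → SqtOn (![V₁, V₂, V₃] j) t 𝔫 →
      SsnfInMax t 𝔫 (Ψ i - Ψ j) := by
    have key : ∀ i, SsnfInMax t 𝔫 (Ψ i - Ψ 2) := fun i => match i with
      | 0 => K1'
      | 1 => K2'
      | 2 => by rw [sub_self]; exact sqng_max_zero h𝔫p
    intro i j _ _
    have : Ψ i - Ψ j = (Ψ i - Ψ 2) - (Ψ j - Ψ 2) := by ring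
    rw [this]
    exact sqng_max_sub h𝔫p (key i) (key j)
  have hbr : ∀ i, SqtOn (![V₁, V₂, V₃] i) t 𝔫 → ∃ 𝔭 : Ideal ↥(s18tInt A t),
      (∀ p : ↥(s18tInt A t), p ∈ 𝔭 ↔ (p : F) ∈ (![V₁, V₂, V₃] i).nonunits) ∧ SqBranch t 𝔫 𝔭 :=
    fun i _ => match i with
      | 0 => hT.br₁
      | 1 => hT.br₂
      | 2 => hT.br₃
  exact sq_kumAt hfam ht 𝔫 h𝔫 hϖ𝔫 n hn hbr (div_ne_zero hf₆0 (pow_ne_zero _ hψ₀0)) hnewt hpres₇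
    hυ₇ hυ₇' Ψ hΨLoc hΨ1 hΨc

/-- `StDivAt` at a SIMPLE point, for every normalised `g` with `n ∣ div g`. -/
theorem sqng_divAt_simple (hϖ : Irreducible ϖ) (t : F) (ht : Transcendental L t)
    [FiniteDimensional L⟮t⟯ F] {e₂ : ℕ} {π₂ : F} (h3 : SqvThree hϖ t e₂ π₂ V₁ V₂ V₃)
    (n : ℕ) (hn : IsUnit (n : A))
    (𝔫 : Ideal ↥(s18tInt A t)) (h𝔫 : 𝔫.IsMaximal) (hϖ𝔫 : sskPi ϖ t ∈ 𝔫)
    (hS : SqSimpleAt t V₁ V₂ V₃ 𝔫) {g : F} (hg : g ≠ 0) (hg1 : S18DvdGauss hϖ t (g - 1))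
    (hord : ∀ R : Place L F, (n : ℤ) ∣ R.ord g) : StDivAt L hϖ t n g 𝔫 := by
  classical
  have hn0 : n ≠ 0 := by
    rintro rfl
    rw [Nat.cast_zero] at hn
    exact not_isUnit_zero hn
  obtain ⟨hreg, i, hbr, honly⟩ := hS
  haveI : CharZero L := charZero_of_injective_algebraMap (IsFractionRing.injective A L)
  obtain ⟨D, hD⟩ := sqng_exists_div t ht hn0 hg hord
  exact sq_kumAt_simple h3.fam ht 𝔫 h𝔫 hϖ𝔫 n hn hreg i hbr.on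
    (fun j hj => by
      by_contra hne
      exact honly j hne hj) hbr hg hg1 D (fun R _ => hD R)

/-- **`sq_core`, local form** : if every closed point `∋ ϖ` of the chart `t` is SIMPLE or TRIPLE and
every closed point `∋ ϖ, t⁻¹` of the chart `t⁻¹` is SIMPLE, then `f₄ ^ (q² - 1) = Hⁿ f₇` with
`f₇ ≡ 1 mod ϖ P_(ϖ)` and the local datum `StDivAt` for `f₇` EVERYWHERE (the hypotheses of `st_core`). -/
theorem sq_core_divAt (hϖ : Irreducible ϖ) (t : F) (ht : Transcendental L t)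
    [FiniteDimensional L⟮t⟯ F] {e₂ : ℕ} {π₂ : F} (h3 : SqvThree hϖ t e₂ π₂ V₁ V₂ V₃)
    (H : SqNormData (algebraMap L F₁) α φ Nα Nφ AL W₁ W₂ V₁ V₂ V₃ vL w₁ w₂ o₁ o₂ o₃
      (algebraMap A L ϖ) q)
    (hq : 0 < q) (hAL : ∀ a : A, algebraMap A L a ∈ AL)
    (hαL : ∀ c : L, α (algebraMap L F₁ c) = algebraMap L F c)
    (n : ℕ) (hn : IsUnit (n : A)) (ζ : A) (hζ : IsPrimitiveRoot ζ n)
    (h0 : ∀ 𝔫 : Ideal ↥(s18tInt A t), 𝔫.IsMaximal → sskPi ϖ t ∈ 𝔫 →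
      SqSimpleAt t V₁ V₂ V₃ 𝔫 ∨ SqTripleAt α φ Nα Nφ t V₁ V₂ V₃ 𝔫)
    (hinf : ∀ 𝔫 : Ideal ↥(s18tInt A t⁻¹), 𝔫.IsMaximal → sskPi ϖ t⁻¹ ∈ 𝔫 →
      ssglTinv (A := A) t ∈ 𝔫 → SqSimpleAt t⁻¹ V₁ V₂ V₃ 𝔫)
    (f₄ : F) (hf₄ : f₄ ≠ 0)
    (hf₄₁ : f₄ - 1 ∈ V₁.nonunits) (hf₄₂ : f₄ - 1 ∈ V₂.nonunits) (hf₄₃ : f₄ - 1 ∈ V₃.nonunits)
    (hord : ∀ R : Place L F, (n : ℤ) ∣ R.ord f₄)
    (uα : A) (huα : ϖ ∣ uα - 1) (gα : F₁) (hNα : Nα f₄ = algebraMap A F₁ uα * gα ^ n)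
    (uφ : A) (huφ : ϖ ∣ uφ - 1) (gφ : F₁) (hNφ : Nφ f₄ = algebraMap A F₁ uφ * gφ ^ n) :
    ∃ f₇ Hh : F, f₇ ≠ 0 ∧ Hh ≠ 0 ∧ f₄ ^ (q ^ 2 - 1) = Hh ^ n * f₇ ∧
      S18DvdGauss hϖ t (f₇ - 1) ∧ (∀ R : Place L F, (n : ℤ) ∣ R.ord f₇) ∧
      (∀ 𝔫 : Ideal ↥(s18tInt A t), 𝔫.IsMaximal → sskPi ϖ t ∈ 𝔫 → StDivAt L hϖ t n f₇ 𝔫) ∧
      (∀ 𝔫 : Ideal ↥(s18tInt A t⁻¹), 𝔫.IsMaximal → sskPi ϖ t⁻¹ ∈ 𝔫 →
        ssglTinv (A := A) t ∈ 𝔫 → StDivAt L hϖ t⁻¹ n f₇ 𝔫) := by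
  obtain ⟨f₇, Hh, hf₇, hHh, hrel, hf₇1, htriple⟩ := sq_new_glue hϖ t ht h3 H hq hAL hαL n hn ζ hζ
    f₄ hf₄ hf₄₁ hf₄₂ hf₄₃ hord uα huα gα hNα uφ huφ gφ hNφ
  have hord₇ : ∀ R : Place L F, (n : ℤ) ∣ R.ord f₇ := by
    intro R
    have h1 := congrArg R.ord hrel
    rw [ssl_ord_pow, R.ord_mul (pow_ne_zero _ hHh) hf₇, ssl_ord_pow] at h1
    obtain ⟨c, hc⟩ := hord R
    refine ⟨(q ^ 2 - 1 : ℕ) * c - R.ord Hh, ?_⟩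
    rw [hc] at h1
    linear_combination -h1
  have ht' : Transcendental L t⁻¹ := by
    intro h
    exact ht (by simpa using h.inv)
  haveI hfd : FiniteDimensional L⟮t⁻¹⟯ F := by
    have hEq : L⟮t⁻¹⟯ = L⟮t⟯ := by
      apply le_antisymm
      · rw [IntermediateField.adjoin_simple_le_iff]
        exact inv_mem (IntermediateField.mem_adjoin_simple_self L t)
      · rw [IntermediateField.adjoin_simple_le_iff]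
        have := inv_mem (IntermediateField.mem_adjoin_simple_self L t⁻¹)
        simpa using this
    rw [hEq]; infer_instance
  have h3' := sqng_three_inv hϖ t ht h3
  have hf₇1' : S18DvdGauss hϖ t⁻¹ (f₇ - 1) := (s18t_dvdGauss_inv (L := L) hϖ t ht _).mpr hf₇1
  refine ⟨f₇, Hh, hf₇, hHh, hrel, hf₇1, hord₇, ?_, ?_⟩
  · intro 𝔫 h𝔫 hϖ𝔫
    rcases h0 𝔫 h𝔫 hϖ𝔫 with hS | hT
    · exact sqng_divAt_simple hϖ t ht h3 n hn 𝔫 h𝔫 hϖ𝔫 hS hf₇ hf₇1 hord₇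
    · exact htriple 𝔫 h𝔫 hϖ𝔫 hT
  · intro 𝔫 h𝔫 hϖ𝔫 hcusp
    exact sqng_divAt_simple hϖ t⁻¹ ht' h3' n hn 𝔫 h𝔫 hϖ𝔫 (hinf 𝔫 h𝔫 hϖ𝔫 hcusp) hf₇ hf₇1' hord₇

end Main

end Step1

end Fermat.Agent.SQ
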