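import Fermat.Agent.SQ.New
import Fermat.Agent.SQ.Three

/-!
# Program Q (S36) : `sq_new_normalise` over helper3's `SqvThree`

`sq_new_normalise_three` : the three analytic hypotheses `hval`, `hcrt`, `hnewton` of
`sq_new_normalise` are discharged from `SqvThree.fam` (`exists_val`, `crt`, `newton`), with
`D := S18DvdGauss hϖ t`.  Setting of S18 package T for `F` (`A` a DVR, `L = Frac A`, `F / L(t)` finite);
the constants of `SqNormData` are `L` itself, `ϖ` is `algebraMap A L ϖ`, and `α ∘ ι₁ = algebraMap L F`.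
-/

set_option autoImplicit false
set_option linter.unusedSectionVars false
set_option linter.unusedVariables false

noncomputable section

namespace Fermat.Agent.SQ

open Polynomial IntermediateField Fermat.Agent.S18 Fermat.Agent.SS

universe u

variable {A : Type*} [CommRing A] [IsDomain A] [IsDiscreteValuationRing A] [CharZero A]
variable {L : Type*} [Field L] [Algebra A L] [IsFractionRing A L]
variable {F : Type u} [Field F] [Algebra A F] [Algebra L F] [IsScalarTower A L F]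
variable {ϖ : A}

/-- the exponent of a valuation `v(H) = v(π) ^ b` read off an order function with `o π = 1`. -/
theorem sqw_ord_eq_of_val {K : Type*} [Field K] {V : ValuationSubring K} {o : K → ℤ}
    (ho : SqwOrd V o) {π H : K} (hπ0 : π ≠ 0) (hoπ : o π = 1) (hH0 : H ≠ 0) {b : ℤ}
    (hv : V.valuation H = V.valuation π ^ b) : o H = b := by
  have hπb0 : π ^ b ≠ 0 := zpow_ne_zero _ hπ0
  have h1 : V.valuation (H / π ^ b) = 1 := by
    rw [map_div₀, map_zpow₀, hv]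
    exact div_self (zpow_ne_zero _ ((Valuation.ne_zero_iff _).mpr hπ0))
  have h2 : H / π ^ b ∈ V := (V.valuation_le_one_iff _).mp h1.le
  have h3 : (H / π ^ b)⁻¹ ∈ V := by
    rw [← V.valuation_le_one_iff, map_inv₀, h1, inv_one]
  have h4 := ho.eq_zero (div_ne_zero hH0 hπb0) h2 h3
  rw [ho.div hH0 hπb0, ho.zpow hπ0, hoπ] at h4
  linarith

variable {F₁ : Type*} [Field F₁]
  {ι₁ : L →+* F₁} {α φ : F₁ →+* F} {Nα Nφ : F →* F₁}
  {A' : ValuationSubring L} {W₁ W₂ : ValuationSubring F₁} {V₁ V₂ V₃ : ValuationSubring F}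
  {vL : L → ℤ} {w₁ w₂ : F₁ → ℤ} {o₁ o₂ o₃ : F → ℤ} {q : ℕ}
  {hϖ : Irreducible ϖ} {t : F} {e₂ : ℕ} {π₂ : F}

/-- **`sq_new_normalise` over `SqvThree`** (blueprint v2 §4.2, consumer form). -/
theorem sq_new_normalise_three
    (H : SqNormData ι₁ α φ Nα Nφ A' W₁ W₂ V₁ V₂ V₃ vL w₁ w₂ o₁ o₂ o₃ (algebraMap A L ϖ) q)
    (hι : ∀ c : L, α (ι₁ c) = algebraMap L F c)
    (h3 : SqvThree hϖ t e₂ π₂ V₁ V₂ V₃) (ht : Transcendental L t) [FiniteDimensional L⟮t⟯ F]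
    (ho₂ : o₂ π₂ = 1) {n : ℕ} (hn : 0 < n) (hnA : IsUnit (n : A)) (hqn : Nat.Coprime q n)
    {f : F} (hf : f ≠ 0) (hnew : SqwNewN ι₁ A' (algebraMap A L ϖ) Nα Nφ n f) :
    ∃ (a : ℤ) (Hh f₄ : F), Hh ≠ 0 ∧ f₄ ≠ 0 ∧
      f ^ ((q + 1) * (q - 1)) = algebraMap A F ϖ ^ a * Hh ^ n * f₄ ∧
      S18DvdGauss hϖ t (f₄ - 1) ∧
      SqwCong V₁ f₄ 1 ∧ SqwCong V₂ f₄ 1 ∧ SqwCong V₃ f₄ 1 ∧
      (∃ (u : L) (g : F₁), u - 1 ∈ A'.nonunits ∧ g ≠ 0 ∧ w₁ g = 0 ∧ w₂ g = 0 ∧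
        Nα f₄ = ι₁ u * g ^ n) ∧
      (∃ (u : L) (g : F₁), u - 1 ∈ A'.nonunits ∧ g ≠ 0 ∧ w₁ g = 0 ∧ w₂ g = 0 ∧
        Nφ f₄ = ι₁ u * g ^ n) := by
  have hp0 : algebraMap A F ϖ ≠ 0 := sqt_unif_ne_zero L hϖ
  have hϖF : α (ι₁ (algebraMap A L ϖ)) = algebraMap A F ϖ := by
    rw [hι, ← IsScalarTower.algebraMap_apply]
  have hfam := h3.fam
  have hπ₂0 : π₂ ≠ 0 := by
    have := hfam.pi_ne_zero hp0 1
    simpa using this
  -- prescribed orders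
  have hval : ∀ b₁ b₂ b₃ : ℤ, ∃ Hh : F, Hh ≠ 0 ∧ o₁ Hh = b₁ ∧ o₂ Hh = b₂ ∧ o₃ Hh = b₃ := by
    intro b₁ b₂ b₃
    obtain ⟨Hh, hH0, hHv⟩ := hfam.exists_val ht ![b₁, b₂, b₃]
    refine ⟨Hh, hH0, ?_, ?_, ?_⟩
    · have := hHv 0
      simp only [Matrix.cons_val_zero] at this
      exact sqw_ord_eq_of_val H.ordV₁ hp0 (by rw [← hϖF]; exact H.o₁_ϖ) hH0 this
    · have := hHv 1
      simp only [Matrix.cons_val_one, Matrix.cons_val_zero] at this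
      exact sqw_ord_eq_of_val H.ordV₂ hπ₂0 ho₂ hH0 this
    · have := hHv 2
      simp only [Matrix.cons_val_two, Matrix.tail_cons, Matrix.head_cons] at this
      exact sqw_ord_eq_of_val H.ordV₃ hp0 (by rw [← hϖF]; exact H.o₃_ϖ) hH0 this
  -- CRT
  have hcrt : ∀ x₁ ∈ V₁, ∀ x₂ ∈ V₂, ∀ x₃ ∈ V₃, ∃ U : F,
      U - x₁ ∈ V₁.nonunits ∧ U - x₂ ∈ V₂.nonunits ∧ U - x₃ ∈ V₃.nonunits := by
    intro x₁ hx₁ x₂ hx₂ x₃ hx₃
    obtain ⟨U, -, hU⟩ := hfam.crt ht ![x₁, x₂, x₃] (fun i => by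
      fin_cases i
      · exact hx₁
      · exact hx₂
      · exact hx₃)
    exact ⟨U, by simpa using hU 0, by simpa using hU 1, by simpa using hU 2⟩
  -- NEWTON
  have hnewton : ∀ g : F, g - 1 ∈ V₁.nonunits → g - 1 ∈ V₂.nonunits → g - 1 ∈ V₃.nonunits →
      ∃ ψ : F, ψ ≠ 0 ∧ ψ - 1 ∈ V₁.nonunits ∧ ψ - 1 ∈ V₂.nonunits ∧ ψ - 1 ∈ V₃.nonunits ∧
        S18DvdGauss hϖ t (g / ψ ^ n - 1) := by
    intro g hg₁ hg₂ hg₃
    obtain ⟨ψ, hψ0, hψ, hD⟩ := hfam.newton hp0 n hnA (g := g) (fun i => by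
      fin_cases i
      · exact hg₁
      · exact hg₂
      · exact hg₃)
    exact ⟨ψ, hψ0, by simpa using hψ 0, by simpa using hψ 1, by simpa using hψ 2, hD⟩
  have := sq_new_normalise H hn hqn hval hcrt (S18DvdGauss hϖ t) hnewton hf hnew
  rwa [hϖF] at this

end Fermat.Agent.SQ
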