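import Mathlib

/-!
# Program Q, leaf NR² (layer 1) : NORMS, VALUATIONS AND REDUCTIONS over a discrete valuation ring

Setting : `O` a discrete valuation ring with maximal ideal `𝔭` and residue field `κ = O/𝔭`,
`B` a Dedekind domain, finite and free over `O` (the integral closure of `O` in a finite separable
extension of its fraction field), `P_1, …, P_r` maximal ideals of `B` with
`𝔭B = ∏ P_i ^ e_i`, `f_i = [B/P_i : κ] = (P i).inertiaDeg O`.  Then

* `sqnr_sum_ef`      : `∑ e_i f_i = [B : O]`;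
* `sqnr_norm_congr`  : **(NRr-1)** if `g ≡ b_i mod P_i` with `b_i ∈ O` for every `i` then
                       `N_{B/O}(g) ≡ ∏ b_i ^ (e_i f_i) mod 𝔭`;
* `sqnr_norm_val`    : **(NRv)** (characteristic zero) `(g) = ∏ P_i ^ a_i ⟹ (N g) = 𝔭 ^ (∑ f_i a_i)`.

This generalises helper28's `s35n_norm_congr` (two primes, `e = 1`) to arbitrary ramification.

PROOF of (NRr-1).  `B` is a semilocal Dedekind domain, hence a PID; write `P_i = (p_i)` and
`ϖ = u ∏ p_i ^ e_i`.  In the `κ`-algebra `A = B/ϖB` consider the flag of ideals `zA`, `z` running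
through the partial products of `∏ p_i ^ e_i`.  Multiplication by `g` acts on `zA / z p_i A` as the
scalar `b̄_i`, so `det(g | zA) = det(g | z p_i A) · b̄_i ^ δ_i` with
`δ_i = dim zA - dim z p_i A = dim A - dim p_i A = [B/P_i : κ]` (rank–nullity for the multiplication
by `z`, using that `B` is a domain) : `sqnr_det_restrict_step`, `sqnr_finrank_step`, `sqnr_step`,
`sqnr_stepB`, `sqnr_step_pow`, `sqnr_step_finset`, `sqnr_flag`.  Finally `det(g | A)` is the
reduction of `N_{B/O}(g)` (`sqnr_norm_quotient_mk`).  (NRv) is Mathlib's `Ideal.relNorm`.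

Mathlib only.  Prefix `sqnr_` / `sqnr`.
-/

set_option autoImplicit false
set_option linter.unusedSectionVars false
set_option linter.overlappingInstances false
set_option linter.style.haveILetI false

noncomputable section

namespace Fermat.Agent.SQ

open IsLocalRing Module

/-! ### Part A : two lemmas of linear algebra -/

section Flag

/-- one step of a flag: if `f` acts on `V / V'` as the scalar `c` then
`det(f | V) = det(f | V') · c ^ (dim V - dim V')` -/
theorem sqnr_det_restrict_step {κ M : Type*} [Field κ] [AddCommGroup M] [Module κ M]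
    [Module.Finite κ M] (f : M →ₗ[κ] M) (V V' : Submodule κ M) (hle : V' ≤ V)
    (hV : ∀ m ∈ V, f m ∈ V) (hV' : ∀ m ∈ V', f m ∈ V') (c : κ)
    (h : ∀ m ∈ V, f m - c • m ∈ V') (n : ℕ) (hn : finrank κ V = finrank κ V' + n) :
    LinearMap.det (f.restrict hV) = LinearMap.det (f.restrict hV') * c ^ n := by
  classical
  have he : V'.comap V.subtype ≤ (V'.comap V.subtype).comap (f.restrict hV) := by
    intro v hv
    rw [Submodule.mem_comap]
    exact hV' _ hv
  have key := LinearMap.det_eq_det_mul_det (V'.comap V.subtype) (f.restrict hV) he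
  -- the restricted part
  have h1 : LinearMap.det ((f.restrict hV).restrict he) = LinearMap.det (f.restrict hV') := by
    rw [← LinearMap.det_conj ((f.restrict hV).restrict he) (Submodule.comapSubtypeEquivOfLe hle)]
    congr 1
  -- the quotient part
  have h2 : (V'.comap V.subtype).mapQ (V'.comap V.subtype) (f.restrict hV) he =
      c • LinearMap.id := by
    apply LinearMap.ext
    intro v
    obtain ⟨v, rfl⟩ := Submodule.Quotient.mk_surjective _ v
    rw [Submodule.mapQ_apply, LinearMap.smul_apply, LinearMap.id_apply,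
      ← Submodule.Quotient.mk_smul, Submodule.Quotient.eq]
    exact h v.1 v.2
  have h3 : finrank κ (V ⧸ V'.comap V.subtype) = n := by
    rw [Submodule.finrank_quotient]
    have e1 : finrank κ (V'.comap V.subtype) = finrank κ V' :=
      (Submodule.comapSubtypeEquivOfLe hle).finrank_eq
    omega
  rw [key, h1, h2, LinearMap.det_smul, LinearMap.det_id, mul_one, h3]

/-- rank-nullity bookkeeping: if `ker μ ⊆ U` then
`dim μ(M) + dim U = dim M + dim μ(U)` -/
theorem sqnr_finrank_step {κ M : Type*} [Field κ] [AddCommGroup M] [Module κ M]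
    [Module.Finite κ M] (μ : M →ₗ[κ] M) (U : Submodule κ M) (hker : LinearMap.ker μ ≤ U) :
    finrank κ (LinearMap.range μ) + finrank κ U = finrank κ M + finrank κ (U.map μ) := by
  have h1 := LinearMap.finrank_range_add_finrank_ker μ
  have h2 := LinearMap.finrank_range_add_finrank_ker (μ.domRestrict U)
  have h3 : LinearMap.range (μ.domRestrict U) = U.map μ := by
    ext x
    simp only [LinearMap.mem_range, LinearMap.domRestrict_apply, Subtype.exists, exists_prop,
      Submodule.mem_map]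
  have h4 : LinearMap.ker (μ.domRestrict U) = (LinearMap.ker μ).comap U.subtype := by
    ext x
    simp [LinearMap.mem_ker, LinearMap.domRestrict_apply]
  have h5 : finrank κ ((LinearMap.ker μ).comap U.subtype) = finrank κ (LinearMap.ker μ) :=
    (Submodule.comapSubtypeEquivOfLe hker).finrank_eq
  rw [h3, h4, h5] at h2
  omega

variable {κ A : Type*} [Field κ] [CommRing A] [Algebra κ A]

/-- the `κ`-subspace `zA` -/
def sqnrSp (κ : Type*) {A : Type*} [Field κ] [CommRing A] [Algebra κ A] (z : A) :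
    Submodule κ A := LinearMap.range (LinearMap.mulLeft κ z)

theorem sqnr_mem_sp {z m : A} : m ∈ sqnrSp κ z ↔ ∃ a, z * a = m := by
  unfold sqnrSp
  simp [LinearMap.mem_range]

theorem sqnr_sp_inv (g z : A) : ∀ m ∈ sqnrSp κ z, LinearMap.mulLeft κ g m ∈ sqnrSp κ z := by
  intro m hm
  obtain ⟨a, rfl⟩ := sqnr_mem_sp.mp hm
  exact sqnr_mem_sp.mpr ⟨g * a, by simp [LinearMap.mulLeft_apply]; ring⟩

/-- the determinant of the multiplication by `g` on `zA` -/
def sqnrD (κ : Type*) {A : Type*} [Field κ] [CommRing A] [Algebra κ A] (g z : A) : κ :=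
  LinearMap.det ((LinearMap.mulLeft κ g).restrict (sqnr_sp_inv (κ := κ) g z))

theorem sqnr_sp_map (x p : A) :
    (sqnrSp κ p).map (LinearMap.mulLeft κ x) = sqnrSp κ (x * p) := by
  ext m
  simp only [Submodule.mem_map, sqnr_mem_sp, LinearMap.mulLeft_apply]
  constructor
  · rintro ⟨y, ⟨a, rfl⟩, rfl⟩
    exact ⟨a, by ring⟩
  · rintro ⟨a, rfl⟩
    exact ⟨p * a, ⟨a, rfl⟩, by ring⟩

variable [Module.Finite κ A]

/-- single step in `A` -/
theorem sqnr_step (g x p : A) (c : κ) (hdvd : p ∣ g - algebraMap κ A c)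
    (hcancel : ∀ a, x * a = 0 → p ∣ a) :
    sqnrD κ g x = sqnrD κ g (x * p) * c ^ (finrank κ A - finrank κ (sqnrSp κ p)) ∧
    finrank κ (sqnrSp κ x) =
      finrank κ (sqnrSp κ (x * p)) + (finrank κ A - finrank κ (sqnrSp κ p)) := by
  have hdim : finrank κ (sqnrSp κ x) =
      finrank κ (sqnrSp κ (x * p)) + (finrank κ A - finrank κ (sqnrSp κ p)) := by
    have h := sqnr_finrank_step (LinearMap.mulLeft κ x) (sqnrSp κ p) (by
      intro a ha
      rw [LinearMap.mem_ker, LinearMap.mulLeft_apply] at ha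
      obtain ⟨t, rfl⟩ := hcancel a ha
      exact sqnr_mem_sp.mpr ⟨t, rfl⟩)
    rw [sqnr_sp_map] at h
    have hle : finrank κ (sqnrSp κ p) ≤ finrank κ A := Submodule.finrank_le _
    change finrank κ (sqnrSp κ x) + _ = _ at h
    omega
  refine ⟨?_, hdim⟩
  unfold sqnrD
  refine sqnr_det_restrict_step (LinearMap.mulLeft κ g) (sqnrSp κ x) (sqnrSp κ (x * p)) ?_ _ _ c ?_ _
    hdim
  · intro m hm
    obtain ⟨a, rfl⟩ := sqnr_mem_sp.mp hm
    exact sqnr_mem_sp.mpr ⟨p * a, by ring⟩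
  · intro m hm
    obtain ⟨a, rfl⟩ := sqnr_mem_sp.mp hm
    obtain ⟨t, ht⟩ := hdvd
    refine sqnr_mem_sp.mpr ⟨t * a, ?_⟩
    rw [LinearMap.mulLeft_apply, Algebra.smul_def]
    have : g = algebraMap κ A c + p * t := by rw [← ht]; ring
    rw [this]; ring

theorem sqnrD_zero (g : A) : sqnrD κ g 0 = 1 := by
  unfold sqnrD
  apply LinearMap.det_eq_one_of_finrank_eq_zero
  have : sqnrSp κ (0 : A) = ⊥ := by
    ext m
    rw [sqnr_mem_sp]
    simp [eq_comm]
  rw [this]
  exact finrank_bot κ A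

theorem sqnr_finrank_sp_zero : finrank κ (sqnrSp κ (0 : A)) = 0 := by
  have : sqnrSp κ (0 : A) = ⊥ := by
    ext m
    rw [sqnr_mem_sp]
    simp [eq_comm]
  rw [this]
  exact finrank_bot κ A

theorem sqnr_sp_one : sqnrSp κ (1 : A) = ⊤ := by
  ext m
  rw [sqnr_mem_sp]
  simp

theorem sqnrD_one (g : A) : sqnrD κ g 1 = Algebra.norm κ g := by
  unfold sqnrD
  rw [Algebra.norm_apply]
  have := LinearMap.det_conj ((LinearMap.mulLeft κ g).restrict (sqnr_sp_inv (κ := κ) g 1))
    ((LinearEquiv.ofEq _ _ (sqnr_sp_one (κ := κ) (A := A))).trans Submodule.topEquiv)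
  rw [← this]
  congr 1

theorem sqnr_finrank_sp_one : finrank κ (sqnrSp κ (1 : A)) = finrank κ A := by
  rw [sqnr_sp_one, finrank_top]

end Flag

/-! ### Part B : the flag in `B/ϖB` -/

section Ring

variable {O B : Type*} [CommRing O] [IsDomain O] [IsDiscreteValuationRing O]
  [CommRing B] [IsDomain B] [Algebra O B] [Module.Finite O B] [Module.Free O B]

attribute [local instance] Ideal.Quotient.field

local notation "pB" => Ideal.map (algebraMap O B) (maximalIdeal O)

/-- the norm commutes with reduction modulo the maximal ideal -/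
theorem sqnr_norm_quotient_mk (x : B) :
    Algebra.norm (O ⧸ maximalIdeal O) (Ideal.Quotient.mk pB x) =
      Ideal.Quotient.mk (maximalIdeal O) (Algebra.norm O x) := by
  classical
  let b : Module.Basis (Module.Free.ChooseBasisIndex O B) O B := Module.Free.chooseBasis O B
  rw [Algebra.norm_eq_matrix_det b, Algebra.norm_eq_matrix_det (basisQuotient b), RingHom.map_det]
  congr 1
  ext i j
  simp only [Algebra.leftMulMatrix_apply, Algebra.coe_lmul_eq_mul, LinearMap.toMatrix_apply,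
    basisQuotient_apply, LinearMap.mul_apply', RingHom.mapMatrix_apply, Matrix.map_apply,
    ← map_mul, basisQuotient_repr]

theorem sqnr_finite_quot : Module.Finite (O ⧸ maximalIdeal O) (B ⧸ pB) :=
  Module.Finite.of_restrictScalars_finite O _ _

attribute [local instance] sqnr_finite_quot

theorem sqnr_algebraMap_injective : Function.Injective (algebraMap O B) :=
  FaithfulSMul.algebraMap_injective O B

theorem sqnr_mk_eq_zero_iff {ϖ : O} (hϖ : Irreducible ϖ) (y : B) :
    Ideal.Quotient.mk pB y = 0 ↔ ∃ t, y = algebraMap O B ϖ * t := by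
  rw [Ideal.Quotient.eq_zero_iff_mem, hϖ.maximalIdeal_eq, Ideal.map_span, Set.image_singleton,
    Ideal.mem_span_singleton']
  constructor
  · rintro ⟨t, rfl⟩; exact ⟨t, mul_comm _ _⟩
  · rintro ⟨t, rfl⟩; exact ⟨t, mul_comm _ _⟩

/-- the local degree `dim_κ (B / (p, ϖ))` -/
def sqnrδ (O : Type*) {B : Type*} [CommRing O] [IsLocalRing O] [CommRing B] [Algebra O B]
    (p : B) : ℕ :=
  letI := Ideal.Quotient.field (maximalIdeal O)
  finrank (O ⧸ maximalIdeal O) (B ⧸ Ideal.map (algebraMap O B) (maximalIdeal O)) -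
    finrank (O ⧸ maximalIdeal O) (sqnrSp (O ⧸ maximalIdeal O)
      (Ideal.Quotient.mk (Ideal.map (algebraMap O B) (maximalIdeal O)) p))

theorem sqnr_stepB {ϖ : O} (hϖ : Irreducible ϖ) (g x p w : B) (b : O)
    (hdvd : p ∣ g - algebraMap O B b) (hw : x * p * w = algebraMap O B ϖ) :
    sqnrD (O ⧸ maximalIdeal O) (Ideal.Quotient.mk pB g) (Ideal.Quotient.mk pB x) =
      sqnrD (O ⧸ maximalIdeal O) (Ideal.Quotient.mk pB g) (Ideal.Quotient.mk pB (x * p)) *
        (Ideal.Quotient.mk (maximalIdeal O) b) ^ sqnrδ O p ∧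
    finrank (O ⧸ maximalIdeal O) (sqnrSp (O ⧸ maximalIdeal O) (Ideal.Quotient.mk pB x)) =
      finrank (O ⧸ maximalIdeal O) (sqnrSp (O ⧸ maximalIdeal O) (Ideal.Quotient.mk pB (x * p))) +
        sqnrδ O p := by
  have hϖ0 : algebraMap O B ϖ ≠ 0 := by
    intro h
    exact hϖ.ne_zero (sqnr_algebraMap_injective (by rw [h, map_zero]))
  have hx0 : x ≠ 0 := by
    rintro rfl
    apply hϖ0
    rw [← hw]; ring
  rw [map_mul]
  refine sqnr_step (κ := O ⧸ maximalIdeal O) _ _ _ _ ?_ ?_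
  · obtain ⟨t, ht⟩ := hdvd
    refine ⟨Ideal.Quotient.mk pB t, ?_⟩
    rw [← map_mul, ← ht, map_sub]
    rfl
  · intro a ha
    obtain ⟨a, rfl⟩ := Ideal.Quotient.mk_surjective a
    rw [← map_mul, sqnr_mk_eq_zero_iff hϖ] at ha
    obtain ⟨t, ht⟩ := ha
    refine ⟨Ideal.Quotient.mk pB (w * t), ?_⟩
    rw [← map_mul]
    congr 1
    apply mul_left_cancel₀ hx0
    rw [ht, ← hw]; ring

theorem sqnr_step_pow {ϖ : O} (hϖ : Irreducible ϖ) (g p : B) (b : O)
    (hdvd : p ∣ g - algebraMap O B b) :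
    ∀ (n : ℕ) (x w : B), x * p ^ n * w = algebraMap O B ϖ →
    sqnrD (O ⧸ maximalIdeal O) (Ideal.Quotient.mk pB g) (Ideal.Quotient.mk pB x) =
      sqnrD (O ⧸ maximalIdeal O) (Ideal.Quotient.mk pB g) (Ideal.Quotient.mk pB (x * p ^ n)) *
        ((Ideal.Quotient.mk (maximalIdeal O) b) ^ sqnrδ O p) ^ n ∧
    finrank (O ⧸ maximalIdeal O) (sqnrSp (O ⧸ maximalIdeal O) (Ideal.Quotient.mk pB x)) =
      finrank (O ⧸ maximalIdeal O)
        (sqnrSp (O ⧸ maximalIdeal O) (Ideal.Quotient.mk pB (x * p ^ n))) + n * sqnrδ O p := by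
  intro n
  induction n with
  | zero =>
    intro x w _
    rw [pow_zero, mul_one, pow_zero, mul_one, zero_mul, add_zero]
    exact ⟨rfl, rfl⟩
  | succ n ih =>
    intro x w hw
    have h1 := sqnr_stepB hϖ g x p (p ^ n * w) b hdvd (by rw [← hw]; ring)
    have h2 := ih (x * p) w (by rw [← hw]; ring)
    have e : x * p ^ (n + 1) = x * p * p ^ n := by ring
    rw [e]
    constructor
    · rw [h1.1, h2.1]; ring
    · rw [h1.2, h2.2]; ring

theorem sqnr_step_finset {ϖ : O} (hϖ : Irreducible ϖ) (g : B) {ι : Type*} (p : ι → B)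
    (e : ι → ℕ) (b : ι → O) (hdvd : ∀ i, p i ∣ g - algebraMap O B (b i)) :
    ∀ (s : Finset ι) (x w : B), x * (∏ i ∈ s, p i ^ e i) * w = algebraMap O B ϖ →
    sqnrD (O ⧸ maximalIdeal O) (Ideal.Quotient.mk pB g) (Ideal.Quotient.mk pB x) =
      sqnrD (O ⧸ maximalIdeal O) (Ideal.Quotient.mk pB g)
          (Ideal.Quotient.mk pB (x * ∏ i ∈ s, p i ^ e i)) *
        ∏ i ∈ s, ((Ideal.Quotient.mk (maximalIdeal O) (b i)) ^ sqnrδ O (p i)) ^ e i ∧
    finrank (O ⧸ maximalIdeal O) (sqnrSp (O ⧸ maximalIdeal O) (Ideal.Quotient.mk pB x)) =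
      finrank (O ⧸ maximalIdeal O)
        (sqnrSp (O ⧸ maximalIdeal O) (Ideal.Quotient.mk pB (x * ∏ i ∈ s, p i ^ e i))) +
        ∑ i ∈ s, e i * sqnrδ O (p i) := by
  classical
  intro s
  induction s using Finset.induction_on with
  | empty =>
    intro x w _
    rw [Finset.prod_empty, Finset.prod_empty, Finset.sum_empty, mul_one, mul_one, add_zero]
    exact ⟨rfl, rfl⟩
  | insert j s hj ih =>
    intro x w hw
    rw [Finset.prod_insert hj] at hw
    have h1 := sqnr_step_pow hϖ g (p j) (b j) (hdvd j) (e j) x ((∏ i ∈ s, p i ^ e i) * w)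
      (by rw [← hw]; ring)
    have h2 := ih (x * p j ^ e j) w (by rw [← hw]; ring)
    have e1 : x * ∏ i ∈ insert j s, p i ^ e i = x * p j ^ e j * ∏ i ∈ s, p i ^ e i := by
      rw [Finset.prod_insert hj]; ring
    rw [e1, Finset.prod_insert hj, Finset.sum_insert hj]
    constructor
    · rw [h1.1, h2.1]; ring
    · rw [h1.2, h2.2]; ring

/-- **the flag theorem** : if `ϖ = u ∏ p_i^{e_i}` in `B` and `g ≡ b_i mod p_i` then
`N(g) ≡ ∏ b_i^{e_i δ_i} mod ϖ`, and `[B : O] = ∑ e_i δ_i`. -/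
theorem sqnr_flag {ϖ : O} (hϖ : Irreducible ϖ) (g : B) {ι : Type*} [Fintype ι] (p : ι → B)
    (e : ι → ℕ) (b : ι → O) (hdvd : ∀ i, p i ∣ g - algebraMap O B (b i)) (u : B) (hu : IsUnit u)
    (hfac : (∏ i, p i ^ e i) * u = algebraMap O B ϖ) :
    Ideal.Quotient.mk (maximalIdeal O) (Algebra.norm O g) =
      ∏ i, (Ideal.Quotient.mk (maximalIdeal O) (b i)) ^ (e i * sqnrδ O (p i)) ∧
    finrank O B = ∑ i, e i * sqnrδ O (p i) := by
  obtain ⟨h1, h2⟩ := sqnr_step_finset hϖ g p e b hdvd Finset.univ 1 u (by rw [one_mul, hfac])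
  have hz : Ideal.Quotient.mk pB (1 * ∏ i, p i ^ e i) = 0 := by
    rw [sqnr_mk_eq_zero_iff hϖ]
    obtain ⟨v, rfl⟩ := hu
    refine ⟨((v⁻¹ : Bˣ) : B), ?_⟩
    rw [← hfac]
    rw [one_mul, mul_assoc, Units.mul_inv, mul_one]
  rw [hz, map_one] at h1 h2
  rw [sqnrD_one, sqnrD_zero, one_mul, sqnr_norm_quotient_mk] at h1
  rw [sqnr_finrank_sp_one, sqnr_finrank_sp_zero, zero_add, finrank_quotient_map] at h2
  refine ⟨?_, h2⟩
  rw [h1]
  refine Finset.prod_congr rfl fun i _ => ?_
  rw [← pow_mul, mul_comm]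

/-- the reduction map `B/ϖB → B/P` as a `κ`-linear map -/
def sqnrFactor (P : Ideal B) [P.LiesOver (maximalIdeal O)] (h : pB ≤ P) :
    (B ⧸ pB) →ₗ[O ⧸ maximalIdeal O] (B ⧸ P) where
  toFun := Ideal.Quotient.factor h
  map_add' := map_add _
  map_smul' := by
    intro c a
    obtain ⟨c, rfl⟩ := Ideal.Quotient.mk_surjective c
    obtain ⟨a, rfl⟩ := Ideal.Quotient.mk_surjective a
    rfl

theorem sqnrFactor_mk (P : Ideal B) [P.LiesOver (maximalIdeal O)] (h : pB ≤ P) (a : B) :
    sqnrFactor P h (Ideal.Quotient.mk pB a) = Ideal.Quotient.mk P a := rfl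

/-- `δ(p) = [B/P : κ]` for `P = (p)` -/
theorem sqnrδ_eq (p : B) [(Ideal.span {p}).LiesOver (maximalIdeal O)] [(Ideal.span {p}).IsMaximal] :
    sqnrδ O p = (Ideal.span {p}).inertiaDeg O := by
  have hle : pB ≤ Ideal.span {p} := by
    rw [Ideal.map_le_iff_le_comap]
    exact ((Ideal.span {p}).over_def (maximalIdeal O)).le
  rw [Ideal.inertiaDeg_eq_of_isMaximal (maximalIdeal O) (Ideal.span {p})]
  have h1 := LinearMap.finrank_range_add_finrank_ker (sqnrFactor (Ideal.span {p}) hle)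
  have h2 : LinearMap.range (sqnrFactor (Ideal.span {p}) hle) = ⊤ := by
    rw [LinearMap.range_eq_top]
    intro y
    obtain ⟨y, rfl⟩ := Ideal.Quotient.mk_surjective y
    exact ⟨Ideal.Quotient.mk pB y, rfl⟩
  have h3 : LinearMap.ker (sqnrFactor (Ideal.span {p}) hle) =
      sqnrSp (O ⧸ maximalIdeal O) (Ideal.Quotient.mk pB p) := by
    ext a
    obtain ⟨a, rfl⟩ := Ideal.Quotient.mk_surjective a
    rw [LinearMap.mem_ker, sqnrFactor_mk, Ideal.Quotient.eq_zero_iff_mem, sqnr_mem_sp]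
    constructor
    · intro ha
      obtain ⟨t, rfl⟩ := Ideal.mem_span_singleton'.mp ha
      exact ⟨Ideal.Quotient.mk pB t, by rw [← map_mul, mul_comm]⟩
    · rintro ⟨t, ht⟩
      obtain ⟨t, rfl⟩ := Ideal.Quotient.mk_surjective t
      rw [← map_mul, Ideal.Quotient.eq] at ht
      have h4 : p * t - a ∈ Ideal.span {p} := hle ht
      have h5 : p * t ∈ Ideal.span {p} := Ideal.mul_mem_right _ _ (Ideal.mem_span_singleton_self p)
      have := sub_mem h5 h4
      rwa [sub_sub_cancel] at this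
  rw [h2, h3, finrank_top] at h1
  unfold sqnrδ
  omega

end Ring

/-! ### Part C : Dedekind domains over a discrete valuation ring -/

section Dedekind

variable {O B : Type*} [CommRing O] [IsDomain O] [IsDiscreteValuationRing O]
  [CommRing B] [IsDomain B] [IsDedekindDomain B] [Algebra O B] [Module.Finite O B] [Module.Free O B]
  {ι : Type*} [Fintype ι]

local notation "pB" => Ideal.map (algebraMap O B) (maximalIdeal O)

theorem sqnr_map_le (P : ι → Ideal B) (e : ι → ℕ) (he : ∀ i, e i ≠ 0)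
    (hfac : pB = ∏ i, P i ^ e i) (i : ι) : pB ≤ P i := by
  rw [hfac]
  refine le_trans (Ideal.prod_le_inf.trans (Finset.inf_le (Finset.mem_univ i))) ?_
  exact Ideal.pow_le_self (he i)

theorem sqnr_liesOver (P : ι → Ideal B) (hP : ∀ i, (P i).IsMaximal) (e : ι → ℕ)
    (he : ∀ i, e i ≠ 0) (hfac : pB = ∏ i, P i ^ e i) (i : ι) :
    (P i).LiesOver (maximalIdeal O) := by
  constructor
  have hle : maximalIdeal O ≤ (P i).under O := by
    rw [Ideal.under_def, ← Ideal.map_le_iff_le_comap]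
    exact sqnr_map_le P e he hfac i
  have hne : (P i).under O ≠ ⊤ := by
    intro h
    have h1 : (1 : O) ∈ (P i).under O := h ▸ Submodule.mem_top
    rw [Ideal.under_def, Ideal.mem_comap, map_one] at h1
    exact (hP i).ne_top ((Ideal.eq_top_iff_one _).mpr h1)
  exact (IsLocalRing.maximalIdeal.isMaximal O).eq_of_le hne hle

/-- every nonzero prime of `B` is one of the `P i` -/
theorem sqnr_prime_cases (P : ι → Ideal B) (hP : ∀ i, (P i).IsMaximal) (e : ι → ℕ)
    (hfac : pB = ∏ i, P i ^ e i) (Q : Ideal B) (hQ : Q.IsPrime) (hQ0 : Q ≠ ⊥) :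
    ∃ i, Q = P i := by
  obtain ⟨x, hxQ, hx0⟩ := Submodule.exists_mem_ne_zero_of_ne_bot hQ0
  have h1 : Q.comap (algebraMap O B) ≠ ⊥ :=
    Ideal.comap_ne_bot_of_integral_mem hx0 hxQ (Algebra.IsIntegral.isIntegral x)
  have h2 : (Q.comap (algebraMap O B)).IsMaximal :=
    Ring.DimensionLEOne.maximalOfPrime h1 (Ideal.comap_isPrime _ _)
  have h3 : Q.comap (algebraMap O B) = maximalIdeal O := IsLocalRing.eq_maximalIdeal h2
  have h4 : pB ≤ Q := by
    rw [Ideal.map_le_iff_le_comap, h3]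
  rw [hfac, hQ.prod_le] at h4
  obtain ⟨i, -, hi⟩ := h4
  have h5 : P i ≤ Q := hQ.le_of_pow_le hi
  exact ⟨i, ((hP i).eq_of_le hQ.ne_top h5).symm⟩

theorem sqnr_isPrincipalIdealRing (P : ι → Ideal B) (hP : ∀ i, (P i).IsMaximal) (e : ι → ℕ)
    (hfac : pB = ∏ i, P i ^ e i) : IsPrincipalIdealRing B := by
  apply IsPrincipalIdealRing.of_finite_primes
  refine Set.Finite.subset ((Set.finite_singleton (⊥ : Ideal B)).union (Set.finite_range P)) ?_
  intro Q hQ
  by_cases hQ0 : Q = ⊥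
  · exact Or.inl hQ0
  · obtain ⟨i, rfl⟩ := sqnr_prime_cases P hP e hfac Q hQ hQ0
    exact Or.inr ⟨i, rfl⟩

/-- generators of the `P i` and the factorisation of the uniformiser -/
theorem sqnr_exists_gen (P : ι → Ideal B) (hP : ∀ i, (P i).IsMaximal) (e : ι → ℕ)
    (hfac : pB = ∏ i, P i ^ e i) {ϖ : O} (hϖ : Irreducible ϖ) :
    ∃ p : ι → B, (∀ i, Ideal.span {p i} = P i) ∧
      ∃ u : B, IsUnit u ∧ (∏ i, p i ^ e i) * u = algebraMap O B ϖ := by
  haveI := sqnr_isPrincipalIdealRing P hP e hfac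
  refine ⟨fun i => Submodule.IsPrincipal.generator (P i),
    fun i => Ideal.span_singleton_generator (P i), ?_⟩
  have h1 : Ideal.span {∏ i, Submodule.IsPrincipal.generator (P i) ^ e i} =
      Ideal.span {algebraMap O B ϖ} := by
    rw [← Ideal.prod_span_singleton]
    have : ∀ i, Ideal.span {Submodule.IsPrincipal.generator (P i) ^ e i} = P i ^ e i := by
      intro i
      rw [← Ideal.span_singleton_pow, Ideal.span_singleton_generator]
    simp_rw [this]
    rw [← hfac, hϖ.maximalIdeal_eq, Ideal.map_span, Set.image_singleton]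
  obtain ⟨u, hu⟩ := Ideal.span_singleton_eq_span_singleton.mp h1
  exact ⟨u, u.isUnit, hu⟩

/-- **(NRr-1) + fundamental identity**, mod-`𝔭` form -/
theorem sqnr_core (P : ι → Ideal B) (hP : ∀ i, (P i).IsMaximal) (e : ι → ℕ) (he : ∀ i, e i ≠ 0)
    (hfac : pB = ∏ i, P i ^ e i) :
    ∑ i, e i * (P i).inertiaDeg O = finrank O B ∧
    ∀ (g : B) (b : ι → O), (∀ i, g - algebraMap O B (b i) ∈ P i) →
      Algebra.norm O g - ∏ i, b i ^ (e i * (P i).inertiaDeg O) ∈ maximalIdeal O := by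
  obtain ⟨ϖ, hϖ⟩ := IsDiscreteValuationRing.exists_irreducible O
  obtain ⟨p, hp, u, hu, hpu⟩ := sqnr_exists_gen P hP e hfac hϖ
  have hδ : ∀ i, sqnrδ O (p i) = (P i).inertiaDeg O := by
    intro i
    haveI : (Ideal.span {p i}).LiesOver (maximalIdeal O) := by
      rw [hp i]; exact sqnr_liesOver P hP e he hfac i
    haveI : (Ideal.span {p i}).IsMaximal := by
      rw [hp i]; exact hP i
    rw [sqnrδ_eq (p i), hp i]
  constructor
  · have h := (sqnr_flag hϖ (0 : B) p e (fun _ => 0) (fun i => by simp) u hu hpu).2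
    rw [h]
    exact Finset.sum_congr rfl fun i _ => by rw [hδ i]
  · intro g b hg
    have h := (sqnr_flag hϖ g p e b (fun i => by
      rw [← Ideal.mem_span_singleton, hp i]; exact hg i) u hu hpu).1
    rw [← Ideal.Quotient.eq, h, map_prod]
    exact Finset.prod_congr rfl fun i _ => by rw [map_pow, hδ i]

theorem sqnr_sum_ef (P : ι → Ideal B) (hP : ∀ i, (P i).IsMaximal) (e : ι → ℕ) (he : ∀ i, e i ≠ 0)
    (hfac : pB = ∏ i, P i ^ e i) :
    ∑ i, e i * (P i).inertiaDeg O = finrank O B :=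
  (sqnr_core P hP e he hfac).1

/-- **(NRr-1) NORM / REDUCTION** : if `g ≡ b_i mod P_i` (`b_i` in the base ring) for all `i` then
`N_{B/O}(g) ≡ ∏ b_i^{e_i f_i} mod 𝔭`. -/
theorem sqnr_norm_congr (P : ι → Ideal B) (hP : ∀ i, (P i).IsMaximal) (e : ι → ℕ)
    (he : ∀ i, e i ≠ 0) (hfac : pB = ∏ i, P i ^ e i)
    (g : B) (b : ι → O) (hg : ∀ i, g - algebraMap O B (b i) ∈ P i) :
    Algebra.norm O g - ∏ i, b i ^ (e i * (P i).inertiaDeg O) ∈ maximalIdeal O :=
  (sqnr_core P hP e he hfac).2 g b hg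

/-- **(NRv) NORM / VALUATIONS** : `(g) = ∏ P_i^{a_i}` ⟹ `(N g) = 𝔭^{∑ f_i a_i}`. -/
theorem sqnr_norm_val [CharZero O] (P : ι → Ideal B) (hP : ∀ i, (P i).IsMaximal) (e : ι → ℕ)
    (he : ∀ i, e i ≠ 0) (hfac : pB = ∏ i, P i ^ e i)
    (g : B) (a : ι → ℕ) (hg : Ideal.span {g} = ∏ i, P i ^ a i) :
    Ideal.span {Algebra.norm O g} = maximalIdeal O ^ ∑ i, (P i).inertiaDeg O * a i := by
  have h1 := Ideal.relNorm_singleton O g
  rw [Algebra.intNorm_eq_norm] at h1
  rw [← h1, hg, map_prod]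
  have h2 : ∀ i, Ideal.relNorm O (P i ^ a i) = maximalIdeal O ^ ((P i).inertiaDeg O * a i) := by
    intro i
    haveI := sqnr_liesOver P hP e he hfac i
    haveI := hP i
    rw [map_pow, Ideal.relNorm_eq_pow_of_isMaximal (P i) (maximalIdeal O), ← pow_mul]
  simp_rw [h2]
  exact Finset.prod_pow_eq_pow_sum _ _ _

end Dedekind

end Fermat.Agent.SQ
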