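import Mathlib
import Fermat.Agent.SQ.NR
import Fermat.Agent.S18.T.Defs

/-!
# Program Q, leaf NR² (layer 2) : NORMS, VALUATIONS AND REDUCTIONS for valuation subrings

Setting : `K / K₁` a finite extension of fields of characteristic zero, `W` a DISCRETE valuation
subring of `K₁` with uniformiser `ϖ`, `V i` (`i : ι`, a finite index set) ALL the valuation
subrings of `K` lying over `W`, with uniformisers `π i` (`S18IsUnif`) and ramification indices
`e i` (`V_i(π_i)^{e_i} = V_i(ϖ)`).  Then there are residue degrees `f i > 0` with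

* `∑ e_i f_i = [K : K₁]`;
* **(NRv)** `V_i(g) = V_i(π_i)^{a_i}` for all `i`  ⟹  `W(N g) = W(ϖ)^{∑ f_i a_i}`;
* **(NRr-1)** `g ≡ b_i mod 𝔪_{V_i}` with `b_i ∈ W` for all `i`  ⟹
  `N g ≡ ∏ b_i^{e_i f_i} mod 𝔪_W`

(`sqnr_main`; the `f i` are EXISTENTIAL: in the applications they are pinned down by the
fundamental identity).  Ready-made corollaries for the positions met at level `q²` :
`sqnr_split` (two valuations over `W`, `e = (1, d)`, `[K : K₁] = d + 1`, hence `f = (1, 1)`) and
`sqnr_inert` (one valuation over `W`, `e = 1`, hence `f = [K : K₁]`; including the purely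
inseparable form `g^q ≡ b ⟹ N g ≡ b` when `[K : K₁] = q` is the residue characteristic).

PROOF : `O := ↥W` is a discrete valuation ring (`sqnr_disc`), `B :=` the integral closure of `O`
in `K` is a Dedekind domain, finite free over `O`; valuation subrings over `W` correspond to
the primes of `B` (`sqnrSpec`, `sqnr_spec_valuationSubring`, `sqnr_comap_eq`, `sqnrPhi_injective`,
`sqnrPhi_surjective`); an element of `B` with prescribed valuations generates the corresponding
product of prime powers (`sqnr_span_eq_prod`); then layer 1 (`SQ/NR.lean`).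

Imports : Mathlib, `SQ/NR.lean`, `S18/T/Defs.lean` (for `S18IsUnif`).  Prefix `sqnr_` / `sqnr`.
-/

set_option autoImplicit false
set_option linter.unusedSectionVars false
set_option linter.overlappingInstances false
set_option linter.style.haveILetI false

noncomputable section

namespace Fermat.Agent.SQ

open IsLocalRing Module Fermat.Agent.S18 IsDedekindDomain

section Disc

variable {K₁ : Type*} [Field K₁]

/-- a valuation subring whose value group is generated by the value of `ϖ` is a discrete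
valuation ring with uniformiser `ϖ` -/
theorem sqnr_disc (W : ValuationSubring K₁) (ϖ : K₁) (hϖ0 : ϖ ≠ 0) (hϖ : W.valuation ϖ < 1)
    (hdisc : ∀ x : K₁, x ≠ 0 → ∃ n : ℤ, W.valuation x = W.valuation ϖ ^ n) :
    ∃ h : ϖ ∈ W, Irreducible (⟨ϖ, h⟩ : ↥W) ∧ IsDiscreteValuationRing ↥W := by
  have hγ0 : 0 < W.valuation ϖ := by
    rw [zero_lt_iff]
    exact (Valuation.ne_zero_iff _).mpr hϖ0
  have hγ1 : W.valuation ϖ ≠ 1 := hϖ.ne
  have hmem : ϖ ∈ W := (W.valuation_le_one_iff ϖ).mp hϖ.le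
  -- every nonzero element is a power of `ϖ` times a unit
  have key : ∀ x : ↥W, x ≠ 0 → ∃ n : ℕ, W.valuation (x : K₁) = W.valuation ϖ ^ n := by
    intro x hx
    have hx' : (x : K₁) ≠ 0 := fun h => hx (Subtype.ext h)
    obtain ⟨m, hm⟩ := hdisc x hx'
    have h1 : W.valuation ϖ ^ m ≤ 1 := hm ▸ W.valuation_le_one x
    have h2 : 0 ≤ m := (zpow_le_one_iff_right_of_lt_one₀ hγ0 hϖ).mp h1
    obtain ⟨n, rfl⟩ := Int.eq_ofNat_of_zero_le h2
    exact ⟨n, by rw [hm, zpow_natCast]⟩
  have hunit : ∀ x : ↥W, W.valuation (x : K₁) = 1 → IsUnit x := fun x hx =>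
    (W.valuation_eq_one_iff x).mpr hx
  have hirr : Irreducible (⟨ϖ, hmem⟩ : ↥W) := by
    rw [irreducible_iff]
    constructor
    · intro h
      exact hγ1 ((W.valuation_eq_one_iff _).mp h)
    · intro a b hab
      have ha0 : a ≠ 0 := by
        rintro rfl
        rw [zero_mul] at hab
        exact hϖ0 (congrArg Subtype.val hab)
      have hb0 : b ≠ 0 := by
        rintro rfl
        rw [mul_zero] at hab
        exact hϖ0 (congrArg Subtype.val hab)
      obtain ⟨i, hi⟩ := key a ha0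
      obtain ⟨j, hj⟩ := key b hb0
      have h1 : W.valuation ϖ ^ 1 = W.valuation ϖ ^ (i + j) := by
        have := congrArg (fun z : ↥W => W.valuation (z : K₁)) hab
        rw [pow_one, pow_add, ← hi, ← hj, ← map_mul]
        exact this
      have h2 : 1 = i + j := by
        have hinj := pow_right_injective₀ hγ0 (fun h => hγ1 h)
        exact hinj h1
      rcases Nat.eq_zero_or_pos i with rfl | hi'
      · left
        exact hunit a (by rw [hi, pow_zero])
      · right
        have : j = 0 := by omega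
        subst this
        exact hunit b (by rw [hj, pow_zero])
  refine ⟨hmem, hirr, ?_⟩
  apply IsDiscreteValuationRing.ofHasUnitMulPowIrreducibleFactorization
  refine ⟨⟨ϖ, hmem⟩, hirr, ?_⟩
  intro x hx
  obtain ⟨n, hn⟩ := key x hx
  refine ⟨n, ?_⟩
  have hx' : (x : K₁) ≠ 0 := fun h => hx (Subtype.ext h)
  have hu : W.valuation ((x : K₁) / ϖ ^ n) = 1 := by
    rw [map_div₀, map_pow, hn, div_self]
    exact pow_ne_zero _ hγ0.ne'
  have humem : (x : K₁) / ϖ ^ n ∈ W := (W.valuation_le_one_iff _).mp hu.le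
  obtain ⟨u, hu'⟩ := hunit ⟨(x : K₁) / ϖ ^ n, humem⟩ hu
  refine ⟨u, ?_⟩
  apply Subtype.ext
  rw [hu']
  show ϖ ^ n * ((x : K₁) / ϖ ^ n) = x
  field_simp

/-- Frobenius is injective on the residue field -/
theorem sqnr_sub_mem_of_pow (W : ValuationSubring K₁) (q : ℕ) (hq : q.Prime)
    (hqW : (q : K₁) ∈ W.nonunits) (x y : K₁) (hx : x ∈ W) (hy : y ∈ W)
    (h : x ^ q - y ^ q ∈ W.nonunits) : x - y ∈ W.nonunits := by
  have hmem : ∀ z : ↥W, z ∈ maximalIdeal ↥W ↔ (z : K₁) ∈ W.nonunits := fun z => by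
    rw [W.valuation_lt_one_iff, W.mem_nonunits_iff]
  haveI : Fact q.Prime := ⟨hq⟩
  haveI : CharP (↥W ⧸ maximalIdeal ↥W) q := by
    rw [CharP.charP_iff_prime_eq_zero hq]
    have : Ideal.Quotient.mk (maximalIdeal ↥W) (q : ↥W) = 0 := by
      rw [Ideal.Quotient.eq_zero_iff_mem, hmem]
      simpa using hqW
    rwa [map_natCast] at this
  have h1 : Ideal.Quotient.mk (maximalIdeal ↥W) ((⟨x, hx⟩ : ↥W) ^ q - (⟨y, hy⟩ : ↥W) ^ q) = 0 := by
    rw [Ideal.Quotient.eq_zero_iff_mem, hmem]
    exact h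
  rw [map_sub, map_pow, map_pow, ← sub_pow_char] at h1
  have h2 := pow_eq_zero_iff (hq.ne_zero) |>.mp h1
  rw [← map_sub, Ideal.Quotient.eq_zero_iff_mem, hmem] at h2
  exact h2

end Disc

section Closure

variable {K₁ K : Type*} [Field K₁] [Field K] [Algebra K₁ K] [FiniteDimensional K₁ K] [CharZero K₁]
variable (W : ValuationSubring K₁) [IsDiscreteValuationRing ↥W]

theorem sqnr_B_dedekind : IsDedekindDomain ↥(integralClosure ↥W K) :=
  integralClosure.isDedekindDomain ↥W K₁ K

theorem sqnr_B_finite : Module.Finite ↥W ↥(integralClosure ↥W K) :=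
  IsIntegralClosure.finite ↥W K₁ K _

theorem sqnr_B_frac : IsFractionRing ↥(integralClosure ↥W K) K :=
  IsIntegralClosure.isFractionRing_of_finite_extension ↥W K₁ K _

attribute [local instance] sqnr_B_dedekind sqnr_B_finite sqnr_B_frac

end Closure

section Centre

variable {K₁ K : Type*} [Field K₁] [Field K] [Algebra K₁ K] [FiniteDimensional K₁ K] [CharZero K₁]
variable (W : ValuationSubring K₁) [IsDiscreteValuationRing ↥W]
variable (V : ValuationSubring K) (hV : V.comap (algebraMap K₁ K) = W)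

attribute [local instance] sqnr_B_dedekind sqnr_B_finite sqnr_B_frac

include hV in
theorem sqnr_val_le_one_iff (x : K₁) :
    V.valuation (algebraMap K₁ K x) ≤ 1 ↔ W.valuation x ≤ 1 := by
  rw [ValuationSubring.valuation_le_one_iff, ValuationSubring.valuation_le_one_iff, ← hV,
    ValuationSubring.mem_comap]

include hV in
theorem sqnr_val_lt_one_iff (x : K₁) :
    V.valuation (algebraMap K₁ K x) < 1 ↔ W.valuation x < 1 := by
  by_cases hx : x = 0
  · subst hx; simp
  have h := sqnr_val_le_one_iff W V hV x⁻¹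
  rw [map_inv₀, map_inv₀, map_inv₀] at h
  have hx' : algebraMap K₁ K x ≠ 0 := (map_ne_zero _).mpr hx
  have h1 : V.valuation (algebraMap K₁ K x) ≠ 0 := (Valuation.ne_zero_iff _).mpr hx'
  have h2 : W.valuation x ≠ 0 := (Valuation.ne_zero_iff _).mpr hx
  rw [inv_le_one₀ (zero_lt_iff.mpr h1), inv_le_one₀ (zero_lt_iff.mpr h2)] at h
  rw [← not_le, ← not_le, h]

include hV in
theorem sqnr_algebraMap_mem (w : ↥W) : algebraMap K₁ K (w : K₁) ∈ V := by
  rw [← ValuationSubring.mem_comap, hV]; exact w.2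

include hV in
/-- the integral closure of `W` lies in every valuation ring above `W` -/
theorem sqnr_B_mem (x : ↥(integralClosure ↥W K)) : (x : K) ∈ V := by
  obtain ⟨p, hp, hpx⟩ := x.2
  let f : ↥W →+* ↥V := ((algebraMap K₁ K).comp W.subtype).codRestrict V
    (fun w => sqnr_algebraMap_mem W V hV w)
  have hint : IsIntegral ↥V (x : K) := by
    refine ⟨p.map f, hp.map f, ?_⟩
    rw [Polynomial.eval₂_map]
    exact hpx
  obtain ⟨y, hy⟩ := (IsIntegrallyClosed.isIntegral_iff (R := ↥V) (K := K)).mp hint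
  rw [← hy]
  exact y.2

/-- the centre of `V` on the integral closure of `W` -/
def sqnrCentre : Ideal ↥(integralClosure ↥W K) where
  carrier := {x | V.valuation (x : K) < 1}
  add_mem' := fun {a b} ha hb => by
    show V.valuation ((a : K) + (b : K)) < 1
    exact Valuation.map_add_lt _ ha hb
  zero_mem' := by
    show V.valuation ((0 : ↥(integralClosure ↥W K)) : K) < 1
    simp
  smul_mem' := fun c x hx => by
    show V.valuation ((c : K) * (x : K)) < 1
    rw [map_mul]
    have hc : V.valuation (c : K) ≤ 1 := (V.valuation_le_one_iff _).mpr (sqnr_B_mem W V hV c)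
    calc V.valuation (c : K) * V.valuation (x : K) ≤ 1 * V.valuation (x : K) := by gcongr
      _ = V.valuation (x : K) := one_mul _
      _ < 1 := hx

theorem sqnr_mem_centre (x : ↥(integralClosure ↥W K)) :
    x ∈ sqnrCentre W V hV ↔ V.valuation (x : K) < 1 := Iff.rfl

theorem sqnrCentre_isPrime : (sqnrCentre W V hV).IsPrime := by
  constructor
  · intro h
    have : (1 : ↥(integralClosure ↥W K)) ∈ sqnrCentre W V hV := h ▸ Submodule.mem_top
    rw [sqnr_mem_centre] at this
    simp at this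
  · intro x y hxy
    rw [sqnr_mem_centre] at hxy
    by_contra hcon
    rw [not_or, sqnr_mem_centre, sqnr_mem_centre, not_lt, not_lt] at hcon
    have hx : V.valuation (x : K) ≤ 1 := (V.valuation_le_one_iff _).mpr (sqnr_B_mem W V hV x)
    have hy : V.valuation (y : K) ≤ 1 := (V.valuation_le_one_iff _).mpr (sqnr_B_mem W V hV y)
    have h1 : V.valuation (x : K) = 1 := le_antisymm hx hcon.1
    have h2 : V.valuation (y : K) = 1 := le_antisymm hy hcon.2
    have : V.valuation ((x * y : ↥(integralClosure ↥W K)) : K) = 1 := by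
      show V.valuation ((x : K) * (y : K)) = 1
      rw [map_mul, h1, h2, one_mul]
    rw [this] at hxy
    exact lt_irrefl _ hxy

theorem sqnrCentre_ne_bot : sqnrCentre W V hV ≠ ⊥ := by
  obtain ⟨ϖ, hϖ⟩ := IsDiscreteValuationRing.exists_irreducible ↥W
  intro h
  have h1 : algebraMap ↥W ↥(integralClosure ↥W K) ϖ ∈ sqnrCentre W V hV := by
    rw [sqnr_mem_centre]
    show V.valuation (algebraMap K₁ K (ϖ : K₁)) < 1
    rw [sqnr_val_lt_one_iff W V hV]
    by_contra hcon
    have h2 : W.valuation (ϖ : K₁) = 1 := le_antisymm (W.valuation_le_one ϖ) (not_lt.mp hcon)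
    exact hϖ.not_isUnit ((W.valuation_eq_one_iff ϖ).mpr h2)
  rw [h, Ideal.mem_bot] at h1
  have h3 : (ϖ : K₁) = 0 := by
    have := congrArg (fun z : ↥(integralClosure ↥W K) => (z : K)) h1
    exact (map_eq_zero (algebraMap K₁ K)).mp this
  exact hϖ.ne_zero (Subtype.ext h3)

/-- the prime of the integral closure cut out by `V` -/
def sqnrSpec : HeightOneSpectrum ↥(integralClosure ↥W K) :=
  ⟨sqnrCentre W V hV, sqnrCentre_isPrime W V hV, sqnrCentre_ne_bot W V hV⟩

include hV in
theorem sqnr_V_ne_top : V ≠ ⊤ := by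
  obtain ⟨ϖ, hϖ⟩ := IsDiscreteValuationRing.exists_irreducible ↥W
  intro h
  have h1 : W.valuation (ϖ : K₁) < 1 := by
    by_contra hcon
    have h2 : W.valuation (ϖ : K₁) = 1 := le_antisymm (W.valuation_le_one ϖ) (not_lt.mp hcon)
    exact hϖ.not_isUnit ((W.valuation_eq_one_iff ϖ).mpr h2)
  have h3 : W.valuation ((ϖ : K₁)⁻¹) ≤ 1 := by
    rw [← sqnr_val_le_one_iff W V hV, ValuationSubring.valuation_le_one_iff, h]
    exact ValuationSubring.mem_top _
  rw [map_inv₀] at h3
  have h0 : (ϖ : K₁) ≠ 0 := fun h => hϖ.ne_zero (Subtype.ext h)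
  have h4 : W.valuation (ϖ : K₁) ≠ 0 := (Valuation.ne_zero_iff _).mpr h0
  rw [inv_le_one₀ (zero_lt_iff.mpr h4)] at h3
  exact absurd h1 (not_lt.mpr h3)

/-- `V` is the valuation ring of the prime it cuts out -/
theorem sqnr_spec_valuationSubring :
    ((sqnrSpec W V hV).valuation K).valuationSubring = V := by
  have hle : ((sqnrSpec W V hV).valuation K).valuationSubring ≤ V := by
    intro x hx
    obtain ⟨n, d, hnd⟩ := (sqnrSpec W V hV).exists_primeCompl_mul_eq_of_integer x hx
    have hd1 : (d : ↥(integralClosure ↥W K)) ∉ sqnrCentre W V hV := d.2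
    rw [sqnr_mem_centre, not_lt] at hd1
    have hd2 : V.valuation ((d : ↥(integralClosure ↥W K)) : K) ≤ 1 :=
      (V.valuation_le_one_iff _).mpr (sqnr_B_mem W V hV d)
    have hd3 : V.valuation ((d : ↥(integralClosure ↥W K)) : K) = 1 := le_antisymm hd2 hd1
    have hn : V.valuation ((n : ↥(integralClosure ↥W K)) : K) ≤ 1 :=
      (V.valuation_le_one_iff _).mpr (sqnr_B_mem W V hV n)
    rw [← V.valuation_le_one_iff]
    have := congrArg V.valuation hnd
    rw [map_mul] at this
    change V.valuation x * V.valuation ((d : ↥(integralClosure ↥W K)) : K) =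
      V.valuation ((n : ↥(integralClosure ↥W K)) : K) at this
    rw [hd3, mul_one] at this
    rw [this]; exact hn
  rw [← HeightOneSpectrum.valuationSubringAtPrime_eq_valuationSubring] at hle ⊢
  exact ValuationSubring.eq_of_le_of_ne_top _ hle (sqnr_V_ne_top W V hV)

theorem sqnr_spec_isEquiv : ((sqnrSpec W V hV).valuation K).IsEquiv V.valuation := by
  have h := Valuation.isEquiv_valuation_valuationSubring ((sqnrSpec W V hV).valuation K)
  rwa [sqnr_spec_valuationSubring] at h

end Centre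

section Converse

variable {K₁ K : Type*} [Field K₁] [Field K] [Algebra K₁ K] [FiniteDimensional K₁ K] [CharZero K₁]
variable (W : ValuationSubring K₁) [IsDiscreteValuationRing ↥W]

attribute [local instance] sqnr_B_dedekind sqnr_B_finite sqnr_B_frac

theorem sqnr_coe_algebraMap (w : ↥W) :
    algebraMap ↥(integralClosure ↥W K) K (algebraMap ↥W ↥(integralClosure ↥W K) w) =
      algebraMap K₁ K (w : K₁) :=
  (IsScalarTower.algebraMap_apply ↥W ↥(integralClosure ↥W K) K w).symm.trans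
    (IsScalarTower.algebraMap_apply ↥W K₁ K w)

/-- the valuation ring of a prime of the integral closure lies over `W` -/
theorem sqnr_comap_eq (v : HeightOneSpectrum ↥(integralClosure ↥W K)) :
    (v.valuation K).valuationSubring.comap (algebraMap K₁ K) = W := by
  have hle : W ≤ (v.valuation K).valuationSubring.comap (algebraMap K₁ K) := by
    intro x hx
    rw [ValuationSubring.mem_comap, Valuation.mem_valuationSubring_iff]
    have := v.valuation_le_one (K := K) (algebraMap ↥W ↥(integralClosure ↥W K) ⟨x, hx⟩)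
    change v.valuation K (algebraMap ↥(integralClosure ↥W K) K
      (algebraMap ↥W ↥(integralClosure ↥W K) ⟨x, hx⟩)) ≤ 1 at this
    rwa [sqnr_coe_algebraMap] at this
  have hne : (v.valuation K).valuationSubring.comap (algebraMap K₁ K) ≠ ⊤ := by
    intro h
    obtain ⟨y, hyv, hy0⟩ := Submodule.exists_mem_ne_zero_of_ne_bot v.ne_bot
    have h1 : v.asIdeal.comap (algebraMap ↥W ↥(integralClosure ↥W K)) ≠ ⊥ :=
      Ideal.comap_ne_bot_of_integral_mem hy0 hyv (Algebra.IsIntegral.isIntegral y)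
    obtain ⟨w, hwv, hw0⟩ := Submodule.exists_mem_ne_zero_of_ne_bot h1
    rw [Ideal.mem_comap] at hwv
    have h2 : v.valuation K (algebraMap K₁ K (w : K₁)) < 1 := by
      have := (v.valuation_lt_one_iff_mem (K := K) _).mpr hwv
      change v.valuation K (algebraMap ↥(integralClosure ↥W K) K
        (algebraMap ↥W ↥(integralClosure ↥W K) w)) < 1 at this
      rwa [sqnr_coe_algebraMap] at this
    have h3 : (w : K₁)⁻¹ ∈ (v.valuation K).valuationSubring.comap (algebraMap K₁ K) :=
      h ▸ ValuationSubring.mem_top _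
    rw [ValuationSubring.mem_comap, Valuation.mem_valuationSubring_iff, map_inv₀, map_inv₀] at h3
    have hw0' : algebraMap K₁ K (w : K₁) ≠ 0 :=
      (map_ne_zero _).mpr (fun h => hw0 (Subtype.ext h))
    have h4 : v.valuation K (algebraMap K₁ K (w : K₁)) ≠ 0 := (Valuation.ne_zero_iff _).mpr hw0'
    rw [inv_le_one₀ (zero_lt_iff.mpr h4)] at h3
    exact absurd h2 (not_lt.mpr h3)
  exact (ValuationSubring.eq_of_le_of_ne_top W hle hne).symm

end Converse

section Family

open WithZero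

variable {K₁ K : Type*} [Field K₁] [Field K] [Algebra K₁ K] [FiniteDimensional K₁ K] [CharZero K₁]
variable (W : ValuationSubring K₁) [IsDiscreteValuationRing ↥W]

attribute [local instance] sqnr_B_dedekind sqnr_B_finite sqnr_B_frac

theorem sqnr_le_exp_neg_one {x : ℤᵐ⁰} (h : x < 1) : x ≤ exp (-1 : ℤ) := by
  by_cases hx : x = 0
  · rw [hx]; exact zero_le
  · rw [← exp_log hx] at h ⊢
    rw [← exp_zero, exp_lt_exp] at h
    rw [exp_le_exp]
    omega

/-- a uniformiser of `V` (in the sense of `S18IsUnif`) has normalised valuation `exp (-1)` -/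
theorem sqnr_unif_val (V : ValuationSubring K) (hV : V.comap (algebraMap K₁ K) = W) (π : K)
    (hπ : S18IsUnif V π) : (sqnrSpec W V hV).valuation K π = exp (-1 : ℤ) := by
  have e := sqnr_spec_isEquiv W V hV
  apply le_antisymm
  · exact sqnr_le_exp_neg_one ((Valuation.isEquiv_iff_val_lt_one.mp e).mpr hπ.1)
  · obtain ⟨u, hu⟩ := (sqnrSpec W V hV).valuation_exists_uniformizer K
    have h1 : (sqnrSpec W V hV).valuation K u < 1 := by
      rw [hu, ← exp_zero, exp_lt_exp]; omega
    have h2 : V.valuation u < 1 := (Valuation.isEquiv_iff_val_lt_one.mp e).mp h1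
    have h3 : V.valuation u ≤ V.valuation π := hπ.2 u h2
    rw [← hu]
    exact (e u π).mpr h3

/-- translation of `V(g) = V(π)^a` into the normalised valuation -/
theorem sqnr_val_zpow (V : ValuationSubring K) (hV : V.comap (algebraMap K₁ K) = W) (π : K)
    (hπ : S18IsUnif V π) (g : K) (a : ℤ) (hg : V.valuation g = V.valuation π ^ a) :
    (sqnrSpec W V hV).valuation K g = exp (-a) := by
  have e := sqnr_spec_isEquiv W V hV
  rw [← map_zpow₀] at hg
  rw [e.eq_iff.mpr hg, map_zpow₀, sqnr_unif_val W V hV π hπ, ← exp_zsmul]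
  congr 1
  simp

variable {ι : Type*} [Fintype ι] (V : ι → ValuationSubring K)
  (hover : ∀ i, (V i).comap (algebraMap K₁ K) = W)

/-- the prime of the integral closure attached to `V i` -/
def sqnrPhi (i : ι) : HeightOneSpectrum ↥(integralClosure ↥W K) := sqnrSpec W (V i) (hover i)

theorem sqnrPhi_injective (hinj : Function.Injective V) :
    Function.Injective (sqnrPhi W V hover) := by
  intro i j hij
  apply hinj
  rw [← sqnr_spec_valuationSubring W (V i) (hover i), ← sqnr_spec_valuationSubring W (V j) (hover j)]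
  unfold sqnrPhi at hij
  rw [hij]

theorem sqnrPhi_surjective
    (hall : ∀ V' : ValuationSubring K, V'.comap (algebraMap K₁ K) = W → ∃ i, V' = V i) :
    Function.Surjective (sqnrPhi W V hover) := by
  intro v
  obtain ⟨i, hi⟩ := hall _ (sqnr_comap_eq W v)
  refine ⟨i, ?_⟩
  have e1 := sqnr_spec_isEquiv W (V i) (hover i)
  have e2 := Valuation.isEquiv_valuation_valuationSubring (v.valuation K)
  rw [hi] at e2
  exact HeightOneSpectrum.eq_of_valuation_isEquiv_valuation (e1.trans e2.symm)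

theorem sqnr_isCoprime (hinj : Function.Injective V) (n : ι → ℕ) :
    ((Finset.univ : Finset ι) : Set ι).Pairwise
      (Function.onFun IsCoprime fun i => (sqnrPhi W V hover i).asIdeal ^ n i) := by
  intro i _ j _ hij
  apply IsCoprime.pow
  rw [Ideal.isCoprime_iff_sup_eq]
  refine Ideal.IsMaximal.coprime_of_ne (sqnrPhi W V hover i).isMaximal
    (sqnrPhi W V hover j).isMaximal ?_
  intro h
  exact hij (sqnrPhi_injective W V hover hinj (HeightOneSpectrum.ext h))

/-- an element with prescribed valuations generates the corresponding product of prime powers -/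
theorem sqnr_span_eq_prod (hinj : Function.Injective V)
    (hall : ∀ V' : ValuationSubring K, V'.comap (algebraMap K₁ K) = W → ∃ i, V' = V i)
    (y : ↥(integralClosure ↥W K)) (hy : y ≠ 0) (n : ι → ℕ)
    (hn : ∀ i, (sqnrPhi W V hover i).valuation K (algebraMap ↥(integralClosure ↥W K) K y) =
      exp (-(n i : ℤ))) :
    Ideal.span {y} = ∏ i, (sqnrPhi W V hover i).asIdeal ^ n i := by
  rw [Ideal.prod_eq_iInf_of_pairwise_isCoprime (sqnr_isCoprime W V hover hinj n)]
  ext x
  simp only [Ideal.mem_iInf, Finset.mem_univ, forall_true_left]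
  constructor
  · intro hx i
    obtain ⟨c, rfl⟩ := Ideal.mem_span_singleton'.mp hx
    rw [← HeightOneSpectrum.intValuation_le_pow_iff_mem, map_mul]
    have h1 := (sqnrPhi W V hover i).intValuation_le_one c
    have h2 : (sqnrPhi W V hover i).intValuation y = exp (-(n i : ℤ)) := by
      rw [← HeightOneSpectrum.valuation_of_algebraMap (K := K)]; exact hn i
    rw [h2]
    calc (sqnrPhi W V hover i).intValuation c * exp (-(n i : ℤ)) ≤ 1 * exp (-(n i : ℤ)) := by
          gcongr
      _ = exp (-(n i : ℤ)) := one_mul _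
  · intro hx
    have hy' : algebraMap ↥(integralClosure ↥W K) K y ≠ 0 := by
      intro h
      exact hy ((IsFractionRing.injective ↥(integralClosure ↥W K) K) (by rw [h, map_zero]))
    have key : ∀ v : HeightOneSpectrum ↥(integralClosure ↥W K),
        v.valuation K (algebraMap ↥(integralClosure ↥W K) K x /
          algebraMap ↥(integralClosure ↥W K) K y) ≤ 1 := by
      intro v
      obtain ⟨i, rfl⟩ := sqnrPhi_surjective W V hover hall v
      have h1 := (HeightOneSpectrum.intValuation_le_pow_iff_mem _ x (n i)).mpr (hx i)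
      rw [← HeightOneSpectrum.valuation_of_algebraMap (K := K)] at h1
      rw [map_div₀, hn i]
      rw [div_le_one₀ exp_pos]
      exact h1
    obtain ⟨c, hc⟩ := HeightOneSpectrum.mem_integers_of_valuation_le_one K _ key
    rw [Ideal.mem_span_singleton']
    refine ⟨c, ?_⟩
    apply IsFractionRing.injective ↥(integralClosure ↥W K) K
    rw [map_mul, hc, div_mul_cancel₀ _ hy']

end Family

section Main

open WithZero

variable {K₁ K : Type*} [Field K₁] [Field K] [Algebra K₁ K] [FiniteDimensional K₁ K] [CharZero K₁]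
variable (W : ValuationSubring K₁) [IsDiscreteValuationRing ↥W]

attribute [local instance] sqnr_B_dedekind sqnr_B_finite sqnr_B_frac

theorem sqnr_algebraMap_W_injective : Function.Injective (algebraMap ↥W K) := by
  intro x y h
  apply Subtype.ext
  exact (algebraMap K₁ K).injective h

theorem sqnr_torsionFree_K : Module.IsTorsionFree ↥W K :=
  Module.isTorsionFree_iff_algebraMap_injective.mpr (sqnr_algebraMap_W_injective W)

theorem sqnr_B_torsionFree : Module.IsTorsionFree ↥W ↥(integralClosure ↥W K) := by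
  rw [Module.isTorsionFree_iff_algebraMap_injective]
  intro x y h
  apply sqnr_algebraMap_W_injective (K := K) W
  have := congrArg (algebraMap ↥(integralClosure ↥W K) K) h
  rwa [← IsScalarTower.algebraMap_apply, ← IsScalarTower.algebraMap_apply] at this

attribute [local instance] sqnr_B_torsionFree sqnr_torsionFree_K

theorem sqnr_B_free : Module.Free ↥W ↥(integralClosure ↥W K) := inferInstance

attribute [local instance] sqnr_B_free

theorem sqnr_B_finrank : finrank ↥W ↥(integralClosure ↥W K) = finrank K₁ K :=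
  IsIntegralClosure.rank ↥W K₁ K _

/-- the norm of `K / K₁` restricted to the integral closure is the norm of the integral closure -/
theorem sqnr_norm_coe (x : ↥(integralClosure ↥W K)) :
    Algebra.norm K₁ (algebraMap ↥(integralClosure ↥W K) K x) =
      algebraMap ↥W K₁ (Algebra.norm ↥W x) := by
  rw [← Algebra.algebraMap_intNorm (A := ↥W) (K := K₁) (L := K) (B := ↥(integralClosure ↥W K)),
    Algebra.intNorm_eq_norm]

variable {ι : Type*} [Fintype ι] (V : ι → ValuationSubring K)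
  (hover : ∀ i, (V i).comap (algebraMap K₁ K) = W)

include hover in
/-- `⋂ V i` is the integral closure of `W` -/
theorem sqnr_exists_of_mem
    (hall : ∀ V' : ValuationSubring K, V'.comap (algebraMap K₁ K) = W → ∃ i, V' = V i)
    (g : K) (hg : ∀ i, g ∈ V i) :
    ∃ g' : ↥(integralClosure ↥W K), algebraMap ↥(integralClosure ↥W K) K g' = g := by
  apply HeightOneSpectrum.mem_integers_of_valuation_le_one K g
  intro v
  obtain ⟨i, rfl⟩ := sqnrPhi_surjective W V hover hall v
  have := hg i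
  rw [← sqnr_spec_valuationSubring W (V i) (hover i), Valuation.mem_valuationSubring_iff] at this
  exact this

/-- the factorisation of the uniformiser -/
theorem sqnr_hfac (hinj : Function.Injective V)
    (hall : ∀ V' : ValuationSubring K, V'.comap (algebraMap K₁ K) = W → ∃ i, V' = V i)
    (ϖ : ↥W) (hϖ : Irreducible ϖ) (π : ι → K) (hπ : ∀ i, S18IsUnif (V i) (π i)) (e : ι → ℕ)
    (he : ∀ i, (V i).valuation (π i) ^ e i = (V i).valuation (algebraMap K₁ K (ϖ : K₁))) :
    (maximalIdeal ↥W).map (algebraMap ↥W ↥(integralClosure ↥W K)) =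
      ∏ i, (sqnrPhi W V hover i).asIdeal ^ e i := by
  rw [hϖ.maximalIdeal_eq, Ideal.map_span, Set.image_singleton]
  refine sqnr_span_eq_prod W V hover hinj hall _ ?_ e ?_
  · intro h
    have h2 := congrArg (algebraMap ↥(integralClosure ↥W K) K) h
    rw [sqnr_coe_algebraMap, map_zero] at h2
    have h3 : (ϖ : K₁) = 0 := (map_eq_zero (algebraMap K₁ K)).mp h2
    exact hϖ.ne_zero (Subtype.ext h3)
  · intro i
    rw [sqnr_coe_algebraMap]
    exact sqnr_val_zpow W (V i) (hover i) (π i) (hπ i) _ (e i : ℤ)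
      (by rw [zpow_natCast]; exact (he i).symm)

include hover in
theorem sqnr_e_ne_zero (ϖ : ↥W) (hϖ : Irreducible ϖ) (π : ι → K) (e : ι → ℕ)
    (he : ∀ i, (V i).valuation (π i) ^ e i = (V i).valuation (algebraMap K₁ K (ϖ : K₁))) (i : ι) :
    e i ≠ 0 := by
  intro h
  have h1 := he i
  rw [h, pow_zero] at h1
  have h2 : (V i).valuation (algebraMap K₁ K (ϖ : K₁)) < 1 := by
    rw [sqnr_val_lt_one_iff W (V i) (hover i)]
    by_contra hcon
    have h3 : W.valuation (ϖ : K₁) = 1 := le_antisymm (W.valuation_le_one ϖ) (not_lt.mp hcon)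
    exact hϖ.not_isUnit ((W.valuation_eq_one_iff ϖ).mpr h3)
  rw [← h1] at h2
  exact lt_irrefl _ h2

/-- **(NRr-1)** in valuation-ring form -/
theorem sqnr_red (hinj : Function.Injective V)
    (hall : ∀ V' : ValuationSubring K, V'.comap (algebraMap K₁ K) = W → ∃ i, V' = V i)
    (ϖ : ↥W) (hϖ : Irreducible ϖ) (π : ι → K) (hπ : ∀ i, S18IsUnif (V i) (π i)) (e : ι → ℕ)
    (he : ∀ i, (V i).valuation (π i) ^ e i = (V i).valuation (algebraMap K₁ K (ϖ : K₁)))
    (g : K) (b : ι → K₁) (hb : ∀ i, b i ∈ W)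
    (hg : ∀ i, g - algebraMap K₁ K (b i) ∈ (V i).nonunits) :
    Algebra.norm K₁ g -
      ∏ i, b i ^ (e i * (sqnrPhi W V hover i).asIdeal.inertiaDeg ↥W) ∈ W.nonunits := by
  have hgV : ∀ i, g ∈ V i := by
    intro i
    have h1 : g - algebraMap K₁ K (b i) ∈ V i :=
      ((V i).valuation_le_one_iff _).mp ((V i).mem_nonunits_iff.mp (hg i)).le
    have h2 : algebraMap K₁ K (b i) ∈ V i := sqnr_algebraMap_mem W (V i) (hover i) ⟨b i, hb i⟩
    have := (V i).add_mem _ _ h1 h2
    rwa [sub_add_cancel] at this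
  obtain ⟨g', rfl⟩ := sqnr_exists_of_mem W V hover hall g hgV
  have hmem : ∀ i, g' - algebraMap ↥W ↥(integralClosure ↥W K) ⟨b i, hb i⟩ ∈
      (sqnrPhi W V hover i).asIdeal := by
    intro i
    show _ ∈ sqnrCentre W (V i) (hover i)
    rw [sqnr_mem_centre]
    have := (V i).mem_nonunits_iff.mp (hg i)
    have e1 : ((g' - algebraMap ↥W ↥(integralClosure ↥W K) ⟨b i, hb i⟩ :
        ↥(integralClosure ↥W K)) : K) =
        algebraMap ↥(integralClosure ↥W K) K g' - algebraMap K₁ K (b i) := by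
      rw [← sqnr_coe_algebraMap W ⟨b i, hb i⟩, ← map_sub]
      rfl
    rw [e1]; exact this
  have key := sqnr_norm_congr (fun i => (sqnrPhi W V hover i).asIdeal)
    (fun i => (sqnrPhi W V hover i).isMaximal) e (sqnr_e_ne_zero W V hover ϖ hϖ π e he)
    (sqnr_hfac W V hover hinj hall ϖ hϖ π hπ e he) g' (fun i => ⟨b i, hb i⟩) hmem
  rw [ValuationSubring.valuation_lt_one_iff] at key
  rw [W.mem_nonunits_iff, sqnr_norm_coe]
  convert key using 2
  simp

/-- **(NRv)** in valuation-ring form -/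
theorem sqnr_val (hinj : Function.Injective V)
    (hall : ∀ V' : ValuationSubring K, V'.comap (algebraMap K₁ K) = W → ∃ i, V' = V i)
    (ϖ : ↥W) (hϖ : Irreducible ϖ) (π : ι → K) (hπ : ∀ i, S18IsUnif (V i) (π i)) (e : ι → ℕ)
    (he : ∀ i, (V i).valuation (π i) ^ e i = (V i).valuation (algebraMap K₁ K (ϖ : K₁)))
    (g : K) (a : ι → ℤ) (hg : ∀ i, (V i).valuation g = (V i).valuation (π i) ^ a i) :
    W.valuation (Algebra.norm K₁ g) = W.valuation (ϖ : K₁) ^
      (∑ i, ((sqnrPhi W V hover i).asIdeal.inertiaDeg ↥W : ℤ) * a i) := by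
  classical
  have he0 := sqnr_e_ne_zero W V hover ϖ hϖ π e he
  have hfac := sqnr_hfac W V hover hinj hall ϖ hϖ π hπ e he
  have hmax : ∀ i, (sqnrPhi W V hover i).asIdeal.IsMaximal := fun i =>
    (sqnrPhi W V hover i).isMaximal
  have hsum : ∑ i, e i * (sqnrPhi W V hover i).asIdeal.inertiaDeg ↥W = finrank K₁ K := by
    rw [← sqnr_B_finrank W]
    exact sqnr_sum_ef (fun i => (sqnrPhi W V hover i).asIdeal) hmax e he0 hfac
  have hϖ0 : (ϖ : K₁) ≠ 0 := fun h => hϖ.ne_zero (Subtype.ext h)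
  have hϖK : algebraMap K₁ K (ϖ : K₁) ≠ 0 := (map_ne_zero _).mpr hϖ0
  have hγ0 : W.valuation (ϖ : K₁) ≠ 0 := (Valuation.ne_zero_iff _).mpr hϖ0
  -- the index set is not empty
  have hne : Nonempty ι := by
    by_contra hcon
    rw [not_nonempty_iff] at hcon
    rw [Finset.univ_eq_empty, Finset.sum_empty] at hsum
    exact (Module.finrank_pos (R := K₁) (M := K)).ne hsum
  obtain ⟨i₀⟩ := hne
  have hπ0 : ∀ i, π i ≠ 0 := by
    intro i h
    have h1 := he i
    rw [h, map_zero, zero_pow (he0 i)] at h1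
    exact hϖK ((Valuation.zero_iff _).mp h1.symm)
  have hg0 : g ≠ 0 := by
    intro h
    have h1 := hg i₀
    rw [h, map_zero] at h1
    exact zpow_ne_zero _ ((Valuation.ne_zero_iff _).mpr (hπ0 i₀)) h1.symm
  -- clear denominators
  set m : ℕ := ∑ i, (a i).natAbs with hm
  have hpos : ∀ i, 0 ≤ a i + (m : ℤ) * e i := by
    intro i
    have h1 : (a i).natAbs ≤ m := Finset.single_le_sum (f := fun i => (a i).natAbs)
      (fun _ _ => Nat.zero_le _) (Finset.mem_univ i)
    have h2 : (m : ℤ) ≤ (m : ℤ) * e i := by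
      have : (1 : ℤ) ≤ e i := by exact_mod_cast Nat.one_le_iff_ne_zero.mpr (he0 i)
      nlinarith [Int.natCast_nonneg m]
    have h3 : -(a i) ≤ ((a i).natAbs : ℤ) := by rw [← Int.abs_eq_natAbs]; exact neg_le_abs _
    have h4 : ((a i).natAbs : ℤ) ≤ m := by exact_mod_cast h1
    linarith
  set n : ι → ℕ := fun i => (a i + (m : ℤ) * e i).toNat with hn
  have hn' : ∀ i, (n i : ℤ) = a i + (m : ℤ) * e i := fun i => Int.toNat_of_nonneg (hpos i)
  have hv : ∀ i, (sqnrPhi W V hover i).valuation K (g * algebraMap K₁ K (ϖ : K₁) ^ m) =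
      exp (-(n i : ℤ)) := by
    intro i
    have h1 := sqnr_val_zpow W (V i) (hover i) (π i) (hπ i) g (a i) (hg i)
    have h2 := sqnr_val_zpow W (V i) (hover i) (π i) (hπ i) (algebraMap K₁ K (ϖ : K₁)) (e i : ℤ)
      (by rw [zpow_natCast]; exact (he i).symm)
    unfold sqnrPhi
    rw [map_mul, map_pow, h1, h2, ← exp_nsmul, ← exp_add, hn' i]
    congr 1
    simp only [nsmul_eq_mul]
    ring
  have hint : ∀ v : HeightOneSpectrum ↥(integralClosure ↥W K),
      v.valuation K (g * algebraMap K₁ K (ϖ : K₁) ^ m) ≤ 1 := by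
    intro v
    obtain ⟨i, rfl⟩ := sqnrPhi_surjective W V hover hall v
    rw [hv i, ← exp_zero, exp_le_exp]
    omega
  obtain ⟨g', hg'⟩ := HeightOneSpectrum.mem_integers_of_valuation_le_one K _ hint
  have hg'0 : g' ≠ 0 := by
    rintro rfl
    rw [map_zero] at hg'
    exact mul_ne_zero hg0 (pow_ne_zero _ hϖK) hg'.symm
  have hspan := sqnr_span_eq_prod W V hover hinj hall g' hg'0 n (fun i => by rw [hg']; exact hv i)
  have key := sqnr_norm_val (fun i => (sqnrPhi W V hover i).asIdeal) hmax e he0 hfac g' n hspan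
  rw [hϖ.maximalIdeal_eq, Ideal.span_singleton_pow, Ideal.span_singleton_eq_span_singleton] at key
  obtain ⟨u, hu⟩ := key
  -- valuations
  have h1 : W.valuation ((Algebra.norm ↥W g' : ↥W) : K₁) = W.valuation (ϖ : K₁) ^
      (∑ i, (sqnrPhi W V hover i).asIdeal.inertiaDeg ↥W * n i) := by
    have := congrArg (fun z : ↥W => W.valuation (z : K₁)) hu
    change W.valuation (((Algebra.norm ↥W g' : ↥W) : K₁) * ((u : ↥W) : K₁)) =
      W.valuation ((ϖ : K₁) ^ _) at this
    rw [map_mul, W.valuation_unit u, mul_one, map_pow] at this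
    exact this
  have h2 : Algebra.norm K₁ (g * algebraMap K₁ K (ϖ : K₁) ^ m) =
      ((Algebra.norm ↥W g' : ↥W) : K₁) := by
    rw [← hg', sqnr_norm_coe]; rfl
  rw [map_mul, map_pow, Algebra.norm_algebraMap] at h2
  have h3 : W.valuation (Algebra.norm K₁ g) * W.valuation (ϖ : K₁) ^ (finrank K₁ K * m) =
      W.valuation (ϖ : K₁) ^ (∑ i, (sqnrPhi W V hover i).asIdeal.inertiaDeg ↥W * n i) := by
    rw [← h1, ← h2, map_mul, map_pow, map_pow, ← pow_mul]
  have h4 : W.valuation (Algebra.norm K₁ g) =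
      W.valuation (ϖ : K₁) ^ (∑ i, (sqnrPhi W V hover i).asIdeal.inertiaDeg ↥W * n i) /
        W.valuation (ϖ : K₁) ^ (finrank K₁ K * m) := by
    rw [← h3, mul_div_cancel_right₀ _ (pow_ne_zero _ hγ0)]
  rw [h4, ← zpow_natCast, ← zpow_natCast, ← zpow_sub₀ hγ0]
  congr 1
  push_cast
  rw [← hsum]
  push_cast
  rw [Finset.sum_mul, ← Finset.sum_sub_distrib]
  refine Finset.sum_congr rfl fun i _ => ?_
  rw [hn' i]
  ring

end Main


section Final

variable {K₁ K : Type*} [Field K₁] [Field K] [Algebra K₁ K] [FiniteDimensional K₁ K] [CharZero K₁]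
  {ι : Type*} [Fintype ι]

attribute [local instance] sqnr_B_dedekind sqnr_B_finite sqnr_B_frac sqnr_B_torsionFree
  sqnr_torsionFree_K sqnr_B_free

/-- **NR², valuation-ring form.** -/
theorem sqnr_main (W : ValuationSubring K₁) (ϖ : K₁) (hϖ0 : ϖ ≠ 0) (hϖ : W.valuation ϖ < 1)
    (hdisc : ∀ x : K₁, x ≠ 0 → ∃ n : ℤ, W.valuation x = W.valuation ϖ ^ n)
    (V : ι → ValuationSubring K) (hinj : Function.Injective V)
    (hover : ∀ i, (V i).comap (algebraMap K₁ K) = W)
    (hall : ∀ V' : ValuationSubring K, V'.comap (algebraMap K₁ K) = W → ∃ i, V' = V i)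
    (π : ι → K) (hπ : ∀ i, S18IsUnif (V i) (π i)) (e : ι → ℕ)
    (he : ∀ i, (V i).valuation (π i) ^ e i = (V i).valuation (algebraMap K₁ K ϖ)) :
    ∃ f : ι → ℕ, (∀ i, 0 < f i) ∧ ∑ i, e i * f i = Module.finrank K₁ K ∧
      (∀ (g : K) (a : ι → ℤ), (∀ i, (V i).valuation g = (V i).valuation (π i) ^ a i) →
          W.valuation (Algebra.norm K₁ g) = W.valuation ϖ ^ (∑ i, (f i : ℤ) * a i)) ∧
      (∀ (g : K) (b : ι → K₁), (∀ i, b i ∈ W) →
          (∀ i, g - algebraMap K₁ K (b i) ∈ (V i).nonunits) →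
          Algebra.norm K₁ g - ∏ i, b i ^ (e i * f i) ∈ W.nonunits) := by
  obtain ⟨hmem, hirr, hdvr⟩ := sqnr_disc W ϖ hϖ0 hϖ hdisc
  haveI := hdvr
  refine ⟨fun i => (sqnrPhi W V hover i).asIdeal.inertiaDeg ↥W, ?_, ?_, ?_, ?_⟩
  · intro i
    haveI := (sqnrPhi W V hover i).isPrime
    exact Ideal.inertiaDeg_pos _ _
  · rw [← sqnr_B_finrank W]
    exact sqnr_sum_ef (fun i => (sqnrPhi W V hover i).asIdeal)
      (fun i => (sqnrPhi W V hover i).isMaximal) e
      (sqnr_e_ne_zero W V hover ⟨ϖ, hmem⟩ hirr π e he)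
      (sqnr_hfac W V hover hinj hall ⟨ϖ, hmem⟩ hirr π hπ e he)
  · intro g a hg
    exact sqnr_val W V hover hinj hall ⟨ϖ, hmem⟩ hirr π hπ e he g a hg
  · intro g b hb hg
    exact sqnr_red W V hover hinj hall ⟨ϖ, hmem⟩ hirr π hπ e he g b hb hg

end Final

section Corollaries

variable {K₁ K : Type*} [Field K₁] [Field K] [Algebra K₁ K] [FiniteDimensional K₁ K] [CharZero K₁]

/-- **the split position** : exactly two valuations `V, V'` over `W`, `ϖ` a uniformiser of `V`,
`π'` a uniformiser of `V'` with `π'^d ~ ϖ`, `[K : K₁] = d + 1` (so both residue degrees are one). -/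
theorem sqnr_split (W : ValuationSubring K₁) (ϖ : K₁) (hϖ0 : ϖ ≠ 0) (hϖ : W.valuation ϖ < 1)
    (hdisc : ∀ x : K₁, x ≠ 0 → ∃ n : ℤ, W.valuation x = W.valuation ϖ ^ n)
    (V V' : ValuationSubring K) (hne : V ≠ V')
    (hV : V.comap (algebraMap K₁ K) = W) (hV' : V'.comap (algebraMap K₁ K) = W)
    (hall : ∀ V'' : ValuationSubring K, V''.comap (algebraMap K₁ K) = W → V'' = V ∨ V'' = V')
    (hunif : S18IsUnif V (algebraMap K₁ K ϖ)) (π' : K) (hπ' : S18IsUnif V' π') (d : ℕ)
    (hd : Module.finrank K₁ K = d + 1)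
    (he' : V'.valuation π' ^ d = V'.valuation (algebraMap K₁ K ϖ)) :
    (∀ (g : K) (a a' : ℤ), V.valuation g = V.valuation (algebraMap K₁ K ϖ) ^ a →
        V'.valuation g = V'.valuation π' ^ a' →
        W.valuation (Algebra.norm K₁ g) = W.valuation ϖ ^ (a + a')) ∧
    (∀ (g : K) (b b' : K₁), b ∈ W → b' ∈ W → g - algebraMap K₁ K b ∈ V.nonunits →
        g - algebraMap K₁ K b' ∈ V'.nonunits →
        Algebra.norm K₁ g - b * b' ^ d ∈ W.nonunits) := by
  obtain ⟨f, hf0, hsum, hval, hred⟩ := sqnr_main W ϖ hϖ0 hϖ hdisc ![V, V']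
    (by
      intro i j hij
      fin_cases i <;> fin_cases j
      · rfl
      · exact absurd hij hne
      · exact absurd hij.symm hne
      · rfl)
    (by intro i; fin_cases i; exacts [hV, hV'])
    (by
      intro V'' hV''
      rcases hall V'' hV'' with h | h
      · exact ⟨0, h⟩
      · exact ⟨1, h⟩)
    ![algebraMap K₁ K ϖ, π'] (by intro i; fin_cases i; exacts [hunif, hπ'])
    ![1, d] (by
      intro i; fin_cases i
      · exact pow_one _
      · exact he')
  rw [Fin.sum_univ_two] at hsum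
  simp only [Matrix.cons_val_zero, Matrix.cons_val_one, one_mul] at hsum
  have h0 := hf0 0
  have h1 := hf0 1
  -- `d ≥ 1`
  have hd1 : 1 ≤ d := by
    by_contra hcon
    have : d = 0 := by omega
    subst this
    rw [pow_zero] at he'
    obtain ⟨-, -, hdvr⟩ := sqnr_disc W ϖ hϖ0 hϖ hdisc
    haveI := hdvr
    have h2 : V'.valuation (algebraMap K₁ K ϖ) < 1 := (sqnr_val_lt_one_iff W V' hV' ϖ).mpr hϖ
    rw [← he'] at h2
    exact lt_irrefl _ h2
  have hf1 : f 1 = 1 := by
    by_contra hcon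
    have h2 : 2 ≤ f 1 := by omega
    have h3 : d * 2 ≤ d * f 1 := Nat.mul_le_mul_left d h2
    omega
  have hf0' : f 0 = 1 := by
    rw [hf1, mul_one] at hsum
    omega
  constructor
  · intro g a a' hg hg'
    have := hval g ![a, a'] (by intro i; fin_cases i; exacts [hg, hg'])
    rw [this, Fin.sum_univ_two]
    simp [hf0', hf1]
  · intro g b b' hb hb' hg hg'
    have := hred g ![b, b'] (by intro i; fin_cases i; exacts [hb, hb'])
      (by intro i; fin_cases i; exacts [hg, hg'])
    rw [Fin.prod_univ_two] at this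
    simpa [hf0', hf1] using this

/-- **the inert position** : exactly one valuation `V` over `W`, `ϖ` a uniformiser of `V`
(so the residue degree is `[K : K₁]`). -/
theorem sqnr_inert (W : ValuationSubring K₁) (ϖ : K₁) (hϖ0 : ϖ ≠ 0) (hϖ : W.valuation ϖ < 1)
    (hdisc : ∀ x : K₁, x ≠ 0 → ∃ n : ℤ, W.valuation x = W.valuation ϖ ^ n)
    (V : ValuationSubring K) (hV : V.comap (algebraMap K₁ K) = W)
    (hall : ∀ V'' : ValuationSubring K, V''.comap (algebraMap K₁ K) = W → V'' = V)
    (hunif : S18IsUnif V (algebraMap K₁ K ϖ)) :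
    (∀ (g : K) (a : ℤ), V.valuation g = V.valuation (algebraMap K₁ K ϖ) ^ a →
        W.valuation (Algebra.norm K₁ g) = W.valuation ϖ ^ ((Module.finrank K₁ K : ℤ) * a)) ∧
    (∀ (g : K) (b : K₁), b ∈ W → g - algebraMap K₁ K b ∈ V.nonunits →
        Algebra.norm K₁ g - b ^ Module.finrank K₁ K ∈ W.nonunits) ∧
    (∀ q : ℕ, q.Prime → (q : K₁) ∈ W.nonunits → Module.finrank K₁ K = q →
      ∀ (g : K) (b : K₁), b ∈ W → g ^ q - algebraMap K₁ K b ∈ V.nonunits →
        Algebra.norm K₁ g - b ∈ W.nonunits) := by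
  obtain ⟨f, hf0, hsum, hval, hred⟩ := sqnr_main W ϖ hϖ0 hϖ hdisc (fun _ : Unit => V)
    (fun _ _ _ => rfl) (fun _ => hV) (fun V'' hV'' => ⟨(), hall V'' hV''⟩)
    (fun _ => algebraMap K₁ K ϖ) (fun _ => hunif) (fun _ => 1) (fun _ => by simp)
  simp only [Finset.univ_unique, PUnit.default_eq_unit, Finset.sum_singleton, one_mul] at hsum
  have hred' : ∀ (g : K) (b : K₁), b ∈ W → g - algebraMap K₁ K b ∈ V.nonunits →
      Algebra.norm K₁ g - b ^ Module.finrank K₁ K ∈ W.nonunits := by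
    intro g b hb hg
    have := hred g (fun _ => b) (fun _ => hb) (fun _ => hg)
    simpa [hsum] using this
  refine ⟨?_, hred', ?_⟩
  · intro g a hg
    have := hval g (fun _ => a) (fun _ => hg)
    simpa [hsum] using this
  · intro q hq hqW hdq g b hb hg
    have h1 := hred' (g ^ q) b hb hg
    rw [map_pow, hdq] at h1
    -- `N g ∈ W`
    have hbq : b ^ q ∈ W := pow_mem hb q
    have h2 : Algebra.norm K₁ g ^ q ∈ W := by
      have h3 : Algebra.norm K₁ g ^ q - b ^ q ∈ W :=
        (W.valuation_le_one_iff _).mp (W.mem_nonunits_iff.mp h1).le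
      have := W.add_mem _ _ h3 hbq
      rwa [sub_add_cancel] at this
    have h4 : Algebra.norm K₁ g ∈ W := by
      rw [← W.valuation_le_one_iff] at h2 ⊢
      rw [map_pow] at h2
      exact (pow_le_one_iff hq.ne_zero).mp h2
    exact sqnr_sub_mem_of_pow W q hq hqW _ _ h4 hb h1

/-- auxiliary : `g ψ ≡ 1 mod 𝔪_V` with `ψ` a unit of `W` means `g ≡ ψ⁻¹ mod 𝔪_V` -/
theorem sqnr_sub_inv_mem (W : ValuationSubring K₁) (V : ValuationSubring K)
    (hV : V.comap (algebraMap K₁ K) = W) (g : K) (ψ : K₁) (hψ' : ψ⁻¹ ∈ W)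
    (hg : g * algebraMap K₁ K ψ - 1 ∈ V.nonunits) :
    g - algebraMap K₁ K ψ⁻¹ ∈ V.nonunits := by
  have hψ0 : ψ ≠ 0 := by
    rintro rfl
    rw [map_zero, mul_zero, zero_sub, V.mem_nonunits_iff, Valuation.map_neg, map_one] at hg
    exact lt_irrefl _ hg
  have hψK : algebraMap K₁ K ψ ≠ 0 := (map_ne_zero _).mpr hψ0
  have h1 : algebraMap K₁ K ψ⁻¹ ∈ V := by
    rw [← ValuationSubring.mem_comap, hV]; exact hψ'
  have e : g - algebraMap K₁ K ψ⁻¹ = algebraMap K₁ K ψ⁻¹ * (g * algebraMap K₁ K ψ - 1) := by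
    rw [map_inv₀]
    field_simp
  rw [e, V.mem_nonunits_iff, map_mul]
  have h2 : V.valuation (algebraMap K₁ K ψ⁻¹) ≤ 1 := (V.valuation_le_one_iff _).mpr h1
  calc V.valuation (algebraMap K₁ K ψ⁻¹) * V.valuation (g * algebraMap K₁ K ψ - 1)
      ≤ 1 * V.valuation (g * algebraMap K₁ K ψ - 1) := by gcongr
    _ = V.valuation (g * algebraMap K₁ K ψ - 1) := one_mul _
    _ < 1 := V.mem_nonunits_iff.mp hg

/-- auxiliary : `x ≡ c⁻¹ mod 𝔪_W` with `c ∈ W` means `x c ≡ 1 mod 𝔪_W` -/
theorem sqnr_mul_sub_one_mem (W : ValuationSubring K₁) (x c : K₁) (hc : c ∈ W) (hc0 : c ≠ 0)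
    (h : x - c⁻¹ ∈ W.nonunits) : x * c - 1 ∈ W.nonunits := by
  have e : x * c - 1 = c * (x - c⁻¹) := by field_simp
  rw [e, W.mem_nonunits_iff, map_mul]
  have h2 : W.valuation c ≤ 1 := (W.valuation_le_one_iff _).mpr hc
  calc W.valuation c * W.valuation (x - c⁻¹) ≤ 1 * W.valuation (x - c⁻¹) := by gcongr
    _ = W.valuation (x - c⁻¹) := one_mul _
    _ < 1 := W.mem_nonunits_iff.mp h

/-- **the split position, unit form** (the consumer form of blueprint §4) :
`g ψ ≡ 1 mod 𝔪_V`, `g ψ' ≡ 1 mod 𝔪_V'` (`ψ, ψ'` units of `W`) ⟹ `N(g) ψ ψ'^d ≡ 1 mod 𝔪_W`. -/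
theorem sqnr_split_unit (W : ValuationSubring K₁) (ϖ : K₁) (hϖ0 : ϖ ≠ 0) (hϖ : W.valuation ϖ < 1)
    (hdisc : ∀ x : K₁, x ≠ 0 → ∃ n : ℤ, W.valuation x = W.valuation ϖ ^ n)
    (V V' : ValuationSubring K) (hne : V ≠ V')
    (hV : V.comap (algebraMap K₁ K) = W) (hV' : V'.comap (algebraMap K₁ K) = W)
    (hall : ∀ V'' : ValuationSubring K, V''.comap (algebraMap K₁ K) = W → V'' = V ∨ V'' = V')
    (hunif : S18IsUnif V (algebraMap K₁ K ϖ)) (π' : K) (hπ' : S18IsUnif V' π') (d : ℕ)
    (hd : Module.finrank K₁ K = d + 1)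
    (he' : V'.valuation π' ^ d = V'.valuation (algebraMap K₁ K ϖ))
    (g : K) (ψ ψ' : K₁) (hψ : ψ ∈ W) (hψi : ψ⁻¹ ∈ W) (hψ' : ψ' ∈ W) (hψi' : ψ'⁻¹ ∈ W)
    (hg : g * algebraMap K₁ K ψ - 1 ∈ V.nonunits)
    (hg' : g * algebraMap K₁ K ψ' - 1 ∈ V'.nonunits) :
    Algebra.norm K₁ g * (ψ * ψ' ^ d) - 1 ∈ W.nonunits := by
  have h := (sqnr_split W ϖ hϖ0 hϖ hdisc V V' hne hV hV' hall hunif π' hπ' d hd he').2 g ψ⁻¹ ψ'⁻¹
    hψi hψi' (sqnr_sub_inv_mem W V hV g ψ hψi hg) (sqnr_sub_inv_mem W V' hV' g ψ' hψi' hg')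
  have hψ0 : ψ ≠ 0 := by
    rintro rfl
    rw [map_zero, mul_zero, zero_sub, V.mem_nonunits_iff, Valuation.map_neg, map_one] at hg
    exact lt_irrefl _ hg
  have hψ0' : ψ' ≠ 0 := by
    rintro rfl
    rw [map_zero, mul_zero, zero_sub, V'.mem_nonunits_iff, Valuation.map_neg, map_one] at hg'
    exact lt_irrefl _ hg'
  have e : ψ⁻¹ * ψ'⁻¹ ^ d = (ψ * ψ' ^ d)⁻¹ := by rw [mul_inv, inv_pow]
  rw [e] at h
  exact sqnr_mul_sub_one_mem W _ _ (W.mul_mem _ _ hψ (pow_mem hψ' d))
    (mul_ne_zero hψ0 (pow_ne_zero _ hψ0')) h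

/-- **the inert position, unit forms** :
`g ψ ≡ 1 mod 𝔪_V` ⟹ `N(g) ψ^[K:K₁] ≡ 1 mod 𝔪_W`; and for `[K : K₁] = q` the residue
characteristic : `g^q ψ ≡ 1 mod 𝔪_V` ⟹ `N(g) ψ ≡ 1 mod 𝔪_W`. -/
theorem sqnr_inert_unit (W : ValuationSubring K₁) (ϖ : K₁) (hϖ0 : ϖ ≠ 0) (hϖ : W.valuation ϖ < 1)
    (hdisc : ∀ x : K₁, x ≠ 0 → ∃ n : ℤ, W.valuation x = W.valuation ϖ ^ n)
    (V : ValuationSubring K) (hV : V.comap (algebraMap K₁ K) = W)
    (hall : ∀ V'' : ValuationSubring K, V''.comap (algebraMap K₁ K) = W → V'' = V)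
    (hunif : S18IsUnif V (algebraMap K₁ K ϖ)) (g : K) (ψ : K₁) (hψ : ψ ∈ W) (hψi : ψ⁻¹ ∈ W) :
    (g * algebraMap K₁ K ψ - 1 ∈ V.nonunits →
      Algebra.norm K₁ g * ψ ^ Module.finrank K₁ K - 1 ∈ W.nonunits) ∧
    (∀ q : ℕ, q.Prime → (q : K₁) ∈ W.nonunits → Module.finrank K₁ K = q →
      g ^ q * algebraMap K₁ K ψ - 1 ∈ V.nonunits → Algebra.norm K₁ g * ψ - 1 ∈ W.nonunits) := by
  obtain ⟨-, h2, h3⟩ := sqnr_inert W ϖ hϖ0 hϖ hdisc V hV hall hunif
  constructor
  · intro hg
    have hψ0 : ψ ≠ 0 := by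
      rintro rfl
      rw [map_zero, mul_zero, zero_sub, V.mem_nonunits_iff, Valuation.map_neg, map_one] at hg
      exact lt_irrefl _ hg
    have h := h2 g ψ⁻¹ hψi (sqnr_sub_inv_mem W V hV g ψ hψi hg)
    rw [inv_pow] at h
    exact sqnr_mul_sub_one_mem W _ _ (pow_mem hψ _) (pow_ne_zero _ hψ0) h
  · intro q hq hqW hdq hg
    have hψ0 : ψ ≠ 0 := by
      rintro rfl
      rw [map_zero, mul_zero, zero_sub, V.mem_nonunits_iff, Valuation.map_neg, map_one] at hg
      exact lt_irrefl _ hg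
    have h := h3 q hq hqW hdq g ψ⁻¹ hψi (sqnr_sub_inv_mem W V hV (g ^ q) ψ hψi hg)
    exact sqnr_mul_sub_one_mem W _ _ hψ hψ0 h

end Corollaries

end Fermat.Agent.SQ
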