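import Mathlib
import Fermat.Agent.S18.T.Defs
import Fermat.Agent.SQ.NormData
import Fermat.Agent.SQ.NRVal

/-!
# Program Q (S36) : (NORM-INST) -- `SqNormData` (blueprint v2 §4.1) from (VAL²) and (NR²)

`SqniVal` is the abstract EXPORT SHAPE of (VAL²) : three fields `L` (constants), `F₁` (level `q M'`),
`F` (level `q² M'`), the two degeneracy embeddings `α φ : F₁ →+* F`, valuation subrings `A` of `L`,
`W₁ W₂` of `F₁`, `V₁ V₂ V₃` of `F`, all discrete, with uniformisers `ϖ` (`A`, `W₁`, `W₂`, `V₁`, `V₃`)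
and `π₂` (`V₂`, `π₂ ^ (q - 1) = ϖ ·` unit), in the positions

* via `α` : `V₁ | W₁`, `V₂ | W₁`, `V₃ | W₂`;
* via `φ` : `V₁ | W₁`, `V₂ | W₂`, `V₃ | W₂`,

both `α` and `φ` of degree `q`.  `SqniNR` is the conclusion of helper19's `sqnr_main` (NR², valuation
subring form), `SqniNRMain` its full statement.  The output `sqni_normData_of_main` is helper23's
`SqNormData` for the norms `sqniNorm α`, `sqniNorm φ` (`Algebra.norm` along `α`, `φ`) and the order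
functions `sqniOrd`.

Prefix `sqni` / `Sqni`.
-/

set_option autoImplicit false
set_option linter.unusedSectionVars false
set_option linter.unusedVariables false
set_option linter.style.haveILetI false

noncomputable section

namespace Fermat.Agent.SQ

open Fermat.Agent.S18

/-! ### Norm and degree along a ring homomorphism of fields -/

section Along

variable {F₁ F : Type*} [Field F₁] [Field F]

/-- `Algebra.norm` along the ring homomorphism `α` -/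
def sqniNorm (α : F₁ →+* F) : F →* F₁ := @Algebra.norm F₁ F _ _ α.toAlgebra

/-- the degree of `F` over `α F₁` -/
def sqniDeg (α : F₁ →+* F) : ℕ := @Module.finrank F₁ F _ _ α.toAlgebra.toModule

/-- `F` is finite over `α F₁` -/
def SqniFin (α : F₁ →+* F) : Prop := @Module.Finite F₁ F _ _ α.toAlgebra.toModule

end Along

/-! ### The conclusion of (NR²) -/

section NR

variable {K₁ K : Type*} [Field K₁] [Field K] [Algebra K₁ K] {ι : Type*} [Fintype ι]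

/-- THE CONCLUSION OF `sqnr_main` (helper19, NR² in valuation subring form) : `W` a discrete
valuation subring of `K₁` with uniformiser `ϖ`, `V i` its extensions to `K` with uniformisers `π i`
and ramification indices `e i` : there are residue degrees `f i` with `∑ e i f i = [K : K₁]`,
(NRv) `W (N g) = ∑ f i · V i (g)` and (NRr) `g ≡ b i mod 𝔪_{V i}` ⟹ `N g ≡ ∏ b i ^ (e i f i)`. -/
def SqniNR (W : ValuationSubring K₁) (ϖ : K₁) (V : ι → ValuationSubring K) (π : ι → K)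
    (e : ι → ℕ) : Prop :=
  ∃ f : ι → ℕ, (∀ i, 0 < f i) ∧ ∑ i, e i * f i = Module.finrank K₁ K ∧
    (∀ (g : K) (a : ι → ℤ), (∀ i, (V i).valuation g = (V i).valuation (π i) ^ a i) →
      W.valuation (Algebra.norm K₁ g) = W.valuation ϖ ^ (∑ i, (f i : ℤ) * a i)) ∧
    (∀ (g : K) (b : ι → K₁), (∀ i, b i ∈ W) →
      (∀ i, g - algebraMap K₁ K (b i) ∈ (V i).nonunits) →
      Algebra.norm K₁ g - ∏ i, b i ^ (e i * f i) ∈ W.nonunits)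

end NR

/-! ### Integer order functions from discreteness -/

section Ord

variable {K : Type*} [Field K]

open Classical in
/-- the exponent `m` with `V.valuation x = V.valuation π ^ m` (`0` if there is none) -/
def sqniOrd (V : ValuationSubring K) (π : K) (x : K) : ℤ :=
  if h : ∃ m : ℤ, V.valuation x = V.valuation π ^ m then h.choose else 0

variable {V : ValuationSubring K} {π : K}

theorem sqniOrd_spec (hdisc : ∀ x : K, x ≠ 0 → ∃ m : ℤ, V.valuation x = V.valuation π ^ m)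
    {x : K} (hx : x ≠ 0) : V.valuation x = V.valuation π ^ sqniOrd V π x := by
  unfold sqniOrd
  rw [dif_pos (hdisc x hx)]
  exact (hdisc x hx).choose_spec

theorem sqni_zpow_inj (hπ : V.valuation π < 1) (hπ0 : π ≠ 0) {m n : ℤ}
    (h : V.valuation π ^ m = V.valuation π ^ n) : m = n :=
  (zpow_right_strictAnti₀ (zero_lt_iff.mpr ((Valuation.ne_zero_iff _).mpr hπ0)) hπ).injective h

theorem sqniOrd_eq (hπ : V.valuation π < 1) (hπ0 : π ≠ 0) {x : K} {m : ℤ}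
    (h : V.valuation x = V.valuation π ^ m) : sqniOrd V π x = m := by
  have hex : ∃ m : ℤ, V.valuation x = V.valuation π ^ m := ⟨m, h⟩
  unfold sqniOrd
  rw [dif_pos hex]
  exact sqni_zpow_inj hπ hπ0 (hex.choose_spec.symm.trans h)

theorem sqniOrd_self (hπ : V.valuation π < 1) (hπ0 : π ≠ 0) : sqniOrd V π π = 1 :=
  sqniOrd_eq hπ hπ0 (zpow_one _).symm

/-- `sqniOrd V π` is an order function of `V`. -/
theorem sqni_ord (hπ : V.valuation π < 1) (hπ0 : π ≠ 0)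
    (hdisc : ∀ x : K, x ≠ 0 → ∃ m : ℤ, V.valuation x = V.valuation π ^ m) :
    SqwOrd V (sqniOrd V π) where
  mul := fun x y hx hy => by
    refine sqniOrd_eq hπ hπ0 ?_
    rw [map_mul, sqniOrd_spec hdisc hx, sqniOrd_spec hdisc hy,
      ← zpow_add₀ ((Valuation.ne_zero_iff _).mpr hπ0)]
  mem := fun x hx => by
    rw [← V.valuation_le_one_iff, sqniOrd_spec hdisc hx]
    exact zpow_le_one_iff_right_of_lt_one₀ (zero_lt_iff.mpr ((Valuation.ne_zero_iff _).mpr hπ0)) hπ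

/-- a uniformiser with respect to which a nonunit `≠ 0` is a power is not zero -/
theorem sqni_unif_ne_zero (hdisc : ∀ x : K, x ≠ 0 → ∃ m : ℤ, V.valuation x = V.valuation π ^ m)
    {x : K} (hx0 : x ≠ 0) (hx : V.valuation x < 1) : π ≠ 0 := by
  rintro rfl
  obtain ⟨m, hm⟩ := hdisc x hx0
  rw [map_zero] at hm
  rcases eq_or_ne m 0 with rfl | h0
  · rw [zpow_zero] at hm
    exact absurd hm hx.ne
  · rw [zero_zpow _ h0] at hm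
    exact (Valuation.ne_zero_iff _).mpr hx0 hm

end Ord

/-! ### Lying over -/

section Over

variable {K K' : Type*} [Field K] [Field K'] {W : ValuationSubring K} {V : ValuationSubring K'}
  {f : K →+* K'}

theorem sqni_val_eq_one {x : K} (hx0 : x ≠ 0) : W.valuation x = 1 ↔ x ∈ W ∧ x⁻¹ ∈ W := by
  rw [← W.valuation_le_one_iff, ← W.valuation_le_one_iff, map_inv₀,
    inv_le_one₀ (zero_lt_iff.mpr ((Valuation.ne_zero_iff _).mpr hx0))]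
  exact ⟨fun h => ⟨h.le, h.ge⟩, fun h => le_antisymm h.1 h.2⟩

theorem sqni_mem_iff (h : V.comap f = W) (x : K) : f x ∈ V ↔ x ∈ W := by
  rw [← h, ValuationSubring.mem_comap]

theorem sqni_nonunits_iff (h : V.comap f = W) (x : K) : f x ∈ V.nonunits ↔ x ∈ W.nonunits := by
  rw [ValuationSubring.mem_nonunits_iff_or, ValuationSubring.mem_nonunits_iff_or, map_eq_zero,
    ← map_inv₀, sqni_mem_iff h]

theorem sqni_val_one_map (h : V.comap f = W) {x : K} (hx : W.valuation x = 1) :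
    V.valuation (f x) = 1 := by
  have hx0 : x ≠ 0 := by
    rintro rfl
    rw [map_zero] at hx
    exact zero_ne_one hx
  rw [sqni_val_eq_one hx0] at hx
  rw [sqni_val_eq_one ((map_ne_zero f).mpr hx0), ← map_inv₀, sqni_mem_iff h, sqni_mem_iff h]
  exact hx

/-- valuations along a lying-over : `w(x) = w(ϖ) ^ m ⟹ v(f x) = v(f ϖ) ^ m`. -/
theorem sqni_val_map (h : V.comap f = W) {ϖ : K} (hϖ0 : ϖ ≠ 0) {x : K} {m : ℤ}
    (hm : W.valuation x = W.valuation ϖ ^ m) : V.valuation (f x) = V.valuation (f ϖ) ^ m := by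
  have hu : W.valuation (x / ϖ ^ m) = 1 := by
    rw [map_div₀, map_zpow₀, hm]
    exact div_self (zpow_ne_zero _ ((Valuation.ne_zero_iff _).mpr hϖ0))
  have h1 := sqni_val_one_map h hu
  rw [map_div₀, map_zpow₀, map_div₀, map_zpow₀] at h1
  exact (div_eq_one_iff_eq (zpow_ne_zero _
    ((Valuation.ne_zero_iff _).mpr ((map_ne_zero f).mpr hϖ0)))).mp h1

end Over

/-! ### The two shapes of (NR²) : split `e = (1, d - 1)` and inert -/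

section NRCor

variable {K₁ K : Type*} [Field K₁] [Field K] [Algebra K₁ K]
  {W : ValuationSubring K₁} {ϖ : K₁} {V V' : ValuationSubring K} {π π' : K} {d : ℕ}

/-- the residue degrees of the split position are `(1, 1)` -/
theorem sqni_split_f (hd : Module.finrank K₁ K = d) (hd2 : 2 ≤ d) {f : Fin 2 → ℕ}
    (hf : ∀ i, 0 < f i) (hsum : ∑ i, ![1, d - 1] i * f i = Module.finrank K₁ K) :
    f 0 = 1 ∧ f 1 = 1 := by
  rw [hd, Fin.sum_univ_two] at hsum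
  simp only [Matrix.cons_val_zero, Matrix.cons_val_one, one_mul] at hsum
  have h0 := hf 0
  have h1 := hf 1
  obtain ⟨k, rfl⟩ : ∃ k, d = k + 2 := ⟨d - 2, by omega⟩
  have h2 : k + 2 - 1 = k + 1 := by omega
  rw [h2] at hsum
  have h3 : f 1 = 1 := by
    by_contra hne
    have h4 : 2 ≤ f 1 := by omega
    have h5 : (k + 1) * 2 ≤ (k + 1) * f 1 := Nat.mul_le_mul_left _ h4
    omega
  rw [h3, mul_one] at hsum
  exact ⟨by omega, h3⟩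

/-- (NRv), split position -/
theorem sqni_split_val (h : SqniNR W ϖ ![V, V'] ![π, π'] ![1, d - 1])
    (hd : Module.finrank K₁ K = d) (hd2 : 2 ≤ d) (g : K) (a a' : ℤ)
    (hg : V.valuation g = V.valuation π ^ a) (hg' : V'.valuation g = V'.valuation π' ^ a') :
    W.valuation (Algebra.norm K₁ g) = W.valuation ϖ ^ (a + a') := by
  obtain ⟨f, hf, hsum, hval, -⟩ := h
  obtain ⟨f0, f1⟩ := sqni_split_f hd hd2 hf hsum
  have := hval g ![a, a'] (fun i => by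
    fin_cases i
    · exact hg
    · exact hg')
  rw [this, Fin.sum_univ_two]
  simp only [Matrix.cons_val_zero, Matrix.cons_val_one, f0, f1, Nat.cast_one, one_mul]

/-- (NRr), split position -/
theorem sqni_split_congr (h : SqniNR W ϖ ![V, V'] ![π, π'] ![1, d - 1])
    (hd : Module.finrank K₁ K = d) (hd2 : 2 ≤ d) (g : K) (b b' : K₁) (hb : b ∈ W) (hb' : b' ∈ W)
    (hg : g - algebraMap K₁ K b ∈ V.nonunits) (hg' : g - algebraMap K₁ K b' ∈ V'.nonunits) :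
    Algebra.norm K₁ g - b * b' ^ (d - 1) ∈ W.nonunits := by
  obtain ⟨f, hf, hsum, -, hcong⟩ := h
  obtain ⟨f0, f1⟩ := sqni_split_f hd hd2 hf hsum
  have := hcong g ![b, b'] (fun i => by
    fin_cases i
    · exact hb
    · exact hb') (fun i => by
    fin_cases i
    · exact hg
    · exact hg')
  rw [Fin.prod_univ_two] at this
  simpa only [Matrix.cons_val_zero, Matrix.cons_val_one, f0, f1, mul_one, pow_one] using this

/-- (NRv), inert position -/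
theorem sqni_inert_val (h : SqniNR W ϖ (fun _ : Unit => V) (fun _ => π) (fun _ => 1))
    (hd : Module.finrank K₁ K = d) (g : K) (a : ℤ)
    (hg : V.valuation g = V.valuation π ^ a) :
    W.valuation (Algebra.norm K₁ g) = W.valuation ϖ ^ ((d : ℤ) * a) := by
  obtain ⟨f, hf, hsum, hval, -⟩ := h
  rw [hd, Fintype.sum_unique, one_mul] at hsum
  have := hval g (fun _ => a) (fun _ => hg)
  rw [this, Fintype.sum_unique, hsum]

/-- (NRr), inert position -/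
theorem sqni_inert_congr (h : SqniNR W ϖ (fun _ : Unit => V) (fun _ => π) (fun _ => 1))
    (hd : Module.finrank K₁ K = d) (g : K) (b : K₁) (hb : b ∈ W)
    (hg : g - algebraMap K₁ K b ∈ V.nonunits) :
    Algebra.norm K₁ g - b ^ d ∈ W.nonunits := by
  obtain ⟨f, hf, hsum, -, hcong⟩ := h
  rw [hd, Fintype.sum_unique, one_mul] at hsum
  have := hcong g (fun _ => b) (fun _ => hb) (fun _ => hg)
  rwa [Fintype.prod_unique, one_mul, hsum] at this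

end NRCor

variable {L F₁ F : Type*} [Field L] [Field F₁] [Field F]

/-- THE EXPORT SHAPE OF (VAL²), abstract form. -/
structure SqniVal (ι₁ : L →+* F₁) (α φ : F₁ →+* F) (A : ValuationSubring L)
    (W₁ W₂ : ValuationSubring F₁) (V₁ V₂ V₃ : ValuationSubring F) (ϖ : L) (π₂ : F) (q : ℕ) :
    Prop where
  /-- the residue characteristic is a prime -/
  hq : q.Prime
  /-- `α` and `φ` agree on the constants -/
  ι_eq : ∀ c : L, α (ι₁ c) = φ (ι₁ c)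
  /-- `[F : α F₁] = q` -/
  finα : SqniFin α
  degα : sqniDeg α = q
  /-- `[F : φ F₁] = q` -/
  finφ : SqniFin φ
  degφ : sqniDeg φ = q
  /-- `A` is a discrete valuation ring with uniformiser `ϖ` -/
  unifA : S18IsUnif A ϖ
  discA : ∀ c : L, c ≠ 0 → ∃ m : ℤ, A.valuation c = A.valuation ϖ ^ m
  /-- residue characteristic `q` -/
  q_mem : (q : L) ∈ A.nonunits
  /-- `W₁`, `W₂` lie over `A`, unramified, discrete -/
  overW₁ : W₁.comap ι₁ = A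
  overW₂ : W₂.comap ι₁ = A
  unifW₁ : S18IsUnif W₁ (ι₁ ϖ)
  unifW₂ : S18IsUnif W₂ (ι₁ ϖ)
  discW₁ : ∀ x : F₁, x ≠ 0 → ∃ m : ℤ, W₁.valuation x = W₁.valuation (ι₁ ϖ) ^ m
  discW₂ : ∀ x : F₁, x ≠ 0 → ∃ m : ℤ, W₂.valuation x = W₂.valuation (ι₁ ϖ) ^ m
  neW : W₁ ≠ W₂
  /-- `V₁`, `V₃` unramified, `V₂` of ramification index `q - 1`, all discrete -/
  unifV₁ : S18IsUnif V₁ (α (ι₁ ϖ))
  unifV₂ : S18IsUnif V₂ π₂
  unifV₃ : S18IsUnif V₃ (α (ι₁ ϖ))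
  pow₂ : V₂.valuation π₂ ^ (q - 1) = V₂.valuation (α (ι₁ ϖ))
  discV₁ : ∀ x : F, x ≠ 0 → ∃ m : ℤ, V₁.valuation x = V₁.valuation (α (ι₁ ϖ)) ^ m
  discV₂ : ∀ x : F, x ≠ 0 → ∃ m : ℤ, V₂.valuation x = V₂.valuation π₂ ^ m
  discV₃ : ∀ x : F, x ≠ 0 → ∃ m : ℤ, V₃.valuation x = V₃.valuation (α (ι₁ ϖ)) ^ m
  /-- the positions via `α` -/
  posα₁ : V₁.comap α = W₁
  posα₂ : V₂.comap α = W₁
  posα₃ : V₃.comap α = W₂
  /-- the positions via `φ` -/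
  posφ₁ : V₁.comap φ = W₁
  posφ₂ : V₂.comap φ = W₂
  posφ₃ : V₃.comap φ = W₂
  /-- completeness of the list, via `α` and via `φ` -/
  casesα : ∀ V' : ValuationSubring F, V'.comap α = W₁ ∨ V'.comap α = W₂ →
    V' = V₁ ∨ V' = V₂ ∨ V' = V₃
  casesφ : ∀ V' : ValuationSubring F, V'.comap φ = W₁ ∨ V'.comap φ = W₂ →
    V' = V₁ ∨ V' = V₂ ∨ V' = V₃
  /-- `κ(V₁) = ᾱ κ(W₁)` -/
  res₁α : ∀ x ∈ V₁, ∃ r ∈ W₁, x - α r ∈ V₁.nonunits
  /-- `κ(V₂) = ᾱ κ(W₁)` -/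
  res₂α : ∀ x ∈ V₂, ∃ r ∈ W₁, x - α r ∈ V₂.nonunits
  /-- `κ(V₂) = φ̄ κ(W₂)` -/
  res₂φ : ∀ x ∈ V₂, ∃ r ∈ W₂, x - φ r ∈ V₂.nonunits
  /-- `κ(V₃) = φ̄ κ(W₂)` -/
  res₃φ : ∀ x ∈ V₃, ∃ r ∈ W₂, x - φ r ∈ V₃.nonunits
  /-- `κ(V₁)^q ⊆ φ̄ κ(W₁)` -/
  ins₁ : ∀ x ∈ V₁, ∃ r ∈ W₁, x ^ q - φ r ∈ V₁.nonunits
  /-- `κ(V₃)^q ⊆ ᾱ κ(W₂)` -/
  ins₃ : ∀ x ∈ V₃, ∃ r ∈ W₂, x ^ q - α r ∈ V₃.nonunits

/-- (NR²) along `α` at a split position `V, V' | W` with `e = (1, d - 1)` -/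
def SqniNRSplit (α : F₁ →+* F) (W : ValuationSubring F₁) (ϖ₁ : F₁) (V V' : ValuationSubring F)
    (π π' : F) (d : ℕ) : Prop :=
  @SqniNR F₁ F _ _ α.toAlgebra (Fin 2) _ W ϖ₁ ![V, V'] ![π, π'] ![1, d - 1]

/-- (NR²) along `α` at an inert position `V | W` with `e = 1` -/
def SqniNRInert (α : F₁ →+* F) (W : ValuationSubring F₁) (ϖ₁ : F₁) (V : ValuationSubring F)
    (π : F) : Prop :=
  @SqniNR F₁ F _ _ α.toAlgebra Unit _ W ϖ₁ (fun _ => V) (fun _ => π) (fun _ => 1)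

/-! ### Small congruence lemmas -/

section Aux

variable {K : Type*} [Field K] {V : ValuationSubring K}

theorem sqni_sub_inv {g y : K} (hy0 : y ≠ 0) (hyi : y⁻¹ ∈ V) (h : g * y - 1 ∈ V.nonunits) :
    g - y⁻¹ ∈ V.nonunits := by
  have h1 : g - y⁻¹ = y⁻¹ * (g * y - 1) := by field_simp
  rw [h1]
  exact sqw_mul_mem_nonunits hyi h

theorem sqni_mul_sub_one {N b c : K} (hc : c ∈ V) (hbc : b * c = 1) (h : N - b ∈ V.nonunits) :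
    N * c - 1 ∈ V.nonunits := by
  have h1 : N * c - 1 = c * (N - b) := by rw [← hbc]; ring
  rw [h1]
  exact sqw_mul_mem_nonunits hc h

end Aux

namespace SqniVal

variable {ι₁ : L →+* F₁} {α φ : F₁ →+* F} {A : ValuationSubring L}
  {W₁ W₂ : ValuationSubring F₁} {V₁ V₂ V₃ : ValuationSubring F} {ϖ : L} {π₂ : F} {q : ℕ}

section Basic

variable [CharZero L] (P : SqniVal ι₁ α φ A W₁ W₂ V₁ V₂ V₃ ϖ π₂ q)
include P

theorem ϖ_ne : ϖ ≠ 0 :=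
  sqni_unif_ne_zero P.discA (Nat.cast_ne_zero.mpr P.hq.ne_zero)
    ((ValuationSubring.mem_nonunits_iff _).mp P.q_mem)

theorem ϖ₁_ne : ι₁ ϖ ≠ 0 := (map_ne_zero ι₁).mpr P.ϖ_ne

theorem ϖF_ne : α (ι₁ ϖ) ≠ 0 := (map_ne_zero α).mpr P.ϖ₁_ne

theorem π₂_ne : π₂ ≠ 0 := by
  rintro rfl
  have h := P.pow₂
  have hq1 : q - 1 ≠ 0 := by have := P.hq.two_le; omega
  rw [map_zero, zero_pow hq1] at h
  exact (Valuation.ne_zero_iff _).mpr P.ϖF_ne h.symm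

theorem ordL : SqwOrd A (sqniOrd A ϖ) := sqni_ord P.unifA.1 P.ϖ_ne P.discA

theorem ordW₁ : SqwOrd W₁ (sqniOrd W₁ (ι₁ ϖ)) := sqni_ord P.unifW₁.1 P.ϖ₁_ne P.discW₁

theorem ordW₂ : SqwOrd W₂ (sqniOrd W₂ (ι₁ ϖ)) := sqni_ord P.unifW₂.1 P.ϖ₁_ne P.discW₂

theorem ordV₁ : SqwOrd V₁ (sqniOrd V₁ (α (ι₁ ϖ))) := sqni_ord P.unifV₁.1 P.ϖF_ne P.discV₁

theorem ordV₂ : SqwOrd V₂ (sqniOrd V₂ π₂) := sqni_ord P.unifV₂.1 P.π₂_ne P.discV₂

theorem ordV₃ : SqwOrd V₃ (sqniOrd V₃ (α (ι₁ ϖ))) := sqni_ord P.unifV₃.1 P.ϖF_ne P.discV₃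

theorem w₁_const (c : L) (hc : c ≠ 0) : sqniOrd W₁ (ι₁ ϖ) (ι₁ c) = sqniOrd A ϖ c :=
  sqniOrd_eq P.unifW₁.1 P.ϖ₁_ne (sqni_val_map P.overW₁ P.ϖ_ne (sqniOrd_spec P.discA hc))

theorem w₂_const (c : L) (hc : c ≠ 0) : sqniOrd W₂ (ι₁ ϖ) (ι₁ c) = sqniOrd A ϖ c :=
  sqniOrd_eq P.unifW₂.1 P.ϖ₁_ne (sqni_val_map P.overW₂ P.ϖ_ne (sqniOrd_spec P.discA hc))

theorem o₂_ϖ : sqniOrd V₂ π₂ (α (ι₁ ϖ)) = (q : ℤ) - 1 := by
  refine sqniOrd_eq P.unifV₂.1 P.π₂_ne ?_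
  rw [← P.pow₂, ← zpow_natCast, Nat.cast_pred P.hq.pos]

theorem q_mem₁ : (q : F₁) ∈ W₁.nonunits := by
  have := (sqni_nonunits_iff P.overW₁ (q : L)).mpr P.q_mem
  rwa [map_natCast] at this

theorem q_mem₂ : (q : F₁) ∈ W₂.nonunits := by
  have := (sqni_nonunits_iff P.overW₂ (q : L)).mpr P.q_mem
  rwa [map_natCast] at this

/-- the degree of `α` is `q` -/
theorem Nα_α (y : F₁) : sqniNorm α (α y) = y ^ q := by
  letI := α.toAlgebra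
  have h := Algebra.norm_algebraMap (R := F₁) (S := F) y
  rw [show Module.finrank F₁ F = q from P.degα] at h
  exact h

/-- the degree of `φ` is `q` -/
theorem Nφ_φ (y : F₁) : sqniNorm φ (φ y) = y ^ q := by
  letI := φ.toAlgebra
  have h := Algebra.norm_algebraMap (R := F₁) (S := F) y
  rw [show Module.finrank F₁ F = q from P.degφ] at h
  exact h

theorem Nα_zero : sqniNorm α 0 = 0 := by
  have h := P.Nα_α 0
  rwa [map_zero, zero_pow P.hq.ne_zero] at h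

theorem Nφ_zero : sqniNorm φ 0 = 0 := by
  have h := P.Nφ_φ 0
  rwa [map_zero, zero_pow P.hq.ne_zero] at h

end Basic

section NRv

variable [CharZero L] (P : SqniVal ι₁ α φ A W₁ W₂ V₁ V₂ V₃ ϖ π₂ q)
include P

/-- (NRv) for `α` over `W₁` -/
theorem nrvα₁ (hα₁ : SqniNRSplit α W₁ (ι₁ ϖ) V₁ V₂ (α (ι₁ ϖ)) π₂ q) (g : F) (hg : g ≠ 0) :
    sqniOrd W₁ (ι₁ ϖ) (sqniNorm α g) =
      sqniOrd V₁ (α (ι₁ ϖ)) g + sqniOrd V₂ π₂ g := by
  letI := α.toAlgebra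
  exact sqniOrd_eq P.unifW₁.1 P.ϖ₁_ne
    (sqni_split_val hα₁ P.degα P.hq.two_le g _ _ (sqniOrd_spec P.discV₁ hg)
      (sqniOrd_spec P.discV₂ hg))

/-- (NRv) for `α` over `W₂` -/
theorem nrvα₂ (hα₂ : SqniNRInert α W₂ (ι₁ ϖ) V₃ (α (ι₁ ϖ))) (g : F) (hg : g ≠ 0) :
    sqniOrd W₂ (ι₁ ϖ) (sqniNorm α g) = q * sqniOrd V₃ (α (ι₁ ϖ)) g := by
  letI := α.toAlgebra
  exact sqniOrd_eq P.unifW₂.1 P.ϖ₁_ne
    (sqni_inert_val hα₂ P.degα g _ (sqniOrd_spec P.discV₃ hg))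

/-- (NRv) for `φ` over `W₁` -/
theorem nrvφ₁ (hφ₁ : SqniNRInert φ W₁ (ι₁ ϖ) V₁ (α (ι₁ ϖ))) (g : F) (hg : g ≠ 0) :
    sqniOrd W₁ (ι₁ ϖ) (sqniNorm φ g) = q * sqniOrd V₁ (α (ι₁ ϖ)) g := by
  letI := φ.toAlgebra
  exact sqniOrd_eq P.unifW₁.1 P.ϖ₁_ne
    (sqni_inert_val hφ₁ P.degφ g _ (sqniOrd_spec P.discV₁ hg))

/-- (NRv) for `φ` over `W₂` -/
theorem nrvφ₂ (hφ₂ : SqniNRSplit φ W₂ (ι₁ ϖ) V₃ V₂ (α (ι₁ ϖ)) π₂ q) (g : F) (hg : g ≠ 0) :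
    sqniOrd W₂ (ι₁ ϖ) (sqniNorm φ g) =
      sqniOrd V₂ π₂ g + sqniOrd V₃ (α (ι₁ ϖ)) g := by
  letI := φ.toAlgebra
  rw [add_comm]
  exact sqniOrd_eq P.unifW₂.1 P.ϖ₁_ne
    (sqni_split_val hφ₂ P.degφ P.hq.two_le g _ _ (sqniOrd_spec P.discV₃ hg)
      (sqniOrd_spec P.discV₂ hg))

end NRv

section NRr

variable [CharZero L] (P : SqniVal ι₁ α φ A W₁ W₂ V₁ V₂ V₃ ϖ π₂ q)
include P

/-- (NRr) for `α` over `W₁` : `V₁ (e = f = 1)`, `V₂ (e = q - 1, f = 1)` -/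
theorem nrα₁₂ (hα₁ : SqniNRSplit α W₁ (ι₁ ϖ) V₁ V₂ (α (ι₁ ϖ)) π₂ q) (g : F) (hg : g ≠ 0)
    (ψ₁ ψ₂ : F₁) (hψ₁0 : ψ₁ ≠ 0) (hψ₁ : ψ₁ ∈ W₁) (hψ₁i : ψ₁⁻¹ ∈ W₁) (hψ₂0 : ψ₂ ≠ 0)
    (hψ₂ : ψ₂ ∈ W₁) (hψ₂i : ψ₂⁻¹ ∈ W₁) (h₁ : g * α ψ₁ - 1 ∈ V₁.nonunits)
    (h₂ : g * α ψ₂ - 1 ∈ V₂.nonunits) :
    sqniNorm α g * ψ₁ * ψ₂ ^ (q - 1) - 1 ∈ W₁.nonunits := by
  letI := α.toAlgebra
  have e₁ : g - α ψ₁⁻¹ ∈ V₁.nonunits := by
    rw [map_inv₀]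
    refine sqni_sub_inv ((map_ne_zero α).mpr hψ₁0) ?_ h₁
    rw [← map_inv₀]
    exact (sqni_mem_iff P.posα₁ _).mpr hψ₁i
  have e₂ : g - α ψ₂⁻¹ ∈ V₂.nonunits := by
    rw [map_inv₀]
    refine sqni_sub_inv ((map_ne_zero α).mpr hψ₂0) ?_ h₂
    rw [← map_inv₀]
    exact (sqni_mem_iff P.posα₂ _).mpr hψ₂i
  have h := sqni_split_congr hα₁ P.degα P.hq.two_le g ψ₁⁻¹ ψ₂⁻¹ hψ₁i hψ₂i e₁ e₂
  have h3 := sqni_mul_sub_one (c := ψ₁ * ψ₂ ^ (q - 1))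
    (W₁.mul_mem _ _ hψ₁ (W₁.pow_mem hψ₂ _)) (by
      rw [inv_pow]
      field_simp) h
  rwa [← mul_assoc] at h3

/-- the norm along `α` of an element of `V₃` is in `W₂` -/
theorem normα_mem₃ (hα₂ : SqniNRInert α W₂ (ι₁ ϖ) V₃ (α (ι₁ ϖ))) (x : F) (hx : x ∈ V₃) :
    sqniNorm α x ∈ W₂ := by
  rcases eq_or_ne x 0 with rfl | hx0
  · rw [P.Nα_zero]
    exact W₂.zero_mem
  · have hN0 : sqniNorm α x ≠ 0 := by
      intro h
      have h1 : sqniNorm α x * sqniNorm α x⁻¹ = 1 := by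
        rw [← map_mul, mul_inv_cancel₀ hx0, map_one]
      rw [h, zero_mul] at h1
      exact zero_ne_one h1
    rw [P.ordW₂.mem _ hN0, P.nrvα₂ hα₂ x hx0]
    exact mul_nonneg (Int.natCast_nonneg q) ((P.ordV₃.mem x hx0).mp hx)

/-- (NRr), `V₃ | W₂` via `α` purely inseparable of degree `q` : `α (Nα x) ≡ x ^ q` -/
theorem nrα₃ (hα₂ : SqniNRInert α W₂ (ι₁ ϖ) V₃ (α (ι₁ ϖ))) (x : F) (hx : x ∈ V₃) :
    α (sqniNorm α x) - x ^ q ∈ V₃.nonunits := by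
  obtain ⟨r, hr, hxr⟩ := P.ins₃ x hx
  have hN := P.normα_mem₃ hα₂ x hx
  have h4 : sqniNorm α x - r ∈ W₂.nonunits := by
    letI := α.toAlgebra
    have h := sqni_inert_congr hα₂ P.degα (x ^ q) r hr hxr
    rw [map_pow] at h
    have hc : SqwCong W₂ (Algebra.norm F₁ x ^ q) (r ^ q) :=
      ⟨W₂.pow_mem hN _, W₂.pow_mem hr _, h⟩
    exact (SqwCong.of_pow_prime P.hq P.q_mem₂ hN hr hc).2.2
  have h5 : α (sqniNorm α x - r) ∈ V₃.nonunits := (sqni_nonunits_iff P.posα₃ _).mpr h4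
  have h6 : α (sqniNorm α x) - x ^ q = α (sqniNorm α x - r) - (x ^ q - α r) := by
    rw [map_sub]
    ring
  rw [h6]
  exact sub_mem h5 hxr

/-- the norm along `φ` of an element of `V₁` is in `W₁` -/
theorem normφ_mem₁ (hφ₁ : SqniNRInert φ W₁ (ι₁ ϖ) V₁ (α (ι₁ ϖ))) (x : F) (hx : x ∈ V₁) :
    sqniNorm φ x ∈ W₁ := by
  rcases eq_or_ne x 0 with rfl | hx0
  · rw [P.Nφ_zero]
    exact W₁.zero_mem
  · have hN0 : sqniNorm φ x ≠ 0 := by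
      intro h
      have h1 : sqniNorm φ x * sqniNorm φ x⁻¹ = 1 := by
        rw [← map_mul, mul_inv_cancel₀ hx0, map_one]
      rw [h, zero_mul] at h1
      exact zero_ne_one h1
    rw [P.ordW₁.mem _ hN0, P.nrvφ₁ hφ₁ x hx0]
    exact mul_nonneg (Int.natCast_nonneg q) ((P.ordV₁.mem x hx0).mp hx)

/-- (NRr), `V₁ | W₁` via `φ` purely inseparable of degree `q` : `φ (Nφ x) ≡ x ^ q` -/
theorem nrφ₁ (hφ₁ : SqniNRInert φ W₁ (ι₁ ϖ) V₁ (α (ι₁ ϖ))) (x : F) (hx : x ∈ V₁) :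
    φ (sqniNorm φ x) - x ^ q ∈ V₁.nonunits := by
  obtain ⟨r, hr, hxr⟩ := P.ins₁ x hx
  have hN := P.normφ_mem₁ hφ₁ x hx
  have h4 : sqniNorm φ x - r ∈ W₁.nonunits := by
    letI := φ.toAlgebra
    have h := sqni_inert_congr hφ₁ P.degφ (x ^ q) r hr hxr
    rw [map_pow] at h
    have hc : SqwCong W₁ (Algebra.norm F₁ x ^ q) (r ^ q) :=
      ⟨W₁.pow_mem hN _, W₁.pow_mem hr _, h⟩
    exact (SqwCong.of_pow_prime P.hq P.q_mem₁ hN hr hc).2.2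
  have h5 : φ (sqniNorm φ x - r) ∈ V₁.nonunits := (sqni_nonunits_iff P.posφ₁ _).mpr h4
  have h6 : φ (sqniNorm φ x) - x ^ q = φ (sqniNorm φ x - r) - (x ^ q - φ r) := by
    rw [map_sub]
    ring
  rw [h6]
  exact sub_mem h5 hxr

/-- (NRr) for `φ` over `W₂` : `V₂ (e = q - 1, f = 1)`, `V₃ (e = f = 1)` -/
theorem nrφ₂₃ (hφ₂ : SqniNRSplit φ W₂ (ι₁ ϖ) V₃ V₂ (α (ι₁ ϖ)) π₂ q) (g : F) (hg : g ≠ 0)
    (χ₂ χ₃ : F₁) (hχ₂0 : χ₂ ≠ 0) (hχ₂ : χ₂ ∈ W₂) (hχ₂i : χ₂⁻¹ ∈ W₂) (hχ₃0 : χ₃ ≠ 0)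
    (hχ₃ : χ₃ ∈ W₂) (hχ₃i : χ₃⁻¹ ∈ W₂) (h₂ : g * φ χ₂ - 1 ∈ V₂.nonunits)
    (h₃ : g * φ χ₃ - 1 ∈ V₃.nonunits) :
    sqniNorm φ g * χ₂ ^ (q - 1) * χ₃ - 1 ∈ W₂.nonunits := by
  letI := φ.toAlgebra
  have e₂ : g - φ χ₂⁻¹ ∈ V₂.nonunits := by
    rw [map_inv₀]
    refine sqni_sub_inv ((map_ne_zero φ).mpr hχ₂0) ?_ h₂
    rw [← map_inv₀]
    exact (sqni_mem_iff P.posφ₂ _).mpr hχ₂i
  have e₃ : g - φ χ₃⁻¹ ∈ V₃.nonunits := by
    rw [map_inv₀]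
    refine sqni_sub_inv ((map_ne_zero φ).mpr hχ₃0) ?_ h₃
    rw [← map_inv₀]
    exact (sqni_mem_iff P.posφ₃ _).mpr hχ₃i
  have h := sqni_split_congr hφ₂ P.degφ P.hq.two_le g χ₃⁻¹ χ₂⁻¹ hχ₃i hχ₂i e₃ e₂
  have h3 := sqni_mul_sub_one (c := χ₂ ^ (q - 1) * χ₃)
    (W₂.mul_mem _ _ (W₂.pow_mem hχ₂ _) hχ₃) (by
      rw [inv_pow]
      field_simp) h
  rwa [← mul_assoc] at h3

end NRr

end SqniVal

/-- THE FOUR (NR²) STATEMENTS : `sqnr_main` at the four positions -/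
structure SqniNRHyp (ι₁ : L →+* F₁) (α φ : F₁ →+* F) (W₁ W₂ : ValuationSubring F₁)
    (V₁ V₂ V₃ : ValuationSubring F) (ϖ : L) (π₂ : F) (q : ℕ) : Prop where
  /-- via `α` over `W₁` : `V₁ (e = 1)`, `V₂ (e = q - 1)` -/
  α₁ : SqniNRSplit α W₁ (ι₁ ϖ) V₁ V₂ (α (ι₁ ϖ)) π₂ q
  /-- via `α` over `W₂` : `V₃ (e = 1)` -/
  α₂ : SqniNRInert α W₂ (ι₁ ϖ) V₃ (α (ι₁ ϖ))
  /-- via `φ` over `W₁` : `V₁ (e = 1)` -/
  φ₁ : SqniNRInert φ W₁ (ι₁ ϖ) V₁ (α (ι₁ ϖ))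
  /-- via `φ` over `W₂` : `V₃ (e = 1)`, `V₂ (e = q - 1)` -/
  φ₂ : SqniNRSplit φ W₂ (ι₁ ϖ) V₃ V₂ (α (ι₁ ϖ)) π₂ q

variable {ι₁ : L →+* F₁} {α φ : F₁ →+* F} {A : ValuationSubring L}
  {W₁ W₂ : ValuationSubring F₁} {V₁ V₂ V₃ : ValuationSubring F} {ϖ : L} {π₂ : F} {q : ℕ}

/-- **(NORM-INST)** : `SqNormData` (blueprint v2 §4.1) from (VAL²) and (NR²). -/
theorem sqni_normData_of_nr [CharZero L] (P : SqniVal ι₁ α φ A W₁ W₂ V₁ V₂ V₃ ϖ π₂ q)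
    (N : SqniNRHyp ι₁ α φ W₁ W₂ V₁ V₂ V₃ ϖ π₂ q) :
    SqNormData ι₁ α φ (sqniNorm α) (sqniNorm φ) A W₁ W₂ V₁ V₂ V₃ (sqniOrd A ϖ)
      (sqniOrd W₁ (ι₁ ϖ)) (sqniOrd W₂ (ι₁ ϖ)) (sqniOrd V₁ (α (ι₁ ϖ))) (sqniOrd V₂ π₂)
      (sqniOrd V₃ (α (ι₁ ϖ))) ϖ q where
  ordL := P.ordL
  ordW₁ := P.ordW₁
  ordW₂ := P.ordW₂
  ordV₁ := P.ordV₁
  ordV₂ := P.ordV₂
  ordV₃ := P.ordV₃
  ι_eq := P.ι_eq
  ϖ_ne := P.ϖ_ne
  vL_ϖ := sqniOrd_self P.unifA.1 P.ϖ_ne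
  w₁_const := P.w₁_const
  w₂_const := P.w₂_const
  o₁_ϖ := sqniOrd_self P.unifV₁.1 P.ϖF_ne
  o₂_ϖ := P.o₂_ϖ
  o₃_ϖ := sqniOrd_self P.unifV₃.1 P.ϖF_ne
  Nα_α := P.Nα_α
  Nφ_φ := P.Nφ_φ
  α_mem₁ := fun x hx => (sqni_mem_iff P.posα₁ x).mpr hx
  α_max₁ := fun x hx => (sqni_nonunits_iff P.posα₁ x).mpr hx
  α_mem₂ := fun x hx => (sqni_mem_iff P.posα₂ x).mpr hx
  α_max₂ := fun x hx => (sqni_nonunits_iff P.posα₂ x).mpr hx
  α_mem₃ := fun x hx => (sqni_mem_iff P.posα₃ x).mpr hx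
  α_max₃ := fun x hx => (sqni_nonunits_iff P.posα₃ x).mpr hx
  φ_mem₁ := fun x hx => (sqni_mem_iff P.posφ₁ x).mpr hx
  φ_max₁ := fun x hx => (sqni_nonunits_iff P.posφ₁ x).mpr hx
  φ_mem₂ := fun x hx => (sqni_mem_iff P.posφ₂ x).mpr hx
  φ_max₂ := fun x hx => (sqni_nonunits_iff P.posφ₂ x).mpr hx
  φ_mem₃ := fun x hx => (sqni_mem_iff P.posφ₃ x).mpr hx
  φ_max₃ := fun x hx => (sqni_nonunits_iff P.posφ₃ x).mpr hx
  nrvα₁ := P.nrvα₁ N.α₁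
  nrvα₂ := P.nrvα₂ N.α₂
  nrvφ₁ := P.nrvφ₁ N.φ₁
  nrvφ₂ := P.nrvφ₂ N.φ₂
  nrα₃ := P.nrα₃ N.α₂
  nrφ₁ := P.nrφ₁ N.φ₁
  nrα₁₂ := fun g hg _ _ _ _ ψ₁ ψ₂ hψ₁0 hψ₁ hψ₁i hψ₂0 hψ₂ hψ₂i h₁ h₂ =>
    P.nrα₁₂ N.α₁ g hg ψ₁ ψ₂ hψ₁0 hψ₁ hψ₁i hψ₂0 hψ₂ hψ₂i h₁ h₂
  nrφ₂₃ := fun g hg _ _ _ _ ψ₂ ψ₃ hψ₂0 hψ₂ hψ₂i hψ₃0 hψ₃ hψ₃i h₂ h₃ =>
    P.nrφ₂₃ N.φ₂ g hg ψ₂ ψ₃ hψ₂0 hψ₂ hψ₂i hψ₃0 hψ₃ hψ₃i h₂ h₃
  res₁α := P.res₁α
  res₂α := P.res₂α
  res₂φ := P.res₂φ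
  res₃φ := P.res₃φ

/-! ### Discharging (NR²) : the hypotheses of `sqnr_main` at the four positions -/

section Main

/-- THE STATEMENT OF helper19's `sqnr_main` for the extension `K / K₁` (index types in `Type`) -/
def SqniNRMain (K₁ K : Type*) [Field K₁] [Field K] [Algebra K₁ K] : Prop :=
  ∀ (ι : Type) [Fintype ι] (W : ValuationSubring K₁) (ϖ : K₁) (_ : ϖ ≠ 0)
    (_ : W.valuation ϖ < 1)
    (_ : ∀ x : K₁, x ≠ 0 → ∃ n : ℤ, W.valuation x = W.valuation ϖ ^ n)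
    (V : ι → ValuationSubring K) (_ : Function.Injective V)
    (_ : ∀ i, (V i).comap (algebraMap K₁ K) = W)
    (_ : ∀ V' : ValuationSubring K, V'.comap (algebraMap K₁ K) = W → ∃ i, V' = V i)
    (π : ι → K) (_ : ∀ i, S18IsUnif (V i) (π i)) (e : ι → ℕ)
    (_ : ∀ i, (V i).valuation (π i) ^ e i = (V i).valuation (algebraMap K₁ K ϖ)),
    SqniNR W ϖ V π e

theorem sqni_fin2_injective {X : Type*} {a b : X} (h : a ≠ b) : Function.Injective ![a, b] := by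
  intro i j hij
  fin_cases i <;> fin_cases j
  · rfl
  · exact absurd hij h
  · exact absurd hij.symm h
  · rfl

namespace SqniVal

variable [CharZero L] (P : SqniVal ι₁ α φ A W₁ W₂ V₁ V₂ V₃ ϖ π₂ q)
include P

theorem ne₁₂ : V₁ ≠ V₂ := fun h => P.neW (by rw [← P.posφ₁, ← P.posφ₂, h])

theorem ne₁₃ : V₁ ≠ V₃ := fun h => P.neW (by rw [← P.posα₁, ← P.posα₃, h])

theorem ne₂₃ : V₂ ≠ V₃ := fun h => P.neW (by rw [← P.posα₂, ← P.posα₃, h])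

/-- exactly `V₁`, `V₂` lie over `W₁` via `α` -/
theorem allα₁ (V' : ValuationSubring F) (h : V'.comap α = W₁) : V' = V₁ ∨ V' = V₂ := by
  rcases P.casesα V' (Or.inl h) with h1 | h1 | h1
  · exact Or.inl h1
  · exact Or.inr h1
  · exact absurd (by rw [← h, h1, P.posα₃]) P.neW

/-- exactly `V₃` lies over `W₂` via `α` -/
theorem allα₂ (V' : ValuationSubring F) (h : V'.comap α = W₂) : V' = V₃ := by
  rcases P.casesα V' (Or.inr h) with h1 | h1 | h1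
  · exact absurd (by rw [← h, h1, P.posα₁]) P.neW
  · exact absurd (by rw [← h, h1, P.posα₂]) P.neW
  · exact h1

/-- exactly `V₁` lies over `W₁` via `φ` -/
theorem allφ₁ (V' : ValuationSubring F) (h : V'.comap φ = W₁) : V' = V₁ := by
  rcases P.casesφ V' (Or.inl h) with h1 | h1 | h1
  · exact h1
  · exact absurd (by rw [← h, h1, P.posφ₂]) P.neW
  · exact absurd (by rw [← h, h1, P.posφ₃]) P.neW

/-- exactly `V₂`, `V₃` lie over `W₂` via `φ` -/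
theorem allφ₂ (V' : ValuationSubring F) (h : V'.comap φ = W₂) : V' = V₃ ∨ V' = V₂ := by
  rcases P.casesφ V' (Or.inr h) with h1 | h1 | h1
  · exact absurd (by rw [← h, h1, P.posφ₁]) P.neW
  · exact Or.inr h1
  · exact Or.inl h1

/-- (NR²) at the four positions from `sqnr_main` along `α` and along `φ` -/
theorem nr_of_main (hα : @SqniNRMain F₁ F _ _ α.toAlgebra) (hφ : @SqniNRMain F₁ F _ _ φ.toAlgebra) :
    SqniNRHyp ι₁ α φ W₁ W₂ V₁ V₂ V₃ ϖ π₂ q where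
  α₁ := by
    letI := α.toAlgebra
    refine hα (Fin 2) W₁ (ι₁ ϖ) P.ϖ₁_ne P.unifW₁.1 P.discW₁ ![V₁, V₂] (sqni_fin2_injective P.ne₁₂)
      ?_ ?_ ![α (ι₁ ϖ), π₂] ?_ ![1, q - 1] ?_
    · intro i
      fin_cases i
      · exact P.posα₁
      · exact P.posα₂
    · intro V' h
      rcases P.allα₁ V' h with h1 | h1
      · exact ⟨0, h1⟩
      · exact ⟨1, h1⟩
    · intro i
      fin_cases i
      · exact P.unifV₁
      · exact P.unifV₂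
    · intro i
      fin_cases i
      · exact pow_one _
      · exact P.pow₂
  α₂ := by
    letI := α.toAlgebra
    exact hα Unit W₂ (ι₁ ϖ) P.ϖ₁_ne P.unifW₂.1 P.discW₂ (fun _ => V₃) (fun _ _ _ => Subsingleton.elim _ _)
      (fun _ => P.posα₃) (fun V' h => ⟨(), P.allα₂ V' h⟩) (fun _ => α (ι₁ ϖ))
      (fun _ => P.unifV₃) (fun _ => 1) (fun _ => pow_one _)
  φ₁ := by
    letI := φ.toAlgebra
    exact hφ Unit W₁ (ι₁ ϖ) P.ϖ₁_ne P.unifW₁.1 P.discW₁ (fun _ => V₁) (fun _ _ _ => Subsingleton.elim _ _)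
      (fun _ => P.posφ₁) (fun V' h => ⟨(), P.allφ₁ V' h⟩) (fun _ => α (ι₁ ϖ))
      (fun _ => P.unifV₁) (fun _ => 1)
      (fun _ => (pow_one _).trans (congrArg V₁.valuation (P.ι_eq ϖ)))
  φ₂ := by
    letI := φ.toAlgebra
    refine hφ (Fin 2) W₂ (ι₁ ϖ) P.ϖ₁_ne P.unifW₂.1 P.discW₂ ![V₃, V₂]
      (sqni_fin2_injective (Ne.symm P.ne₂₃)) ?_ ?_ ![α (ι₁ ϖ), π₂] ?_ ![1, q - 1] ?_
    · intro i
      fin_cases i
      · exact P.posφ₃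
      · exact P.posφ₂
    · intro V' h
      rcases P.allφ₂ V' h with h1 | h1
      · exact ⟨0, h1⟩
      · exact ⟨1, h1⟩
    · intro i
      fin_cases i
      · exact P.unifV₃
      · exact P.unifV₂
    · intro i
      fin_cases i
      · exact (pow_one _).trans (congrArg V₃.valuation (P.ι_eq ϖ))
      · exact P.pow₂.trans (congrArg V₂.valuation (P.ι_eq ϖ))

end SqniVal

/-- **(NORM-INST)**, from `sqnr_main` along `α` and along `φ`. -/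
theorem sqni_normData_of_main [CharZero L] (P : SqniVal ι₁ α φ A W₁ W₂ V₁ V₂ V₃ ϖ π₂ q)
    (hα : @SqniNRMain F₁ F _ _ α.toAlgebra) (hφ : @SqniNRMain F₁ F _ _ φ.toAlgebra) :
    SqNormData ι₁ α φ (sqniNorm α) (sqniNorm φ) A W₁ W₂ V₁ V₂ V₃ (sqniOrd A ϖ)
      (sqniOrd W₁ (ι₁ ϖ)) (sqniOrd W₂ (ι₁ ϖ)) (sqniOrd V₁ (α (ι₁ ϖ))) (sqniOrd V₂ π₂)
      (sqniOrd V₃ (α (ι₁ ϖ))) ϖ q :=
  sqni_normData_of_nr P (P.nr_of_main hα hφ)

/-- `sqnr_main` (helper19, `SQ/NRVal.lean`) in the form `SqniNRMain` -/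
theorem sqni_nrMain {K₁ K : Type*} [Field K₁] [Field K] [Algebra K₁ K] [FiniteDimensional K₁ K]
    [CharZero K₁] : SqniNRMain K₁ K :=
  fun _ _ W ϖ hϖ0 hϖ hdisc V hinj hover hall π hπ e he =>
    sqnr_main W ϖ hϖ0 hϖ hdisc V hinj hover hall π hπ e he

/-- **(NORM-INST)** : `SqNormData` (blueprint v2 §4.1) from the (VAL²) export `SqniVal`. -/
theorem sqni_normData [CharZero L] (P : SqniVal ι₁ α φ A W₁ W₂ V₁ V₂ V₃ ϖ π₂ q) :
    SqNormData ι₁ α φ (sqniNorm α) (sqniNorm φ) A W₁ W₂ V₁ V₂ V₃ (sqniOrd A ϖ)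
      (sqniOrd W₁ (ι₁ ϖ)) (sqniOrd W₂ (ι₁ ϖ)) (sqniOrd V₁ (α (ι₁ ϖ))) (sqniOrd V₂ π₂)
      (sqniOrd V₃ (α (ι₁ ϖ))) ϖ q := by
  haveI : CharZero F₁ := charZero_of_injective_ringHom ι₁.injective
  refine sqni_normData_of_main P ?_ ?_
  · letI := α.toAlgebra
    haveI : FiniteDimensional F₁ F := P.finα
    exact sqni_nrMain
  · letI := φ.toAlgebra
    haveI : FiniteDimensional F₁ F := P.finφ
    exact sqni_nrMain

end Main

end Fermat.Agent.SQ
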