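import Mathlib
import Fermat.Agent.SQ.NormInst

/-!
# Program Q (S36) : the `φ`-half of the (VAL²) export from the `α`-half and a symmetry

`SqniVal` (the export shape of (VAL²), `SQ/NormInst.lean`) is symmetric under the exchange
`α ↔ φ`, `W₁ ↔ W₂`, `V₁ ↔ V₃` (Atkin–Lehner / Fricke).  `SqnsHalf` collects the fields of `SqniVal`
which only mention `α`; `SqnsSym` is the symmetry : ring automorphisms `w₁` of `F₁`, `w` of `F` with
`w ∘ α = φ ∘ w₁`, fixing the constants, `w₁` exchanging `W₁, W₂`, `w` exchanging `V₁, V₃` and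
fixing `V₂`.  Then `sqns_val : SqnsHalf → SqnsSym → SqniVal`.

Prefix `sqns` / `Sqns`.
-/

set_option autoImplicit false
set_option linter.unusedSectionVars false
set_option linter.unusedVariables false
set_option linter.style.haveILetI false

noncomputable section

namespace Fermat.Agent.SQ

open Fermat.Agent.S18

variable {L F₁ F : Type*} [Field L] [Field F₁] [Field F]

/-- THE `α`-HALF OF THE (VAL²) EXPORT : the fields of `SqniVal` which only mention `α`. -/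
structure SqnsHalf (ι₁ : L →+* F₁) (α : F₁ →+* F) (A : ValuationSubring L)
    (W₁ W₂ : ValuationSubring F₁) (V₁ V₂ V₃ : ValuationSubring F) (ϖ : L) (π₂ : F) (q : ℕ) :
    Prop where
  /-- the residue characteristic is a prime -/
  hq : q.Prime
  /-- `[F : α F₁] = q` -/
  finα : SqniFin α
  degα : sqniDeg α = q
  /-- `A` is a discrete valuation ring with uniformiser `ϖ` -/
  unifA : S18IsUnif A ϖ
  discA : ∀ c : L, c ≠ 0 → ∃ m : ℤ, A.valuation c = A.valuation ϖ ^ m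
  /-- residue characteristic `q` -/
  q_mem : (q : L) ∈ A.nonunits
  /-- `W₁`, `W₂` lie over `A`, unramified, discrete -/
  overW₁ : W₁.comap ι₁ = A
  overW₂ : W₂.comap ι₁ = A
  unifW₁ : S18IsUnif W₁ (ι₁ ϖ)
  unifW₂ : S18IsUnif W₂ (ι₁ ϖ)
  discW₁ : ∀ x : F₁, x ≠ 0 → ∃ m : ℤ, W₁.valuation x = W₁.valuation (ι₁ ϖ) ^ m
  discW₂ : ∀ x : F₁, x ≠ 0 → ∃ m : ℤ, W₂.valuation x = W₂.valuation (ι₁ ϖ) ^ m
  neW : W₁ ≠ W₂
  /-- `V₁`, `V₃` unramified, `V₂` of ramification index `q - 1`, all discrete -/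
  unifV₁ : S18IsUnif V₁ (α (ι₁ ϖ))
  unifV₂ : S18IsUnif V₂ π₂
  unifV₃ : S18IsUnif V₃ (α (ι₁ ϖ))
  pow₂ : V₂.valuation π₂ ^ (q - 1) = V₂.valuation (α (ι₁ ϖ))
  discV₁ : ∀ x : F, x ≠ 0 → ∃ m : ℤ, V₁.valuation x = V₁.valuation (α (ι₁ ϖ)) ^ m
  discV₂ : ∀ x : F, x ≠ 0 → ∃ m : ℤ, V₂.valuation x = V₂.valuation π₂ ^ m
  discV₃ : ∀ x : F, x ≠ 0 → ∃ m : ℤ, V₃.valuation x = V₃.valuation (α (ι₁ ϖ)) ^ m
  /-- the positions via `α` -/
  posα₁ : V₁.comap α = W₁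
  posα₂ : V₂.comap α = W₁
  posα₃ : V₃.comap α = W₂
  /-- completeness of the list, via `α` -/
  casesα : ∀ V' : ValuationSubring F, V'.comap α = W₁ ∨ V'.comap α = W₂ →
    V' = V₁ ∨ V' = V₂ ∨ V' = V₃
  /-- `κ(V₁) = ᾱ κ(W₁)` -/
  res₁α : ∀ x ∈ V₁, ∃ r ∈ W₁, x - α r ∈ V₁.nonunits
  /-- `κ(V₂) = ᾱ κ(W₁)` -/
  res₂α : ∀ x ∈ V₂, ∃ r ∈ W₁, x - α r ∈ V₂.nonunits
  /-- `κ(V₃)^q ⊆ ᾱ κ(W₂)` -/
  ins₃ : ∀ x ∈ V₃, ∃ r ∈ W₂, x ^ q - α r ∈ V₃.nonunits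

/-- THE SYMMETRY (Atkin–Lehner / Fricke) : `w ∘ α = φ ∘ w₁`, constants fixed, `w₁ : W₁ ↔ W₂`,
`w : V₁ ↔ V₃`, `V₂ ↔ V₂`.  (`V.comap w = V'` means `x ∈ V' ↔ w x ∈ V`.) -/
structure SqnsSym (ι₁ : L →+* F₁) (α φ : F₁ →+* F) (W₁ W₂ : ValuationSubring F₁)
    (V₁ V₂ V₃ : ValuationSubring F) (w₁ : F₁ ≃+* F₁) (w : F ≃+* F) : Prop where
  comm : ∀ x : F₁, w (α x) = φ (w₁ x)
  const₁ : ∀ c : L, w₁ (ι₁ c) = ι₁ c
  const : ∀ c : L, w (α (ι₁ c)) = α (ι₁ c)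
  W₁₂ : W₂.comap (w₁ : F₁ →+* F₁) = W₁
  W₂₁ : W₁.comap (w₁ : F₁ →+* F₁) = W₂
  V₁₃ : V₃.comap (w : F →+* F) = V₁
  V₃₁ : V₁.comap (w : F →+* F) = V₃
  V₂₂ : V₂.comap (w : F →+* F) = V₂

section Comap

variable {K : Type*} [Field K]

theorem sqns_mem_iff {V V' : ValuationSubring K} {w : K ≃+* K}
    (h : V.comap (w : K →+* K) = V') (x : K) : w x ∈ V ↔ x ∈ V' := by
  rw [← h, ValuationSubring.mem_comap]
  rfl

theorem sqns_nonunits_iff {V V' : ValuationSubring K} {w : K ≃+* K}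
    (h : V.comap (w : K →+* K) = V') (x : K) : w x ∈ V.nonunits ↔ x ∈ V'.nonunits :=
  sqni_nonunits_iff (f := (w : K →+* K)) h x

theorem sqns_symm_mem_iff {V V' : ValuationSubring K} {w : K ≃+* K}
    (h : V.comap (w : K →+* K) = V') (x : K) : w.symm x ∈ V' ↔ x ∈ V := by
  rw [← sqns_mem_iff h, RingEquiv.apply_symm_apply]

/-- `comap` along a ring automorphism is injective -/
theorem sqns_comap_injective {V V' : ValuationSubring K} (w : K ≃+* K)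
    (h : V.comap (w : K →+* K) = V'.comap (w : K →+* K)) : V = V' := by
  ext x
  have h1 : w.symm x ∈ V.comap (w : K →+* K) ↔ w.symm x ∈ V'.comap (w : K →+* K) := by rw [h]
  rw [ValuationSubring.mem_comap, ValuationSubring.mem_comap] at h1
  simpa using h1

end Comap

namespace SqnsSym

variable {ι₁ : L →+* F₁} {α φ : F₁ →+* F} {W₁ W₂ : ValuationSubring F₁}
  {V₁ V₂ V₃ : ValuationSubring F} {w₁ : F₁ ≃+* F₁} {w : F ≃+* F}
  (S : SqnsSym ι₁ α φ W₁ W₂ V₁ V₂ V₃ w₁ w)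
include S

theorem φ_eq (x : F₁) : φ x = w (α (w₁.symm x)) := by
  rw [S.comm, RingEquiv.apply_symm_apply]

theorem ι_eq (c : L) : α (ι₁ c) = φ (ι₁ c) := by
  rw [← S.const₁ c, ← S.comm, S.const₁, S.const]

/-- `V.comap w = V'`, `V'.comap α = W'`, `W.comap w₁ = W'` ⟹ `V.comap φ = W`. -/
theorem comap_φ {V V' : ValuationSubring F} {W W' : ValuationSubring F₁}
    (hV : V.comap (w : F →+* F) = V') (hα : V'.comap α = W')
    (hW : W.comap (w₁ : F₁ →+* F₁) = W') : V.comap φ = W := by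
  ext x
  rw [ValuationSubring.mem_comap, S.φ_eq, sqns_mem_iff hV, sqni_mem_iff hα,
    sqns_symm_mem_iff hW]

/-- `V'.comap φ = W`, `W.comap w₁ = W'` ⟹ `(V'.comap w).comap α = W'`. -/
theorem comap_α {V' : ValuationSubring F} {W W' : ValuationSubring F₁}
    (hφ : V'.comap φ = W) (hW : W.comap (w₁ : F₁ →+* F₁) = W') :
    (V'.comap (w : F →+* F)).comap α = W' := by
  ext x
  rw [ValuationSubring.mem_comap, ValuationSubring.mem_comap]
  show w (α x) ∈ V' ↔ _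
  rw [S.comm, sqni_mem_iff hφ, sqns_mem_iff hW]

theorem deg_eq : sqniDeg φ = sqniDeg α := by
  unfold sqniDeg
  refine (@Algebra.finrank_eq_of_equiv_equiv F₁ F _ _ α.toAlgebra F₁ F _ _ φ.toAlgebra w₁ w
    ?_).symm
  ext x
  exact (S.comm x).symm

end SqnsSym

variable {ι₁ : L →+* F₁} {α φ : F₁ →+* F} {A : ValuationSubring L}
  {W₁ W₂ : ValuationSubring F₁} {V₁ V₂ V₃ : ValuationSubring F} {ϖ : L} {π₂ : F} {q : ℕ}
  {w₁ : F₁ ≃+* F₁} {w : F ≃+* F}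

/-- **the (VAL²) export from its `α`-half and the symmetry.** -/
theorem sqns_val (H : SqnsHalf ι₁ α A W₁ W₂ V₁ V₂ V₃ ϖ π₂ q)
    (S : SqnsSym ι₁ α φ W₁ W₂ V₁ V₂ V₃ w₁ w) :
    SqniVal ι₁ α φ A W₁ W₂ V₁ V₂ V₃ ϖ π₂ q where
  hq := H.hq
  ι_eq := S.ι_eq
  finα := H.finα
  degα := H.degα
  finφ := by
    have h : sqniDeg φ = q := S.deg_eq.trans H.degα
    unfold sqniDeg at h
    unfold SqniFin
    letI := φ.toAlgebra
    exact Module.finite_of_finrank_pos (by rw [h]; exact H.hq.pos)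
  degφ := S.deg_eq.trans H.degα
  unifA := H.unifA
  discA := H.discA
  q_mem := H.q_mem
  overW₁ := H.overW₁
  overW₂ := H.overW₂
  unifW₁ := H.unifW₁
  unifW₂ := H.unifW₂
  discW₁ := H.discW₁
  discW₂ := H.discW₂
  neW := H.neW
  unifV₁ := H.unifV₁
  unifV₂ := H.unifV₂
  unifV₃ := H.unifV₃
  pow₂ := H.pow₂
  discV₁ := H.discV₁
  discV₂ := H.discV₂
  discV₃ := H.discV₃
  posα₁ := H.posα₁
  posα₂ := H.posα₂
  posα₃ := H.posα₃
  posφ₁ := S.comap_φ S.V₃₁ H.posα₃ S.W₂₁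
  posφ₂ := S.comap_φ S.V₂₂ H.posα₂ S.W₁₂
  posφ₃ := S.comap_φ S.V₁₃ H.posα₁ S.W₁₂
  casesα := H.casesα
  casesφ := by
    intro V' hV'
    have key : V'.comap (w : F →+* F) = V₁ ∨ V'.comap (w : F →+* F) = V₂ ∨
        V'.comap (w : F →+* F) = V₃ := by
      rcases hV' with h | h
      · exact H.casesα _ (Or.inr (S.comap_α h S.W₂₁))
      · exact H.casesα _ (Or.inl (S.comap_α h S.W₁₂))
    rcases key with h | h | h
    · exact Or.inr (Or.inr (sqns_comap_injective w (h.trans S.V₁₃.symm)))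
    · exact Or.inr (Or.inl (sqns_comap_injective w (h.trans S.V₂₂.symm)))
    · exact Or.inl (sqns_comap_injective w (h.trans S.V₃₁.symm))
  res₁α := H.res₁α
  res₂α := H.res₂α
  res₂φ := by
    intro x hx
    obtain ⟨r, hr, hxr⟩ := H.res₂α (w.symm x) ((sqns_symm_mem_iff S.V₂₂ x).mpr hx)
    refine ⟨w₁ r, (sqns_mem_iff S.W₁₂ r).mpr hr, ?_⟩
    have h1 := (sqns_nonunits_iff S.V₂₂ _).mpr hxr
    rwa [map_sub, RingEquiv.apply_symm_apply, S.comm] at h1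
  res₃φ := by
    intro x hx
    obtain ⟨r, hr, hxr⟩ := H.res₁α (w.symm x) ((sqns_symm_mem_iff S.V₁₃ x).mpr hx)
    refine ⟨w₁ r, (sqns_mem_iff S.W₁₂ r).mpr hr, ?_⟩
    have h1 := (sqns_nonunits_iff S.V₁₃ _).mpr hxr
    rwa [map_sub, RingEquiv.apply_symm_apply, S.comm] at h1
  ins₁ := by
    intro x hx
    obtain ⟨r, hr, hxr⟩ := H.ins₃ (w.symm x) ((sqns_symm_mem_iff S.V₃₁ x).mpr hx)
    refine ⟨w₁ r, (sqns_mem_iff S.W₂₁ r).mpr hr, ?_⟩
    have h1 := (sqns_nonunits_iff S.V₃₁ _).mpr hxr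
    rwa [map_sub, map_pow, RingEquiv.apply_symm_apply, S.comm] at h1
  ins₃ := H.ins₃

end Fermat.Agent.SQ
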