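import Fermat.Agent.SQ.NormData

/-!
# Program Q (S36) : `sq_new_normalise`  (blueprint `S36.md` v2 §4.2 = §1.6 (a) + (b))

IN : `SqNormData`, `n` coprime to `q`, `f ≠ 0` whose two norms are NORMALISED
`Nα f = ϖ^m · u · gⁿ`, `Nφ f = ϖ^m' · u' · g'ⁿ` (`u, u' ∈ 1 + 𝔪_A`), prescribed orders (`hval`), CRT
(`hcrt`) and the global NEWTON step (`hnewton`, for an abstract predicate `D`, in the application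
`D = S18DvdGauss hϖ t`; these three come from helper3's `SqvFam.exists_val / crt / newton`).

OUT : `f ^ ((q+1)(q-1)) = ϖ^a · Hⁿ · f₄` with `D (f₄ - 1)`, `f₄ ≡ 1 mod 𝔪_{Vᵢ}`, and normalised relations
`Nα f₄ = u gⁿ`, `Nφ f₄ = u' g'ⁿ` with `g, g'` units at `W₁, W₂`, `u, u' ∈ 1 + 𝔪_A`.

Mathlib only.  Prefix `sqw_` / `Sqw` (+ the blueprint name `sq_new_normalise`).
-/

set_option autoImplicit false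
set_option linter.unusedSectionVars false
set_option linter.unusedVariables false

noncomputable section

namespace Fermat.Agent.SQ

variable {L F₁ F : Type*} [Field L] [Field F₁] [Field F]

/-! ### One-units and normalised constants -/

section NC

variable {A : ValuationSubring L} {ϖ : L}

theorem sqw_oneUnit {u : L} (hu : u - 1 ∈ A.nonunits) : u ≠ 0 ∧ u ∈ A ∧ u⁻¹ ∈ A := by
  have c : SqwCong A u 1 := SqwCong.of_sub' A.one_mem hu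
  exact ⟨c.one_ne_zero, c.1, c.one_inv_mem⟩

theorem sqw_oneUnit_mul {u v : L} (hu : u - 1 ∈ A.nonunits) (hv : v - 1 ∈ A.nonunits) :
    u * v - 1 ∈ A.nonunits := by
  have c := (SqwCong.of_sub' A.one_mem hu).mul (SqwCong.of_sub' A.one_mem hv)
  rw [mul_one] at c
  exact c.2.2

theorem sqw_oneUnit_inv {u : L} (hu : u - 1 ∈ A.nonunits) : u⁻¹ - 1 ∈ A.nonunits := by
  have c := (SqwCong.of_sub' A.one_mem hu).inv (by rw [inv_one]; exact A.one_mem) one_ne_zero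
  rw [inv_one] at c
  exact c.2.2

/-- normalised constants : `ϖ ^ m · u` with `u ∈ 1 + 𝔪_A` -/
def SqwNC (A : ValuationSubring L) (ϖ : L) (c : L) : Prop :=
  ∃ (m : ℤ) (u : L), u - 1 ∈ A.nonunits ∧ c = ϖ ^ m * u

theorem SqwNC.one : SqwNC A ϖ 1 :=
  ⟨0, 1, by rw [sub_self]; exact zero_mem _, by rw [zpow_zero, one_mul]⟩

theorem SqwNC.unif_zpow (hϖ : ϖ ≠ 0) (a : ℤ) : SqwNC A ϖ (ϖ ^ a) :=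
  ⟨a, 1, by rw [sub_self]; exact zero_mem _, by rw [mul_one]⟩

theorem SqwNC.mul (hϖ : ϖ ≠ 0) {c d : L} (hc : SqwNC A ϖ c) (hd : SqwNC A ϖ d) :
    SqwNC A ϖ (c * d) := by
  obtain ⟨m, u, hu, rfl⟩ := hc
  obtain ⟨k, v, hv, rfl⟩ := hd
  exact ⟨m + k, u * v, sqw_oneUnit_mul hu hv, by rw [zpow_add₀ hϖ]; ring⟩

theorem SqwNC.inv {c : L} (hc : SqwNC A ϖ c) : SqwNC A ϖ c⁻¹ := by
  obtain ⟨m, u, hu, rfl⟩ := hc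
  exact ⟨-m, u⁻¹, sqw_oneUnit_inv hu, by rw [mul_inv, zpow_neg]⟩

theorem SqwNC.pow (hϖ : ϖ ≠ 0) {c : L} (hc : SqwNC A ϖ c) (k : ℕ) : SqwNC A ϖ (c ^ k) := by
  induction k with
  | zero => rw [pow_zero]; exact SqwNC.one
  | succ k ih => rw [pow_succ]; exact ih.mul hϖ hc

theorem SqwNC.ne_zero (hϖ : ϖ ≠ 0) {c : L} (hc : SqwNC A ϖ c) : c ≠ 0 := by
  obtain ⟨m, u, hu, rfl⟩ := hc
  exact mul_ne_zero (zpow_ne_zero _ hϖ) (sqw_oneUnit hu).1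

end NC

/-! ### Normalised newness -/

/-- the two norms of `f` are `normalised constant × n`-th power -/
def SqwNewN (ι₁ : L →+* F₁) (A : ValuationSubring L) (ϖ : L) (Nα Nφ : F →* F₁) (n : ℕ)
    (f : F) : Prop :=
  (∃ (c : L) (g : F₁), SqwNC A ϖ c ∧ g ≠ 0 ∧ Nα f = ι₁ c * g ^ n) ∧
  (∃ (c : L) (g : F₁), SqwNC A ϖ c ∧ g ≠ 0 ∧ Nφ f = ι₁ c * g ^ n)

section NewN

variable {ι₁ : L →+* F₁} {A : ValuationSubring L} {ϖ : L} {Nα Nφ : F →* F₁} {n : ℕ}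

theorem sqw_norm_ne_zero' (N : F →* F₁) {x : F} (hx : x ≠ 0) : N x ≠ 0 := by
  intro h
  have h1 : N x * N x⁻¹ = 1 := by rw [← map_mul, mul_inv_cancel₀ hx, map_one]
  rw [h, zero_mul] at h1
  exact zero_ne_one h1

theorem sqw_norm_inv' (N : F →* F₁) {x : F} (hx : x ≠ 0) : N x⁻¹ = (N x)⁻¹ := by
  have h1 : N x * N x⁻¹ = 1 := by rw [← map_mul, mul_inv_cancel₀ hx, map_one]
  exact eq_inv_of_mul_eq_one_right h1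

theorem SqwNewN.mul (hϖ : ϖ ≠ 0) {x y : F} (hx : SqwNewN ι₁ A ϖ Nα Nφ n x)
    (hy : SqwNewN ι₁ A ϖ Nα Nφ n y) : SqwNewN ι₁ A ϖ Nα Nφ n (x * y) := by
  obtain ⟨⟨c, g, hc, hg, h1⟩, ⟨c', g', hc', hg', h2⟩⟩ := hx
  obtain ⟨⟨d, k, hd, hk, h3⟩, ⟨d', k', hd', hk', h4⟩⟩ := hy
  refine ⟨⟨c * d, g * k, hc.mul hϖ hd, mul_ne_zero hg hk, ?_⟩,
    ⟨c' * d', g' * k', hc'.mul hϖ hd', mul_ne_zero hg' hk', ?_⟩⟩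
  · rw [map_mul, h1, h3, map_mul, mul_pow]; ring
  · rw [map_mul, h2, h4, map_mul, mul_pow]; ring

theorem SqwNewN.inv {x : F} (hx0 : x ≠ 0) (hx : SqwNewN ι₁ A ϖ Nα Nφ n x) :
    SqwNewN ι₁ A ϖ Nα Nφ n x⁻¹ := by
  obtain ⟨⟨c, g, hc, hg, h1⟩, ⟨c', g', hc', hg', h2⟩⟩ := hx
  refine ⟨⟨c⁻¹, g⁻¹, hc.inv, inv_ne_zero hg, ?_⟩, ⟨c'⁻¹, g'⁻¹, hc'.inv, inv_ne_zero hg', ?_⟩⟩
  · rw [sqw_norm_inv' Nα hx0, h1, map_inv₀, inv_pow, mul_inv]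
  · rw [sqw_norm_inv' Nφ hx0, h2, map_inv₀, inv_pow, mul_inv]

theorem SqwNewN.one : SqwNewN ι₁ A ϖ Nα Nφ n (1 : F) :=
  ⟨⟨1, 1, SqwNC.one, one_ne_zero, by simp⟩, ⟨1, 1, SqwNC.one, one_ne_zero, by simp⟩⟩

theorem SqwNewN.pow (hϖ : ϖ ≠ 0) {x : F} (hx : SqwNewN ι₁ A ϖ Nα Nφ n x) (k : ℕ) :
    SqwNewN ι₁ A ϖ Nα Nφ n (x ^ k) := by
  induction k with
  | zero => rw [pow_zero]; exact SqwNewN.one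
  | succ k ih => rw [pow_succ]; exact ih.mul hϖ hx

theorem SqwNewN.div (hϖ : ϖ ≠ 0) {x y : F} (hy0 : y ≠ 0) (hx : SqwNewN ι₁ A ϖ Nα Nφ n x)
    (hy : SqwNewN ι₁ A ϖ Nα Nφ n y) : SqwNewN ι₁ A ϖ Nα Nφ n (x / y) := by
  rw [div_eq_mul_inv]; exact hx.mul hϖ (hy.inv hy0)

/-- `n`-th powers are new -/
theorem SqwNewN.npow {x : F} (hx0 : x ≠ 0) : SqwNewN ι₁ A ϖ Nα Nφ n (x ^ n) :=
  ⟨⟨1, Nα x, SqwNC.one, sqw_norm_ne_zero' Nα hx0, by rw [map_pow, map_one, one_mul]⟩,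
    ⟨1, Nφ x, SqwNC.one, sqw_norm_ne_zero' Nφ hx0, by rw [map_pow, map_one, one_mul]⟩⟩

end NewN

variable {ι₁ : L →+* F₁} {α φ : F₁ →+* F} {Nα Nφ : F →* F₁}
  {A : ValuationSubring L} {W₁ W₂ : ValuationSubring F₁} {V₁ V₂ V₃ : ValuationSubring F}
  {vL : L → ℤ} {w₁ w₂ : F₁ → ℤ} {o₁ o₂ o₃ : F → ℤ} {ϖ : L} {q : ℕ}

/-- powers of the uniformiser are new -/
theorem SqNormData.newN_unif (H : SqNormData ι₁ α φ Nα Nφ A W₁ W₂ V₁ V₂ V₃ vL w₁ w₂ o₁ o₂ o₃ ϖ q)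
    (n : ℕ) (a : ℤ) : SqwNewN ι₁ A ϖ Nα Nφ n (α (ι₁ ϖ) ^ a) := by
  rw [← map_zpow₀, ← map_zpow₀]
  refine ⟨⟨(ϖ ^ a) ^ q, 1, (SqwNC.unif_zpow H.ϖ_ne a).pow H.ϖ_ne q, one_ne_zero, ?_⟩,
    ⟨(ϖ ^ a) ^ q, 1, (SqwNC.unif_zpow H.ϖ_ne a).pow H.ϖ_ne q, one_ne_zero, ?_⟩⟩
  · rw [H.Nα_const, map_pow, one_pow, mul_one]
  · rw [H.Nφ_const, map_pow, one_pow, mul_one]

/-! ### Step (a) : valuations -/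

/-- **(Q-NEW) (a)** : `f ^ (q + 1) = ϖ ^ a · H₀ ^ n · f₁` with `f₁` a unit at `V₁, V₂, V₃`, still
new. -/
theorem SqNormData.step_a (H : SqNormData ι₁ α φ Nα Nφ A W₁ W₂ V₁ V₂ V₃ vL w₁ w₂ o₁ o₂ o₃ ϖ q)
    (hval : ∀ b₁ b₂ b₃ : ℤ, ∃ Hh : F, Hh ≠ 0 ∧ o₁ Hh = b₁ ∧ o₂ Hh = b₂ ∧ o₃ Hh = b₃)
    {n : ℕ} {f : F} (hf : f ≠ 0) (hnew : SqwNewN ι₁ A ϖ Nα Nφ n f) :
    ∃ (a : ℤ) (H₀ f₁ : F), H₀ ≠ 0 ∧ f₁ ≠ 0 ∧ f ^ (q + 1) = α (ι₁ ϖ) ^ a * H₀ ^ n * f₁ ∧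
      o₁ f₁ = 0 ∧ o₂ f₁ = 0 ∧ o₃ f₁ = 0 ∧ SqwNewN ι₁ A ϖ Nα Nφ n f₁ := by
  have hnew' := hnew
  obtain ⟨⟨cα, gα, hcαN, hgα, hNα⟩, ⟨cφ, gφ, hcφN, hgφ, hNφ⟩⟩ := hnew
  have hcα : cα ≠ 0 := hcαN.ne_zero H.ϖ_ne
  have hcφ : cφ ≠ 0 := hcφN.ne_zero H.ϖ_ne
  have hιcα : ι₁ cα ≠ 0 := (map_ne_zero ι₁).mpr hcα
  have hιcφ : ι₁ cφ ≠ 0 := (map_ne_zero ι₁).mpr hcφ
  -- the four relations
  have e1 : o₁ f + o₂ f = vL cα + n * w₁ gα := by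
    rw [← H.nrvα₁ f hf, hNα, H.ordW₁.mul _ _ hιcα (pow_ne_zero n hgα), H.w₁_const cα hcα,
      H.ordW₁.pow hgα]
  have e2 : (q : ℤ) * o₃ f = vL cα + n * w₂ gα := by
    rw [← H.nrvα₂ f hf, hNα, H.ordW₂.mul _ _ hιcα (pow_ne_zero n hgα), H.w₂_const cα hcα,
      H.ordW₂.pow hgα]
  have e3 : (q : ℤ) * o₁ f = vL cφ + n * w₁ gφ := by
    rw [← H.nrvφ₁ f hf, hNφ, H.ordW₁.mul _ _ hιcφ (pow_ne_zero n hgφ), H.w₁_const cφ hcφ,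
      H.ordW₁.pow hgφ]
  have e4 : o₂ f + o₃ f = vL cφ + n * w₂ gφ := by
    rw [← H.nrvφ₂ f hf, hNφ, H.ordW₂.mul _ _ hιcφ (pow_ne_zero n hgφ), H.w₂_const cφ hcφ,
      H.ordW₂.pow hgφ]
  set dα : ℤ := w₁ gα - w₂ gα with hdα
  set dφ : ℤ := w₁ gφ - w₂ gφ with hdφ
  set a : ℤ := ((q : ℤ) + 1) * o₃ f with ha
  obtain ⟨H₀, hH₀0, hH₀1, hH₀2, hH₀3⟩ := hval (dα + dφ) ((q : ℤ) * dα - dφ) 0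
  have hϖF : α (ι₁ ϖ) ≠ 0 := (map_ne_zero α).mpr ((map_ne_zero ι₁).mpr H.ϖ_ne)
  have hden : α (ι₁ ϖ) ^ a * H₀ ^ n ≠ 0 := mul_ne_zero (zpow_ne_zero _ hϖF) (pow_ne_zero n hH₀0)
  have hfq : f ^ (q + 1) ≠ 0 := pow_ne_zero _ hf
  refine ⟨a, H₀, f ^ (q + 1) / (α (ι₁ ϖ) ^ a * H₀ ^ n), hH₀0, div_ne_zero hfq hden, ?_, ?_, ?_,
    ?_, ?_⟩
  · field_simp
  · rw [H.ordV₁.div hfq hden, H.ordV₁.pow hf, H.ordV₁.mul _ _ (zpow_ne_zero _ hϖF)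
      (pow_ne_zero n hH₀0), H.ordV₁.zpow hϖF, H.o₁_ϖ, H.ordV₁.pow hH₀0, hH₀1]
    push_cast
    rw [ha, hdα, hdφ]
    linear_combination e1 - e2 + e3 - e4
  · rw [H.ordV₂.div hfq hden, H.ordV₂.pow hf, H.ordV₂.mul _ _ (zpow_ne_zero _ hϖF)
      (pow_ne_zero n hH₀0), H.ordV₂.zpow hϖF, H.o₂_ϖ, H.ordV₂.pow hH₀0, hH₀2]
    push_cast
    rw [ha, hdα, hdφ]
    linear_combination (q : ℤ) * (e1 - e2) - (e3 - e4)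
  · rw [H.ordV₃.div hfq hden, H.ordV₃.pow hf, H.ordV₃.mul _ _ (zpow_ne_zero _ hϖF)
      (pow_ne_zero n hH₀0), H.ordV₃.zpow hϖF, H.o₃_ϖ, H.ordV₃.pow hH₀0, hH₀3]
    push_cast
    rw [ha]
    ring
  · exact (hnew'.pow H.ϖ_ne (q + 1)).div H.ϖ_ne hden
      ((H.newN_unif n a).mul H.ϖ_ne (SqwNewN.npow hH₀0))

/-! ### Step (b) : reductions -/

/-- normalisation of a norm relation of a function that is a unit over both `W₁` and `W₂` : the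
constant becomes a one-unit of `A`, the function a unit at `W₁` and `W₂`. -/
theorem SqNormData.normalise (H : SqNormData ι₁ α φ Nα Nφ A W₁ W₂ V₁ V₂ V₃ vL w₁ w₂ o₁ o₂ o₃ ϖ q)
    {n : ℕ} (hn : 0 < n) {y : F₁} (h1 : w₁ y = 0) (h2 : w₂ y = 0) {c : L} {g : F₁}
    (hcN : SqwNC A ϖ c) (hg : g ≠ 0) (hy : y = ι₁ c * g ^ n) :
    ∃ (u : L) (g' : F₁), u - 1 ∈ A.nonunits ∧ g' ≠ 0 ∧ w₁ g' = 0 ∧ w₂ g' = 0 ∧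
      y = ι₁ u * g' ^ n := by
  have hc : c ≠ 0 := hcN.ne_zero H.ϖ_ne
  have hιc : ι₁ c ≠ 0 := (map_ne_zero ι₁).mpr hc
  have e1 : vL c + n * w₁ g = 0 := by
    rw [← h1, hy, H.ordW₁.mul _ _ hιc (pow_ne_zero n hg), H.w₁_const c hc, H.ordW₁.pow hg]
  have e2 : vL c + n * w₂ g = 0 := by
    rw [← h2, hy, H.ordW₂.mul _ _ hιc (pow_ne_zero n hg), H.w₂_const c hc, H.ordW₂.pow hg]
  have e3 : w₁ g = w₂ g := by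
    have h3 : (n : ℤ) * (w₁ g - w₂ g) = 0 := by linear_combination e1 - e2
    have hn' : (n : ℤ) ≠ 0 := by exact_mod_cast hn.ne'
    rcases mul_eq_zero.mp h3 with h4 | h4
    · exact absurd h4 hn'
    · linarith
  obtain ⟨m, u, hu, hcmu⟩ := hcN
  obtain ⟨hu0, huA, huiA⟩ := sqw_oneUnit hu
  have hvu : vL u = 0 := H.ordL.eq_zero hu0 huA huiA
  have hvc : vL c = m := by
    rw [hcmu, H.ordL.mul _ _ (zpow_ne_zero _ H.ϖ_ne) hu0, H.ordL.zpow H.ϖ_ne, H.vL_ϖ, hvu]; ring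
  have hιϖ : ι₁ ϖ ≠ 0 := (map_ne_zero ι₁).mpr H.ϖ_ne
  have hw₁ϖ : w₁ (ι₁ ϖ) = 1 := by rw [H.w₁_const ϖ H.ϖ_ne, H.vL_ϖ]
  have hw₂ϖ : w₂ (ι₁ ϖ) = 1 := by rw [H.w₂_const ϖ H.ϖ_ne, H.vL_ϖ]
  set k : ℤ := w₁ g with hk
  have hmk : m = -((n : ℤ) * k) := by linarith
  refine ⟨u, g * (ι₁ ϖ ^ k)⁻¹, hu, mul_ne_zero hg (inv_ne_zero (zpow_ne_zero _ hιϖ)), ?_, ?_, ?_⟩
  · rw [H.ordW₁.mul _ _ hg (inv_ne_zero (zpow_ne_zero _ hιϖ)), H.ordW₁.inv (zpow_ne_zero _ hιϖ),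
      H.ordW₁.zpow hιϖ, hw₁ϖ]
    ring
  · rw [H.ordW₂.mul _ _ hg (inv_ne_zero (zpow_ne_zero _ hιϖ)), H.ordW₂.inv (zpow_ne_zero _ hιϖ),
      H.ordW₂.zpow hιϖ, hw₂ϖ, ← e3]
    ring
  · rw [hy, hcmu, hmk, map_mul, map_zpow₀, mul_pow, inv_pow, ← zpow_natCast (ι₁ ϖ ^ k) n,
      ← zpow_mul, mul_comm k (n : ℤ), zpow_neg]
    have h5 : ι₁ ϖ ^ ((n : ℤ) * k) ≠ 0 := zpow_ne_zero _ hιϖ
    field_simp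

/-- `n`-th roots modulo `𝔪_V` from a Frobenius-type congruence `f ^ q ≡ y ^ n`, `gcd(q, n) = 1`. -/
theorem sqw_root_of_frob {K : Type*} [Field K] {V : ValuationSubring K} {f y : K} {q n : ℕ}
    (hqn : Nat.Coprime q n) (hf0 : f ≠ 0) (hf : f ∈ V) (hfi : f⁻¹ ∈ V) (hy0 : y ≠ 0)
    (hy : y ∈ V) (hyi : y⁻¹ ∈ V) (h : SqwCong V (f ^ q) (y ^ n)) :
    ∃ h₃ : K, h₃ ≠ 0 ∧ h₃ ∈ V ∧ h₃⁻¹ ∈ V ∧ SqwCong V f (h₃ ^ n) := by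
  -- Bezout
  have hb : (q : ℤ) * Nat.gcdA q n + (n : ℤ) * Nat.gcdB q n = 1 := by
    have := Nat.gcd_eq_gcd_ab q n
    rw [hqn] at this
    exact_mod_cast this.symm
  set a : ℤ := Nat.gcdA q n
  set b : ℤ := Nat.gcdB q n
  have hyn0 : y ^ n ≠ 0 := pow_ne_zero n hy0
  have hyni : (y ^ n)⁻¹ ∈ V := by rw [← inv_pow]; exact V.pow_mem hyi n
  have c1 : SqwCong V ((f ^ q) ^ a) ((y ^ n) ^ a) := h.zpow hyni hyn0 a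
  have hfb : f ^ b ∈ V := sqw_zpow_mem hf hfi b
  have c2 : SqwCong V ((f ^ q) ^ a * (f ^ b) ^ n) ((y ^ n) ^ a * (f ^ b) ^ n) :=
    c1.mul (SqwCong.refl (V.pow_mem hfb n))
  have e1 : (f ^ q) ^ a * (f ^ b) ^ n = f := by
    rw [← zpow_natCast f q, ← zpow_mul, ← zpow_natCast (f ^ b) n, ← zpow_mul, ← zpow_add₀ hf0,
      mul_comm b (n : ℤ), hb, zpow_one]
  have e2 : (y ^ n) ^ a * (f ^ b) ^ n = (y ^ a * f ^ b) ^ n := by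
    rw [mul_pow, ← zpow_natCast (y ^ a) n, ← zpow_mul, ← zpow_natCast y n, ← zpow_mul,
      mul_comm a (n : ℤ)]
  rw [e1, e2] at c2
  refine ⟨y ^ a * f ^ b, mul_ne_zero (zpow_ne_zero _ hy0) (zpow_ne_zero _ hf0),
    V.mul_mem _ _ (sqw_zpow_mem hy hyi a) hfb, ?_, c2⟩
  rw [mul_inv, ← zpow_neg, ← zpow_neg]
  exact V.mul_mem _ _ (sqw_zpow_mem hy hyi _) (sqw_zpow_mem hf hfi _)

/-- **(b) at `V₃`** (purely inseparable over `W₂` via `α`) : `f₁ ≡ h₃ⁿ`. -/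
theorem SqNormData.red₃ (H : SqNormData ι₁ α φ Nα Nφ A W₁ W₂ V₁ V₂ V₃ vL w₁ w₂ o₁ o₂ o₃ ϖ q)
    {n : ℕ} (hqn : Nat.Coprime q n) {f₁ : F} (hf₁ : f₁ ≠ 0) (hu : o₃ f₁ = 0) {u : L} {g : F₁}
    (hu1 : u - 1 ∈ A.nonunits) (hg0 : g ≠ 0) (hg : w₂ g = 0) (hN : Nα f₁ = ι₁ u * g ^ n) :
    ∃ h₃ : F, h₃ ≠ 0 ∧ h₃ ∈ V₃ ∧ h₃⁻¹ ∈ V₃ ∧ SqwCong V₃ f₁ (h₃ ^ n) := by
  obtain ⟨hfV, hfiV⟩ := H.ordV₃.unit hf₁ hu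
  obtain ⟨hgW, hgiW⟩ := H.ordW₂.unit hg0 hg
  have c1 : SqwCong V₃ (α (Nα f₁)) (f₁ ^ q) :=
    SqwCong.of_sub' (V₃.pow_mem hfV q) (H.nrα₃ f₁ hfV)
  have c2 : SqwCong V₃ (α (ι₁ u)) 1 := by
    have := (H.oneUnit₂ hu1).map α H.α_mem₃ H.α_max₃
    rwa [map_one] at this
  have hαg : α g ∈ V₃ := H.α_mem₃ _ hgW
  have c3 : SqwCong V₃ (α (Nα f₁)) (α g ^ n) := by
    rw [hN, map_mul, map_pow]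
    have := c2.mul (SqwCong.refl (V₃.pow_mem hαg n))
    rwa [one_mul] at this
  exact sqw_root_of_frob hqn hf₁ hfV hfiV ((map_ne_zero α).mpr hg0) hαg
    (by rw [← map_inv₀]; exact H.α_mem₃ _ hgiW) (c1.symm.trans c3)

/-- **(b) at `V₁`** (purely inseparable over `W₁` via `φ`) : `f₁ ≡ h₁ⁿ`. -/
theorem SqNormData.red₁ (H : SqNormData ι₁ α φ Nα Nφ A W₁ W₂ V₁ V₂ V₃ vL w₁ w₂ o₁ o₂ o₃ ϖ q)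
    {n : ℕ} (hqn : Nat.Coprime q n) {f₁ : F} (hf₁ : f₁ ≠ 0) (hu : o₁ f₁ = 0) {u : L} {g : F₁}
    (hu1 : u - 1 ∈ A.nonunits) (hg0 : g ≠ 0) (hg : w₁ g = 0) (hN : Nφ f₁ = ι₁ u * g ^ n) :
    ∃ h₁ : F, h₁ ≠ 0 ∧ h₁ ∈ V₁ ∧ h₁⁻¹ ∈ V₁ ∧ SqwCong V₁ f₁ (h₁ ^ n) := by
  obtain ⟨hfV, hfiV⟩ := H.ordV₁.unit hf₁ hu
  obtain ⟨hgW, hgiW⟩ := H.ordW₁.unit hg0 hg
  have c1 : SqwCong V₁ (φ (Nφ f₁)) (f₁ ^ q) :=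
    SqwCong.of_sub' (V₁.pow_mem hfV q) (H.nrφ₁ f₁ hfV)
  have c2 : SqwCong V₁ (φ (ι₁ u)) 1 := by
    have := (H.oneUnit₁ hu1).map φ H.φ_mem₁ H.φ_max₁
    rwa [map_one] at this
  have hφg : φ g ∈ V₁ := H.φ_mem₁ _ hgW
  have c3 : SqwCong V₁ (φ (Nφ f₁)) (φ g ^ n) := by
    rw [hN, map_mul, map_pow]
    have := c2.mul (SqwCong.refl (V₁.pow_mem hφg n))
    rwa [one_mul] at this
  exact sqw_root_of_frob hqn hf₁ hfV hfiV ((map_ne_zero φ).mpr hg0) hφg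
    (by rw [← map_inv₀]; exact H.φ_mem₁ _ hgiW) (c1.symm.trans c3)

/-- **(b) at `V₂`** : `f₁ ^ (q - 1) ≡ h₂ⁿ`, given the `n`-th root `h₁` at `V₁`. -/
theorem SqNormData.red₂ (H : SqNormData ι₁ α φ Nα Nφ A W₁ W₂ V₁ V₂ V₃ vL w₁ w₂ o₁ o₂ o₃ ϖ q)
    {n : ℕ} {f₁ : F} (hf₁ : f₁ ≠ 0) (hu₁ : o₁ f₁ = 0) (hu₂ : o₂ f₁ = 0) {u : L} {g : F₁}
    (hu1 : u - 1 ∈ A.nonunits) (hg0 : g ≠ 0) (hg : w₁ g = 0) (hN : Nα f₁ = ι₁ u * g ^ n)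
    {h₁ : F} (hh₁0 : h₁ ≠ 0) (hh₁ : h₁ ∈ V₁) (hh₁i : h₁⁻¹ ∈ V₁)
    (k1 : SqwCong V₁ f₁ (h₁ ^ n)) :
    ∃ h₂ : F, h₂ ≠ 0 ∧ h₂ ∈ V₂ ∧ h₂⁻¹ ∈ V₂ ∧ SqwCong V₂ (f₁ ^ (q - 1)) (h₂ ^ n) := by
  obtain ⟨hfV₁, hfiV₁⟩ := H.ordV₁.unit hf₁ hu₁
  obtain ⟨hfV₂, hfiV₂⟩ := H.ordV₂.unit hf₁ hu₂
  -- `η ∈ W₁ˣ` with `α η ≡ h₁`
  obtain ⟨η, hη, hhη⟩ := H.res₁α h₁ hh₁
  have c0 : SqwCong V₁ h₁ (α η) := SqwCong.of_sub hh₁ hhη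
  have hαηi : (α η)⁻¹ ∈ V₁ := c0.symm.inv_mem hh₁i hh₁0
  have hαη0 : α η ≠ 0 := c0.symm.ne_zero hh₁i hh₁0
  have hη0 : η ≠ 0 := fun h => hαη0 (by rw [h, map_zero])
  have hηi : η⁻¹ ∈ W₁ := sqw_reflect_unit α H.α_max₁ hη0 hαηi
  have hwη : w₁ η = 0 := H.ordW₁.eq_zero hη0 hη hηi
  have hηn0 : η ^ n ≠ 0 := pow_ne_zero n hη0
  have hηnW : η ^ n ∈ W₁ := W₁.pow_mem hη n
  have hηniW : (η ^ n)⁻¹ ∈ W₁ := by rw [← inv_pow]; exact W₁.pow_mem hηi n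
  have c1 : SqwCong V₁ f₁ (α (η ^ n)) := by
    rw [map_pow]; exact k1.trans (c0.pow n)
  have hαηn0 : α (η ^ n) ≠ 0 := (map_ne_zero α).mpr hηn0
  have hαηni : (α (η ^ n))⁻¹ ∈ V₁ := by rw [← map_inv₀]; exact H.α_mem₁ _ hηniW
  have k1' : f₁ * α (η ^ n)⁻¹ - 1 ∈ V₁.nonunits := by
    rw [map_inv₀]; exact (c1.mul_inv hαηni hαηn0).2.2
  -- residue of `f₁` at `V₂`
  obtain ⟨r₂, hr₂, hfr₂⟩ := H.res₂α f₁ hfV₂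
  have c2 : SqwCong V₂ f₁ (α r₂) := SqwCong.of_sub hfV₂ hfr₂
  have hαr₂i : (α r₂)⁻¹ ∈ V₂ := c2.symm.inv_mem hfiV₂ hf₁
  have hαr₂0 : α r₂ ≠ 0 := c2.symm.ne_zero hfiV₂ hf₁
  have hr₂0 : r₂ ≠ 0 := fun h => hαr₂0 (by rw [h, map_zero])
  have hr₂i : r₂⁻¹ ∈ W₁ := sqw_reflect_unit α H.α_max₂ hr₂0 hαr₂i
  have k2' : f₁ * α r₂⁻¹ - 1 ∈ V₂.nonunits := by
    rw [map_inv₀]; exact (c2.mul_inv hαr₂i hαr₂0).2.2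
  have h3 := H.nrα₁₂ f₁ hf₁ hfV₁ hfiV₁ hfV₂ hfiV₂ (η ^ n)⁻¹ r₂⁻¹ (inv_ne_zero hηn0) hηniW
    (by rwa [inv_inv]) (inv_ne_zero hr₂0) hr₂i (by rwa [inv_inv]) k1' k2'
  have c3 : SqwCong W₁ (Nα f₁ * (η ^ n)⁻¹ * r₂⁻¹ ^ (q - 1)) 1 := SqwCong.of_sub' W₁.one_mem h3
  have hr₂q : r₂ ^ (q - 1) ∈ W₁ := W₁.pow_mem hr₂ _
  have c5 : SqwCong W₁ (Nα f₁ * (η ^ n)⁻¹) (r₂ ^ (q - 1)) := by
    have h4 := c3.mul (SqwCong.refl hr₂q)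
    have h5 : Nα f₁ * (η ^ n)⁻¹ * r₂⁻¹ ^ (q - 1) * r₂ ^ (q - 1) = Nα f₁ * (η ^ n)⁻¹ := by
      rw [inv_pow]
      have : r₂ ^ (q - 1) ≠ 0 := pow_ne_zero _ hr₂0
      field_simp
    rwa [h5, one_mul] at h4
  have hgη0 : g / η ≠ 0 := div_ne_zero hg0 hη0
  have hwgη : w₁ (g / η) = 0 := by rw [H.ordW₁.div hg0 hη0, hg, hwη]; ring
  obtain ⟨hgηW, hgηiW⟩ := H.ordW₁.unit hgη0 hwgη
  have h6 : Nα f₁ * (η ^ n)⁻¹ = ι₁ u * (g / η) ^ n := by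
    rw [hN, div_pow]; field_simp
  rw [h6] at c5
  have c6 : SqwCong W₁ ((g / η) ^ n) (r₂ ^ (q - 1)) := by
    have h7 := (H.oneUnit₁ hu1).symm.mul (SqwCong.refl (W₁.pow_mem hgηW n))
    rw [one_mul] at h7
    exact h7.trans c5
  have c7 : SqwCong V₂ (α (g / η) ^ n) (α r₂ ^ (q - 1)) := by
    have := c6.map α H.α_mem₂ H.α_max₂
    rwa [map_pow, map_pow] at this
  exact ⟨α (g / η), (map_ne_zero α).mpr hgη0, H.α_mem₂ _ hgηW,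
    by rw [← map_inv₀]; exact H.α_mem₂ _ hgηiW, (c2.pow (q - 1)).trans c7.symm⟩

/-! ### `sq_new_normalise` -/

/-- **`sq_new_normalise`** (blueprint v2 §4.2).  `D` is the predicate "divisible by `ϖ` in `P_(ϖ)`"
(`S18DvdGauss hϖ t`); `hval`, `hcrt`, `hnewton` are helper3's `SqvFam.exists_val / crt / newton`. -/
theorem sq_new_normalise
    (H : SqNormData ι₁ α φ Nα Nφ A W₁ W₂ V₁ V₂ V₃ vL w₁ w₂ o₁ o₂ o₃ ϖ q)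
    {n : ℕ} (hn : 0 < n) (hqn : Nat.Coprime q n)
    (hval : ∀ b₁ b₂ b₃ : ℤ, ∃ Hh : F, Hh ≠ 0 ∧ o₁ Hh = b₁ ∧ o₂ Hh = b₂ ∧ o₃ Hh = b₃)
    (hcrt : ∀ x₁ ∈ V₁, ∀ x₂ ∈ V₂, ∀ x₃ ∈ V₃, ∃ U : F,
      U - x₁ ∈ V₁.nonunits ∧ U - x₂ ∈ V₂.nonunits ∧ U - x₃ ∈ V₃.nonunits)
    (D : F → Prop)
    (hnewton : ∀ g : F, g - 1 ∈ V₁.nonunits → g - 1 ∈ V₂.nonunits → g - 1 ∈ V₃.nonunits →
      ∃ ψ : F, ψ ≠ 0 ∧ ψ - 1 ∈ V₁.nonunits ∧ ψ - 1 ∈ V₂.nonunits ∧ ψ - 1 ∈ V₃.nonunits ∧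
        D (g / ψ ^ n - 1))
    {f : F} (hf : f ≠ 0) (hnew : SqwNewN ι₁ A ϖ Nα Nφ n f) :
    ∃ (a : ℤ) (Hh f₄ : F), Hh ≠ 0 ∧ f₄ ≠ 0 ∧
      f ^ ((q + 1) * (q - 1)) = α (ι₁ ϖ) ^ a * Hh ^ n * f₄ ∧ D (f₄ - 1) ∧
      SqwCong V₁ f₄ 1 ∧ SqwCong V₂ f₄ 1 ∧ SqwCong V₃ f₄ 1 ∧
      (∃ (u : L) (g : F₁), u - 1 ∈ A.nonunits ∧ g ≠ 0 ∧ w₁ g = 0 ∧ w₂ g = 0 ∧
        Nα f₄ = ι₁ u * g ^ n) ∧
      (∃ (u : L) (g : F₁), u - 1 ∈ A.nonunits ∧ g ≠ 0 ∧ w₁ g = 0 ∧ w₂ g = 0 ∧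
        Nφ f₄ = ι₁ u * g ^ n) := by
  obtain ⟨a, H₀, f₁, hH₀, hf₁, hfa, u1, u2, u3, hnew₁⟩ := H.step_a hval hf hnew
  have hnew₁' := hnew₁
  obtain ⟨⟨cα, gα, hcα, hgα, hNα⟩, ⟨cφ, gφ, hcφ, hgφ, hNφ⟩⟩ := hnew₁
  have wα₁ : w₁ (Nα f₁) = 0 := by rw [H.nrvα₁ f₁ hf₁, u1, u2]; ring
  have wα₂ : w₂ (Nα f₁) = 0 := by rw [H.nrvα₂ f₁ hf₁, u3]; ring
  have wφ₁ : w₁ (Nφ f₁) = 0 := by rw [H.nrvφ₁ f₁ hf₁, u1]; ring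
  have wφ₂ : w₂ (Nφ f₁) = 0 := by rw [H.nrvφ₂ f₁ hf₁, u2, u3]; ring
  obtain ⟨uα, gα', huα, hgα', hgα'₁, hgα'₂, hNα'⟩ := H.normalise hn wα₁ wα₂ hcα hgα hNα
  obtain ⟨uφ, gφ', huφ, hgφ', hgφ'₁, hgφ'₂, hNφ'⟩ := H.normalise hn wφ₁ wφ₂ hcφ hgφ hNφ
  -- the three local `n`-th roots
  obtain ⟨h₁, hh₁0, hh₁, hh₁i, k1⟩ := H.red₁ hqn hf₁ u1 huφ hgφ' hgφ'₁ hNφ'
  obtain ⟨h₃, hh₃0, hh₃, hh₃i, k3⟩ := H.red₃ hqn hf₁ u3 huα hgα' hgα'₂ hNα'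
  obtain ⟨h₂, hh₂0, hh₂, hh₂i, k2⟩ :=
    H.red₂ hf₁ u1 u2 huα hgα' hgα'₁ hNα' hh₁0 hh₁ hh₁i k1
  -- glue them
  have hh₁q : h₁ ^ (q - 1) ∈ V₁ := V₁.pow_mem hh₁ _
  have hh₃q : h₃ ^ (q - 1) ∈ V₃ := V₃.pow_mem hh₃ _
  obtain ⟨U, hU₁, hU₂, hU₃⟩ := hcrt _ hh₁q _ hh₂ _ hh₃q
  have cU₁ : SqwCong V₁ U (h₁ ^ (q - 1)) := SqwCong.of_sub' hh₁q hU₁
  have cU₂ : SqwCong V₂ U h₂ := SqwCong.of_sub' hh₂ hU₂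
  have cU₃ : SqwCong V₃ U (h₃ ^ (q - 1)) := SqwCong.of_sub' hh₃q hU₃
  have hh₁qi : (h₁ ^ (q - 1))⁻¹ ∈ V₁ := by rw [← inv_pow]; exact V₁.pow_mem hh₁i _
  have hh₃qi : (h₃ ^ (q - 1))⁻¹ ∈ V₃ := by rw [← inv_pow]; exact V₃.pow_mem hh₃i _
  have hU0 : U ≠ 0 := cU₁.ne_zero hh₁qi (pow_ne_zero _ hh₁0)
  have hUi₁ : U⁻¹ ∈ V₁ := cU₁.inv_mem hh₁qi (pow_ne_zero _ hh₁0)
  have hUi₂ : U⁻¹ ∈ V₂ := cU₂.inv_mem hh₂i hh₂0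
  have hUi₃ : U⁻¹ ∈ V₃ := cU₃.inv_mem hh₃qi (pow_ne_zero _ hh₃0)
  have hUn0 : U ^ n ≠ 0 := pow_ne_zero n hU0
  set f₃ : F := f₁ ^ (q - 1) / U ^ n with hf₃
  have key : ∀ {V : ValuationSubring F} {h : F}, SqwCong V U h → U⁻¹ ∈ V →
      SqwCong V (f₁ ^ (q - 1)) (h ^ n) → SqwCong V f₃ 1 := by
    intro V h c hUi hk
    have h1 : SqwCong V (f₁ ^ (q - 1)) (U ^ n) := hk.trans (c.pow n).symm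
    have h2 : (U ^ n)⁻¹ ∈ V := by rw [← inv_pow]; exact V.pow_mem hUi n
    have := h1.mul_inv h2 hUn0
    rwa [← div_eq_mul_inv] at this
  have e₁ : SqwCong V₁ f₃ 1 := by
    refine key cU₁ hUi₁ ?_
    have := k1.pow (q - 1)
    rwa [← pow_mul, mul_comm n (q - 1), pow_mul] at this
  have e₂ : SqwCong V₂ f₃ 1 := key cU₂ hUi₂ k2
  have e₃ : SqwCong V₃ f₃ 1 := by
    refine key cU₃ hUi₃ ?_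
    have := k3.pow (q - 1)
    rwa [← pow_mul, mul_comm n (q - 1), pow_mul] at this
  -- NEWTON
  obtain ⟨ψ, hψ0, hψ₁, hψ₂, hψ₃, hD⟩ := hnewton f₃ e₁.2.2 e₂.2.2 e₃.2.2
  have hψn0 : ψ ^ n ≠ 0 := pow_ne_zero n hψ0
  set f₄ : F := f₃ / ψ ^ n with hf₄
  have key' : ∀ {V : ValuationSubring F}, SqwCong V f₃ 1 → ψ - 1 ∈ V.nonunits →
      SqwCong V f₄ 1 := by
    intro V e hψ
    have c : SqwCong V ψ 1 := SqwCong.of_sub' V.one_mem hψ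
    have cn : SqwCong V (ψ ^ n) 1 := by have := c.pow n; rwa [one_pow] at this
    have h1 : SqwCong V f₃ (ψ ^ n) := e.trans cn.symm
    have := h1.mul_inv cn.one_inv_mem hψn0
    rwa [← div_eq_mul_inv] at this
  have g₁ : SqwCong V₁ f₄ 1 := key' e₁ hψ₁
  have g₂ : SqwCong V₂ f₄ 1 := key' e₂ hψ₂
  have g₃ : SqwCong V₃ f₄ 1 := key' e₃ hψ₃
  have hf₄0 : f₄ ≠ 0 := g₁.one_ne_zero
  have hf₃0 : f₃ ≠ 0 := e₁.one_ne_zero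
  -- newness of `f₄`
  have hnew₄ : SqwNewN ι₁ A ϖ Nα Nφ n f₄ :=
    ((hnew₁'.pow H.ϖ_ne (q - 1)).div H.ϖ_ne hUn0 (SqwNewN.npow hU0)).div H.ϖ_ne hψn0
      (SqwNewN.npow hψ0)
  obtain ⟨⟨c₄, k₄, hc₄, hk₄, hN₄⟩, ⟨c₄', k₄', hc₄', hk₄', hN₄'⟩⟩ := hnew₄
  have o1 : o₁ f₄ = 0 := H.ordV₁.eq_zero hf₄0 g₁.1 g₁.one_inv_mem
  have o2 : o₂ f₄ = 0 := H.ordV₂.eq_zero hf₄0 g₂.1 g₂.one_inv_mem
  have o3 : o₃ f₄ = 0 := H.ordV₃.eq_zero hf₄0 g₃.1 g₃.one_inv_mem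
  have vα₁ : w₁ (Nα f₄) = 0 := by rw [H.nrvα₁ f₄ hf₄0, o1, o2]; ring
  have vα₂ : w₂ (Nα f₄) = 0 := by rw [H.nrvα₂ f₄ hf₄0, o3]; ring
  have vφ₁ : w₁ (Nφ f₄) = 0 := by rw [H.nrvφ₁ f₄ hf₄0, o1]; ring
  have vφ₂ : w₂ (Nφ f₄) = 0 := by rw [H.nrvφ₂ f₄ hf₄0, o2, o3]; ring
  refine ⟨a * ((q - 1 : ℕ) : ℤ), H₀ ^ (q - 1) * U * ψ, f₄,
    mul_ne_zero (mul_ne_zero (pow_ne_zero _ hH₀) hU0) hψ0, hf₄0, ?_, hD, g₁, g₂, g₃,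
    H.normalise hn vα₁ vα₂ hc₄ hk₄ hN₄, H.normalise hn vφ₁ vφ₂ hc₄' hk₄' hN₄'⟩
  have hf₃U : f₃ * U ^ n = f₁ ^ (q - 1) := by rw [hf₃]; field_simp
  have hf₄ψ : f₄ * ψ ^ n = f₃ := by rw [hf₄]; field_simp
  rw [pow_mul, hfa, mul_pow, mul_pow, mul_pow, mul_pow, ← hf₃U, ← hf₄ψ, zpow_mul, zpow_natCast]
  ring

end Fermat.Agent.SQ
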